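import Mathlib

set_option autoImplicit false

/-!
# The residue field of `PadicAlgCl p` and roots of unity of order prime to `p`
-/

open Polynomial

namespace Fermat.Agent.Flat.Loc

variable {p : ℕ} [hp : Fact p.Prime]

local notation "Ω" => PadicAlgCl p
local notation "Γ" => (PadicAlgCl p ≃ₐ[ℚ_[p]] PadicAlgCl p)

theorem norm_aut (g : Γ) (x : Ω) : ‖g x‖ = ‖x‖ := (spectralNorm_eq_of_equiv g x).symm

/-- The inertia group. -/
def inert (p : ℕ) [hp : Fact p.Prime] : Subgroup (PadicAlgCl p ≃ₐ[ℚ_[p]] PadicAlgCl p) where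
  carrier := {s | ∀ x : PadicAlgCl p, ‖x‖ ≤ 1 → ‖s x - x‖ < 1}
  mul_mem' {a b} ha hb := fun x hx => by
    have h1 := ha (b x) (by rw [norm_aut]; exact hx)
    have h2 := hb x hx
    have h3 : (a * b) x - x = (a (b x) - b x) + (b x - x) := by
      rw [AlgEquiv.mul_apply]; ring
    rw [h3]
    exact lt_of_le_of_lt (PadicAlgCl.isNonarchimedean p _ _) (max_lt h1 h2)
  one_mem' := fun x _ => by simp
  inv_mem' {a} ha := fun x hx => by
    have h1 := ha (a⁻¹ x) (by rw [norm_aut]; exact hx)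
    have h2 : a (a⁻¹ x) = x := smul_inv_smul a x
    rw [h2, norm_sub_rev] at h1
    exact h1

theorem mem_inert {s : Γ} : s ∈ inert p ↔ ∀ x : Ω, ‖x‖ ≤ 1 → ‖s x - x‖ < 1 := Iff.rfl

/-- The ring of integers. -/
noncomputable abbrev OO (p : ℕ) [hp : Fact p.Prime] : ValuationSubring (PadicAlgCl p) :=
  (Valued.v : Valuation (PadicAlgCl p) NNReal).valuationSubring

theorem mem_OO {x : Ω} : x ∈ OO p ↔ ‖x‖ ≤ 1 := Iff.rfl

/-- The residue field. -/
noncomputable abbrev kap (p : ℕ) [hp : Fact p.Prime] : Type := IsLocalRing.ResidueField (OO p)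

theorem isUnit_iff (x : OO p) : IsUnit x ↔ ‖(x : Ω)‖ = 1 := by
  rw [isUnit_iff_exists_inv]
  constructor
  · rintro ⟨y, hy⟩
    have h1 : (x : Ω) * y = 1 := congrArg Subtype.val hy
    have h2 : ‖(x : Ω)‖ * ‖(y : Ω)‖ = 1 := by rw [← norm_mul, h1, norm_one]
    have hx : ‖(x : Ω)‖ ≤ 1 := x.2
    have hy : ‖(y : Ω)‖ ≤ 1 := y.2
    have hx0 : 0 ≤ ‖(x : Ω)‖ := norm_nonneg _
    nlinarith
  · intro h
    have h0 : (x : Ω) ≠ 0 := by
      intro h0
      rw [h0, norm_zero] at h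
      exact zero_ne_one h
    refine ⟨⟨(x : Ω)⁻¹, ?_⟩, Subtype.ext (mul_inv_cancel₀ h0)⟩
    rw [mem_OO, norm_inv, h, inv_one]

theorem residue_eq_zero_iff (x : OO p) : IsLocalRing.residue (OO p) x = 0 ↔ ‖(x : Ω)‖ < 1 := by
  rw [IsLocalRing.residue_eq_zero_iff, IsLocalRing.mem_maximalIdeal, mem_nonunits_iff, isUnit_iff]
  have hx : ‖(x : Ω)‖ ≤ 1 := x.2
  exact ⟨fun h => lt_of_le_of_ne hx h, fun h => h.ne⟩

theorem residue_eq_iff (x y : OO p) :
    IsLocalRing.residue (OO p) x = IsLocalRing.residue (OO p) y ↔ ‖(x : Ω) - y‖ < 1 := by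
  rw [← sub_eq_zero, ← map_sub, residue_eq_zero_iff]
  rfl

theorem norm_p_lt_one : ‖(p : Ω)‖ < 1 := by
  have h : ((p : ℚ_[p]) : Ω) = (p : Ω) := map_natCast (algebraMap ℚ_[p] Ω) p
  rw [← h, PadicAlgCl.norm_extends]
  exact Padic.norm_p_lt_one

theorem norm_natCast_le_one (n : ℕ) : ‖(n : Ω)‖ ≤ 1 := by
  have h : ((n : ℚ_[p]) : Ω) = (n : Ω) := map_natCast (algebraMap ℚ_[p] Ω) n
  rw [← h, PadicAlgCl.norm_extends]
  exact Padic.norm_int_le_one (p := p) n

theorem norm_natCast_eq_one {n : ℕ} (hn : ¬ p ∣ n) : ‖(n : Ω)‖ = 1 := by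
  have h : ((n : ℚ_[p]) : Ω) = (n : Ω) := map_natCast (algebraMap ℚ_[p] Ω) n
  rw [← h, PadicAlgCl.norm_extends]
  refine le_antisymm (Padic.norm_int_le_one (p := p) n) (not_lt.mp fun h2 => hn ?_)
  have h3 := (Padic.norm_intCast_lt_one_iff (p := p) (k := (n : ℤ))).mp (by simpa using h2)
  exact_mod_cast h3

instance charP_kap : CharP (kap p) p := by
  have h : ((p : ℕ) : kap p) = 0 := by
    have h1 : IsLocalRing.residue (OO p) (p : OO p) = (p : kap p) := map_natCast _ _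
    rw [← h1, residue_eq_zero_iff]
    exact norm_p_lt_one
  exact (CharP.charP_iff_prime_eq_zero hp.out).mpr h

/-- elements of norm at most one are integral over `ℤ_[p]`, in a form convenient for reduction -/
theorem exists_poly {x : Ω} (hx : ‖x‖ ≤ 1) : ∃ P : ℤ_[p][X], P.Monic ∧
    (P.map ((algebraMap ℚ_[p] Ω).comp PadicInt.Coe.ringHom)).eval x = 0 := by
  have hint : IsIntegral ℚ_[p] x := Algebra.IsIntegral.isIntegral x
  have hmon := minpoly.monic hint
  have h1 : spectralValue (minpoly ℚ_[p] x) ≤ 1 := hx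
  rw [spectralValue_le_one_iff hmon] at h1
  have hlift : minpoly ℚ_[p] x ∈ lifts (PadicInt.Coe.ringHom : ℤ_[p] →+* ℚ_[p]) := by
    rw [lifts_iff_coeff_lifts]
    intro n
    exact ⟨⟨_, h1 n⟩, rfl⟩
  obtain ⟨P, hP, -, hPm⟩ := lifts_and_natDegree_eq_and_monic hlift hmon
  refine ⟨P, hPm, ?_⟩
  rw [← Polynomial.map_map, hP, eval_map_algebraMap]
  exact minpoly.aeval _ _

/-- the ring homomorphism from the `p`-adic integers -/
noncomputable def ofPadicInt (p : ℕ) [hp : Fact p.Prime] : ℤ_[p] →+* OO p where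
  toFun x := ⟨algebraMap ℚ_[p] (PadicAlgCl p) x, by
    rw [mem_OO]
    have := PadicAlgCl.norm_extends p (x : ℚ_[p])
    rw [this]
    exact x.2⟩
  map_zero' := Subtype.ext (by simp)
  map_one' := Subtype.ext (by simp)
  map_add' x y := Subtype.ext (by simp)
  map_mul' x y := Subtype.ext (by simp)

noncomputable instance : Algebra (ZMod p) (kap p) := ZMod.algebra _ p

theorem residue_ofPadicInt (x : ℤ_[p]) :
    IsLocalRing.residue (OO p) (ofPadicInt p x) = algebraMap (ZMod p) (kap p) (PadicInt.toZMod x) := by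
  have h1 : x - ((PadicInt.zmodRepr x : ℕ) : ℤ_[p]) ∈ IsLocalRing.maximalIdeal ℤ_[p] :=
    (PadicInt.zmodRepr_spec x).2
  have h2 : IsLocalRing.residue (OO p) (ofPadicInt p x) =
      IsLocalRing.residue (OO p) (ofPadicInt p ((PadicInt.zmodRepr x : ℕ) : ℤ_[p])) := by
    rw [residue_eq_iff]
    have h3 : ‖x - ((PadicInt.zmodRepr x : ℕ) : ℤ_[p])‖ < 1 := by
      rw [PadicInt.maximalIdeal_eq_span_p] at h1
      exact (PadicInt.norm_lt_one_iff_dvd _).mpr (Ideal.mem_span_singleton.mp h1)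
    have h4 : ((ofPadicInt p x : OO p) : Ω) - (ofPadicInt p ((PadicInt.zmodRepr x : ℕ) : ℤ_[p]) : OO p) =
        algebraMap ℚ_[p] Ω ((x - ((PadicInt.zmodRepr x : ℕ) : ℤ_[p]) : ℤ_[p]) : ℚ_[p]) := by
      rw [PadicInt.coe_sub, map_sub]
      rfl
    rw [h4]
    have := PadicAlgCl.norm_extends p ((x - ((PadicInt.zmodRepr x : ℕ) : ℤ_[p]) : ℤ_[p]) : ℚ_[p])
    rw [this]
    exact h3
  have h5 : (PadicInt.toZMod x : ZMod p) = ((PadicInt.zmodRepr x : ℕ) : ZMod p) := by
    have h6 : x - ((PadicInt.zmodRepr x : ℕ) : ℤ_[p]) ∈ RingHom.ker (PadicInt.toZMod (p := p)) := by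
      rw [PadicInt.ker_toZMod]
      exact h1
    rw [RingHom.mem_ker, map_sub, map_natCast, sub_eq_zero] at h6
    exact h6
  rw [h2, h5, map_natCast, map_natCast, map_natCast]

theorem isIntegral_kap (x : kap p) : IsIntegral (ZMod p) x := by
  obtain ⟨y, rfl⟩ := IsLocalRing.residue_surjective x
  obtain ⟨P, hP, hP0⟩ := exists_poly (show ‖(y : Ω)‖ ≤ 1 from y.2)
  refine ⟨P.map PadicInt.toZMod, hP.map _, ?_⟩
  have h1 : (P.map (ofPadicInt p)).eval y = 0 := by
    apply Subtype.ext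
    have h2 : ((P.map (ofPadicInt p)).eval y : OO p) = (P.eval₂ (ofPadicInt p) y) := eval_map _ _
    rw [h2]
    have h3 := Polynomial.hom_eval₂ P (ofPadicInt p) (OO p).subtype y
    have h4 : (OO p).subtype (P.eval₂ (ofPadicInt p) y) = 0 := by
      rw [h3, ← eval_map]
      exact hP0
    exact h4
  have h5 := congrArg (IsLocalRing.residue (OO p)) h1
  rw [eval_map, Polynomial.hom_eval₂, map_zero] at h5
  rw [eval₂_map]
  have h6 : (IsLocalRing.residue (OO p)).comp (ofPadicInt p) =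
      (algebraMap (ZMod p) (kap p)).comp PadicInt.toZMod := by
    ext x
    exact residue_ofPadicInt x
  rw [← h6]
  exact h5

/-- every element of the residue field lies in a finite field -/
theorem exists_pow_eq (x : kap p) : ∃ k : ℕ, 0 < k ∧ x ^ p ^ k = x := by
  have hint := isIntegral_kap x
  let L := IntermediateField.adjoin (ZMod p) {x}
  have hfin : FiniteDimensional (ZMod p) L := IntermediateField.adjoin.finiteDimensional hint
  have hL : Finite L := Module.finite_of_finite (ZMod p)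
  have : Fintype L := Fintype.ofFinite L
  refine ⟨Module.finrank (ZMod p) L, Module.finrank_pos, ?_⟩
  have h1 := FiniteField.pow_card (⟨x, IntermediateField.mem_adjoin_simple_self _ x⟩ : L)
  have h2 : Fintype.card L = p ^ Module.finrank (ZMod p) L := by
    rw [Module.card_eq_pow_finrank (K := ZMod p), ZMod.card]
  rw [h2] at h1
  exact congrArg Subtype.val h1

/-- roots of unity of order prime to `p` are determined by their reduction -/
theorem eq_one_of_norm_lt {ζ : Ω} {m : ℕ} (hm : ¬ p ∣ m) (hζ : ζ ^ m = 1) (h : ‖ζ - 1‖ < 1) :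
    ζ = 1 := by
  by_contra hne
  have hn1 : ‖ζ‖ = 1 := by
    have hm0 : m ≠ 0 := by
      rintro rfl
      exact hm (dvd_zero p)
    have h1 : ‖ζ‖ ^ m = 1 := by rw [← norm_pow, hζ, norm_one]
    exact (pow_eq_one_iff_of_nonneg (norm_nonneg _) hm0).mp h1
  have hpow : ∀ i : ℕ, ‖ζ ^ i - 1‖ < 1 := by
    intro i
    induction i with
    | zero => simp
    | succ i ih =>
      have h1 : ζ ^ (i + 1) - 1 = ζ ^ i * (ζ - 1) + (ζ ^ i - 1) := by ring
      rw [h1]
      refine lt_of_le_of_lt (PadicAlgCl.isNonarchimedean p _ _) (max_lt ?_ ih)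
      rw [norm_mul, norm_pow, hn1, one_pow, one_mul]
      exact h
  have hsum : ∑ i ∈ Finset.range m, ζ ^ i = 0 := by
    have h1 := geom_sum_mul ζ m
    rw [hζ, sub_self] at h1
    exact (mul_eq_zero.mp h1).resolve_right (sub_ne_zero.mpr hne)
  have h2 : (m : Ω) = - ∑ i ∈ Finset.range m, (ζ ^ i - 1) := by
    rw [Finset.sum_sub_distrib, hsum]
    simp
  have h3 : ‖∑ i ∈ Finset.range m, (ζ ^ i - 1)‖ < 1 := by
    have key : ∀ k : ℕ, ‖∑ i ∈ Finset.range k, (ζ ^ i - 1)‖ < 1 := by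
      intro k
      induction k with
      | zero => simp
      | succ k ih =>
        rw [Finset.sum_range_succ]
        exact lt_of_le_of_lt (PadicAlgCl.isNonarchimedean p _ _) (max_lt ih (hpow k))
    exact key m
  have h4 := norm_natCast_eq_one (p := p) hm
  rw [h2, norm_neg] at h4
  exact h3.ne h4

theorem eq_of_norm_sub_lt {ζ ξ : Ω} {m : ℕ} (hm : ¬ p ∣ m) (hζ : ζ ^ m = 1) (hξ : ξ ^ m = 1)
    (h : ‖ζ - ξ‖ < 1) : ζ = ξ := by
  have hm0 : m ≠ 0 := by
    rintro rfl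
    exact hm (dvd_zero p)
  have hξ0 : ξ ≠ 0 := by
    rintro rfl
    rw [zero_pow hm0] at hξ
    exact zero_ne_one hξ
  have hξ1 : ‖ξ‖ = 1 := by
    have h1 : ‖ξ‖ ^ m = 1 := by rw [← norm_pow, hξ, norm_one]
    exact (pow_eq_one_iff_of_nonneg (norm_nonneg _) hm0).mp h1
  have h2 : ζ / ξ = 1 := by
    apply eq_one_of_norm_lt hm
    · rw [div_pow, hζ, hξ, div_one]
    · have h3 : ζ / ξ - 1 = (ζ - ξ) / ξ := by field_simp
      rw [h3, norm_div, hξ1, div_one]
      exact h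
  exact (div_eq_one_iff_eq hξ0).mp h2

theorem norm_eq_one_of_pow {ζ : Ω} {m : ℕ} (hm0 : m ≠ 0) (hζ : ζ ^ m = 1) : ‖ζ‖ = 1 := by
  have h1 : ‖ζ‖ ^ m = 1 := by rw [← norm_pow, hζ, norm_one]
  exact (pow_eq_one_iff_of_nonneg (norm_nonneg _) hm0).mp h1

/-- (K2), first form: Teichmüller representatives. -/
theorem exists_teich {x : Ω} (hx : ‖x‖ ≤ 1) : ∃ k : ℕ, 0 < k ∧ ∃ s : Ω, s ^ p ^ k = s ∧
    ‖x - s‖ < 1 := by
  obtain ⟨k, hk, h⟩ := exists_pow_eq (IsLocalRing.residue (OO p) ⟨x, hx⟩)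
  refine ⟨k, hk, ?_⟩
  rw [← map_pow, residue_eq_iff] at h
  have h1 : ‖x ^ p ^ k - x‖ < 1 := h
  let P : Polynomial Ω := X ^ p ^ k - X
  have hdeg : (X : Polynomial Ω).natDegree < (X ^ p ^ k : Polynomial Ω).natDegree := by
    rw [natDegree_X, natDegree_X_pow]
    exact Nat.one_lt_pow hk.ne' hp.out.one_lt
  have hmon : P.Monic := by
    apply monic_X_pow_sub
    rw [degree_X]
    exact_mod_cast Nat.one_lt_pow hk.ne' hp.out.one_lt
  have hsplit := IsAlgClosed.splits P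
  have hP : P = (P.roots.map fun a => X - C a).prod := by
    conv_lhs => rw [hsplit.eq_prod_roots_of_monic hmon]
  have heval : x ^ p ^ k - x = (P.roots.map fun a => x - a).prod := by
    have h2 : P.eval x = x ^ p ^ k - x := by simp [P]
    rw [← h2]
    conv_lhs => rw [hP]
    rw [eval_multiset_prod, Multiset.map_map]
    congr 1
    apply Multiset.map_congr rfl
    intro a _
    simp
  by_contra hcon
  push Not at hcon
  have hroot : ∀ a ∈ P.roots, 1 ≤ ‖x - a‖ := by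
    intro a ha
    apply hcon
    have h3 := (mem_roots'.mp ha).2
    have h4 : a ^ p ^ k - a = 0 := by simpa [P, IsRoot] using h3
    exact sub_eq_zero.mp h4
  have h5 : ∀ S : Multiset Ω, (∀ a ∈ S, 1 ≤ ‖x - a‖) → 1 ≤ ‖(S.map fun a => x - a).prod‖ := by
    intro S
    induction S using Multiset.induction_on with
    | empty => intro _; simp
    | cons a S ih =>
      intro hS
      rw [Multiset.map_cons, Multiset.prod_cons, norm_mul]
      have h6 := ih fun b hb => hS b (Multiset.mem_cons_of_mem hb)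
      have h7 := hS a (Multiset.mem_cons_self a S)
      nlinarith
  have h8 := h5 _ hroot
  rw [← heval] at h8
  exact absurd h1 (not_lt.mpr h8)

theorem not_dvd_pow_sub_one {k : ℕ} (hk : 0 < k) : ¬ p ∣ p ^ k - 1 := by
  intro h
  have h1 : p ∣ p ^ k := dvd_pow_self p hk.ne'
  have h2 : 1 ≤ p ^ k := Nat.one_le_pow _ _ hp.out.pos
  have h3 : p ∣ 1 := by
    have h4 := (Nat.dvd_sub h1 h)
    rwa [Nat.sub_sub_self h2] at h4
  exact hp.out.one_lt.ne' (Nat.dvd_one.mp h3)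

theorem pow_sub_one_eq_one {k : ℕ} {s : Ω} (hs : s ^ p ^ k = s) (h0 : s ≠ 0) :
    s ^ (p ^ k - 1) = 1 := by
  have h2 : 1 ≤ p ^ k := Nat.one_le_pow _ _ hp.out.pos
  have h3 : s ^ (p ^ k - 1) * s = 1 * s := by
    rw [← pow_succ, Nat.sub_add_cancel h2, hs, one_mul]
  exact mul_right_cancel₀ h0 h3

/-- inertia fixes the Teichmüller representatives -/
theorem inert_fix {k : ℕ} (hk : 0 < k) {s : Ω} (hs : s ^ p ^ k = s) {g : Γ} (hg : g ∈ inert p) :
    g s = s := by
  by_cases h0 : s = 0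
  · rw [h0, map_zero]
  have h1 := pow_sub_one_eq_one hs h0
  have h2 : p ^ k - 1 ≠ 0 := by
    intro h
    exact not_dvd_pow_sub_one hk (h ▸ dvd_zero p)
  apply eq_of_norm_sub_lt (not_dvd_pow_sub_one hk) _ h1
  · exact hg s (norm_eq_one_of_pow h2 h1).le
  · rw [← map_pow, h1, map_one]

/-- (K2) -/
theorem exists_fixed_approx {x : Ω} (hx : ‖x‖ ≤ 1) : ∃ s : Ω, (∀ g ∈ inert p, g s = s) ∧
    ‖x - s‖ < 1 ∧ (s = 0 ∨ ∃ k : ℕ, 0 < k ∧ s ^ (p ^ k - 1) = 1) := by
  obtain ⟨k, hk, s, hs, hxs⟩ := exists_teich hx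
  refine ⟨s, fun g hg => inert_fix hk hs hg, hxs, ?_⟩
  by_cases h0 : s = 0
  · exact Or.inl h0
  · exact Or.inr ⟨k, hk, pow_sub_one_eq_one hs h0⟩

end Fermat.Agent.Flat.Loc
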