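import Mathlib
import Fermat.Agent.Flat.Residue

set_option autoImplicit false

/-!
# Existence of Frobenius elements in `Gal(PadicAlgCl p / ℚ_[p])`
-/

open Polynomial

namespace Fermat.Agent.Flat.Loc

variable {p : ℕ} [hp : Fact p.Prime]

local notation "Ω" => PadicAlgCl p
local notation "Γ" => (PadicAlgCl p ≃ₐ[ℚ_[p]] PadicAlgCl p)

/-- The Galois group acts on the ring of integers. -/
@[reducible] noncomputable def actOO (p : ℕ) [hp : Fact p.Prime] :
    MulSemiringAction (PadicAlgCl p ≃ₐ[ℚ_[p]] PadicAlgCl p) (OO p) where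
  smul g x := ⟨g x, by rw [mem_OO, norm_aut]; exact x.2⟩
  one_smul x := rfl
  mul_smul g h x := rfl
  smul_zero g := Subtype.ext (map_zero g)
  smul_add g x y := Subtype.ext (map_add g _ _)
  smul_one g := Subtype.ext (map_one g)
  smul_mul g x y := Subtype.ext (map_mul g _ _)

attribute [local instance] actOO

theorem coe_smul_OO (g : Γ) (x : OO p) : ((g • x : OO p) : Ω) = g x := rfl

theorem perfectRing_kap : PerfectRing (kap p) p := by
  apply PerfectRing.ofSurjective
  intro x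
  obtain ⟨y, rfl⟩ := IsLocalRing.residue_surjective x
  obtain ⟨z, hz⟩ := IsAlgClosed.exists_pow_nat_eq (y : Ω) hp.out.pos
  have hz1 : ‖z‖ ≤ 1 := by
    have h1 : ‖z‖ ^ p ≤ 1 := by
      rw [← norm_pow, hz]
      exact y.2
    exact (pow_le_one_iff_of_nonneg (norm_nonneg _) hp.out.ne_zero).mp h1
  refine ⟨IsLocalRing.residue (OO p) ⟨z, hz1⟩, ?_⟩
  rw [frobenius_def, ← map_pow]
  congr 1
  exact Subtype.ext hz

instance isGalois_om : IsGalois ℚ_[p] Ω := inferInstance

lemma continuousSMul_OO :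
    let _ : TopologicalSpace (OO p) := ⊥
    ContinuousSMul Γ (OO p) := by
  let _ : TopologicalSpace (OO p) := ⊥
  have _ : DiscreteTopology (OO p) := ⟨rfl⟩
  rw [continuousSMul_iff_stabilizer_isOpen]
  intro b
  have h := stabilizer_isOpen_of_isIntegral (K := ℚ_[p]) (L := PadicAlgCl p) (b : PadicAlgCl p)
  have h2 : (MulAction.stabilizer Γ b : Set Γ) =
      MulAction.stabilizer Γ (b : PadicAlgCl p) := by
    ext σ
    simp only [SetLike.mem_coe, MulAction.mem_stabilizer_iff]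
    rw [← Subtype.coe_inj]
    rfl
  rw [h2]
  exact h

theorem fixed_pow {a : OO p} (ha : ∀ g : Γ, g • a = a) :
    (IsLocalRing.residue (OO p) a) ^ p = IsLocalRing.residue (OO p) a := by
  have h1 : (a : Ω) ∈ Set.range (algebraMap ℚ_[p] Ω) := by
    rw [InfiniteGalois.mem_range_algebraMap_iff_fixed]
    intro g
    exact congrArg Subtype.val (ha g)
  obtain ⟨t, ht⟩ := h1
  have ht1 : ‖t‖ ≤ 1 := by
    have h2 := PadicAlgCl.norm_extends p t
    have h3 : ‖algebraMap ℚ_[p] Ω t‖ ≤ 1 := by rw [ht]; exact a.2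
    rw [← h2]
    exact h3
  have h2 : a = ofPadicInt p ⟨t, ht1⟩ := Subtype.ext ht.symm
  rw [h2, residue_ofPadicInt, ← map_pow, ZMod.pow_card]

/-- Surjectivity onto the automorphisms of the residue field. -/
theorem exists_lift_kap (f : kap p ≃+* kap p) : ∃ g : Γ, ∀ x : OO p,
    IsLocalRing.residue (OO p) (g • x) = f (IsLocalRing.residue (OO p) x) := by
  let _ : TopologicalSpace (OO p) := ⊥
  have _ : DiscreteTopology (OO p) := ⟨rfl⟩
  have _ : ContinuousSMul Γ (OO p) := continuousSMul_OO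
  let A0 := FixedPoints.subalgebra ℤ (OO p) Γ
  have hinv : Algebra.IsInvariant A0 (OO p) Γ := ⟨fun b hb => ⟨⟨b, hb⟩, rfl⟩⟩
  let Q : Ideal (OO p) := IsLocalRing.maximalIdeal (OO p)
  let P : Ideal A0 := Q.under A0
  have hover : Q.LiesOver P := ⟨rfl⟩
  have hQ : Q.IsPrime := inferInstance
  have hfix : ∀ x : kap p, x ^ p = x → f x = x := by
    intro x hx
    have h1 : x ∈ (⊥ : Subfield (kap p)) := (Subfield.mem_bot_iff_pow_eq_self (F := kap p) p).mpr hx
    have h2 : f x = x := by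
      have h3 : (⊥ : Subfield (kap p)) ≤ RingHom.eqLocusField (f : kap p →+* kap p) (RingHom.id _) := bot_le
      exact h3 h1
    exact h2
  let f' : ((OO p) ⧸ Q) ≃ₐ[A0 ⧸ P] ((OO p) ⧸ Q) :=
    { f with
      commutes' := by
        intro r
        obtain ⟨n, rfl⟩ := Ideal.Quotient.mk_surjective r
        exact hfix _ (fixed_pow n.2) }
  obtain ⟨⟨σ, hσ⟩, h⟩ := Ideal.Quotient.stabilizerHom_surjective_of_profinite
    (G := Γ) P Q f'
  refine ⟨σ, fun x => ?_⟩
  exact DFunLike.congr_fun h (Ideal.Quotient.mk Q x)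

/-- (K3) Existence of Frobenius elements. -/
theorem exists_frob : ∃ F : Γ, ∀ x : Ω, ‖x‖ ≤ 1 → ‖F x - x ^ p‖ < 1 := by
  have := perfectRing_kap (p := p)
  obtain ⟨F, hF⟩ := exists_lift_kap (frobeniusEquiv (kap p) p)
  refine ⟨F, fun x hx => ?_⟩
  have h1 := hF ⟨x, hx⟩
  rw [frobeniusEquiv_apply, frobenius_def, ← map_pow, residue_eq_iff] at h1
  exact h1

end Fermat.Agent.Flat.Loc
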