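import Mathlib
import Fermat.Agent.Flat.FrobExists

set_option autoImplicit false
set_option linter.unusedSectionVars false

/-!
# Local facts on `Gal(PadicAlgCl p / ℚ_[p])` (K1), (K4)
-/

open Polynomial

namespace Fermat.Agent.Flat.Loc

section CharP

variable {p : ℕ} [hp : Fact p.Prime] {K : Type*} [Field K]

/-- the Frobenius orbit polynomial -/
noncomputable def orbPoly (p M : ℕ) (a : K) (n : ℕ) : K[X] :=
  ∏ i ∈ Finset.range M, (X - C (a ^ p ^ (i + n)))

theorem orbPoly_monic (M : ℕ) (a : K) (n : ℕ) : (orbPoly p M a n).Monic :=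
  monic_prod_of_monic _ _ fun _ _ => monic_X_sub_C _

theorem orbPoly_natDegree (M : ℕ) (a : K) (n : ℕ) : (orbPoly p M a n).natDegree = M := by
  rw [orbPoly, natDegree_prod_of_monic _ _ fun _ _ => monic_X_sub_C _]
  simp only [natDegree_X_sub_C, Finset.sum_const, Finset.card_range, smul_eq_mul, mul_one]

theorem orbPoly_succ {M : ℕ} {a : K} (ha : a ^ p ^ M = a) (n : ℕ) :
    orbPoly p M a (n + 1) = orbPoly p M a n := by
  have h1 : orbPoly p M a (n + 1) * (X - C (a ^ p ^ n)) =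
      orbPoly p M a n * (X - C (a ^ p ^ (M + n))) := by
    rw [orbPoly, orbPoly, ← Finset.prod_range_succ (fun i => X - C (a ^ p ^ (i + n))) M,
      Finset.prod_range_succ']
    congr 1
    · refine Finset.prod_congr rfl fun i _ => ?_
      rw [add_right_comm, add_assoc i n 1, add_comm n 1, ← add_assoc]
    · rw [zero_add]
  have h2 : a ^ p ^ (M + n) = a ^ p ^ n := by
    rw [pow_add, pow_mul, ha]
  rw [h2] at h1
  exact mul_right_cancel₀ (X_sub_C_ne_zero _) h1

theorem orbPoly_eq {M : ℕ} {a : K} (ha : a ^ p ^ M = a) (n : ℕ) :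
    orbPoly p M a n = orbPoly p M a 0 := by
  induction n with
  | zero => rfl
  | succ n ih => rw [orbPoly_succ ha, ih]

theorem orbPoly_eval {M : ℕ} (hM : 0 < M) (a : K) : (orbPoly p M a 0).eval a = 0 := by
  rw [orbPoly, eval_prod]
  apply Finset.prod_eq_zero (Finset.mem_range.mpr hM)
  simp

theorem exists_of_orbPoly_eval {M : ℕ} {a b : K} (h : (orbPoly p M a 0).eval b = 0) :
    ∃ i < M, b = a ^ p ^ i := by
  rw [orbPoly, eval_prod, Finset.prod_eq_zero_iff] at h
  obtain ⟨i, hi, h⟩ := h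
  refine ⟨i, Finset.mem_range.mp hi, ?_⟩
  simpa [sub_eq_zero] using h

/-- a ring homomorphism acts on an element of a finite field as a power of Frobenius -/
theorem ringHom_apply_eq [CharP K p] (φ : K →+* K) {a : K} {M : ℕ} (hM : 0 < M)
    (ha : a ^ p ^ M = a) : ∃ i < M, φ a = a ^ p ^ i := by
  have h1 : (orbPoly p M a 0).map (frobenius K p) = orbPoly p M a 0 := by
    conv_rhs => rw [← orbPoly_eq ha 1]
    rw [orbPoly, Polynomial.map_prod, orbPoly]
    refine Finset.prod_congr rfl fun i _ => ?_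
    rw [Polynomial.map_sub, map_X, map_C, frobenius_def, ← pow_mul, ← pow_succ, add_zero]
  have h2 : ∀ n, (orbPoly p M a 0).coeff n ∈ (⊥ : Subfield K) := by
    intro n
    rw [Subfield.mem_bot_iff_pow_eq_self (F := K) p]
    have h3 := congrArg (fun P : K[X] => P.coeff n) h1
    simp only [coeff_map, frobenius_def] at h3
    exact h3
  have h3 : (orbPoly p M a 0).map φ = orbPoly p M a 0 := by
    ext n
    rw [coeff_map]
    have h4 : (⊥ : Subfield K) ≤ RingHom.eqLocusField φ (RingHom.id K) := bot_le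
    exact h4 (h2 n)
  have h4 : (orbPoly p M a 0).eval (φ a) = 0 := by
    rw [← h3, eval_map, eval₂_at_apply, orbPoly_eval hM, map_zero]
  exact exists_of_orbPoly_eval h4

end CharP

variable {p : ℕ} [hp : Fact p.Prime]

local notation "Ω" => PadicAlgCl p
local notation "Γ" => (PadicAlgCl p ≃ₐ[ℚ_[p]] PadicAlgCl p)

attribute [local instance] actOO

theorem norm_le_one_of_teich {k : ℕ} (hk : 0 < k) {s : Ω} (hs : s ^ p ^ k = s) : ‖s‖ ≤ 1 := by
  by_cases h0 : s = 0
  · rw [h0, norm_zero]; exact zero_le_one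
  · have h2 : p ^ k - 1 ≠ 0 := by
      intro h
      exact not_dvd_pow_sub_one hk (h ▸ dvd_zero p)
    exact (norm_eq_one_of_pow h2 (pow_sub_one_eq_one hs h0)).le

/-- Teichmüller representatives are determined by their reductions. -/
theorem teich_ext {k : ℕ} (hk : 0 < k) {s t : Ω} (hs : s ^ p ^ k = s) (ht : t ^ p ^ k = t)
    (h : ‖s - t‖ < 1) : s = t := by
  have hk2 : p ^ k - 1 ≠ 0 := by
    intro h
    exact not_dvd_pow_sub_one hk (h ▸ dvd_zero p)
  by_cases hs0 : s = 0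
  · by_cases ht0 : t = 0
    · rw [hs0, ht0]
    · rw [hs0, zero_sub, norm_neg, norm_eq_one_of_pow hk2 (pow_sub_one_eq_one ht ht0)] at h
      exact absurd h (lt_irrefl _)
  · by_cases ht0 : t = 0
    · rw [ht0, sub_zero, norm_eq_one_of_pow hk2 (pow_sub_one_eq_one hs hs0)] at h
      exact absurd h (lt_irrefl _)
    · exact eq_of_norm_sub_lt (not_dvd_pow_sub_one hk) (pow_sub_one_eq_one hs hs0)
        (pow_sub_one_eq_one ht ht0) h

theorem frob_teich {F : Γ} (hF : ∀ x : Ω, ‖x‖ ≤ 1 → ‖F x - x ^ p‖ < 1) {k : ℕ} (hk : 0 < k)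
    {s : Ω} (hs : s ^ p ^ k = s) : F s = s ^ p := by
  apply teich_ext hk _ _ (hF s (norm_le_one_of_teich hk hs))
  · rw [← map_pow, hs]
  · rw [← pow_mul, mul_comm, pow_mul, hs]

theorem frob_pow_teich {F : Γ} (hF : ∀ x : Ω, ‖x‖ ≤ 1 → ‖F x - x ^ p‖ < 1) {k : ℕ} (hk : 0 < k)
    {s : Ω} (hs : s ^ p ^ k = s) (n : ℕ) : (F ^ n) s = s ^ p ^ n := by
  induction n with
  | zero => simp
  | succ n ih =>
    rw [pow_succ', AlgEquiv.mul_apply, ih, map_pow, frob_teich hF hk hs, ← pow_mul, ← pow_succ']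

/-- every element of the Galois group acts on Teichmüller elements as a power of Frobenius -/
theorem exists_teich_pow (g : Γ) {k : ℕ} (hk : 0 < k) {s : Ω} (hs : s ^ p ^ k = s) :
    ∃ n : ℕ, g s = s ^ p ^ n := by
  have hs1 := norm_le_one_of_teich hk hs
  let φ : kap p →+* kap p := MulSemiringAction.toRingHom Γ (kap p) g
  have ha : (IsLocalRing.residue (OO p) ⟨s, hs1⟩) ^ p ^ k = IsLocalRing.residue (OO p) ⟨s, hs1⟩ := by
    rw [← map_pow]
    congr 1
    exact Subtype.ext hs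
  obtain ⟨n, -, hn⟩ := ringHom_apply_eq φ hk ha
  refine ⟨n, ?_⟩
  have h1 : IsLocalRing.residue (OO p) (g • ⟨s, hs1⟩) =
      IsLocalRing.residue (OO p) (⟨s, hs1⟩ ^ p ^ n) := by
    rw [IsLocalRing.ResidueField.residue_smul, map_pow]
    exact hn
  rw [residue_eq_iff] at h1
  have h2 : ‖g s - s ^ p ^ n‖ < 1 := h1
  apply teich_ext hk _ _ h2
  · rw [← map_pow, hs]
  · rw [← pow_mul, mul_comm, pow_mul, hs]

/-- the subgroup fixing the Teichmüller elements of level `k` -/
def teichFix (p k : ℕ) [hp : Fact p.Prime] :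
    Set (PadicAlgCl p ≃ₐ[ℚ_[p]] PadicAlgCl p) :=
  {g | ∀ s : PadicAlgCl p, s ^ p ^ k = s → g s = s}

theorem teichFix_isClosed (k : ℕ) : IsClosed (teichFix p k) := by
  have h : teichFix p k = ⋂ s : {s : Ω // s ^ p ^ k = s},
      (MulAction.stabilizer Γ (s : Ω) : Set Γ) := by
    ext g
    simp only [Set.mem_iInter, Subtype.forall]
    rfl
  rw [h]
  refine isClosed_iInter fun s => Subgroup.isClosed_of_isOpen _ ?_
  exact stabilizer_isOpen_of_isIntegral (K := ℚ_[p]) (L := PadicAlgCl p) (s : PadicAlgCl p)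

theorem teich_mul {a b : ℕ} {s : Ω} (hs : s ^ p ^ a = s) : s ^ p ^ (a * b) = s := by
  induction b with
  | zero => simp
  | succ b ih => rw [mul_add, mul_one, pow_add, pow_mul, ih, hs]

/-- an open set containing inertia contains the fixator of Teichmüller elements of some level -/
theorem exists_teichFix_subset {U : Set Γ} (hU : IsOpen U) (hIU : (inert p : Set Γ) ⊆ U) :
    ∃ k : ℕ, 0 < k ∧ teichFix p k ⊆ U := by
  have hdir : Directed (· ⊇ ·) fun k : ℕ => teichFix p (k + 1) := by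
    intro a b
    refine ⟨(a + 1) * (b + 1) - 1, ?_, ?_⟩
    · intro g hg s hs
      have h1 : (a + 1) * (b + 1) - 1 + 1 = (a + 1) * (b + 1) :=
        Nat.sub_add_cancel (Nat.mul_pos (Nat.succ_pos _) (Nat.succ_pos _))
      apply hg s
      rw [h1]
      exact teich_mul hs
    · intro g hg s hs
      have h1 : (a + 1) * (b + 1) - 1 + 1 = (b + 1) * (a + 1) := by
        rw [Nat.sub_add_cancel (Nat.mul_pos (Nat.succ_pos _) (Nat.succ_pos _)), mul_comm]
      apply hg s
      rw [h1]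
      exact teich_mul hs
  obtain ⟨k, hk⟩ := exists_subset_nhds_of_isCompact hdir
    (fun k => (teichFix_isClosed (p := p) (k + 1)).isCompact) (U := U) (by
      intro g hg
      rw [Set.mem_iInter] at hg
      refine hU.mem_nhds (hIU ?_)
      intro x hx
      obtain ⟨k, hk, s, hs, hxs⟩ := exists_teich hx
      have h1 : g s = s := by
        obtain ⟨k, rfl⟩ : ∃ j, k = j + 1 := ⟨k - 1, (Nat.sub_add_cancel hk).symm⟩
        exact hg k s hs
      have h2 : g x - x = g (x - s) + (s - x) := by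
        rw [map_sub, h1]; ring
      rw [h2]
      refine lt_of_le_of_lt (PadicAlgCl.isNonarchimedean p _ _) (max_lt ?_ ?_)
      · rw [norm_aut]; exact hxs
      · rw [norm_sub_rev]; exact hxs)
  exact ⟨k + 1, Nat.succ_pos _, hk⟩

theorem exists_primitive {k : ℕ} (hk : 0 < k) : ∃ ζ : Ω, IsPrimitiveRoot ζ (p ^ k - 1) := by
  have h2 : p ^ k - 1 ≠ 0 := by
    intro h
    exact not_dvd_pow_sub_one hk (h ▸ dvd_zero p)
  have : NeZero ((p ^ k - 1 : ℕ) : Ω) := ⟨Nat.cast_ne_zero.mpr h2⟩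
  exact HasEnoughRootsOfUnity.exists_primitiveRoot Ω (p ^ k - 1)

theorem teich_of_pow {k : ℕ} {ζ : Ω} (h : ζ ^ (p ^ k - 1) = 1) : ζ ^ p ^ k = ζ := by
  have h2 : 1 ≤ p ^ k := Nat.one_le_pow _ _ hp.out.pos
  rw [← Nat.sub_add_cancel h2, pow_succ, h, one_mul]

theorem mem_teichFix_of_primitive {k : ℕ} (hk : 0 < k) {ζ : Ω}
    (hζ : IsPrimitiveRoot ζ (p ^ k - 1)) {g : Γ} (hg : g ζ = ζ) : g ∈ teichFix p k := by
  intro s hs
  by_cases h0 : s = 0
  · rw [h0, map_zero]
  have h2 : p ^ k - 1 ≠ 0 := by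
    intro h
    exact not_dvd_pow_sub_one hk (h ▸ dvd_zero p)
  have : NeZero (p ^ k - 1) := ⟨h2⟩
  obtain ⟨i, -, rfl⟩ := hζ.eq_pow_of_pow_eq_one (pow_sub_one_eq_one hs h0)
  rw [map_pow, hg]

/-- (K4) The Galois group is generated by a Frobenius element modulo any open subgroup containing
inertia. -/
theorem exists_frob_pow {U : Subgroup Γ} (hU : IsOpen (U : Set Γ)) (hIU : inert p ≤ U) {F : Γ}
    (hF : ∀ x : Ω, ‖x‖ ≤ 1 → ‖F x - x ^ p‖ < 1) (s : Γ) : ∃ n : ℕ, (F ^ n)⁻¹ * s ∈ U := by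
  obtain ⟨k, hk, hkU⟩ := exists_teichFix_subset hU hIU
  obtain ⟨ζ, hζ⟩ := exists_primitive (p := p) hk
  have hζt := teich_of_pow hζ.pow_eq_one
  obtain ⟨n, hn⟩ := exists_teich_pow s hk hζt
  refine ⟨n, hkU (mem_teichFix_of_primitive hk hζ ?_)⟩
  rw [AlgEquiv.mul_apply, hn, ← frob_pow_teich hF hk hζt n]
  exact inv_smul_smul (F ^ n) ζ

/-- the norm of an element of the unramified extension generated by `ζ` -/
theorem norm_aeval_eq {k : ℕ} (hk : 0 < k) {ζ : Ω} (hζ : IsPrimitiveRoot ζ (p ^ k - 1))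
    {D : ℤ_[p][X]} (hdeg : D.natDegree < k) {i : ℕ} (hi : ‖D.coeff i‖ = 1) :
    ‖(D.map ((algebraMap ℚ_[p] Ω).comp PadicInt.Coe.ringHom)).eval ζ‖ = 1 := by
  have hζt := teich_of_pow hζ.pow_eq_one
  have hζ1 := norm_le_one_of_teich hk hζt
  -- reduce to the residue field
  have h1 : (D.map ((algebraMap ℚ_[p] Ω).comp PadicInt.Coe.ringHom)).eval ζ =
      ((D.eval₂ (ofPadicInt p) ⟨ζ, hζ1⟩ : OO p) : Ω) := by
    have h3 := Polynomial.hom_eval₂ D (ofPadicInt p) (OO p).subtype ⟨ζ, hζ1⟩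
    rw [eval_map]
    exact h3.symm
  have hle : ‖(D.map ((algebraMap ℚ_[p] Ω).comp PadicInt.Coe.ringHom)).eval ζ‖ ≤ 1 := by
    rw [h1]
    exact (D.eval₂ (ofPadicInt p) ⟨ζ, hζ1⟩).2
  refine le_antisymm hle (not_lt.mp fun hlt => ?_)
  rw [h1, ← residue_eq_zero_iff, Polynomial.hom_eval₂] at hlt
  have h6 : (IsLocalRing.residue (OO p)).comp (ofPadicInt p) =
      (algebraMap (ZMod p) (kap p)).comp PadicInt.toZMod := by
    ext x
    exact residue_ofPadicInt x
  rw [h6, ← eval₂_map] at hlt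
  set a := IsLocalRing.residue (OO p) ⟨ζ, hζ1⟩ with ha
  have hD0 : D.map PadicInt.toZMod ≠ 0 := by
    intro h0
    have h2 := congrArg (fun P : (ZMod p)[X] => P.coeff i) h0
    simp only [coeff_map, coeff_zero] at h2
    have h3 : D.coeff i ∈ RingHom.ker (PadicInt.toZMod (p := p)) := h2
    rw [PadicInt.ker_toZMod, IsLocalRing.mem_maximalIdeal, PadicInt.mem_nonunits] at h3
    exact h3.ne hi
  have hint := isIntegral_kap a
  -- the degree of `a`
  have hdle : (minpoly (ZMod p) a).natDegree < k := by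
    have h2 : (minpoly (ZMod p) a).natDegree ≤ (D.map PadicInt.toZMod).natDegree :=
      natDegree_le_of_dvd (minpoly.dvd _ _ hlt) hD0
    exact lt_of_le_of_lt (h2.trans natDegree_map_le) hdeg
  let L := IntermediateField.adjoin (ZMod p) {a}
  have hfin : FiniteDimensional (ZMod p) L := IntermediateField.adjoin.finiteDimensional hint
  have hL : Finite L := Module.finite_of_finite (ZMod p)
  have : Fintype L := Fintype.ofFinite L
  have hfr : Module.finrank (ZMod p) L = (minpoly (ZMod p) a).natDegree :=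
    IntermediateField.adjoin.finrank hint
  have hdpos : 0 < Module.finrank (ZMod p) L := Module.finrank_pos
  have hapow : a ^ p ^ Module.finrank (ZMod p) L = a := by
    have h1 := FiniteField.pow_card (⟨a, IntermediateField.mem_adjoin_simple_self _ a⟩ : L)
    have h2 : Fintype.card L = p ^ Module.finrank (ZMod p) L := by
      rw [Module.card_eq_pow_finrank (K := ZMod p), ZMod.card]
    rw [h2] at h1
    exact congrArg Subtype.val h1
  rw [hfr] at hapow hdpos
  set d := (minpoly (ZMod p) a).natDegree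
  rw [ha, ← map_pow, residue_eq_iff] at hapow
  have hapow' : ‖ζ ^ p ^ d - ζ‖ < 1 := hapow
  have hζd : ζ ^ p ^ d = ζ := by
    apply teich_ext hk _ hζt hapow'
    rw [← pow_mul, mul_comm, pow_mul, hζt]
  have hζ0 : ζ ≠ 0 := by
    rintro rfl
    have h2 : p ^ k - 1 ≠ 0 := by
      intro h
      exact not_dvd_pow_sub_one hk (h ▸ dvd_zero p)
    have h3 := hζ.pow_eq_one
    rw [zero_pow h2] at h3
    exact zero_ne_one h3
  have h7 := hζ.dvd_of_pow_eq_one _ (pow_sub_one_eq_one hζd hζ0)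
  have h8 : 0 < p ^ d - 1 := Nat.sub_pos_of_lt (Nat.one_lt_pow hdpos.ne' hp.out.one_lt)
  have h9 := Nat.le_of_dvd h8 h7
  have h10 : p ^ d < p ^ k := Nat.pow_lt_pow_right hp.out.one_lt hdle
  omega

/-- the norms of the elements of `ℚ_p(ζ)` -/
theorem norm_unramified {k : ℕ} (hk : 0 < k) {ζ : Ω} (hζ : IsPrimitiveRoot ζ (p ^ k - 1))
    {P : ℚ_[p][X]} (hdeg : P.natDegree < k) (hP : P ≠ 0) :
    ∃ n : ℤ, ‖aeval ζ P‖ = (p : ℝ) ^ n := by
  -- the largest coefficient
  obtain ⟨i, hi, hmax⟩ := Finset.exists_max_image P.support (fun i => ‖P.coeff i‖)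
    (support_nonempty.mpr hP)
  have hc : P.coeff i ≠ 0 := mem_support_iff.mp hi
  set c := P.coeff i
  have hD : ∀ n, ‖(C c⁻¹ * P).coeff n‖ ≤ 1 := by
    intro n
    rw [coeff_C_mul, norm_mul, norm_inv]
    by_cases hn : n ∈ P.support
    · rw [inv_mul_le_iff₀ (norm_pos_iff.mpr hc), mul_one]
      exact hmax n hn
    · rw [notMem_support_iff.mp hn, norm_zero, mul_zero]
      exact zero_le_one
  have hlift : C c⁻¹ * P ∈ lifts (PadicInt.Coe.ringHom : ℤ_[p] →+* ℚ_[p]) := by
    rw [lifts_iff_coeff_lifts]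
    intro n
    exact ⟨⟨_, hD n⟩, rfl⟩
  obtain ⟨D, hDmap, hDdeg⟩ := exists_degree_eq_of_mem_lifts hlift
  have hDdeg' : D.natDegree < k := by
    rw [natDegree_eq_of_degree_eq hDdeg]
    exact lt_of_le_of_lt (natDegree_C_mul_le _ _) hdeg
  have hDi : ‖D.coeff i‖ = 1 := by
    have h1 := congrArg (fun Q : ℚ_[p][X] => Q.coeff i) hDmap
    simp only [coeff_map, coeff_C_mul] at h1
    have h2 : ((D.coeff i : ℤ_[p]) : ℚ_[p]) = 1 := by
      rw [← inv_mul_cancel₀ hc]
      exact h1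
    rw [PadicInt.norm_def, h2, norm_one]
  have h3 := norm_aeval_eq hk hζ hDdeg' hDi
  rw [← Polynomial.map_map, hDmap, eval_map_algebraMap, map_mul, aeval_C, norm_mul] at h3
  have h4 : ‖algebraMap ℚ_[p] Ω c⁻¹‖ = ‖c‖⁻¹ := by
    have := PadicAlgCl.norm_extends p c⁻¹
    rw [this, norm_inv]
  rw [h4, inv_mul_eq_one₀ (norm_ne_zero_iff.mpr hc)] at h3
  refine ⟨-c.valuation, ?_⟩
  rw [← h3]
  exact Padic.norm_eq_zpow_neg_valuation hc

/-- (K1) The value group of the inertia field. -/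
theorem exists_norm_eq_zpow {x : Ω} (hx0 : x ≠ 0) (hx : ∀ g ∈ inert p, g x = x) :
    ∃ n : ℤ, ‖x‖ = (p : ℝ) ^ n := by
  have hopen : IsOpen ((MulAction.stabilizer Γ x : Subgroup Γ) : Set Γ) :=
    stabilizer_isOpen_of_isIntegral (K := ℚ_[p]) (L := PadicAlgCl p) x
  obtain ⟨k, hk, hkU⟩ := exists_teichFix_subset hopen (fun g hg => hx g hg)
  obtain ⟨ζ, hζ⟩ := exists_primitive (p := p) hk
  have hζt := teich_of_pow hζ.pow_eq_one
  -- `x ∈ ℚ_p(ζ)`
  have hmem : x ∈ IntermediateField.adjoin ℚ_[p] {ζ} := by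
    rw [← InfiniteGalois.fixedField_fixingSubgroup (IntermediateField.adjoin ℚ_[p] {ζ}),
      IntermediateField.mem_fixedField_iff]
    intro g hg
    rw [IntermediateField.mem_fixingSubgroup_iff] at hg
    exact hkU (mem_teichFix_of_primitive hk hζ
      (hg ζ (IntermediateField.mem_adjoin_simple_self _ ζ)))
  have hint : IsIntegral ℚ_[p] ζ := Algebra.IsIntegral.isIntegral ζ
  obtain ⟨P, hP⟩ : ∃ P : ℚ_[p][X], aeval ζ P = x := by
    have h1 : x ∈ (IntermediateField.adjoin ℚ_[p] {ζ}).toSubalgebra := hmem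
    rw [IntermediateField.adjoin_simple_toSubalgebra_of_isAlgebraic hint.isAlgebraic,
      Algebra.adjoin_singleton_eq_range_aeval] at h1
    exact h1
  -- the polynomial of degree `k` vanishing at `ζ`
  have hlift : orbPoly p k ζ 0 ∈ lifts (algebraMap ℚ_[p] Ω) := by
    rw [lifts_iff_coeff_lifts]
    intro n
    rw [InfiniteGalois.mem_range_algebraMap_iff_fixed]
    intro g
    obtain ⟨m, hm⟩ := exists_teich_pow g hk hζt
    have h1 : (orbPoly p k ζ 0).map (g : Ω →+* Ω) = orbPoly p k ζ 0 := by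
      rw [← orbPoly_eq hζt m]
      conv_lhs => rw [orbPoly_eq hζt m, orbPoly, Polynomial.map_prod]
      rw [orbPoly]
      refine Finset.prod_congr rfl fun i _ => ?_
      rw [Polynomial.map_sub, map_X, map_C]
      congr 2
      show g (ζ ^ p ^ (i + 0)) = _
      rw [map_pow, hm, add_zero, ← pow_mul, ← pow_add, add_comm m i]
    have h2 := congrArg (fun Q : Polynomial Ω => Q.coeff n) h1
    simp only [coeff_map] at h2
    exact h2
  obtain ⟨f, hf, hfdeg, hfm⟩ := lifts_and_natDegree_eq_and_monic hlift (orbPoly_monic k ζ 0)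
  rw [orbPoly_natDegree] at hfdeg
  have hf0 : aeval ζ f = 0 := by
    rw [← eval_map_algebraMap, hf]
    exact orbPoly_eval hk ζ
  have hP' : aeval ζ (P %ₘ f) = x := by
    rw [← hP]
    conv_rhs => rw [← modByMonic_add_div P f]
    rw [map_add, map_mul, hf0, zero_mul, add_zero]
  have hne : P %ₘ f ≠ 0 := by
    intro h
    rw [h, map_zero] at hP'
    exact hx0 hP'.symm
  have hdeg : (P %ₘ f).natDegree < k := by
    rw [← hfdeg]
    apply natDegree_modByMonic_lt P hfm
    intro h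
    rw [h, natDegree_one] at hfdeg
    omega
  rw [← hP']
  exact norm_unramified hk hζ hdeg hne

end Fermat.Agent.Flat.Loc
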