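import Fermat.Agent.HopfOrder.Hopf
import Mathlib.Analysis.Normed.Field.Ultra
import Mathlib.Algebra.Group.ForwardDiff
import Mathlib.Analysis.Normed.Group.Ultra

/-!
# Orders of functions on modules over the inertia group

The strictly henselian setting, orders, the radius of a point.
-/

set_option autoImplicit false
set_option linter.unusedSectionVars false
set_option linter.style.haveILetI false

noncomputable section

namespace Fermat.Agent.Flat

/-- The setting: `Ω` an algebraically closed ultrametric field with an isometric action of a group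
`I`, behaving like the inertia group of a strictly henselian discretely valued field with
uniformizer `p`. -/
class Setting (p : ℕ) (Ω : Type) [NormedField Ω] (I : Type) [Group I] [MulSemiringAction I Ω] :
    Prop where
  prime : p.Prime
  odd : p ≠ 2
  ultra : IsUltrametricDist Ω
  charZero : CharZero Ω
  isAlgClosed : IsAlgClosed Ω
  norm_smul : ∀ (σ : I) (x : Ω), ‖σ • x‖ = ‖x‖
  norm_p : ‖(p : Ω)‖ = (p : ℝ)⁻¹
  norm_smul_sub_lt : ∀ (σ : I) (x : Ω), ‖x‖ ≤ 1 → ‖σ • x - x‖ < 1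
  norm_fixed : ∀ x : Ω, x ≠ 0 → (∀ σ : I, σ • x = x) → ∃ n : ℤ, ‖x‖ = (p : ℝ) ^ n
  exists_fixed_near : ∀ x : Ω, ‖x‖ ≤ 1 → ∃ s : Ω, (∀ σ : I, σ • s = s) ∧ ‖x - s‖ < 1

section Basic

variable (p : ℕ) (Ω : Type) [NormedField Ω] (I : Type) [Group I] [MulSemiringAction I Ω]
  [S : Setting p Ω I]

include S in
theorem one_lt_p : (1 : ℝ) < p := by exact_mod_cast S.prime.one_lt

include S in
theorem p_pos : (0 : ℝ) < p := lt_trans one_pos (one_lt_p p Ω I)

include S in
theorem norm_add_le_max (x y : Ω) : ‖x + y‖ ≤ max ‖x‖ ‖y‖ :=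
  haveI := S.ultra
  IsUltrametricDist.norm_add_le_max x y

include S in
theorem norm_sub_le_max (x y : Ω) : ‖x - y‖ ≤ max ‖x‖ ‖y‖ := by
  rw [sub_eq_add_neg, ← norm_neg y]
  exact norm_add_le_max p Ω I x (-y)

include S in
theorem norm_sum_le_of_le {ι : Type*} (s : Finset ι) (f : ι → Ω) {r : ℝ} (hr : 0 ≤ r)
    (h : ∀ i ∈ s, ‖f i‖ ≤ r) : ‖∑ i ∈ s, f i‖ ≤ r := by
  classical
  induction s using Finset.induction_on with
  | empty => simpa using hr
  | insert a s ha ih =>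
    rw [Finset.sum_insert ha]
    refine (norm_add_le_max p Ω I _ _).trans (max_le (h a (Finset.mem_insert_self _ _)) ?_)
    exact ih fun i hi => h i (Finset.mem_insert_of_mem hi)

include S in
theorem norm_sum_lt_of_lt {ι : Type*} (s : Finset ι) (f : ι → Ω) {r : ℝ} (hr : 0 < r)
    (h : ∀ i ∈ s, ‖f i‖ < r) : ‖∑ i ∈ s, f i‖ < r := by
  classical
  induction s using Finset.induction_on with
  | empty => simpa using hr
  | insert a s ha ih =>
    rw [Finset.sum_insert ha]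
    refine (norm_add_le_max p Ω I _ _).trans_lt (max_lt (h a (Finset.mem_insert_self _ _)) ?_)
    exact ih fun i hi => h i (Finset.mem_insert_of_mem hi)

include S in
/-- If the norms are different then the norm of the sum is the max. -/
theorem norm_add_eq_of_lt {x y : Ω} (h : ‖y‖ < ‖x‖) : ‖x + y‖ = ‖x‖ := by
  apply le_antisymm ((norm_add_le_max p Ω I x y).trans (max_le le_rfl h.le))
  by_contra hlt
  push Not at hlt
  have h1 : ‖x‖ ≤ max ‖x + y‖ ‖y‖ := by
    have := norm_sub_le_max p Ω I (x + y) y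
    rwa [add_sub_cancel_right] at this
  rcases le_max_iff.1 h1 with h2 | h2
  · exact absurd h2 (not_le.2 hlt)
  · exact absurd h2 (not_le.2 h)

include S in
theorem norm_natCast_le_one (n : ℕ) : ‖(n : Ω)‖ ≤ 1 := by
  haveI := S.ultra
  exact IsUltrametricDist.norm_natCast_le_one Ω n

include S in
theorem norm_intCast_le_one (n : ℤ) : ‖(n : Ω)‖ ≤ 1 := by
  haveI := S.ultra
  exact IsUltrametricDist.norm_intCast_le_one Ω n

include S in
/-- natural numbers prime to `p` are units. -/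
theorem norm_natCast_eq_one {n : ℕ} (hn : ¬ p ∣ n) : ‖(n : Ω)‖ = 1 := by
  have hcop : Nat.Coprime n p := ((S.prime.coprime_iff_not_dvd).2 hn).symm
  have h1 := Nat.gcd_eq_gcd_ab n p
  rw [hcop] at h1
  have h2 : (1 : Ω) = (n : Ω) * ((Nat.gcdA n p : ℤ) : Ω) + (p : Ω) * ((Nat.gcdB n p : ℤ) : Ω) := by
    have := congrArg (fun z : ℤ => (z : Ω)) h1
    simpa using this
  have h3 : ‖(p : Ω) * ((Nat.gcdB n p : ℤ) : Ω)‖ < 1 := by
    rw [norm_mul, S.norm_p]
    have := norm_intCast_le_one p Ω I (Nat.gcdB n p)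
    calc (p : ℝ)⁻¹ * ‖((Nat.gcdB n p : ℤ) : Ω)‖ ≤ (p : ℝ)⁻¹ * 1 :=
          mul_le_mul_of_nonneg_left this (inv_nonneg.2 (p_pos p Ω I).le)
      _ < 1 := by rw [mul_one]; exact inv_lt_one_of_one_lt₀ (one_lt_p p Ω I)
  apply le_antisymm (norm_natCast_le_one p Ω I n)
  by_contra hlt
  push Not at hlt
  have h4 : ‖(n : Ω) * ((Nat.gcdA n p : ℤ) : Ω)‖ < 1 := by
    rw [norm_mul]
    have := norm_intCast_le_one p Ω I (Nat.gcdA n p)
    calc ‖(n : Ω)‖ * ‖((Nat.gcdA n p : ℤ) : Ω)‖ ≤ ‖(n : Ω)‖ * 1 :=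
          mul_le_mul_of_nonneg_left this (norm_nonneg _)
      _ < 1 := by rw [mul_one]; exact hlt
  have h5 := (norm_add_le_max p Ω I _ _).trans_lt (max_lt h4 h3)
  rw [← h2, norm_one] at h5
  exact lt_irrefl _ h5

/-- The ring of integers of the fixed field of `I`. -/
def RK : Subring Ω where
  carrier := {x | ‖x‖ ≤ 1 ∧ ∀ σ : I, σ • x = x}
  mul_mem' := by
    rintro a b ⟨ha, ha'⟩ ⟨hb, hb'⟩
    refine ⟨?_, fun σ => by rw [smul_mul', ha', hb']⟩
    rw [norm_mul]
    exact mul_le_one₀ ha (norm_nonneg _) hb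
  one_mem' := ⟨by rw [norm_one], fun σ => smul_one σ⟩
  add_mem' := by
    rintro a b ⟨ha, ha'⟩ ⟨hb, hb'⟩
    refine ⟨(norm_add_le_max p Ω I a b).trans (max_le ha hb), fun σ => by
      rw [smul_add, ha', hb']⟩
  zero_mem' := ⟨by simp, fun σ => smul_zero σ⟩
  neg_mem' := by
    rintro a ⟨ha, ha'⟩
    exact ⟨by rwa [norm_neg], fun σ => by rw [smul_neg, ha']⟩

theorem mem_RK {x : Ω} : x ∈ RK p Ω I ↔ ‖x‖ ≤ 1 ∧ ∀ σ : I, σ • x = x := Iff.rfl

theorem norm_RK_le (c : RK p Ω I) : ‖(c : Ω)‖ ≤ 1 := c.2.1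

instance : Algebra (RK p Ω I) Ω := (RK p Ω I).subtype.toAlgebra

theorem algebraMap_RK (c : RK p Ω I) : algebraMap (RK p Ω I) Ω c = (c : Ω) := rfl

theorem smul_RK (c : RK p Ω I) (x : Ω) : c • x = (c : Ω) * x := rfl

theorem algebraMap_RK_injective : Function.Injective (algebraMap (RK p Ω I) Ω) :=
  Subtype.val_injective

/-- In `RK` divisibility is controlled by the norm. -/
theorem RK_dvd {a b : RK p Ω I} (ha : a ≠ 0) (h : ‖(b : Ω)‖ ≤ ‖(a : Ω)‖) : a ∣ b := by
  have ha' : (a : Ω) ≠ 0 := fun h0 => ha (Subtype.ext h0)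
  refine ⟨⟨(b : Ω) / a, ?_, fun σ => ?_⟩, Subtype.ext ?_⟩
  · rw [norm_div]
    exact div_le_one_of_le₀ h (norm_nonneg _)
  · rw [smul_div₀', a.2.2, b.2.2]
  · change (b : Ω) = a * (b / a)
    rw [mul_div_cancel₀ _ ha']

instance : IsPrincipalIdealRing (RK p Ω I) where
  principal J := by
    classical
    by_cases hJ : J = ⊥
    · rw [hJ]; exact ⟨⟨0, by simp⟩⟩
    obtain ⟨x₀, hx₀, hx₀0⟩ := Submodule.exists_mem_ne_zero_of_ne_bot hJ
    -- the set of exponents
    have hex : ∀ x : RK p Ω I, x ≠ 0 → ∃ n : ℕ, ‖(x : Ω)‖ = ((p : ℝ)⁻¹) ^ n := by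
      intro x hx
      obtain ⟨n, hn⟩ := S.norm_fixed (x : Ω) (fun h => hx (Subtype.ext h)) x.2.2
      have hle := x.2.1
      rw [hn] at hle
      have hn0 : n ≤ 0 := by
        by_contra h
        push Not at h
        exact absurd hle (not_le.2 (one_lt_zpow₀ (one_lt_p p Ω I) h))
      refine ⟨(-n).toNat, ?_⟩
      rw [hn, inv_pow, ← zpow_natCast, ← zpow_neg, Int.toNat_of_nonneg (by omega), neg_neg]
    let P : ℕ → Prop := fun n => ∃ x ∈ J, x ≠ 0 ∧ ‖(x : Ω)‖ = ((p : ℝ)⁻¹) ^ n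
    have hP : ∃ n, P n := by
      obtain ⟨n, hn⟩ := hex x₀ hx₀0
      exact ⟨n, x₀, hx₀, hx₀0, hn⟩
    obtain ⟨x, hxJ, hx0, hxn⟩ := Nat.find_spec hP
    refine ⟨⟨x, ?_⟩⟩
    apply le_antisymm
    · intro y hy
      rw [Submodule.mem_span_singleton]
      by_cases hy0 : y = 0
      · exact ⟨0, by rw [hy0, zero_smul]⟩
      obtain ⟨m, hm⟩ := hex y hy0
      have hle : Nat.find hP ≤ m := Nat.find_min' hP ⟨y, hy, hy0, hm⟩
      have hnorm : ‖(y : Ω)‖ ≤ ‖(x : Ω)‖ := by
        rw [hm, hxn]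
        exact pow_le_pow_of_le_one (inv_nonneg.2 (p_pos p Ω I).le)
          (inv_le_one_of_one_le₀ (one_lt_p p Ω I).le) hle
      obtain ⟨c, hc⟩ := RK_dvd p Ω I hx0 hnorm
      exact ⟨c, by rw [smul_eq_mul, mul_comm]; exact hc.symm⟩
    · rw [Submodule.span_singleton_le_iff_mem]
      exact hxJ

/-- A number `ρ₀` with `ρ₀ ^ (p - 1) = 1 / p`. -/
def rho : ℝ := ((p : ℝ)⁻¹) ^ ((1 : ℝ) / ((p : ℝ) - 1))

include S in
theorem rho_pow : (rho p) ^ (p - 1) = (p : ℝ)⁻¹ := by
  have h1 : (1 : ℕ) ≤ p := S.prime.one_lt.le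
  have h2 : ((p - 1 : ℕ) : ℝ) = (p : ℝ) - 1 := by push_cast [h1]; ring
  rw [rho, ← Real.rpow_natCast, ← Real.rpow_mul (inv_nonneg.2 (p_pos p Ω I).le), h2,
    one_div, inv_mul_cancel₀ (sub_pos.2 (one_lt_p p Ω I)).ne', Real.rpow_one]

include S in
theorem rho_pos : 0 < rho p := Real.rpow_pos_of_pos (inv_pos.2 (p_pos p Ω I)) _

include S in
theorem rho_lt_one : rho p < 1 := by
  apply Real.rpow_lt_one (inv_nonneg.2 (p_pos p Ω I).le) (inv_lt_one_of_one_lt₀ (one_lt_p p Ω I))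
  rw [one_div, inv_pos]
  exact sub_pos.2 (one_lt_p p Ω I)

include S in
theorem inv_lt_rho : (p : ℝ)⁻¹ < rho p := by
  have h1 := rho_pow p Ω I
  have h2 := rho_pos p Ω I
  have h3 := rho_lt_one p Ω I
  have h4 : 2 ≤ p - 1 := by
    have := S.prime.two_le
    have := S.odd
    omega
  rw [← h1]
  calc rho p ^ (p - 1) ≤ rho p ^ 2 := pow_le_pow_of_le_one h2.le h3.le h4
    _ < rho p := by nlinarith

end Basic

/-- An order of `I`-equivariant functions on `M` (for the action `ρ`). -/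
structure Ord (p : ℕ) (Ω : Type) [NormedField Ω] (I : Type) [Group I] [MulSemiringAction I Ω]
    [Setting p Ω I] {M : Type} [AddCommGroup M] (ρ : I → M → M) where
  H : Subalgebra (RK p Ω I) (M → Ω)
  fg : (Subalgebra.toSubmodule H).FG
  equi : ∀ h ∈ H, ∀ (σ : I) (x : M), h (ρ σ x) = σ • h x
  comul : ∀ h ∈ H, ∃ (ι : Type) (_ : Fintype ι) (a b : ι → M → Ω), (∀ i, a i ∈ H) ∧
    (∀ i, b i ∈ H) ∧ ∀ x y, h (x + y) = ∑ i, a i x * b i y
  sep : ∀ x y : M, x ≠ y → ∃ h ∈ H, h x ≠ h y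

namespace Ord

variable {p : ℕ} {Ω : Type} [NormedField Ω] {I : Type} [Group I] [MulSemiringAction I Ω]
    [S : Setting p Ω I] {M : Type} [AddCommGroup M] {ρ : I → M → M} (D : Ord p Ω I ρ)

/-- The values are integral. -/
theorem norm_le_one {h : M → Ω} (hh : h ∈ D.H) (x : M) : ‖h x‖ ≤ 1 := by
  haveI := S.ultra
  have h1 : IsIntegral (RK p Ω I) h := IsIntegral.of_mem_of_fg D.H D.fg h hh
  obtain ⟨P, hP, hPe⟩ := h1
  have h2 : P.eval₂ (algebraMap (RK p Ω I) Ω) (h x) = 0 := by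
    have h3 := congrFun hPe x
    rw [Pi.zero_apply] at h3
    have h4 := Polynomial.hom_eval₂ P (algebraMap (RK p Ω I) (M → Ω)) (Pi.evalRingHom (fun _ => Ω) x) h
    rw [Pi.evalRingHom_apply, h3] at h4
    exact h4.symm
  by_contra hlt
  push Not at hlt
  rw [Polynomial.eval₂_eq_sum_range, Finset.sum_range_succ, hP.coeff_natDegree, map_one, one_mul] at h2
  have h3 : ‖h x ^ P.natDegree‖ ≤ ‖h x‖ ^ (P.natDegree - 1) := by
    have h4 : h x ^ P.natDegree = -∑ i ∈ Finset.range P.natDegree,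
        algebraMap (RK p Ω I) Ω (P.coeff i) * h x ^ i := by
      rw [eq_neg_iff_add_eq_zero, add_comm]; exact h2
    rw [h4, norm_neg]
    apply norm_sum_le_of_le p Ω I _ _ (by positivity)
    intro i hi
    rw [norm_mul, norm_pow]
    calc ‖algebraMap (RK p Ω I) Ω (P.coeff i)‖ * ‖h x‖ ^ i ≤ 1 * ‖h x‖ ^ i :=
          mul_le_mul_of_nonneg_right (norm_RK_le p Ω I _) (by positivity)
      _ = ‖h x‖ ^ i := one_mul _
      _ ≤ ‖h x‖ ^ (P.natDegree - 1) := by
          apply pow_le_pow_right₀ hlt.le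
          rw [Finset.mem_range] at hi
          omega
  have hdeg : P.natDegree ≠ 0 := by
    intro h0
    rw [h0] at h2
    simp at h2
  rw [norm_pow] at h3
  have h5 : ‖h x‖ ^ (P.natDegree - 1) < ‖h x‖ ^ P.natDegree :=
    pow_lt_pow_right₀ hlt (by omega)
  exact absurd h3 (not_le.2 h5)

theorem exists_max (z : M) : ∃ h ∈ D.H, ∀ h' ∈ D.H, ‖h' z - h' 0‖ ≤ ‖h z - h 0‖ := by
  classical
  obtain ⟨s, hs⟩ := D.fg
  have hsH : ∀ h ∈ s, h ∈ D.H := fun h hh => by
    have : h ∈ Submodule.span (RK p Ω I) (s : Set (M → Ω)) := Submodule.subset_span hh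
    rw [hs] at this
    exact this
  obtain ⟨h₀, hh₀, hmax⟩ := Finset.exists_max_image (insert 1 s) (fun h : M → Ω => ‖h z - h 0‖)
    ⟨1, Finset.mem_insert_self _ _⟩
  refine ⟨h₀, ?_, ?_⟩
  · rcases Finset.mem_insert.1 hh₀ with rfl | h
    · exact D.H.one_mem
    · exact hsH _ h
  · intro h' hh'
    have h1 : h' ∈ Submodule.span (RK p Ω I) (s : Set (M → Ω)) := by rw [hs]; exact hh'
    refine Submodule.span_induction (p := fun h' _ => ‖h' z - h' 0‖ ≤ ‖h₀ z - h₀ 0‖) ?_ ?_ ?_ ?_ h1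
    · intro x hx
      exact hmax x (Finset.mem_insert_of_mem hx)
    · simp
    · intro x y _ _ hx hy
      have : (x + y) z - (x + y) 0 = (x z - x 0) + (y z - y 0) := by
        rw [Pi.add_apply, Pi.add_apply]; ring
      rw [this]
      exact (norm_add_le_max p Ω I _ _).trans (max_le hx hy)
    · intro c x _ hx
      have : (c • x) z - (c • x) 0 = (c : Ω) * (x z - x 0) := by
        rw [Pi.smul_apply, Pi.smul_apply, smul_RK, smul_RK]; ring
      rw [this, norm_mul]
      calc ‖(c : Ω)‖ * ‖x z - x 0‖ ≤ 1 * ‖x z - x 0‖ :=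
            mul_le_mul_of_nonneg_right (norm_RK_le p Ω I c) (norm_nonneg _)
        _ = ‖x z - x 0‖ := one_mul _
        _ ≤ _ := hx

/-- The radius of a point: its distance to the origin. -/
def rad (z : M) : ℝ := ‖(D.exists_max z).choose z - (D.exists_max z).choose 0‖

theorem le_rad {h : M → Ω} (hh : h ∈ D.H) (z : M) : ‖h z - h 0‖ ≤ D.rad z :=
  (D.exists_max z).choose_spec.2 h hh

theorem exists_eq_rad (z : M) : ∃ h ∈ D.H, ‖h z - h 0‖ = D.rad z :=
  ⟨_, (D.exists_max z).choose_spec.1, rfl⟩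

theorem rad_nonneg (z : M) : 0 ≤ D.rad z := norm_nonneg _

theorem rad_le {z : M} {r : ℝ} (h : ∀ h ∈ D.H, ‖h z - h 0‖ ≤ r) : D.rad z ≤ r := by
  obtain ⟨h₀, hh₀, he⟩ := D.exists_eq_rad z
  rw [← he]; exact h _ hh₀

@[simp]
theorem rad_zero : D.rad 0 = 0 := by
  obtain ⟨h, -, he⟩ := D.exists_eq_rad 0
  rw [← he, sub_self, norm_zero]

theorem rad_pos {z : M} (hz : z ≠ 0) : 0 < D.rad z := by
  obtain ⟨h, hh, hne⟩ := D.sep z 0 hz
  exact (norm_pos_iff.2 (sub_ne_zero.2 hne)).trans_le (D.le_rad hh z)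

theorem rad_le_one (z : M) : D.rad z ≤ 1 := by
  obtain ⟨h, hh, he⟩ := D.exists_eq_rad z
  rw [← he]
  exact (norm_sub_le_max p Ω I _ _).trans (max_le (D.norm_le_one hh _) (D.norm_le_one hh _))

/-- Translation invariance. -/
theorem norm_add_sub_le {h : M → Ω} (hh : h ∈ D.H) (x z : M) : ‖h (x + z) - h x‖ ≤ D.rad z := by
  obtain ⟨ι, _, a, b, ha, hb, hab⟩ := D.comul h hh
  have h1 : h (x + z) - h x = ∑ i, a i x * (b i z - b i 0) := by
    have h2 := hab x 0
    rw [add_zero] at h2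
    rw [hab, h2, ← Finset.sum_sub_distrib]
    exact Finset.sum_congr rfl fun i _ => by ring
  rw [h1]
  apply norm_sum_le_of_le p Ω I _ _ (D.rad_nonneg z)
  intro i _
  rw [norm_mul]
  calc ‖a i x‖ * ‖b i z - b i 0‖ ≤ 1 * D.rad z :=
        mul_le_mul (D.norm_le_one (ha i) x) (D.le_rad (hb i) z) (norm_nonneg _) one_pos.le
    _ = D.rad z := one_mul _

theorem exists_norm_add_sub_eq (x z : M) : ∃ h ∈ D.H, ‖h (x + z) - h x‖ = D.rad z := by
  by_contra hcon
  push Not at hcon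
  have hlt : ∀ h ∈ D.H, ‖h (x + z) - h x‖ < D.rad z := fun h hh =>
    lt_of_le_of_ne (D.norm_add_sub_le hh x z) (hcon h hh)
  have hpos : 0 < D.rad z := by
    have := hlt 1 D.H.one_mem
    simpa using this
  obtain ⟨h, hh, he⟩ := D.exists_eq_rad z
  obtain ⟨ι, _, a, b, ha, hb, hab⟩ := D.comul h hh
  have h1 : h z - h 0 = ∑ i, a i (-x) * (b i (x + z) - b i x) := by
    have h2 := hab (-x) (x + z)
    rw [neg_add_cancel_left] at h2
    have h3 := hab (-x) x
    rw [neg_add_cancel] at h3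
    rw [h2, h3, ← Finset.sum_sub_distrib]
    exact Finset.sum_congr rfl fun i _ => by ring
  have h2 : ‖h z - h 0‖ < D.rad z := by
    rw [h1]
    apply norm_sum_lt_of_lt p Ω I _ _ hpos
    intro i _
    rw [norm_mul]
    calc ‖a i (-x)‖ * ‖b i (x + z) - b i x‖ ≤ 1 * ‖b i (x + z) - b i x‖ :=
          mul_le_mul_of_nonneg_right (D.norm_le_one (ha i) _) (norm_nonneg _)
      _ = ‖b i (x + z) - b i x‖ := one_mul _
      _ < D.rad z := hlt _ (hb i)
  exact absurd he h2.ne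

theorem rad_add_le (z z' : M) : D.rad (z + z') ≤ max (D.rad z) (D.rad z') := by
  apply D.rad_le
  intro h hh
  have : h (z + z') - h 0 = (h (z + z') - h z) + (h z - h 0) := by ring
  rw [this, max_comm]
  exact (norm_add_le_max p Ω I _ _).trans
    (max_le_max (D.norm_add_sub_le hh z z') (D.le_rad hh z))

@[simp]
theorem rad_neg (z : M) : D.rad (-z) = D.rad z := by
  have key : ∀ z : M, D.rad (-z) ≤ D.rad z := by
    intro z
    apply D.rad_le
    intro h hh
    have h1 := D.norm_add_sub_le hh (-z) z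
    rw [neg_add_cancel, norm_sub_rev] at h1
    exact h1
  apply le_antisymm (key z)
  have := key (-z)
  rwa [neg_neg] at this

/-- Inertia moves points within the residue disc. -/
theorem rad_smul_sub_lt_one (σ : I) (x : M) : D.rad (ρ σ x - x) < 1 := by
  obtain ⟨h, hh, he⟩ := D.exists_norm_add_sub_eq x (ρ σ x - x)
  rw [← he, add_sub_cancel, D.equi h hh]
  exact S.norm_smul_sub_lt σ _ (D.norm_le_one hh x)

theorem rad_smul (σ : I) (h0 : ρ σ 0 = 0) (x : M) : D.rad (ρ σ x) = D.rad x := by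
  have h1 : ∀ h ∈ D.H, ‖h (ρ σ x) - h 0‖ = ‖h x - h 0‖ := by
    intro h hh
    have h2 : h 0 = σ • h 0 := by
      rw [← D.equi h hh, h0]
    rw [D.equi h hh]
    nth_rewrite 1 [h2]
    rw [← smul_sub, S.norm_smul]
  apply le_antisymm
  · apply D.rad_le
    intro h hh
    rw [h1 h hh]
    exact D.le_rad hh x
  · apply D.rad_le
    intro h hh
    rw [← h1 h hh]
    exact D.le_rad hh _

/-! ### Newton differences -/

open fwdDiff in
theorem norm_fwdDiff_le (z : M) (k : ℕ) : ∀ h ∈ D.H, ∀ x : M,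
    ‖(fwdDiff z)^[k] h x‖ ≤ D.rad z ^ k := by
  induction k with
  | zero => intro h hh x; simpa using D.norm_le_one hh x
  | succ k ih =>
    intro h hh x
    obtain ⟨ι, _, a, b, ha, hb, hab⟩ := D.comul h hh
    have h1 : fwdDiff z h = ∑ i, (b i z - b i 0) • a i := by
      funext y
      rw [fwdDiff, Finset.sum_apply]
      have h2 := hab y 0
      rw [add_zero] at h2
      rw [hab, h2, ← Finset.sum_sub_distrib]
      exact Finset.sum_congr rfl fun i _ => by rw [Pi.smul_apply, smul_eq_mul]; ring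
    rw [Function.iterate_succ_apply, h1, fwdDiff_iter_finsetSum, Finset.sum_apply]
    apply norm_sum_le_of_le p Ω I _ _ (pow_nonneg (D.rad_nonneg z) _)
    intro i _
    rw [fwdDiff_iter_const_smul, Pi.smul_apply, smul_eq_mul, norm_mul, pow_succ']
    exact mul_le_mul (D.le_rad (hb i) z) (ih _ (ha i) x) (norm_nonneg _) (D.rad_nonneg z)

/-- If `z` is close to the origin then so is `p z`. -/
theorem norm_nsmul_sub (z : M) {h : M → Ω} (hh : h ∈ D.H) :
    ‖(h (p • z) - h 0) - p * (h z - h 0)‖ ≤ max ((p : ℝ)⁻¹ * D.rad z ^ 2) (D.rad z ^ p) := by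
  have hr0 := D.rad_nonneg z
  have hr1 := D.rad_le_one z
  have hp2 : 2 ≤ p := S.prime.two_le
  have hpp := p_pos p Ω I
  have h1 := shift_eq_sum_fwdDiff_iter z h p 0
  rw [zero_add] at h1
  obtain ⟨q, hq⟩ : ∃ q, p = q + 1 := ⟨p - 1, by omega⟩
  have h2 : ∑ k ∈ Finset.range (p + 1), p.choose k • (fwdDiff z)^[k] h 0 =
      ∑ k ∈ Finset.range q, p.choose (k + 2) • (fwdDiff z)^[k + 2] h 0 +
        (p : Ω) * (h z - h 0) + h 0 := by
    rw [Finset.sum_range_succ']
    conv_lhs => rw [hq, Finset.sum_range_succ', ← hq]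
    simp only [zero_add, Nat.choose_one_right, Function.iterate_one, Nat.choose_zero_right,
      one_smul, Function.iterate_zero, id_eq]
    rw [fwdDiff, zero_add, nsmul_eq_mul]
  rw [h2] at h1
  have h3 : (h (p • z) - h 0) - p * (h z - h 0) =
      ∑ k ∈ Finset.range q, p.choose (k + 2) • (fwdDiff z)^[k + 2] h 0 := by
    rw [h1]; ring
  rw [h3]
  apply norm_sum_le_of_le p Ω I
  · exact le_max_of_le_right (pow_nonneg hr0 _)
  · intro k hk
    rw [Finset.mem_range] at hk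
    have hΔ := D.norm_fwdDiff_le z (k + 2) h hh 0
    rw [nsmul_eq_mul, norm_mul]
    by_cases hkp : k + 2 = p
    · apply le_max_of_le_right
      rw [hkp] at hΔ ⊢
      calc ‖((p.choose p : ℕ) : Ω)‖ * ‖(fwdDiff z)^[p] h 0‖ ≤ 1 * D.rad z ^ p :=
            mul_le_mul (norm_natCast_le_one p Ω I _) hΔ (norm_nonneg _) one_pos.le
        _ = _ := one_mul _
    · apply le_max_of_le_left
      have hdvd : p ∣ p.choose (k + 2) := S.prime.dvd_choose_self (by omega) (by omega)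
      obtain ⟨c, hc⟩ := hdvd
      have h4 : ‖((p.choose (k + 2) : ℕ) : Ω)‖ ≤ (p : ℝ)⁻¹ := by
        rw [hc, Nat.cast_mul, norm_mul, S.norm_p]
        exact mul_le_of_le_one_right (inv_nonneg.2 hpp.le) (norm_natCast_le_one p Ω I c)
      exact mul_le_mul h4 (hΔ.trans (pow_le_pow_of_le_one hr0 hr1 (by omega))) (norm_nonneg _)
        (inv_nonneg.2 hpp.le)

/-- A nonzero point too close to the origin has `p z` even closer, but still nonzero. -/
theorem rad_nsmul {z : M} (hz : z ≠ 0) (hr : D.rad z < rho p) :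
    D.rad (p • z) = (p : ℝ)⁻¹ * D.rad z := by
  have hr0 := D.rad_pos hz
  have hpp := p_pos p Ω I
  have hr1 : D.rad z < 1 := hr.trans (rho_lt_one p Ω I)
  have hp2 : 2 ≤ p := S.prime.two_le
  have h1 : max ((p : ℝ)⁻¹ * D.rad z ^ 2) (D.rad z ^ p) < (p : ℝ)⁻¹ * D.rad z := by
    apply max_lt
    · apply mul_lt_mul_of_pos_left _ (inv_pos.2 hpp)
      nlinarith
    · have h2 : D.rad z ^ p = D.rad z ^ (p - 1) * D.rad z := by
        rw [← pow_succ]; congr 1; omega
      rw [h2]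
      apply mul_lt_mul_of_pos_right _ hr0
      rw [← rho_pow p Ω I]
      exact pow_lt_pow_left₀ hr hr0.le (by omega)
  apply le_antisymm
  · apply D.rad_le
    intro h hh
    have h2 : h (p • z) - h 0 = ((h (p • z) - h 0) - p * (h z - h 0)) + p * (h z - h 0) := by ring
    rw [h2]
    refine (norm_add_le_max p Ω I _ _).trans (max_le ((D.norm_nsmul_sub z hh).trans h1.le) ?_)
    rw [norm_mul, S.norm_p]
    exact mul_le_mul_of_nonneg_left (D.le_rad hh z) (inv_nonneg.2 hpp.le)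
  · obtain ⟨h, hh, he⟩ := D.exists_eq_rad z
    have h2 : h (p • z) - h 0 = p * (h z - h 0) + ((h (p • z) - h 0) - p * (h z - h 0)) := by ring
    have h3 : ‖(p : Ω) * (h z - h 0)‖ = (p : ℝ)⁻¹ * D.rad z := by
      rw [norm_mul, S.norm_p, he]
    have h4 := norm_add_eq_of_lt p Ω I (x := (p : Ω) * (h z - h 0))
      (y := (h (p • z) - h 0) - p * (h z - h 0))
      (((D.norm_nsmul_sub z hh).trans_lt h1).trans_eq h3.symm)
    rw [← h2, h3] at h4
    rw [← h4]
    exact D.le_rad hh _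

/-- **Key lemma.** A nonzero torsion point of `p`-power order is not too close to the origin. -/
theorem rho_le_rad {z : M} (hz : z ≠ 0) {n : ℕ} (hn : (p ^ n) • z = 0) : rho p ≤ D.rad z := by
  by_contra hlt
  push Not at hlt
  have hpp := p_pos p Ω I
  have key : ∀ m : ℕ, (p ^ m) • z ≠ 0 ∧ D.rad ((p ^ m) • z) < rho p := by
    intro m
    induction m with
    | zero => rw [pow_zero, one_smul]; exact ⟨hz, hlt⟩
    | succ m ih =>
      have h1 := D.rad_nsmul ih.1 ih.2
      rw [pow_succ', mul_smul]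
      constructor
      · intro h0
        rw [h0, D.rad_zero] at h1
        have := D.rad_pos ih.1
        have h2 := mul_pos (inv_pos.2 hpp) this
        rw [← h1] at h2
        exact lt_irrefl _ h2
      · rw [h1]
        calc (p : ℝ)⁻¹ * D.rad ((p ^ m) • z) ≤ 1 * D.rad ((p ^ m) • z) :=
              mul_le_mul_of_nonneg_right (inv_le_one_of_one_le₀ (one_lt_p p Ω I).le)
                (D.rad_nonneg _)
          _ = D.rad ((p ^ m) • z) := one_mul _
          _ < rho p := ih.2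
  exact (key n).1 hn

/-- **F1**: a nonzero inertia invariant `p`-power torsion point is not congruent to zero. -/
theorem rad_eq_one_of_fixed {z : M} (hz : z ≠ 0) {n : ℕ} (hn : (p ^ n) • z = 0)
    (h0 : ∀ σ : I, ρ σ 0 = 0) (hfix : ∀ σ : I, ρ σ z = z) : D.rad z = 1 := by
  obtain ⟨h, hh, he⟩ := D.exists_eq_rad z
  have hpos := D.rad_pos hz
  have hne : h z - h 0 ≠ 0 := by
    rw [← norm_pos_iff, he]; exact hpos
  obtain ⟨m, hm⟩ := S.norm_fixed (h z - h 0) hne fun σ => by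
    rw [smul_sub, ← D.equi h hh, ← D.equi h hh, hfix, h0]
  have h1 := D.rho_le_rad hz hn
  have h2 := D.rad_le_one z
  rw [he] at hm
  have h3 := inv_lt_rho p Ω I
  rw [hm] at h1 h2 ⊢
  have hm0 : m ≤ 0 := by
    by_contra h
    push Not at h
    exact absurd h2 (not_le.2 (one_lt_zpow₀ (one_lt_p p Ω I) h))
  have hm1 : -1 < m := by
    by_contra h
    push Not at h
    have h4 : (p : ℝ) ^ m ≤ (p : ℝ) ^ (-1 : ℤ) := zpow_le_zpow_right₀ (one_lt_p p Ω I).le h
    rw [zpow_neg_one] at h4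
    exact absurd (h1.trans h4) (not_le.2 h3)
  have : m = 0 := by omega
  rw [this, zpow_zero]

end Ord

end Fermat.Agent.Flat
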