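import Mathlib
import Fermat.Agent.Flat.Local
import Fermat.Agent.Flat.Order

set_option autoImplicit false

/-!
# The inertia group of `PadicAlgCl p / ℚ_[p]` is an instance of `Setting`
-/

namespace Fermat.Agent.Flat

open Loc

variable {p : ℕ} [hp : Fact p.Prime]

theorem setting_padic (hp2 : p ≠ 2) : Setting p (PadicAlgCl p) (inert p) where
  prime := hp.out
  odd := hp2
  ultra := inferInstance
  charZero := inferInstance
  isAlgClosed := inferInstance
  norm_smul σ x := norm_aut σ.1 x
  norm_p := by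
    have h : algebraMap ℚ_[p] (PadicAlgCl p) (p : ℚ_[p]) = (p : PadicAlgCl p) :=
      map_natCast (algebraMap ℚ_[p] (PadicAlgCl p)) p
    have h1 := PadicAlgCl.norm_extends p (p : ℚ_[p])
    rw [← h]
    exact h1.trans Padic.norm_p
  norm_smul_sub_lt σ x hx := σ.2 x hx
  norm_fixed x hx0 hx := exists_norm_eq_zpow hx0 fun g hg => hx ⟨g, hg⟩
  exists_fixed_near x hx := by
    obtain ⟨s, hs, hxs, -⟩ := exists_fixed_approx hx
    exact ⟨s, fun σ => hs σ.1 σ.2, hxs⟩

end Fermat.Agent.Flat
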