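import Fermat.Agent.Flat.Quot

/-!
# Characters, quotients and products of orders
-/

set_option autoImplicit false
set_option linter.unusedSectionVars false
set_option linter.style.haveILetI false

noncomputable section

namespace Fermat.Agent.Flat

variable {p : ℕ} {Ω : Type} [NormedField Ω] {I : Type} [Group I] [MulSemiringAction I Ω]
    [S : Setting p Ω I]

section Ch

/-- The characters of `M`. -/
abbrev Ch (Ω : Type) [NormedField Ω] (M : Type) [AddCommGroup M] : Type := M →+ Additive Ωˣ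

variable {M : Type} [AddCommGroup M] {ρ : I → M → M}

/-- evaluation of characters -/
def ce (x : M) (χ : Ch Ω M) : Ω := ((χ x).toMul : Ω)

theorem ce_add_left (x x' : M) (χ : Ch Ω M) : ce (x + x') χ = ce x χ * ce x' χ := by
  simp [ce]

theorem ce_add_right (x : M) (χ χ' : Ch Ω M) : ce x (χ + χ') = ce x χ * ce x χ' := by
  simp [ce]

theorem ce_zero_left (χ : Ch Ω M) : ce (0 : M) χ = 1 := by simp [ce]

theorem ce_zero_right (x : M) : ce x (0 : Ch Ω M) = 1 := by simp [ce]

theorem ce_ext {χ χ' : Ch Ω M} (h : ∀ x, ce x χ = ce x χ') : χ = χ' := by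
  ext x
  exact h x

/-- The action on characters. -/
def cact (h : IsAct ρ) (σ : I) (χ : Ch Ω M) : Ch Ω M :=
  AddMonoidHom.mk' (fun x => Additive.ofMul
    (Units.map (MulSemiringAction.toRingHom I Ω σ : Ω →* Ω) (χ (ρ σ⁻¹ x)).toMul)) fun x y => by
      rw [h.add, map_add, toMul_add, map_mul, ofMul_mul]

theorem ce_cact (h : IsAct ρ) (σ : I) (x : M) (χ : Ch Ω M) :
    ce x (cact h σ χ) = σ • ce (ρ σ⁻¹ x) χ := rfl

theorem isAct_cact (h : IsAct ρ) : IsAct (cact (Ω := Ω) h) where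
  one χ := ce_ext fun x => by rw [ce_cact, inv_one, h.one, one_smul]
  mul σ τ χ := ce_ext fun x => by
    rw [ce_cact, ce_cact, ce_cact, mul_inv_rev, h.mul, mul_smul]
  add σ χ χ' := ce_ext fun x => by
    rw [ce_cact, ce_add_right, ce_add_right, ce_cact, ce_cact, smul_mul']

theorem isPairing_ce (h : IsAct ρ) : Ord.IsPairing (I := I) ρ (cact (Ω := Ω) h) ce where
  add_left := ce_add_left
  add_right := ce_add_right
  zero_left := ce_zero_left
  zero_right := ce_zero_right
  smul σ x χ := by rw [ce_cact, h.inv_apply]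

variable (p Ω I) in
include S in
theorem ce_separates [Finite M] {x : M} (hx : x ≠ 0) : ∃ χ : Ch Ω M, ce x χ ≠ 1 := by
  haveI := S.charZero
  haveI := S.isAlgClosed
  haveI : NeZero (Monoid.exponent (Multiplicative M)) := ⟨Monoid.exponent_ne_zero_of_finite⟩
  haveI : NeZero ((Monoid.exponent (Multiplicative M) : ℕ) : Ω) :=
    ⟨by exact_mod_cast NeZero.ne _⟩
  obtain ⟨φ, hφ⟩ := CommGroup.exists_apply_ne_one_of_hasEnoughRootsOfUnity (Multiplicative M) Ω
    (a := Multiplicative.ofAdd x) (fun h => hx (by simpa using h))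
  refine ⟨AddMonoidHom.mk' (fun y => Additive.ofMul (φ (Multiplicative.ofAdd y))) fun y y' => by
    rw [ofAdd_add, map_mul, ofMul_mul], fun h => hφ (Units.ext h)⟩

variable (p Ω I) in
include S in
theorem finite_ch [Finite M] : Finite (Ch Ω M) := by
  haveI := S.charZero
  haveI := S.isAlgClosed
  haveI : NeZero (Monoid.exponent (Multiplicative M)) := ⟨Monoid.exponent_ne_zero_of_finite⟩
  haveI : NeZero ((Monoid.exponent (Multiplicative M) : ℕ) : Ω) :=
    ⟨by exact_mod_cast NeZero.ne _⟩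
  obtain ⟨E⟩ := CommGroup.monoidHom_mulEquiv_of_hasEnoughRootsOfUnity (Multiplicative M) Ω
  haveI : Finite (Multiplicative M →* Ωˣ) := Finite.of_equiv _ E.symm.toEquiv
  exact Finite.of_injective (fun χ : Ch Ω M => (AddMonoidHom.toMultiplicativeLeft χ :
    Multiplicative M →* Ωˣ)) (Equiv.injective _)

end Ch

namespace Ord

section Quot

variable {M : Type} [AddCommGroup M] [Finite M] {ρ : I → M → M} (D : Ord p Ω I ρ)
  {Q : Type} [AddCommGroup Q] {ρQ : I → Q → Q}

/-- The quotient order. -/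
theorem exists_quot (hρ : IsAct ρ) (hQ : IsAct ρQ) (π : M →+ Q) (hπ : Function.Surjective π)
    (heq : ∀ σ x, π (ρ σ x) = ρQ σ (π x)) :
    ∃ DQ : Ord p Ω I ρQ, ∀ g ∈ DQ.H, (fun x => g (π x)) ∈ D.H := by
  haveI : Finite Q := Finite.of_surjective π hπ
  haveI := finite_ch p Ω I (M := Q)
  obtain ⟨D', hD'⟩ := D.exists_dual hρ.zero ce (isPairing_ce (Ω := Ω) hρ) fun _ _ => ce_ext
  let j : Ch Ω Q →+ Ch Ω M := AddMonoidHom.mk' (fun χ => χ.comp π) fun _ _ => rfl
  have hj : Function.Injective j := by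
    intro χ χ' h
    apply ce_ext
    intro q
    obtain ⟨x, rfl⟩ := hπ q
    exact congrArg (fun f : Ch Ω M => ce x f) h
  have hje : ∀ σ χ, j (cact hQ σ χ) = cact hρ σ (j χ) := by
    intro σ χ
    apply ce_ext
    intro x
    rw [ce_cact]
    change ce (π x) (cact hQ σ χ) = σ • ce (π (ρ σ⁻¹ x)) χ
    rw [ce_cact, heq]
  let DR := D'.restrict j hj hje
  obtain ⟨DQ, hDQ⟩ := DR.exists_dual (isAct_cact hQ).zero (fun (χ : Ch Ω Q) q => ce q χ)
    (isPairing_ce (Ω := Ω) hQ).flip (fun q q' h => by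
      by_contra hne
      obtain ⟨χ, hχ⟩ := ce_separates p Ω I (sub_ne_zero.2 hne)
      apply hχ
      have h1 := ce_add_left (q - q') q' χ
      rw [sub_add_cancel, h χ] at h1
      have h2 : ce q' χ ≠ 0 := Units.ne_zero _
      exact mul_right_cancel₀ h2 (h1.symm.trans (one_mul _).symm))
  refine ⟨DQ, fun g hg => ?_⟩
  obtain ⟨⟨n, h, φ, hh, hφ, he⟩, -⟩ := hD'
  obtain ⟨c, hc⟩ := hDQ.2 M π n h (fun l χ => φ l (j χ))
    (fun l => D'.mem_restrict.2 ⟨_, hφ l, rfl⟩) (fun χ x => by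
      change ce (π x) χ = _
      have : ce (π x) χ = ce x (j χ) := rfl
      rw [this, he]
      exact Finset.sum_congr rfl fun i _ => mul_comm _ _) g hg
  have h1 : (fun x => g (π x)) = ∑ l, c l • h l := by
    funext x
    rw [hc, Finset.sum_apply]
    exact Finset.sum_congr rfl fun l _ => rfl
  rw [h1]
  exact Subalgebra.sum_mem _ fun l _ => Subalgebra.smul_mem _ (hh l) _

theorem rad_quot {DQ : Ord p Ω I ρQ} {π : M →+ Q} (h : ∀ g ∈ DQ.H, (fun x => g (π x)) ∈ D.H)
    (x : M) : DQ.rad (π x) ≤ D.rad x := by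
  apply DQ.rad_le
  intro g hg
  have := D.le_rad (h g hg) x
  rwa [map_zero] at this

end Quot

section Prod

variable {M : Type} [AddCommGroup M] {ρ : I → M → M} (D : Ord p Ω I ρ)
  {N : Type} [AddCommGroup N] {ρ' : I → N → N} (D' : Ord p Ω I ρ')

/-- Functions whose comultiplication lies in `H ⊗ H`. -/
def comulClosed {R Ω X : Type} [CommRing R] [Field Ω] [Algebra R Ω] [Add X]
    (H : Subalgebra R (X → Ω)) : Subalgebra R (X → Ω) where
  carrier := {h | ∃ (ι : Type) (_ : Fintype ι) (a b : ι → X → Ω), (∀ i, a i ∈ H) ∧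
    (∀ i, b i ∈ H) ∧ ∀ x y, h (x + y) = ∑ i, a i x * b i y}
  mul_mem' := by
    rintro h h' ⟨ι, _, a, b, ha, hb, hab⟩ ⟨ι', _, a', b', ha', hb', hab'⟩
    refine ⟨ι × ι', inferInstance, fun i => a i.1 * a' i.2, fun i => b i.1 * b' i.2,
      fun i => H.mul_mem (ha _) (ha' _), fun i => H.mul_mem (hb _) (hb' _), fun x y => ?_⟩
    rw [Pi.mul_apply, hab, hab', Finset.sum_mul_sum, Fintype.sum_prod_type]
    refine Finset.sum_congr rfl fun i _ => Finset.sum_congr rfl fun j _ => ?_
    change _ = (a i x * a' j x) * (b i y * b' j y)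
    ring
  add_mem' := by
    rintro h h' ⟨ι, _, a, b, ha, hb, hab⟩ ⟨ι', _, a', b', ha', hb', hab'⟩
    refine ⟨ι ⊕ ι', inferInstance, Sum.elim a a', Sum.elim b b', ?_, ?_, fun x y => ?_⟩
    · rintro (i | i)
      · exact ha i
      · exact ha' i
    · rintro (i | i)
      · exact hb i
      · exact hb' i
    · rw [Pi.add_apply, hab, hab', Fintype.sum_sum_type]
      rfl
  algebraMap_mem' := by
    intro r
    refine ⟨Unit, inferInstance, fun _ => algebraMap R (X → Ω) r, fun _ => 1,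
      fun _ => H.algebraMap_mem r, fun _ => H.one_mem, fun x y => ?_⟩
    simp

/-- Equivariant functions. -/
def equiClosed (p : ℕ) (Ω : Type) [NormedField Ω] (I : Type) [Group I] [MulSemiringAction I Ω]
    [Setting p Ω I] {X : Type} (ρ : I → X → X) : Subalgebra (RK p Ω I) (X → Ω) where
  carrier := {h | ∀ (σ : I) x, h (ρ σ x) = σ • h x}
  mul_mem' := by
    intro h h' hh hh' σ x
    rw [Pi.mul_apply, Pi.mul_apply, hh, hh', smul_mul']
  add_mem' := by
    intro h h' hh hh' σ x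
    rw [Pi.add_apply, Pi.add_apply, hh, hh', smul_add]
  algebraMap_mem' := by
    intro r σ x
    exact (r.2.2 σ).symm

/-- The product order. -/
def prod : Ord p Ω I (fun σ (x : M × N) => (ρ σ x.1, ρ' σ x.2)) where
  H := D.H.map (Fermat.Agent.HopfOrder.pull (RK p Ω I) Ω Prod.fst) ⊔
    D'.H.map (Fermat.Agent.HopfOrder.pull (RK p Ω I) Ω Prod.snd)
  fg := by
    rw [← Subalgebra.mul_toSubmodule]
    exact (D.fg.map (Fermat.Agent.HopfOrder.pull (RK p Ω I) Ω Prod.fst).toLinearMap).mul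
      (D'.fg.map (Fermat.Agent.HopfOrder.pull (RK p Ω I) Ω Prod.snd).toLinearMap)
  equi := by
    intro h hh
    have hle : D.H.map (Fermat.Agent.HopfOrder.pull (RK p Ω I) Ω Prod.fst) ⊔
        D'.H.map (Fermat.Agent.HopfOrder.pull (RK p Ω I) Ω Prod.snd) ≤
        equiClosed p Ω I (fun σ (x : M × N) => (ρ σ x.1, ρ' σ x.2)) := by
      apply sup_le
      · rintro _ ⟨h, hh, rfl⟩ σ x
        exact D.equi h hh σ x.1
      · rintro _ ⟨h, hh, rfl⟩ σ x
        exact D'.equi h hh σ x.2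
    exact hle hh
  comul := by
    intro h hh
    have hle : D.H.map (Fermat.Agent.HopfOrder.pull (RK p Ω I) Ω Prod.fst) ⊔
        D'.H.map (Fermat.Agent.HopfOrder.pull (RK p Ω I) Ω Prod.snd) ≤
        comulClosed (D.H.map (Fermat.Agent.HopfOrder.pull (RK p Ω I) Ω Prod.fst) ⊔
          D'.H.map (Fermat.Agent.HopfOrder.pull (RK p Ω I) Ω Prod.snd)) := by
      apply sup_le
      · rintro _ ⟨h, hh, rfl⟩
        obtain ⟨ι, _, a, b, ha, hb, hab⟩ := D.comul h hh
        exact ⟨ι, inferInstance, fun i x => a i x.1, fun i x => b i x.1,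
          fun i => le_sup_left (a := D.H.map _) ⟨a i, ha i, rfl⟩,
          fun i => le_sup_left (a := D.H.map _) ⟨b i, hb i, rfl⟩, fun x y => hab x.1 y.1⟩
      · rintro _ ⟨h, hh, rfl⟩
        obtain ⟨ι, _, a, b, ha, hb, hab⟩ := D'.comul h hh
        exact ⟨ι, inferInstance, fun i x => a i x.2, fun i x => b i x.2,
          fun i => le_sup_right (b := D'.H.map _) ⟨a i, ha i, rfl⟩,
          fun i => le_sup_right (b := D'.H.map _) ⟨b i, hb i, rfl⟩, fun x y => hab x.2 y.2⟩
    exact hle hh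
  sep := by
    rintro ⟨x, y⟩ ⟨x', y'⟩ hne
    by_cases hx : x = x'
    · subst hx
      have hy : y ≠ y' := fun h => hne (by rw [h])
      obtain ⟨h, hh, hn⟩ := D'.sep y y' hy
      exact ⟨fun z => h z.2, le_sup_right (b := D'.H.map _) ⟨h, hh, rfl⟩, hn⟩
    · obtain ⟨h, hh, hn⟩ := D.sep x x' hx
      exact ⟨fun z => h z.1, le_sup_left (a := D.H.map _) ⟨h, hh, rfl⟩, hn⟩

end Prod

end Ord

end Fermat.Agent.Flat
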