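import Fermat.Agent.Flat.Res

/-!
# The connected part
-/

set_option autoImplicit false
set_option linter.unusedSectionVars false
set_option linter.style.haveILetI false

noncomputable section

namespace Fermat.Agent.Flat

variable {p : ℕ} {Ω : Type} [NormedField Ω] {I : Type} [Group I] [MulSemiringAction I Ω]
    [S : Setting p Ω I]

namespace Ord

variable {M : Type} [AddCommGroup M] {ρ : I → M → M} (D : Ord p Ω I ρ)

/-- The points of radius at most `r`. -/
def disc (r : ℝ) (hr : 0 ≤ r) : AddSubgroup M where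
  carrier := {z | D.rad z ≤ r}
  add_mem' {a b} ha hb := (D.rad_add_le a b).trans (max_le ha hb)
  zero_mem' := by change D.rad 0 ≤ r; rwa [rad_zero]
  neg_mem' {a} ha := by change D.rad (-a) ≤ r; rwa [rad_neg]

theorem mem_disc {r : ℝ} {hr : 0 ≤ r} {z : M} : z ∈ D.disc r hr ↔ D.rad z ≤ r := Iff.rfl

/-- The connected part. -/
def conn : AddSubgroup M where
  carrier := {z | D.rad z < 1}
  add_mem' {a b} ha hb := (D.rad_add_le a b).trans_lt (max_lt ha hb)
  zero_mem' := by change D.rad 0 < 1; rw [rad_zero]; exact zero_lt_one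
  neg_mem' {a} ha := by change D.rad (-a) < 1; rwa [rad_neg]

theorem mem_conn {z : M} : z ∈ D.conn ↔ D.rad z < 1 := Iff.rfl

theorem smul_mem_conn (hρ : IsAct ρ) (σ : I) {z : M} (hz : z ∈ D.conn) : ρ σ z ∈ D.conn := by
  rw [mem_conn, D.rad_smul σ (hρ.zero σ)]
  exact hz

theorem smul_sub_mem_conn (σ : I) (z : M) : ρ σ z - z ∈ D.conn := D.rad_smul_sub_lt_one σ z

/-- The connected part is the smallest subgroup such that inertia acts trivially on the
quotient. -/
theorem conn_le [Finite M] (hρ : IsAct ρ) {n : ℕ} (hn : ∀ z : M, p ^ n • z = 0)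
    (N : AddSubgroup M) (hN : ∀ σ x, ρ σ x - x ∈ N) : D.conn ≤ N := by
  have hQ : IsAct (I := I) (M := M ⧸ N) (fun _ q => q) :=
    ⟨fun _ => rfl, fun _ _ _ => rfl, fun _ _ _ => rfl⟩
  obtain ⟨DQ, hDQ⟩ := D.exists_quot hρ hQ (QuotientAddGroup.mk' N)
    (QuotientAddGroup.mk'_surjective N) fun σ x => by
      change (QuotientAddGroup.mk (ρ σ x) : M ⧸ N) = QuotientAddGroup.mk x
      rw [eq_comm, QuotientAddGroup.eq, neg_add_eq_sub]
      exact hN σ x
  intro z hz
  by_contra hzN
  have h1 : (QuotientAddGroup.mk' N z) ≠ 0 := by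
    intro h
    exact hzN ((QuotientAddGroup.eq_zero_iff z).1 h)
  have h2 : DQ.rad (QuotientAddGroup.mk' N z) = 1 :=
    DQ.rad_eq_one_of_fixed h1 (n := n) (by rw [← map_nsmul, hn, map_zero]) (fun _ => rfl)
      fun _ => rfl
  have h3 := D.rad_quot hDQ z
  rw [h2] at h3
  exact absurd hz (not_lt.2 h3)

/-- Invariants are not connected. -/
theorem eq_zero_of_fixed {n : ℕ} (hρ : IsAct ρ) (hn : ∀ z : M, p ^ n • z = 0) {z : M}
    (hz : z ∈ D.conn) (hfix : ∀ σ, ρ σ z = z) : z = 0 := by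
  by_contra h0
  have := D.rad_eq_one_of_fixed h0 (hn z) hρ.zero hfix
  rw [mem_conn, this] at hz
  exact lt_irrefl _ hz

end Ord

end Fermat.Agent.Flat
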