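import Fermat.Agent.Flat.LocalSetting
import Fermat.Prelude.Def_GaloisRep_Flat
import Fermat.Prelude.Def_GaloisRep_CompletionBridge

/-!
# From Hopf algebras over `ℤ_(p)` to orders of functions for the inertia group
-/

set_option autoImplicit false
set_option linter.unusedSectionVars false

noncomputable section

namespace Fermat.Agent.Flat

open GaloisRep Loc
open scoped TensorProduct

section General

variable {p : ℕ} [hp : Fact p.Prime] {M : Type} [AddCommGroup M]
  {H : Type} [CommRing H] [HopfAlgebra (ratLocalizedAt p) H] [Module.Finite (ratLocalizedAt p) H]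
  (e : WithConv (H →ₐ[ratLocalizedAt p] AlgebraicClosure ℚ) ≃ M)

/-- The function on the points attached to an element of the Hopf algebra. -/
def ptFun (h : H) : M → PadicAlgCl p := fun x => padicEmbedding p ((e.symm x).ofConv h)

theorem ptFun_mul (h h' : H) : ptFun e (h * h') = ptFun e h * ptFun e h' := by
  funext x
  simp only [ptFun, Pi.mul_apply, map_mul]

theorem ptFun_one : ptFun e (1 : H) = 1 := by
  funext x
  simp only [ptFun, Pi.one_apply, map_one]

theorem ptFun_add (h h' : H) : ptFun e (h + h') = ptFun e h + ptFun e h' := by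
  funext x
  simp only [ptFun, Pi.add_apply, map_add]

/-- Rational numbers with denominator prime to `p` have norm at most one. -/
theorem norm_rat_le (r : ratLocalizedAt p) :
    ‖padicEmbedding p (algebraMap (ratLocalizedAt p) (AlgebraicClosure ℚ) r)‖ ≤ 1 := by
  obtain ⟨q, hq⟩ := r
  have h1 : padicEmbedding p (algebraMap (ratLocalizedAt p) (AlgebraicClosure ℚ) ⟨q, hq⟩) =
      algebraMap ℚ_[p] (PadicAlgCl p) (q : ℚ_[p]) := by
    have h2 : algebraMap (ratLocalizedAt p) (AlgebraicClosure ℚ) ⟨q, hq⟩ =
        algebraMap ℚ (AlgebraicClosure ℚ) q := rfl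
    rw [h2, AlgHom.commutes, eq_ratCast]
    exact (map_ratCast (algebraMap ℚ_[p] (PadicAlgCl p)) q).symm
  rw [h1]
  have h2 := PadicAlgCl.norm_extends p (q : ℚ_[p])
  refine le_of_eq_of_le h2 ?_
  exact Padic.norm_rat_le_one (by
    intro hdvd
    exact hp.out.one_lt.ne' (Nat.Coprime.eq_one_of_dvd (Nat.Coprime.symm hq) hdvd))

variable (hp2 : p ≠ 2)

theorem rat_fixed (σ : PadicAlgCl p ≃ₐ[ℚ_[p]] PadicAlgCl p) (r : ratLocalizedAt p) :
    σ (padicEmbedding p (algebraMap (ratLocalizedAt p) (AlgebraicClosure ℚ) r)) =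
      padicEmbedding p (algebraMap (ratLocalizedAt p) (AlgebraicClosure ℚ) r) := by
  have h2 : algebraMap (ratLocalizedAt p) (AlgebraicClosure ℚ) r =
      algebraMap ℚ (AlgebraicClosure ℚ) (r : ℚ) := rfl
  rw [h2, AlgHom.commutes, eq_ratCast, map_ratCast]

include hp2 in
/-- **Conversion.** -/
theorem exists_ord (he : ∀ f g, e (f * g) = e f + e g)
    (act : (AlgebraicClosure ℚ ≃ₐ[ℚ] AlgebraicClosure ℚ) → M → M)
    (hact : ∀ (σ : AlgebraicClosure ℚ ≃ₐ[ℚ] AlgebraicClosure ℚ)
      (f g : WithConv (H →ₐ[ratLocalizedAt p] AlgebraicClosure ℚ)),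
      (∀ h : H, g h = σ (f h)) → e g = act σ (e f)) :
    haveI := setting_padic hp2
    Nonempty (Ord p (PadicAlgCl p) (inert p)
      (fun s (x : M) => act (localGaloisToGlobal p s.1) x)) := by
  have := setting_padic hp2
  let S : Submodule (RK p (PadicAlgCl p) (inert p)) (M → PadicAlgCl p) :=
    Submodule.span _ (Set.range (ptFun e))
  have hmem : ∀ h : H, ptFun e h ∈ S := fun h => Submodule.subset_span ⟨h, rfl⟩
  let ratRK : ratLocalizedAt p → RK p (PadicAlgCl p) (inert p) := fun r =>
    ⟨padicEmbedding p (algebraMap (ratLocalizedAt p) (AlgebraicClosure ℚ) r), norm_rat_le r,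
      fun σ => rat_fixed σ.1 r⟩
  have hsmul : ∀ (r : ratLocalizedAt p) (h : H), ptFun e (r • h) = ratRK r • ptFun e h := by
    intro r h
    funext x
    rw [Pi.smul_apply, smul_RK]
    simp only [ptFun, ratRK, Algebra.smul_def, map_mul, AlgHom.commutes]
  have hsymm : ∀ x y, e.symm (x + y) = e.symm x * e.symm y := by
    intro x y
    rw [Equiv.symm_apply_eq, he, Equiv.apply_symm_apply, Equiv.apply_symm_apply]
  have hcomul1 : ∀ h : H, ∃ (ι : Type) (_ : Fintype ι) (a b : ι → H), ∀ x y,
      ptFun e h (x + y) = ∑ i, ptFun e (a i) x * ptFun e (b i) y := by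
    intro h
    obtain ⟨ι, s, a, b, hab⟩ : ∃ (ι : Type) (s : Fintype ι) (a b : ι → H),
        Coalgebra.comul (R := ratLocalizedAt p) h = ∑ i, a i ⊗ₜ[ratLocalizedAt p] b i := by
      obtain ⟨s, hs⟩ := TensorProduct.exists_finset (Coalgebra.comul (R := ratLocalizedAt p) h)
      refine ⟨s, inferInstance, fun i => i.1.1, fun i => i.1.2, ?_⟩
      rw [hs]
      exact (Finset.sum_coe_sort s fun i => i.1 ⊗ₜ[ratLocalizedAt p] i.2).symm
    refine ⟨ι, s, a, b, fun x y => ?_⟩
    have h4 := AlgHom.convMul_apply (e.symm x) (e.symm y) h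
    have h5 : ptFun e h (x + y) = padicEmbedding p ((e.symm x * e.symm y) h) := by
      rw [← hsymm]
      rfl
    rw [h5, h4, hab, map_sum, map_sum]
    refine Finset.sum_congr rfl fun i _ => ?_
    rw [Algebra.TensorProduct.lift_tmul, map_mul]
    rfl
  have hone : (1 : M → PadicAlgCl p) ∈ S := by
    rw [← ptFun_one e]; exact hmem 1
  have hmul : ∀ f g : M → PadicAlgCl p, f ∈ S → g ∈ S → f * g ∈ S := by
    intro f g hf hg
    have h1 := Submodule.mul_mem_mul hf hg
    rw [Submodule.span_mul_span] at h1
    refine Submodule.span_mono ?_ h1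
    rintro _ ⟨_, ⟨h, rfl⟩, _, ⟨h', rfl⟩, rfl⟩
    exact ⟨h * h', ptFun_mul e h h'⟩
  refine ⟨{ H := S.toSubalgebra hone hmul
            fg := ?_
            equi := ?_
            comul := ?_
            sep := ?_ }⟩
  · -- finite generation
    obtain ⟨t, ht⟩ := (Module.Finite.fg_top : (⊤ : Submodule (ratLocalizedAt p) H).FG)
    classical
    refine ⟨t.image (ptFun e), ?_⟩
    have h1 : Subalgebra.toSubmodule (S.toSubalgebra hone hmul) = S := rfl
    rw [h1]
    apply le_antisymm
    · rw [Submodule.span_le]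
      intro f hf
      rw [Finset.coe_image] at hf
      obtain ⟨h, -, rfl⟩ := hf
      exact hmem h
    · rw [Submodule.span_le]
      rintro _ ⟨h, rfl⟩
      have hh : h ∈ Submodule.span (ratLocalizedAt p) (t : Set H) := by rw [ht]; trivial
      induction hh using Submodule.span_induction with
      | mem x hx =>
        exact Submodule.subset_span (by rw [Finset.coe_image]; exact ⟨x, hx, rfl⟩)
      | zero =>
        have : ptFun e (0 : H) = 0 := by
          funext x
          simp only [ptFun, map_zero, Pi.zero_apply]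
        rw [this]
        exact Submodule.zero_mem _
      | add x y _ _ hx hy =>
        rw [ptFun_add]
        exact Submodule.add_mem _ hx hy
      | smul r x _ hx =>
        rw [hsmul]
        exact Submodule.smul_mem _ _ hx
  · -- equivariance
    intro f hf σ x
    change f ∈ S at hf
    induction hf using Submodule.span_induction with
    | mem f hf =>
      obtain ⟨h, rfl⟩ := hf
      let g : H →ₐ[ratLocalizedAt p] AlgebraicClosure ℚ :=
        ((localGaloisToGlobal p σ.1).toAlgHom.restrictScalars (ratLocalizedAt p)).comp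
          (e.symm x).ofConv
      have h1 := hact (localGaloisToGlobal p σ.1) (e.symm x) (WithConv.toConv g) (fun h => rfl)
      rw [Equiv.apply_symm_apply] at h1
      have h2 : e.symm (act (localGaloisToGlobal p σ.1) x) = WithConv.toConv g := by
        rw [← h1, Equiv.symm_apply_apply]
      simp only [ptFun, h2]
      exact padicEmbedding_localGaloisToGlobal p σ.1 ((e.symm x).ofConv h)
    | zero => simp
    | add f g _ _ hf hg => rw [Pi.add_apply, Pi.add_apply, hf, hg, smul_add]
    | smul c f _ hf =>
      rw [Pi.smul_apply, Pi.smul_apply, smul_RK, smul_RK, hf, smul_mul', c.2.2 σ]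
  · -- comultiplication
    intro f hf
    change f ∈ S at hf
    induction hf using Submodule.span_induction with
    | mem f hf =>
      obtain ⟨h, rfl⟩ := hf
      obtain ⟨ι, s, a, b, hab⟩ := hcomul1 h
      exact ⟨ι, s, fun i => ptFun e (a i), fun i => ptFun e (b i), fun i => hmem _,
        fun i => hmem _, hab⟩
    | zero => exact ⟨PEmpty, inferInstance, fun i => i.elim, fun i => i.elim, fun i => i.elim,
        fun i => i.elim, fun x y => by simp⟩
    | add f g _ _ hf hg =>
      obtain ⟨ι, s, a, b, ha, hb, hab⟩ := hf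
      obtain ⟨κ, t, c, d, hc, hd, hcd⟩ := hg
      refine ⟨ι ⊕ κ, inferInstance, Sum.elim a c, Sum.elim b d, ?_, ?_, fun x y => ?_⟩
      · rintro (i | i)
        · exact ha i
        · exact hc i
      · rintro (i | i)
        · exact hb i
        · exact hd i
      · rw [Pi.add_apply, hab, hcd, Fintype.sum_sum_type]
        rfl
    | smul r f _ hf =>
      obtain ⟨ι, s, a, b, ha, hb, hab⟩ := hf
      refine ⟨ι, s, fun i => r • a i, b, fun i => Subalgebra.smul_mem _ (ha i) r, hb,
        fun x y => ?_⟩
      rw [Pi.smul_apply, hab, Finset.smul_sum]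
      refine Finset.sum_congr rfl fun i _ => ?_
      change (r : PadicAlgCl p) * (a i x * b i y) = (r : PadicAlgCl p) * a i x * b i y
      rw [mul_assoc]
  · -- separation of points
    intro x y hxy
    by_contra hcon
    push Not at hcon
    apply hxy
    apply e.symm.injective
    have h1 : ∀ h, (e.symm x).ofConv h = (e.symm y).ofConv h := fun h =>
      (padicEmbedding p).injective (hcon (ptFun e h) (hmem h))
    exact congrArg WithConv.toConv (AlgHom.ext h1)

end General

section Rep

variable {p : ℕ} [hp : Fact p.Prime]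

/-- Flat representations with finite coefficients carry an order of functions for inertia. -/
theorem exists_ord_of_isFlatAt (hp2 : p ≠ 2) {A : Type} [CommRing A] [IsLocalRing A] [Finite A]
    (ρ : GaloisRepAdic A) (h : ρ.IsFlatAt p) :
    haveI := setting_padic hp2
    Nonempty (Ord p (PadicAlgCl p) (inert p)
      (fun s (x : ρ.V) => ρ.ρ (localGaloisToGlobal p s.1) x)) := by
  obtain ⟨H, i1, i2, h1, -, -, e, he, hact⟩ := h.2 ⊥
    (Finite.of_surjective (Ideal.Quotient.mk (⊥ : Ideal A)) Ideal.Quotient.mk_surjective)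
  let q : (ρ.V ⧸ ((⊥ : Ideal A) • (⊤ : Submodule A ρ.V))) ≃ₗ[A] ρ.V :=
    Submodule.quotEquivOfEqBot _ (Submodule.bot_smul _)
  refine exists_ord (e.trans q.toEquiv) hp2 ?_ (fun s x => ρ.ρ s x) ?_
  · intro f g
    change q (e (f * g)) = q (e f) + q (e g)
    rw [he, map_add]
  · intro σ f g hfg
    change q (e g) = ρ.ρ σ (q (e f))
    rw [hact σ f g hfg]
    obtain ⟨v, hv⟩ := Submodule.mkQ_surjective _ (e f)
    rw [← hv]
    rfl

end Rep

end Fermat.Agent.Flat
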