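import Mathlib

/-!
# Additive maps on a group of order `p ^ 2` with values in a field of characteristic `p`
-/

set_option autoImplicit false
set_option linter.unusedSectionVars false
set_option linter.style.haveILetI false

noncomputable section

namespace Fermat.Agent.Flat.Coord

variable {p : ℕ} [hp : Fact p.Prime] {κ : Type*} [Field κ] [CharP κ p]
  {M : Type*} [AddCommGroup M]

theorem exists_natCast {u : κ} (hu : u ^ p = u) : ∃ n : ℕ, (n : κ) = u := by
  obtain ⟨n, hn⟩ := (mem_bot_iff_intCast p κ).1 ((Subfield.mem_bot_iff_pow_eq_self κ p).2 hu)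
  refine ⟨(n : ZMod p).val, ?_⟩
  rw [← hn]
  have h1 : ((((n : ZMod p).val : ℕ) : ℤ) : ZMod p) = (n : ZMod p) := by
    push_cast
    exact ZMod.natCast_zmod_val _
  have h2 := (ZMod.intCast_eq_intCast_iff_dvd_sub _ _ p).1 h1
  have h3 : ((p : ℤ) : κ) = 0 := by
    rw [Int.cast_natCast]
    exact CharP.cast_eq_zero κ p
  obtain ⟨c, hc⟩ := h2
  have h4 : (n : κ) = ((n : ZMod p).val : κ) + ((p : ℤ) : κ) * (c : κ) := by
    rw [← Int.cast_mul, ← hc]
    push_cast
    ring
  rw [h4, h3, zero_mul, add_zero]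

theorem exists_smul_of_det {lam : M →+ κ} (hlam : Function.Injective lam) {x y : M} (hx : x ≠ 0)
    (h : lam x ^ p * lam y = lam x * lam y ^ p) : ∃ n : ℕ, y = n • x := by
  have hx' : lam x ≠ 0 := fun h => hx (hlam (by rw [h, map_zero]))
  by_cases hy : lam y = 0
  · refine ⟨0, ?_⟩
    rw [zero_smul]
    exact hlam (by rw [hy, map_zero])
  have h1 : (lam y / lam x) ^ p = lam y / lam x := by
    rw [div_pow, div_eq_div_iff (pow_ne_zero _ hx') hx']
    linear_combination -h
  obtain ⟨n, hn⟩ := exists_natCast h1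
  refine ⟨n, hlam ?_⟩
  rw [map_nsmul, nsmul_eq_mul, hn, div_mul_cancel₀ _ hx']

/-- two elements which generate -/
theorem exists_span {x y : M} (hcard : Nat.card M = p ^ 2) (hkill : ∀ z : M, p • z = 0)
    (hx : x ≠ 0) (hy : ∀ n : ℕ, y ≠ n • x) (z : M) : ∃ m n : ℕ, z = m • x + n • y := by
  haveI : Module (ZMod p) M := AddCommGroup.zmodModule hkill
  haveI : Finite M := Nat.finite_of_card_ne_zero (by
    rw [hcard]; exact pow_ne_zero _ hp.out.ne_zero)
  have hinj : Function.Injective (fun c : ZMod p × ZMod p => c.1 • x + c.2 • y) := by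
    rintro ⟨a, b⟩ ⟨a', b'⟩ h
    simp only at h
    have h1 : (a - a') • x + (b - b') • y = 0 := by
      rw [sub_smul, sub_smul]
      have := sub_eq_zero.2 h
      rw [← this]
      abel
    have hb : b - b' = 0 := by
      by_contra hne
      have h2 : y = (-(b - b')⁻¹ * (a - a')) • x := by
        have h3 : (b - b') • y = -((a - a') • x) := by
          rw [eq_neg_iff_add_eq_zero, add_comm]
          exact h1
        have h4 := congrArg (fun w => (b - b')⁻¹ • w) h3
        simp only [smul_smul, inv_mul_cancel₀ hne, one_smul, smul_neg] at h4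
        rw [h4, neg_mul, neg_smul]
      apply hy (-(b - b')⁻¹ * (a - a')).val
      conv_lhs => rw [h2]
      rw [← Nat.cast_smul_eq_nsmul (ZMod p), ZMod.natCast_zmod_val]
    rw [hb, zero_smul, add_zero] at h1
    have ha : a - a' = 0 := (smul_eq_zero.1 h1).resolve_right hx
    rw [sub_eq_zero.1 ha, sub_eq_zero.1 hb]
  have hbij : Function.Bijective (fun c : ZMod p × ZMod p => c.1 • x + c.2 • y) := by
    rw [Nat.bijective_iff_injective_and_card]
    refine ⟨hinj, ?_⟩
    rw [hcard, Nat.card_prod, Nat.card_zmod, sq]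
  obtain ⟨⟨a, b⟩, hab⟩ := hbij.2 z
  refine ⟨a.val, b.val, ?_⟩
  simp only at hab
  rw [← hab, ← Nat.cast_smul_eq_nsmul (ZMod p), ← Nat.cast_smul_eq_nsmul (ZMod p),
    ZMod.natCast_zmod_val, ZMod.natCast_zmod_val]

theorem exists_indep (hcard : Nat.card M = p ^ 2) (hkill : ∀ z : M, p • z = 0) :
    ∃ x y : M, x ≠ 0 ∧ ∀ n : ℕ, y ≠ n • x := by
  haveI : Finite M := Nat.finite_of_card_ne_zero (by
    rw [hcard]; exact pow_ne_zero _ hp.out.ne_zero)
  have h2 := hp.out.one_lt
  have h1 : 1 < Nat.card M := by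
    rw [hcard]
    exact Nat.one_lt_pow two_ne_zero h2
  haveI : Nontrivial M := Finite.one_lt_card_iff_nontrivial.1 h1
  obtain ⟨x, hx⟩ := exists_ne (0 : M)
  refine ⟨x, ?_⟩
  by_contra hcon
  push Not at hcon
  have h3 : ∀ y : M, ∃ c : ZMod p, y = c.val • x := by
    intro y
    obtain ⟨n, hn⟩ := hcon y hx
    refine ⟨n, ?_⟩
    rw [ZMod.val_natCast]
    conv_lhs => rw [hn, ← Nat.mod_add_div n p]
    rw [add_smul, mul_comm, mul_smul, hkill, smul_zero, add_zero]
  have h4 : Nat.card M ≤ Nat.card (ZMod p) :=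
    Nat.card_le_card_of_surjective (fun c : ZMod p => c.val • x) fun y => by
      obtain ⟨c, hc⟩ := h3 y
      exact ⟨c, hc.symm⟩
  rw [hcard, Nat.card_zmod] at h4
  nlinarith

theorem hom_ext_of_span {g g' : M →+ κ} {x y : M} (hspan : ∀ z : M, ∃ m n : ℕ, z = m • x + n • y)
    (hx : g x = g' x) (hy : g y = g' y) : g = g' := by
  ext z
  obtain ⟨m, n, rfl⟩ := hspan z
  rw [map_add, map_add, map_nsmul, map_nsmul, map_nsmul, map_nsmul, hx, hy]

variable (p) in
/-- `x ↦ u λ(x) + v λ(x) ^ p`. -/
def comb (lam : M →+ κ) (u v : κ) : M →+ κ where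
  toFun z := u * lam z + v * lam z ^ p
  map_zero' := by rw [map_zero, zero_pow hp.out.ne_zero]; ring
  map_add' x y := by rw [map_add, add_pow_char]; ring

theorem comb_apply (lam : M →+ κ) (u v : κ) (z : M) :
    comb p lam u v z = u * lam z + v * lam z ^ p := rfl

theorem exists_coord (hcard : Nat.card M = p ^ 2) (hkill : ∀ z : M, p • z = 0) {lam : M →+ κ}
    (hlam : Function.Injective lam) (g : M →+ κ) :
    ∃ u v : κ, ∀ z, g z = u * lam z + v * lam z ^ p := by
  obtain ⟨x, y, hx, hy⟩ := exists_indep (p := p) hcard hkill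
  have hD : lam x * lam y ^ p - lam x ^ p * lam y ≠ 0 := by
    intro h
    obtain ⟨n, hn⟩ := exists_smul_of_det (p := p) (y := y) hlam hx (by linear_combination -h)
    exact hy n hn
  set D := lam x * lam y ^ p - lam x ^ p * lam y with hDdef
  refine ⟨(g x * lam y ^ p - g y * lam x ^ p) / D, (lam x * g y - lam y * g x) / D, ?_⟩
  have h1 : g = comb p lam ((g x * lam y ^ p - g y * lam x ^ p) / D)
      ((lam x * g y - lam y * g x) / D) := by
    apply hom_ext_of_span (exists_span hcard hkill hx hy)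
    · rw [comb_apply]
      field_simp
      rw [hDdef]
      ring
    · rw [comb_apply]
      field_simp
      rw [hDdef]
      ring
  intro z
  conv_lhs => rw [h1]
  rfl

theorem coord_unique (hcard : Nat.card M = p ^ 2) (hkill : ∀ z : M, p • z = 0) {lam : M →+ κ}
    (hlam : Function.Injective lam) {u v u' v' : κ}
    (h : ∀ z, u * lam z + v * lam z ^ p = u' * lam z + v' * lam z ^ p) : u = u' ∧ v = v' := by
  obtain ⟨x, y, hx, hy⟩ := exists_indep (p := p) hcard hkill
  have hD : lam x * lam y ^ p - lam x ^ p * lam y ≠ 0 := by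
    intro h
    obtain ⟨n, hn⟩ := exists_smul_of_det (p := p) (y := y) hlam hx (by linear_combination -h)
    exact hy n hn
  have hxx := h x
  have hyy := h y
  constructor
  · apply sub_eq_zero.1
    apply (mul_eq_zero.1 _).resolve_right hD
    linear_combination lam y ^ p * hxx - lam x ^ p * hyy
  · apply sub_eq_zero.1
    apply (mul_eq_zero.1 _).resolve_right hD
    linear_combination lam x * hyy - lam y * hxx

/-- Biadditive maps. -/
theorem exists_coord₂ (hcard : Nat.card M = p ^ 2) (hkill : ∀ z : M, p • z = 0) {lam : M →+ κ}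
    (hlam : Function.Injective lam) (g : M →+ M →+ κ) :
    ∃ a b c d : κ, ∀ x y, g x y = a * (lam x * lam y) + b * (lam x ^ p * lam y) +
      c * (lam x * lam y ^ p) + d * (lam x ^ p * lam y ^ p) := by
  have h1 : ∀ y, ∃ u v : κ, ∀ x, g x y = u * lam x + v * lam x ^ p := fun y =>
    exists_coord hcard hkill hlam (g.flip y)
  choose u v huv using h1
  have hadd : ∀ y y', u (y + y') = u y + u y' ∧ v (y + y') = v y + v y' := by
    intro y y'
    apply coord_unique hcard hkill hlam
    intro z
    rw [← huv, map_add, huv, huv]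
    ring
  obtain ⟨a, c, hac⟩ := exists_coord hcard hkill hlam (AddMonoidHom.mk' u fun y y' => (hadd y y').1)
  obtain ⟨b, d, hbd⟩ := exists_coord hcard hkill hlam (AddMonoidHom.mk' v fun y y' => (hadd y y').2)
  refine ⟨a, b, c, d, fun x y => ?_⟩
  have h2 := hac y
  have h3 := hbd y
  simp only [AddMonoidHom.mk'_apply] at h2 h3
  rw [huv, h2, h3]
  ring

theorem coord₂_unique (hcard : Nat.card M = p ^ 2) (hkill : ∀ z : M, p • z = 0) {lam : M →+ κ}
    (hlam : Function.Injective lam) {a b c d a' b' c' d' : κ}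
    (h : ∀ x y, a * (lam x * lam y) + b * (lam x ^ p * lam y) +
      c * (lam x * lam y ^ p) + d * (lam x ^ p * lam y ^ p) =
      a' * (lam x * lam y) + b' * (lam x ^ p * lam y) +
      c' * (lam x * lam y ^ p) + d' * (lam x ^ p * lam y ^ p)) :
    a = a' ∧ b = b' ∧ c = c' ∧ d = d' := by
  have h1 : ∀ y, a * lam y + c * lam y ^ p = a' * lam y + c' * lam y ^ p ∧
      b * lam y + d * lam y ^ p = b' * lam y + d' * lam y ^ p := by
    intro y
    apply coord_unique hcard hkill hlam
    intro x
    linear_combination h x y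
  obtain ⟨h2, h3⟩ := coord_unique hcard hkill hlam fun y => (h1 y).1
  obtain ⟨h4, h5⟩ := coord_unique hcard hkill hlam fun y => (h1 y).2
  exact ⟨h2, h4, h3, h5⟩

end Fermat.Agent.Flat.Coord
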