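import Fermat.Agent.Flat.Simple

/-!
# Flat representations of dimension two: the reducible case
-/

set_option autoImplicit false
set_option linter.unusedSectionVars false
set_option linter.style.haveILetI false

noncomputable section

namespace Fermat.Agent.Flat

open Matrix

variable {p : ℕ} [hp : Fact p.Prime] {Ω : Type} [NormedField Ω] [hU : IsUltrametricDist Ω]
  {Γ : Type} [Group Γ] [MulSemiringAction Γ Ω]
  {I : Subgroup Γ} [S : Setting p Ω I] {k : Type} [Field k] [Algebra (ZMod p) k]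

theorem eps_mul (γ δ : Γ) : eps p Ω I (γ * δ) = eps p Ω I γ * eps p Ω I δ := by
  have C := omCtx p Ω I
  apply C.chi_injective
  have h1 := smul_zeta_eps (p := p) (Ω := Ω) (I := I) (γ * δ)
  rw [← h1, mul_smul, smul_zeta_eps, chi, smul_pow', smul_zeta_eps, mul_comm, C.chi_mul]

theorem eps_one : eps p Ω I (1 : Γ) = 1 := by
  have C := omCtx p Ω I
  apply C.chi_injective
  have h1 := smul_zeta_eps (p := p) (Ω := Ω) (I := I) (1 : Γ)
  rw [← h1, one_smul, C.chi_one]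

theorem eps_ne_zero (γ : Γ) : eps p Ω I γ ≠ 0 := by
  intro h
  have h1 := eps_mul (p := p) (Ω := Ω) (I := I) γ γ⁻¹
  rw [h, zero_mul, mul_inv_cancel, eps_one] at h1
  exact one_ne_zero h1

theorem eps_conj (γ σ : Γ) : eps p Ω I (γ * σ * γ⁻¹) = eps p Ω I σ := by
  have h1 := eps_mul (p := p) (Ω := Ω) (I := I) γ γ⁻¹
  rw [mul_inv_cancel, eps_one] at h1
  rw [eps_mul, eps_mul]
  linear_combination -eps p Ω I σ * h1

theorem omega_conj (hn : I.Normal) (γ : Γ) (σ : I) :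
    omega p Ω I (⟨γ * σ.1 * γ⁻¹, hn.conj_mem σ.1 σ.2 γ⟩ : I) = omega p Ω I σ := by
  rw [← eps_eq_omega, ← eps_eq_omega]
  exact eps_conj γ σ.1

/-- **Characters.** -/
theorem chi_dich [Finite k] {F : Γ} (hF : FrobData p Ω I F) (χ : Γ →* k)
    (D : Ord p Ω I (fun (s : I) (x : k) => χ s.1 * x)) :
    (∀ σ ∈ I, χ σ = 1) ∨ ∀ σ : I, χ σ.1 = algebraMap (ZMod p) k (omega p Ω I σ) := by
  haveI : CharP k p := charP_of_injective_algebraMap (algebraMap (ZMod p) k).injective p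
  have hact : IsAct (fun (s : I) (x : k) => χ s.1 * x) := by
    refine ⟨fun x => ?_, fun s t x => ?_, fun s x y => mul_add _ _ _⟩
    · change χ 1 * x = x
      rw [map_one, one_mul]
    · change χ (s.1 * t.1) * x = χ s.1 * (χ t.1 * x)
      rw [map_mul, mul_assoc]
  have hkill : ∀ z : k, p ^ 1 • z = 0 := fun z => by
    rw [pow_one, nsmul_eq_mul, CharP.cast_eq_zero, zero_mul]
  by_cases hcon : ∀ x : k, D.rad x < 1
  swap
  · left
    push Not at hcon
    obtain ⟨x₀, hx₀⟩ := hcon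
    -- the connected part is stable under scalars
    have hsmul : ∀ (a : k), ∀ z ∈ D.conn, a * z ∈ D.conn := by
      intro a z hz
      have h1 : D.conn ≤ D.conn.comap (AddMonoidHom.mulLeft a) := by
        apply D.conn_le hact (n := 1) hkill
        intro σ x
        rw [AddSubgroup.mem_comap, map_sub]
        have h2 := D.smul_sub_mem_conn σ (a * x)
        have h3 : χ σ.1 * (a * x) - a * x = a * (χ σ.1 * x) - a * x := by ring
        rw [h3] at h2
        exact h2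
      exact h1 hz
    intro σ hσ
    by_contra hne
    have h1 := D.smul_sub_mem_conn ⟨σ, hσ⟩ (1 : k)
    have h2 := hsmul (x₀ * (χ σ - 1)⁻¹) _ h1
    have h3 : x₀ * (χ σ - 1)⁻¹ * (χ σ * 1 - 1) = x₀ := by
      rw [mul_one, mul_assoc, inv_mul_cancel₀ (sub_ne_zero.2 hne), mul_one]
    have h4 : x₀ ∈ D.conn := by
      have : x₀ * (χ σ - 1)⁻¹ * ((fun (s : I) (x : k) => χ s.1 * x) ⟨σ, hσ⟩ 1 - 1) = x₀ := h3
      rw [this] at h2
      exact h2
    exact absurd h4 (not_lt.2 hx₀)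
  -- the connected case
  have hne1 : ∃ x : k, x ≠ 0 := ⟨1, one_ne_zero⟩
  obtain ⟨N, lam, c, hc0, ⟨x₁, hx₁, hx₁0⟩, hinj, hst, -, hlam⟩ :=
    exists_lead_sub hact D hcon hne1
  have hwild : ∀ σ : I, Wild p Ω σ → χ σ.1 = 1 := by
    intro σ hσ
    have h1 := hlam σ ⟨x₁, hx₁⟩ ⟨_, hst σ x₁ hx₁⟩ rfl
    rw [hσ c hc0, one_mul] at h1
    have h2 : χ σ.1 * x₁ = x₁ := congrArg Subtype.val (hinj h1)
    exact mul_right_cancel₀ hx₁0 (h2.trans (one_mul _).symm)
  have hval : ∀ σ : I, ∃ a : ZMod p, χ σ.1 = algebraMap (ZMod p) k a := by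
    intro σ
    have h1 := hwild _ (hF.wild_frob σ)
    have h2 : χ ((F * σ.1 * F⁻¹) * (σ.1 ^ p)⁻¹) = 1 := h1
    have hinv : ∀ γ, χ γ * χ γ⁻¹ = 1 := fun γ => by rw [← map_mul, mul_inv_cancel, map_one]
    have h3 : χ σ.1 ^ p = χ σ.1 := by
      have h4 : χ ((F * σ.1 * F⁻¹) * (σ.1 ^ p)⁻¹) * χ (σ.1 ^ p) = χ (F * σ.1 * F⁻¹) := by
        rw [← map_mul, inv_mul_cancel_right]
      rw [h2, one_mul, map_pow, map_mul, map_mul] at h4
      rw [h4]
      linear_combination χ σ.1 * hinv F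
    have h7 := (Subfield.mem_bot_iff_pow_eq_self k p).2 h3
    rw [mem_bot_iff_intCast p k] at h7
    obtain ⟨n, hn⟩ := h7
    exact ⟨(n : ZMod p), by rw [← hn, map_intCast]⟩
  choose a ha using hval
  let ρ₁ : I → ZMod p → ZMod p := fun σ b => a σ * b
  have he : ∀ σ b, (algebraMap (ZMod p) k).toAddMonoidHom (ρ₁ σ b) =
      χ σ.1 * (algebraMap (ZMod p) k).toAddMonoidHom b := by
    intro σ b
    rw [ha]
    exact map_mul (algebraMap (ZMod p) k) _ _
  have hact₁ : IsAct ρ₁ := hact.of_injective _ (algebraMap (ZMod p) k).injective he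
  rcases rank_one_char hact₁ (Nat.card_zmod p)
    (D.restrict _ (algebraMap (ZMod p) k).injective he) with h | h
  · left
    intro σ hσ
    have h1 : a ⟨σ, hσ⟩ * 1 = 1 := h ⟨σ, hσ⟩ 1
    rw [mul_one] at h1
    have h2 := ha ⟨σ, hσ⟩
    rw [h1, map_one] at h2
    exact h2
  · right
    intro σ
    have h1 : a σ * 1 = (omega p Ω I σ).val • 1 := h σ 1
    rw [mul_one, nsmul_eq_mul, mul_one, ZMod.natCast_zmod_val] at h1
    rw [ha, h1]

/-- A basis adapted to a vector. -/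
theorem exists_units (v : Fin 2 → k) (hv : v ≠ 0) :
    ∃ B : (Matrix (Fin 2) (Fin 2) k)ˣ, (B : Matrix (Fin 2) (Fin 2) k) *ᵥ ![1, 0] = v := by
  have key : ∀ A : Matrix (Fin 2) (Fin 2) k, A.det ≠ 0 → A 0 0 = v 0 → A 1 0 = v 1 →
      ∃ B : (Matrix (Fin 2) (Fin 2) k)ˣ, (B : Matrix (Fin 2) (Fin 2) k) *ᵥ ![1, 0] = v := by
    intro A hA h0 h1
    have hu : IsUnit A := (Matrix.isUnit_iff_isUnit_det A).2 (isUnit_iff_ne_zero.2 hA)
    refine ⟨hu.unit, ?_⟩
    rw [IsUnit.unit_spec]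
    funext i
    fin_cases i
    · refine (mulVec_zero' _ _).trans ?_
      change A 0 0 * 1 + A 0 1 * 0 = v 0
      rw [mul_one, mul_zero, add_zero, h0]
    · refine (mulVec_one' _ _).trans ?_
      change A 1 0 * 1 + A 1 1 * 0 = v 1
      rw [mul_one, mul_zero, add_zero, h1]
  by_cases h0 : v 0 = 0
  · have h1 : v 1 ≠ 0 := by
      intro h1
      apply hv
      funext i
      fin_cases i
      · exact h0
      · exact h1
    refine key !![v 0, 1; v 1, 0] ?_ rfl rfl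
    rw [det_fin_two]
    change v 0 * 0 - 1 * v 1 ≠ 0
    rw [mul_zero, one_mul, zero_sub]
    exact neg_ne_zero.2 h1
  · refine key !![v 0, 0; v 1, 1] ?_ rfl rfl
    rw [det_fin_two]
    change v 0 * 1 - 0 * v 1 ≠ 0
    rw [mul_one, zero_mul, sub_zero]
    exact h0

/-- A stable proper subspace containing `v` is the line of `v`. -/
theorem line_of_ne_top (C : AddSubgroup (Fin 2 → k)) (hC : ∀ (a : k), ∀ x ∈ C, a • x ∈ C)
    {v : Fin 2 → k} (hv : v ∈ C) (hv0 : v ≠ 0) (hne : C ≠ ⊤) {x : Fin 2 → k} (hx : x ∈ C) :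
    ∃ a : k, x = a • v := by
  obtain ⟨B, hB⟩ := exists_units v hv0
  set w := (B : Matrix (Fin 2) (Fin 2) k) *ᵥ ![0, 1] with hw
  have hdec : ∀ y : Fin 2 → k, y = (cjV B y) 0 • v + (cjV B y) 1 • w := by
    intro y
    have h1 : (B : Matrix (Fin 2) (Fin 2) k) *ᵥ (cjV B y) = y := (cjV B).symm_apply_apply y
    have h2 : cjV B y = (cjV B y) 0 • ![1, 0] + (cjV B y) 1 • ![0, 1] := by
      funext i
      fin_cases i
      · change _ = (cjV B y) 0 * 1 + (cjV B y) 1 * 0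
        rw [mul_one, mul_zero, add_zero]
        rfl
      · change _ = (cjV B y) 0 * 0 + (cjV B y) 1 * 1
        rw [mul_one, mul_zero, zero_add]
        rfl
    conv_lhs => rw [← h1, h2]
    rw [mulVec_add, mulVec_smul, mulVec_smul, hB]
  by_cases h0 : (cjV B x) 1 = 0
  · refine ⟨(cjV B x) 0, ?_⟩
    conv_lhs => rw [hdec x]
    rw [h0, zero_smul, add_zero]
  · exfalso
    apply hne
    have hwC : w ∈ C := by
      have h1 : w = ((cjV B x) 1)⁻¹ • (x - (cjV B x) 0 • v) := by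
        have h2 : x - (cjV B x) 0 • v = (cjV B x) 1 • w := by
          exact sub_eq_of_eq_add' (hdec x)
        rw [h2, smul_smul, inv_mul_cancel₀ h0, one_smul]
      rw [h1]
      exact hC _ _ (C.sub_mem hx (hC _ _ hv))
    rw [eq_top_iff]
    intro y _
    rw [hdec y]
    exact C.add_mem (hC _ _ hv) (hC _ _ hwC)

section Rep

variable {r : Γ →* Matrix (Fin 2) (Fin 2) k}

theorem nsmul_p_vec1 [CharP k p] (z : Fin 2 → k) : p ^ 1 • z = 0 := by
  rw [pow_one]
  funext i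
  change p • z i = 0
  rw [nsmul_eq_mul, CharP.cast_eq_zero, zero_mul]

/-- functoriality of the connected part -/
theorem conn_fun [Finite k] (D : Ord p Ω I (fun s => vAct r s.1))
    (T : (Fin 2 → k) →+ (Fin 2 → k))
    (hT : ∀ σ ∈ I, ∃ σ' ∈ I, ∀ z, T (vAct r σ z) = vAct r σ' (T z)) :
    ∀ z ∈ D.conn, T z ∈ D.conn := by
  haveI : CharP k p := charP_of_injective_algebraMap (algebraMap (ZMod p) k).injective p
  intro z hz
  have h1 : D.conn ≤ D.conn.comap T := by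
    apply D.conn_le ((isAct_vAct r).rI I) (n := 1) (fun z => nsmul_p_vec1 z)
    intro σ x
    rw [AddSubgroup.mem_comap, map_sub]
    obtain ⟨σ', hσ', h⟩ := hT σ.1 σ.2
    rw [h]
    exact D.smul_sub_mem_conn ⟨σ', hσ'⟩ (T x)
  exact h1 hz

theorem conn_smul [Finite k] (D : Ord p Ω I (fun s => vAct r s.1)) (a : k) :
    ∀ z ∈ D.conn, a • z ∈ D.conn := by
  apply conn_fun D (DistribSMul.toAddMonoidHom _ a)
  intro σ hσ
  refine ⟨σ, hσ, fun z => ?_⟩
  change a • (r σ *ᵥ z) = r σ *ᵥ (a • z)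
  rw [mulVec_smul]

theorem conn_gal [Finite k] (hn : I.Normal) (D : Ord p Ω I (fun s => vAct r s.1)) (γ : Γ) :
    ∀ z ∈ D.conn, r γ *ᵥ z ∈ D.conn := by
  have hact := isAct_vAct r
  apply conn_fun D (hact.hom γ)
  intro σ hσ
  refine ⟨γ * σ * γ⁻¹, hn.conj_mem σ hσ γ, fun z => ?_⟩
  rw [hact.hom_apply, hact.hom_apply, hact.mul, hact.mul, hact.inv_apply]

theorem conjR_apply' (B : (Matrix (Fin 2) (Fin 2) k)ˣ) (γ : Γ) :
    conjR B r γ = cjM B (r γ) := rfl

theorem det_conjR (B : (Matrix (Fin 2) (Fin 2) k)ˣ) (γ : Γ) :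
    (conjR B r γ).det = (r γ).det := by
  rw [conjR_apply', cjM_apply, det_mul, det_mul, mul_comm, ← mul_assoc, ← det_mul, Units.mul_inv,
    det_one, one_mul]

/-- matrix entries in the adapted basis -/
theorem conjR_mulVec (B : (Matrix (Fin 2) (Fin 2) k)ˣ) (γ : Γ) (y : Fin 2 → k) :
    conjR B r γ *ᵥ y = cjV B (r γ *ᵥ ((B : Matrix (Fin 2) (Fin 2) k) *ᵥ y)) := by
  rw [conjR_apply', ← cjV_mulVec]
  congr 1
  exact ((cjV B).apply_symm_apply y).symm

theorem upper_of_line {B : (Matrix (Fin 2) (Fin 2) k)ˣ} {v : Fin 2 → k}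
    (hB : (B : Matrix (Fin 2) (Fin 2) k) *ᵥ ![1, 0] = v)
    (hv : ∀ γ, ∃ a : k, r γ *ᵥ v = a • v) (γ : Γ) : conjR B r γ 1 0 = 0 := by
  obtain ⟨a, ha⟩ := hv γ
  have h1 := conjR_mulVec B γ (r := r) ![1, 0]
  have h2 : cjV B (a • v) = a • ![1, 0] := by
    rw [← hB]
    change ((B⁻¹ : (Matrix (Fin 2) (Fin 2) k)ˣ) : Matrix (Fin 2) (Fin 2) k) *ᵥ
      (a • ((B : Matrix (Fin 2) (Fin 2) k) *ᵥ _)) = _
    rw [mulVec_smul, mulVec_mulVec, Units.inv_mul, one_mulVec]
  rw [hB, ha, h2] at h1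
  have h3 := congrFun h1 1
  rw [mulVec_one'] at h3
  change conjR B r γ 1 0 * 1 + conjR B r γ 1 1 * 0 = a * 0 at h3
  rwa [mul_one, mul_zero, mul_zero, add_zero] at h3

theorem det_upper {A : Matrix (Fin 2) (Fin 2) k} (h : A 1 0 = 0) : A.det = A 0 0 * A 1 1 := by
  rw [det_fin_two, h, mul_zero, sub_zero]

/-- the ordinary case -/
theorem ordRep_of_conn [Finite k] (hn : I.Normal)
    (hdet : ∀ γ, (r γ).det = algebraMap (ZMod p) k (eps p Ω I γ))
    (D : Ord p Ω I (fun s => vAct r s.1)) {v : Fin 2 → k} (hv : v ∈ D.conn) (hv0 : v ≠ 0)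
    (hne : D.conn ≠ ⊤) : ∃ B : (Matrix (Fin 2) (Fin 2) k)ˣ, OrdRep p Ω I (conjR B r) := by
  obtain ⟨B, hB⟩ := exists_units v hv0
  have hline : ∀ {x}, x ∈ D.conn → ∃ a : k, x = a • v := fun hx =>
    line_of_ne_top D.conn (conn_smul D) hv hv0 hne hx
  have h10 := upper_of_line (r := r) hB fun γ => hline (conn_gal hn D γ v hv)
  have h11 : ∀ σ ∈ I, conjR B r σ 1 1 = 1 := by
    intro σ hσ
    set w := (B : Matrix (Fin 2) (Fin 2) k) *ᵥ ![0, 1] with hw
    obtain ⟨a, ha⟩ := hline (D.smul_sub_mem_conn ⟨σ, hσ⟩ w)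
    have ha' : r σ *ᵥ w = a • v + w := eq_add_of_sub_eq ha
    have h1 := conjR_mulVec B σ (r := r) ![0, 1]
    have h2 : cjV B (a • v + w) = a • ![1, 0] + ![0, 1] := by
      rw [← hB, hw]
      change ((B⁻¹ : (Matrix (Fin 2) (Fin 2) k)ˣ) : Matrix (Fin 2) (Fin 2) k) *ᵥ
        (a • ((B : Matrix (Fin 2) (Fin 2) k) *ᵥ _) + _) = _
      rw [mulVec_add, mulVec_smul, mulVec_mulVec, mulVec_mulVec, Units.inv_mul, one_mulVec,
        one_mulVec]
    rw [← hw, ha', h2] at h1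
    have h3 := congrFun h1 1
    rw [mulVec_one'] at h3
    change conjR B r σ 1 0 * 0 + conjR B r σ 1 1 * 1 = a * 0 + 1 at h3
    rwa [mul_one, mul_zero, mul_zero, zero_add, zero_add] at h3
  refine ⟨B, hn, h10, h11, fun σ => ?_⟩
  have h1 := det_upper (h10 σ.1)
  rw [h11 _ σ.2, mul_one, det_conjR, hdet, eps_eq_omega] at h1
  exact h1.symm

/-- there is no stable line if the representation is connected. -/
theorem no_line [Finite k] {F : Γ} (hF : FrobData p Ω I F)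
    (hdet : ∀ γ, (r γ).det = algebraMap (ZMod p) k (eps p Ω I γ))
    (D : Ord p Ω I (fun s => vAct r s.1)) (htop : ∀ x, D.rad x < 1) {v : Fin 2 → k} (hv0 : v ≠ 0)
    (hv : ∀ γ, ∃ a : k, r γ *ᵥ v = a • v) : False := by
  haveI : CharP k p := charP_of_injective_algebraMap (algebraMap (ZMod p) k).injective p
  obtain ⟨B, hB⟩ := exists_units v hv0
  have h10 := upper_of_line (r := r) hB hv
  set r' := conjR B r with hr'
  -- transport
  have hE : ∀ (σ : I) (z : Fin 2 → k), (cjV B).symm (vAct r' σ.1 z) =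
      vAct r σ.1 ((cjV B).symm z) := by
    intro σ z
    obtain ⟨z1, rfl⟩ := (cjV B).surjective z
    change (cjV B).symm (Flat.cjM B (r σ.1) *ᵥ cjV B z1) = r σ.1 *ᵥ (cjV B).symm (cjV B z1)
    rw [cjV_mulVec, AddEquiv.symm_apply_apply, AddEquiv.symm_apply_apply]
  let D' : Ord p Ω I (fun s => vAct r' s.1) :=
    D.restrict (cjV B).symm.toAddMonoidHom (cjV B).symm.injective hE
  have htop' : ∀ x, D'.rad x < 1 := by
    intro x
    have h1 : D'.rad x = D.rad ((cjV B).symm x) := D.rad_restrict x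
    rw [h1]
    exact htop _
  have hact' : IsAct (fun s : I => vAct r' s.1) := (isAct_vAct r').rI I
  -- characters
  let χ₁ : Γ →* k :=
    { toFun := fun γ => r' γ 0 0
      map_one' := by rw [map_one]; rfl
      map_mul' := fun γ δ => by rw [map_mul, mul_entry, h10, mul_zero, add_zero] }
  let χ₂ : Γ →* k :=
    { toFun := fun γ => r' γ 1 1
      map_one' := by rw [map_one]; rfl
      map_mul' := fun γ δ => by rw [map_mul, mul_entry, h10, zero_mul, zero_add] }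
  let j₁ : k →+ (Fin 2 → k) := AddMonoidHom.mk' (fun a => ![a, 0]) fun a b => by
    funext i
    fin_cases i
    · rfl
    · exact (add_zero (0 : k)).symm
  have hj₁ : Function.Injective j₁ := fun a b h => congrFun h 0
  have he₁ : ∀ (σ : I) (x : k), j₁ (χ₁ σ.1 * x) = vAct r' σ.1 (j₁ x) := by
    intro σ x
    funext i
    fin_cases i
    · refine Eq.symm ((mulVec_zero' (r' σ.1) ![x, 0]).trans ?_)
      change r' σ.1 0 0 * x + r' σ.1 0 1 * 0 = _
      rw [mul_zero, add_zero]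
      rfl
    · refine Eq.symm ((mulVec_one' (r' σ.1) ![x, 0]).trans ?_)
      rw [h10]
      change 0 * x + r' σ.1 1 1 * 0 = 0
      rw [mul_zero, zero_mul, add_zero]
  have hc₁ : ∀ σ : I, χ₁ σ.1 = algebraMap (ZMod p) k (omega p Ω I σ) := by
    rcases chi_dich hF χ₁ (D'.restrict j₁ hj₁ he₁) with h | h
    · exfalso
      have h1 : (![1, 0] : Fin 2 → k) = 0 := by
        apply D'.eq_zero_of_fixed hact' (n := 1) (fun z => nsmul_p_vec1 z) (htop' _)
        intro σ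
        have h2 := he₁ σ 1
        rw [h σ.1 σ.2, mul_one] at h2
        exact h2.symm
      exact one_ne_zero (congrFun h1 0)
    · exact h
  let π₂ : (Fin 2 → k) →+ k := AddMonoidHom.mk' (fun v => v 1) fun v w => rfl
  have hπ₂ : Function.Surjective π₂ := fun a => ⟨![0, a], rfl⟩
  have hactχ : IsAct (fun (s : I) (x : k) => χ₂ s.1 * x) := by
    refine ⟨fun x => ?_, fun s t x => ?_, fun s x y => mul_add _ _ _⟩
    · change χ₂ 1 * x = x
      rw [map_one, one_mul]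
    · change χ₂ (s.1 * t.1) * x = χ₂ s.1 * (χ₂ t.1 * x)
      rw [map_mul, mul_assoc]
  obtain ⟨DQ, -⟩ := D'.exists_quot hact' hactχ π₂ hπ₂ (by
    intro σ x
    change (r' σ.1 *ᵥ x) 1 = r' σ.1 1 1 * x 1
    rw [mulVec_one', h10, zero_mul, zero_add])
  have hc₂ : ∀ σ : I, χ₂ σ.1 = algebraMap (ZMod p) k (omega p Ω I σ) := by
    rcases chi_dich hF χ₂ DQ with h | h
    · exfalso
      let N : AddSubgroup (Fin 2 → k) := π₂.ker
      have h2 : D'.conn ≤ N := by
        apply D'.conn_le hact' (n := 1) (fun z => nsmul_p_vec1 z)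
        intro σ x
        change (r' σ.1 *ᵥ x) 1 - x 1 = 0
        have h3 : r' σ.1 1 1 = 1 := h σ.1 σ.2
        rw [mulVec_one', h10, h3, zero_mul, one_mul, zero_add, sub_self]
      have h3 : (![0, 1] : Fin 2 → k) ∈ N := h2 (htop' _)
      exact one_ne_zero (show (1 : k) = 0 from h3)
    · exact h
  obtain ⟨σ₀, hσ₀⟩ := exists_omega_ne_one p Ω I
  have h1 := det_upper (h10 σ₀.1)
  have h2 : r' σ₀.1 0 0 = _ := hc₁ σ₀
  have h3 : r' σ₀.1 1 1 = _ := hc₂ σ₀
  rw [h2, h3, det_conjR, hdet, eps_eq_omega, ← map_mul] at h1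
  have h4 := (algebraMap (ZMod p) k).injective h1
  apply hσ₀
  exact (mul_right_cancel₀ (omega_ne_zero σ₀) (h4.symm.trans (one_mul _).symm))

end Rep

end Fermat.Agent.Flat
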