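import Fermat.Agent.Flat.Order

/-!
# Restriction and duals of orders
-/

set_option autoImplicit false
set_option linter.unusedSectionVars false
set_option linter.style.haveILetI false

noncomputable section

namespace Fermat.Agent.Flat

open Fermat.Agent.HopfOrder (IsOrder)

variable {p : ℕ} {Ω : Type} [NormedField Ω] {I : Type} [Group I] [MulSemiringAction I Ω]
    [S : Setting p Ω I]

namespace Ord

section Restrict

variable {M : Type} [AddCommGroup M] {ρ : I → M → M} (D : Ord p Ω I ρ)
  {N : Type} [AddCommGroup N] {ρ' : I → N → N}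

/-- Restriction of an order along an injective equivariant map. -/
def restrict (j : N →+ M) (hj : Function.Injective j) (he : ∀ σ x, j (ρ' σ x) = ρ σ (j x)) :
    Ord p Ω I ρ' where
  H := D.H.map (Fermat.Agent.HopfOrder.pull (RK p Ω I) Ω j)
  fg := by
    have h := D.fg.map (Fermat.Agent.HopfOrder.pull (RK p Ω I) Ω j).toLinearMap
    exact h
  equi := by
    rintro _ ⟨h, hh, rfl⟩ σ x
    change h (j (ρ' σ x)) = σ • h (j x)
    rw [he, D.equi h hh]
  comul := by
    rintro _ ⟨h, hh, rfl⟩
    obtain ⟨ι, _, a, b, ha, hb, hab⟩ := D.comul h hh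
    refine ⟨ι, inferInstance, fun i x => a i (j x), fun i x => b i (j x),
      fun i => ⟨a i, ha i, rfl⟩, fun i => ⟨b i, hb i, rfl⟩, fun x y => ?_⟩
    change h (j (x + y)) = _
    rw [map_add, hab]
  sep := by
    intro x y hxy
    obtain ⟨h, hh, hne⟩ := D.sep (j x) (j y) fun h => hxy (hj h)
    exact ⟨fun x => h (j x), ⟨h, hh, rfl⟩, hne⟩

theorem mem_restrict {j : N →+ M} {hj : Function.Injective j}
    {he : ∀ σ x, j (ρ' σ x) = ρ σ (j x)} {g : N → Ω} :
    g ∈ (D.restrict j hj he).H ↔ ∃ h ∈ D.H, g = fun x => h (j x) := by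
  constructor
  · rintro ⟨h, hh, rfl⟩
    exact ⟨h, hh, rfl⟩
  · rintro ⟨h, hh, rfl⟩
    exact ⟨h, hh, rfl⟩

theorem rad_restrict {j : N →+ M} {hj : Function.Injective j}
    {he : ∀ σ x, j (ρ' σ x) = ρ σ (j x)} (z : N) :
    (D.restrict j hj he).rad z = D.rad (j z) := by
  apply le_antisymm
  · apply rad_le
    intro g hg
    obtain ⟨h, hh, rfl⟩ := D.mem_restrict.1 hg
    change ‖h (j z) - h (j 0)‖ ≤ _
    rw [map_zero]
    exact D.le_rad hh _
  · apply rad_le
    intro h hh
    have h1 := (D.restrict j hj he).le_rad (h := fun x => h (j x))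
      (D.mem_restrict.2 ⟨h, hh, rfl⟩) z
    rwa [map_zero] at h1

end Restrict

section Basis

variable {M : Type} [AddCommGroup M] {ρ : I → M → M} (D : Ord p Ω I ρ)

theorem indep_aux {ι : Type} (v : ι → M → Ω)
    (hv : ∀ i, ∀ (σ : I) (x : M), v i (ρ σ x) = σ • (v i x))
    (hli : LinearIndependent (RK p Ω I) v) : LinearIndependent Ω v := by
  classical
  have hp0 : (p : Ω) ≠ 0 := by
    haveI := S.charZero
    exact_mod_cast S.prime.ne_zero
  rw [linearIndependent_iff']
  intro s
  induction s using Finset.induction_on with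
  | empty => intro g _ i hi; simp at hi
  | insert a s ha ih =>
    intro g hg
    rw [Finset.sum_insert ha] at hg
    have hga : g a = 0 := by
      by_contra hne
      let c : ι → Ω := fun i => (g a)⁻¹ * g i
      have hc : v a + ∑ i ∈ s, c i • v i = 0 := by
        have h1 := congrArg (fun f => (g a)⁻¹ • f) hg
        simp only [smul_add, Finset.smul_sum, smul_smul, smul_zero, inv_mul_cancel₀ hne,
          one_smul] at h1
        exact h1
      have hσ : ∀ σ : I, v a + ∑ i ∈ s, (σ⁻¹ • (c i)) • v i = 0 := by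
        intro σ
        funext x
        have h1 := congrFun hc (ρ σ x)
        have h2 := congrArg (fun y => σ⁻¹ • y) h1
        simp only [Pi.add_apply, Finset.sum_apply, Pi.smul_apply, smul_eq_mul, Pi.zero_apply,
          smul_zero, smul_add, hv, inv_smul_smul, Finset.smul_sum, smul_mul'] at h2
        simpa only [Pi.add_apply, Finset.sum_apply, Pi.smul_apply, smul_eq_mul, Pi.zero_apply]
          using h2
      have hfix : ∀ i ∈ s, ∀ σ : I, σ • (c i) = c i := by
        intro i hi σ
        have h1 : ∑ i ∈ s, (σ⁻¹ • (c i) - c i) • v i = 0 := by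
          simp only [sub_smul, Finset.sum_sub_distrib]
          have h2 := (hσ σ).trans hc.symm
          rw [add_right_inj] at h2
          rw [h2, sub_self]
        have h3 := sub_eq_zero.1 (ih (fun i => σ⁻¹ • (c i) - c i) h1 i hi)
        rw [inv_smul_eq_iff] at h3
        exact h3.symm
      -- clear denominators
      have hbound : ∃ N : ℕ, ∀ i ∈ s, ‖(p : Ω) ^ N * c i‖ ≤ 1 := by
        have hex : ∀ i, ∃ N : ℕ, ‖c i‖ ≤ (p : ℝ) ^ N := fun i => by
          obtain ⟨N, hN⟩ := pow_unbounded_of_one_lt ‖c i‖ (one_lt_p p Ω I)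
          exact ⟨N, hN.le⟩
        choose N hN using hex
        refine ⟨∑ i ∈ s, N i, fun i hi => ?_⟩
        rw [norm_mul, norm_pow, S.norm_p, inv_pow]
        have h1 : (p : ℝ) ^ N i ≤ (p : ℝ) ^ (∑ i ∈ s, N i) :=
          pow_le_pow_right₀ (one_lt_p p Ω I).le (Finset.single_le_sum (fun j _ => Nat.zero_le _) hi)
        have h2 : (0 : ℝ) < (p : ℝ) ^ (∑ i ∈ s, N i) := pow_pos (p_pos p Ω I) _
        rw [inv_mul_le_iff₀ h2, mul_one]
        exact (hN i).trans h1
      obtain ⟨N, hN⟩ := hbound
      have hpfix : ∀ (σ : I) (m : ℕ), σ • ((p : Ω) ^ m) = (p : Ω) ^ m := by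
        intro σ m
        rw [smul_pow']
        congr 1
        exact map_natCast (MulSemiringAction.toRingHom I Ω σ) p
      let k : ι → RK p Ω I := fun i => if h : i ∈ s then
          ⟨(p : Ω) ^ N * c i, hN i h, fun σ => by rw [smul_mul', hpfix, hfix i h]⟩
        else if i = a then ⟨(p : Ω) ^ N, by
          rw [norm_pow, S.norm_p]
          exact pow_le_one₀ (inv_nonneg.2 (p_pos p Ω I).le)
            (inv_le_one_of_one_le₀ (one_lt_p p Ω I).le), fun σ => hpfix σ N⟩ else 0
      have hk : ∀ i ∈ s, (k i : Ω) = (p : Ω) ^ N * c i := by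
        intro i hi
        simp only [k, hi, dif_pos]
      have hka : (k a : Ω) = (p : Ω) ^ N := by simp [k, ha]
      have h3 : ∑ i ∈ insert a s, k i • v i = 0 := by
        funext x
        have h4 := congrFun hc x
        simp only [Pi.add_apply, Finset.sum_apply, Pi.smul_apply, smul_eq_mul,
          Pi.zero_apply] at h4
        simp only [Finset.sum_apply, Pi.smul_apply, smul_RK, Pi.zero_apply]
        rw [Finset.sum_insert ha, hka]
        have h5 : ∑ i ∈ s, (k i : Ω) * v i x = (p : Ω) ^ N * ∑ i ∈ s, c i * v i x := by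
          rw [Finset.mul_sum]
          refine Finset.sum_congr rfl fun i hi => ?_
          rw [hk i hi, mul_assoc]
        rw [h5, ← mul_add, h4, mul_zero]
      have h4 := linearIndependent_iff'.1 hli _ _ h3 a (Finset.mem_insert_self a s)
      rw [h4] at hka
      exact pow_ne_zero N hp0 hka.symm
    intro i hi
    rcases Finset.mem_insert.1 hi with rfl | hi
    · exact hga
    · rw [hga, zero_smul, zero_add] at hg
      exact ih g hg i hi

theorem isOrder : IsOrder D.H where
  finite := Module.Finite.iff_fg.2 D.fg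
  indep n v hv := by
    apply indep_aux (p := p) (ρ := ρ) (fun i => (v i : M → Ω)) fun i σ x => D.equi _ (v i).2 σ x
    have h1 := hv.map' (Subalgebra.toSubmodule D.H).subtype
      (LinearMap.ker_eq_bot.2 Subtype.val_injective)
    exact h1
  separates := D.sep

theorem exists_basis [Finite M] : ∃ (n : ℕ) (b : Module.Basis (Fin n) (RK p Ω I) D.H)
    (b' : Module.Basis (Fin n) Ω (M → Ω)), ∀ i, b' i = (b i : M → Ω) :=
  D.isOrder.exists_basis (algebraMap_RK_injective p Ω I)

end Basis

section Dual

variable {M : Type} [AddCommGroup M] {ρ : I → M → M} (D : Ord p Ω I ρ)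
  {N : Type} [AddCommGroup N] {ρ' : I → N → N}

/-- A bimultiplicative equivariant pairing. -/
structure IsPairing (ρ : I → M → M) (ρ' : I → N → N) (e : M → N → Ω) : Prop where
  add_left : ∀ x x' y, e (x + x') y = e x y * e x' y
  add_right : ∀ x y y', e x (y + y') = e x y * e x y'
  zero_left : ∀ y, e 0 y = 1
  zero_right : ∀ x, e x 0 = 1
  smul : ∀ (σ : I) x y, e (ρ σ x) (ρ' σ y) = σ • e x y

theorem IsPairing.flip {e : M → N → Ω} (he : IsPairing (I := I) ρ ρ' e) :
    IsPairing (I := I) ρ' ρ (fun y x => e x y) where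
  add_left x x' y := he.add_right y x x'
  add_right x y y' := he.add_left y y' x
  zero_left := he.zero_right
  zero_right := he.zero_left
  smul σ x y := he.smul σ y x

/-- Orders in duality. The second part says that `D'` is as small as possible. -/
def IsDual (D : Ord p Ω I ρ) (D' : Ord p Ω I ρ') (e : M → N → Ω) : Prop :=
  (∃ (n : ℕ) (h : Fin n → M → Ω) (φ : Fin n → N → Ω), (∀ i, h i ∈ D.H) ∧ (∀ i, φ i ∈ D'.H) ∧
    ∀ x y, e x y = ∑ i, φ i y * h i x) ∧
  (∀ (X : Type) (t : X → N) (m : ℕ) (a : Fin m → X → Ω) (b : Fin m → M → Ω), (∀ l, b l ∈ D.H) →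
    (∀ x z, e x (t z) = ∑ l, a l z * b l x) → ∀ g ∈ D'.H, ∃ c : Fin m → RK p Ω I,
      ∀ z, g (t z) = ∑ l, (c l : Ω) * a l z)

/-- The dual order. -/
theorem exists_dual [Finite M] (h0 : ∀ σ, ρ σ 0 = 0) (e : M → N → Ω)
    (he : IsPairing (I := I) ρ ρ' e) (hnd : ∀ y y' : N, (∀ x, e x y = e x y') → y = y') :
    ∃ D' : Ord p Ω I ρ', IsDual D D' e := by
  classical
  obtain ⟨n, b, b', hb'⟩ := D.exists_basis
  set h : Fin n → M → Ω := fun i => (b i : M → Ω) with hh
  have hhH : ∀ i, h i ∈ D.H := fun i => (b i).2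
  let φ : Fin n → N → Ω := fun i y => b'.repr (fun x => e x y) i
  have hφ : ∀ x y, e x y = ∑ i, φ i y * h i x := by
    intro x y
    have h1 := congrFun (b'.sum_repr (fun x => e x y)) x
    rw [Finset.sum_apply] at h1
    rw [← h1]
    refine Finset.sum_congr rfl fun i _ => ?_
    rw [Pi.smul_apply, smul_eq_mul, hb']
  -- uniqueness of coefficients
  have huniq : ∀ (c c' : Fin n → Ω), (∀ x, ∑ i, c i * h i x = ∑ i, c' i * h i x) → c = c' := by
    intro c c' hc
    have h1 : ∑ i, c i • b' i = ∑ i, c' i • b' i := by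
      funext x
      rw [Finset.sum_apply, Finset.sum_apply]
      have := hc x
      simpa only [Pi.smul_apply, smul_eq_mul, hb'] using this
    have h2 := Fintype.linearIndependent_iff.1 b'.linearIndependent (fun i => c i - c' i) (by
      simp only [sub_smul, Finset.sum_sub_distrib]
      rw [h1, sub_self])
    funext i
    exact sub_eq_zero.1 (h2 i)
  have huniq2 : ∀ (c c' : Fin n → Fin n → Ω),
      (∀ x x', ∑ j, ∑ k, c j k * (h j x * h k x') = ∑ j, ∑ k, c' j k * (h j x * h k x')) →
      c = c' := by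
    intro c c' hc
    have h1 : ∀ x', (fun j => ∑ k, c j k * h k x') = fun j => ∑ k, c' j k * h k x' := by
      intro x'
      apply huniq
      intro x
      have h2 := hc x x'
      have h3 : ∀ c : Fin n → Fin n → Ω, ∑ j, ∑ k, c j k * (h j x * h k x') =
          ∑ j, (∑ k, c j k * h k x') * h j x := by
        intro c
        refine Finset.sum_congr rfl fun j _ => ?_
        rw [Finset.sum_mul]
        exact Finset.sum_congr rfl fun k _ => by ring
      rwa [h3, h3] at h2
    funext j
    apply huniq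
    intro x'
    exact congrFun (h1 x') j
  -- elements of `H` in terms of the basis
  have hmem : ∀ g ∈ D.H, ∃ c : Fin n → RK p Ω I, ∀ x, g x = ∑ i, (c i : Ω) * h i x := by
    intro g hg
    refine ⟨fun i => b.repr ⟨g, hg⟩ i, fun x => ?_⟩
    have h1 := congrArg (fun z : D.H => (z : M → Ω) x) (b.sum_repr ⟨g, hg⟩)
    simp only at h1
    rw [← h1, AddSubmonoidClass.coe_finsetSum, Finset.sum_apply]
    rfl
  -- structure constants
  have hmul : ∀ j k, ∃ c : Fin n → RK p Ω I, ∀ x, h j x * h k x = ∑ i, (c i : Ω) * h i x :=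
    fun j k => hmem _ (D.H.mul_mem (hhH j) (hhH k))
  choose m hm using hmul
  have hcom : ∀ i, ∃ c : Fin n → Fin n → RK p Ω I, ∀ x x', h i (x + x') =
      ∑ j, ∑ k, (c j k : Ω) * (h j x * h k x') := by
    intro i
    obtain ⟨ι, _, a, a', ha, ha', haa⟩ := D.comul _ (hhH i)
    choose c hc using fun l => hmem _ (ha l)
    choose c' hc' using fun l => hmem _ (ha' l)
    refine ⟨fun j k => ∑ l, c l j * c' l k, fun x x' => ?_⟩
    rw [haa]
    have h1 : ∀ l, a l x * a' l x' = ∑ j, ∑ k, ((c l j : Ω) * (c' l k : Ω)) * (h j x * h k x') := by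
      intro l
      rw [hc, hc', Finset.sum_mul_sum]
      exact Finset.sum_congr rfl fun j _ => Finset.sum_congr rfl fun k _ => by ring
    rw [Finset.sum_congr rfl fun l _ => h1 l, Finset.sum_comm]
    refine Finset.sum_congr rfl fun j _ => ?_
    rw [Finset.sum_comm]
    refine Finset.sum_congr rfl fun k _ => ?_
    rw [AddSubmonoidClass.coe_finsetSum, Finset.sum_mul]
    rfl
  choose q hq using hcom
  -- multiplication of the `φ`
  have hφmul : ∀ j k y, φ j y * φ k y = ∑ i, (q i j k : Ω) * φ i y := by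
    intro j k y
    have h1 := huniq2 (fun j k => φ j y * φ k y) (fun j k => ∑ i, (q i j k : Ω) * φ i y) (by
      intro x x'
      have h2 := he.add_left x x' y
      rw [hφ, hφ, hφ, Finset.sum_mul_sum] at h2
      have h3 : ∑ j, ∑ k, (φ j y * φ k y) * (h j x * h k x') =
          ∑ i, ∑ j, φ i y * h i x * (φ j y * h j x') :=
        Finset.sum_congr rfl fun j _ => Finset.sum_congr rfl fun k _ => by ring
      rw [h3, ← h2]
      have h4 : ∀ i, φ i y * h i (x + x') =
          ∑ j, ∑ k, ((q i j k : Ω) * φ i y) * (h j x * h k x') := by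
        intro i
        rw [hq, Finset.mul_sum]
        refine Finset.sum_congr rfl fun j _ => ?_
        rw [Finset.mul_sum]
        exact Finset.sum_congr rfl fun k _ => by ring
      rw [Finset.sum_congr rfl fun i _ => h4 i, Finset.sum_comm]
      refine Finset.sum_congr rfl fun j _ => ?_
      rw [Finset.sum_comm]
      refine Finset.sum_congr rfl fun k _ => ?_
      rw [Finset.sum_mul])
    exact congrFun (congrFun h1 j) k
  have hφadd : ∀ i y y', φ i (y + y') = ∑ j, ∑ k, (m j k i : Ω) * (φ j y * φ k y') := by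
    intro i y y'
    have h1 := huniq (fun i => φ i (y + y')) (fun i => ∑ j, ∑ k, (m j k i : Ω) * (φ j y * φ k y'))
      (by
      intro x
      have h2 := he.add_right x y y'
      rw [hφ, hφ, hφ, Finset.sum_mul_sum] at h2
      change ∑ i, φ i (y + y') * h i x = _
      rw [h2]
      have h3 : ∀ j k, φ j y * h j x * (φ k y' * h k x) =
          ∑ i, ((m j k i : Ω) * (φ j y * φ k y')) * h i x := by
        intro j k
        have h4 : φ j y * h j x * (φ k y' * h k x) = (φ j y * φ k y') * (h j x * h k x) := by ring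
        rw [h4, hm, Finset.mul_sum]
        exact Finset.sum_congr rfl fun i _ => by ring
      rw [Finset.sum_congr rfl fun j _ => Finset.sum_congr rfl fun k _ => h3 j k]
      have h5 : ∀ j, ∑ k, ∑ i, ((m j k i : Ω) * (φ j y * φ k y')) * h i x =
          ∑ i, ∑ k, ((m j k i : Ω) * (φ j y * φ k y')) * h i x := fun j => Finset.sum_comm
      rw [Finset.sum_congr rfl fun j _ => h5 j, Finset.sum_comm]
      refine Finset.sum_congr rfl fun i _ => ?_
      rw [Finset.sum_mul]
      exact Finset.sum_congr rfl fun j _ => by rw [Finset.sum_mul])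
    exact congrFun h1 i
  have hφone : ∃ c : Fin n → RK p Ω I, ∀ y, (1 : Ω) = ∑ i, (c i : Ω) * φ i y := by
    have h0' : ∀ i (σ : I), σ • h i 0 = h i 0 := by
      intro i σ
      rw [← D.equi _ (hhH i), h0]
    refine ⟨fun i => ⟨h i 0, D.norm_le_one (hhH i) 0, h0' i⟩, fun y => ?_⟩
    rw [← he.zero_left y, hφ]
    exact Finset.sum_congr rfl fun i _ => mul_comm _ _
  have hφequi : ∀ i (σ : I) y, φ i (ρ' σ y) = σ • φ i y := by
    intro i σ y
    have h1 := huniq (fun i => σ⁻¹ • φ i (ρ' σ y)) (fun i => φ i y) (by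
      intro x
      have h2 := he.smul σ x y
      rw [hφ, hφ, Finset.smul_sum] at h2
      have h3 := congrArg (fun z => σ⁻¹ • z) h2
      simp only [Finset.smul_sum, smul_mul', inv_smul_smul] at h3
      rw [← h3]
      refine Finset.sum_congr rfl fun i _ => ?_
      rw [D.equi _ (hhH i), inv_smul_smul])
    have h4 : σ⁻¹ • φ i (ρ' σ y) = φ i y := congrFun h1 i
    rw [inv_smul_eq_iff] at h4
    exact h4
  let H' : Subalgebra (RK p Ω I) (N → Ω) :=
    { carrier := {g | ∃ c : Fin n → RK p Ω I, ∀ y, g y = ∑ i, (c i : Ω) * φ i y}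
      mul_mem' := by
        rintro g g' ⟨c, hc⟩ ⟨c', hc'⟩
        refine ⟨fun i => ∑ j, ∑ k, c j * c' k * q i j k, fun y => ?_⟩
        rw [Pi.mul_apply, hc, hc', Finset.sum_mul_sum]
        have h1 : ∀ j k, (c j : Ω) * φ j y * ((c' k : Ω) * φ k y) =
            ∑ i, ((c j : Ω) * c' k * q i j k) * φ i y := by
          intro j k
          have h2 : (c j : Ω) * φ j y * ((c' k : Ω) * φ k y) =
              (c j : Ω) * c' k * (φ j y * φ k y) := by ring
          rw [h2, hφmul, Finset.mul_sum]
          exact Finset.sum_congr rfl fun i _ => by ring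
        rw [Finset.sum_congr rfl fun j _ => Finset.sum_congr rfl fun k _ => h1 j k]
        have h5 : ∀ j, ∑ k, ∑ i, ((c j : Ω) * c' k * q i j k) * φ i y =
            ∑ i, ∑ k, ((c j : Ω) * c' k * q i j k) * φ i y := fun j => Finset.sum_comm
        rw [Finset.sum_congr rfl fun j _ => h5 j, Finset.sum_comm]
        refine Finset.sum_congr rfl fun i _ => ?_
        rw [AddSubmonoidClass.coe_finsetSum, Finset.sum_mul]
        refine Finset.sum_congr rfl fun j _ => ?_
        rw [AddSubmonoidClass.coe_finsetSum, Finset.sum_mul]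
        rfl
      add_mem' := by
        rintro g g' ⟨c, hc⟩ ⟨c', hc'⟩
        refine ⟨fun i => c i + c' i, fun y => ?_⟩
        rw [Pi.add_apply, hc, hc', ← Finset.sum_add_distrib]
        refine Finset.sum_congr rfl fun i _ => ?_
        rw [← add_mul]
        rfl
      algebraMap_mem' := by
        intro r
        obtain ⟨c, hc⟩ := hφone
        refine ⟨fun i => r * c i, fun y => ?_⟩
        rw [Pi.algebraMap_apply, algebraMap_RK]
        have h1 : ∑ i, ((r * c i : RK p Ω I) : Ω) * φ i y = (r : Ω) * ∑ i, (c i : Ω) * φ i y := by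
          rw [Finset.mul_sum]
          refine Finset.sum_congr rfl fun i _ => ?_
          rw [← mul_assoc]
          rfl
        rw [h1, ← hc, mul_one] }
  have hφH : ∀ i, φ i ∈ H' := by
    intro i
    refine ⟨fun j => if j = i then 1 else 0, fun y => ?_⟩
    rw [Finset.sum_eq_single i]
    · simp
    · intro j _ hj
      simp [hj]
    · intro h; exact absurd (Finset.mem_univ i) h
  refine ⟨{ H := H', fg := ?_, equi := ?_, comul := ?_, sep := ?_ }, ⟨n, h, φ, hhH, hφH, hφ⟩, ?_⟩
  · refine ⟨Finset.univ.image φ, le_antisymm ?_ ?_⟩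
    · rw [Submodule.span_le]
      intro g hg
      obtain ⟨i, -, rfl⟩ := Finset.mem_image.1 hg
      exact hφH i
    · rintro g ⟨c, hc⟩
      have h1 : g = ∑ i, c i • φ i := by
        funext y
        rw [hc, Finset.sum_apply]
        exact Finset.sum_congr rfl fun i _ => by rw [Pi.smul_apply, smul_RK]
      rw [h1]
      exact Submodule.sum_mem _ fun i _ => Submodule.smul_mem _ _
        (Submodule.subset_span (by simp))
  · rintro g ⟨c, hc⟩ σ y
    rw [hc, hc, Finset.smul_sum]
    refine Finset.sum_congr rfl fun i _ => ?_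
    rw [smul_mul', hφequi, (c i).2.2]
  · rintro g ⟨c, hc⟩
    refine ⟨Fin n × Fin n × Fin n, inferInstance, fun l => (c l.1 * m l.2.1 l.2.2 l.1) • φ l.2.1,
      fun l => φ l.2.2, fun l => H'.smul_mem (hφH _) _, fun l => hφH _, fun y y' => ?_⟩
    rw [hc, Fintype.sum_prod_type]
    refine Finset.sum_congr rfl fun i _ => ?_
    rw [hφadd, Finset.mul_sum, Fintype.sum_prod_type]
    refine Finset.sum_congr rfl fun j _ => ?_
    rw [Finset.mul_sum]
    refine Finset.sum_congr rfl fun k _ => ?_
    change _ = ((c i * m j k i : RK p Ω I) : Ω) * φ j y * φ k y'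
    rw [show ((c i * m j k i : RK p Ω I) : Ω) = (c i : Ω) * (m j k i : Ω) from rfl]
    ring
  · intro y y' hyy
    by_contra hcon
    push Not at hcon
    apply hyy
    apply hnd
    intro x
    rw [hφ, hφ]
    exact Finset.sum_congr rfl fun i _ => by rw [hcon _ (hφH i)]
  · intro X t m' a b hb hab g hg
    obtain ⟨d, hd⟩ := hg
    choose c hc using fun l => hmem _ (hb l)
    have h1 : ∀ i z, φ i (t z) = ∑ l, (c l i : Ω) * a l z := by
      intro i z
      refine congrFun (huniq (fun i => φ i (t z)) (fun i => ∑ l, (c l i : Ω) * a l z)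
        fun x => ?_) i
      rw [← hφ, hab]
      have h2 : ∀ l, a l z * b l x = ∑ i, (c l i : Ω) * a l z * h i x := by
        intro l
        rw [hc, Finset.mul_sum]
        exact Finset.sum_congr rfl fun i _ => by ring
      rw [Finset.sum_congr rfl fun l _ => h2 l, Finset.sum_comm]
      exact Finset.sum_congr rfl fun i _ => by rw [Finset.sum_mul]
    refine ⟨fun l => ∑ i, d i * c l i, fun z => ?_⟩
    rw [hd]
    have h3 : ∀ i, (d i : Ω) * φ i (t z) = ∑ l, (d i : Ω) * (c l i : Ω) * a l z := by
      intro i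
      rw [h1, Finset.mul_sum]
      exact Finset.sum_congr rfl fun l _ => by ring
    rw [Finset.sum_congr rfl fun i _ => h3 i, Finset.sum_comm]
    refine Finset.sum_congr rfl fun l _ => ?_
    rw [AddSubmonoidClass.coe_finsetSum, Finset.sum_mul]
    rfl

end Dual

end Ord

end Fermat.Agent.Flat
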