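import Fermat.Agent.Flat.OrdB

/-!
# The bound for flat classes in the ordinary case
-/

set_option autoImplicit false
set_option linter.unusedSectionVars false
set_option linter.style.haveILetI false

noncomputable section

namespace Fermat.Agent.Flat

open Matrix

variable {p : ℕ} [hp : Fact p.Prime] {Ω : Type} [NormedField Ω] [hU : IsUltrametricDist Ω]
  {Γ : Type} [Group Γ] [TopologicalSpace Γ] [IsTopologicalGroup Γ] [MulSemiringAction Γ Ω]
  {I : Subgroup Γ} [S : Setting p Ω I] {k : Type} [Field k] [Algebra (ZMod p) k]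

theorem lc_cobM {r : Γ →* Matrix (Fin 2) (Fin 2) k}
    (hrc : ∃ U : Subgroup Γ, IsOpen (U : Set Γ) ∧ ∀ γ ∈ U, r γ = 1)
    (X : Matrix (Fin 2) (Fin 2) k) : LC (cobM r X) := by
  obtain ⟨U, hU, h⟩ := hrc
  refine ⟨U, hU, fun γ hγ => ?_⟩
  rw [cobM, h γ hγ, h _ (U.inv_mem hγ), one_mul, mul_one, sub_self]

theorem cobM_smul {r : Γ →* Matrix (Fin 2) (Fin 2) k} (a : k) (X : Matrix (Fin 2) (Fin 2) k)
    (γ : Γ) : cobM r (a • X) γ = a • cobM r X γ := by
  rw [cobM, cobM, smul_sub, mul_smul_comm, smul_mul_assoc]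

namespace OrdRep

variable {r : Γ →* Matrix (Fin 2) (Fin 2) k} (hr : OrdRep p Ω I r)
include hr

/-- The group of ordinary cocycles. -/
def ordZ (_ : OrdRep p Ω I r) : AddSubgroup (Γ → Matrix (Fin 2) (Fin 2) k) where
  carrier := {c | IsCoc r c ∧ (∀ γ, (c γ).trace = 0) ∧ LC c ∧ (∀ γ, c γ 1 0 = 0) ∧
    (∀ σ ∈ I, c σ 1 1 = 0) ∧ ∀ l, LevO p Ω I c l}
  zero_mem' := ⟨isCoc_zero, fun γ => trace_zero _ _, ⟨⊤, isOpen_univ, fun γ _ => rfl⟩,
    fun γ => rfl, fun σ _ => rfl, fun l => levO_zero l⟩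
  add_mem' := by
    rintro c c' ⟨h1, h2, h3, h4, h5, h6⟩ ⟨h1', h2', h3', h4', h5', h6'⟩
    refine ⟨h1.add h1', fun γ => ?_, h3.add h3', fun γ => ?_, fun σ hσ => ?_,
      fun l => (h6 l).add (h6' l)⟩
    · rw [Pi.add_apply, trace_add, h2, h2', add_zero]
    · rw [Pi.add_apply, Matrix.add_apply, h4, h4', add_zero]
    · rw [Pi.add_apply, Matrix.add_apply, h5 σ hσ, h5' σ hσ, add_zero]
  neg_mem' := by
    rintro c ⟨h1, h2, h3, h4, h5, h6⟩
    refine ⟨h1.neg, fun γ => ?_, ?_, fun γ => ?_, fun σ hσ => ?_, fun l => (h6 (-l)).neg⟩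
    · rw [Pi.neg_apply, trace_neg, h2, neg_zero]
    · obtain ⟨U, hU, h⟩ := h3
      exact ⟨U, hU, fun γ hγ => by rw [Pi.neg_apply, h γ hγ, neg_zero]⟩
    · rw [Pi.neg_apply, Matrix.neg_apply, h4, neg_zero]
    · rw [Pi.neg_apply, Matrix.neg_apply, h5 σ hσ, neg_zero]

theorem entry11 {c : Γ → Matrix (Fin 2) (Fin 2) k} (hc : IsCoc r c)
    (h10 : ∀ γ, c γ 1 0 = 0) (γ δ : Γ) : c (γ * δ) 1 1 = c γ 1 1 + c δ 1 1 := by
  have h1 := congrFun (congrFun (hc γ δ) 1) 1
  rw [Matrix.add_apply, mul_entry, mul_entry, mul_entry, hr.h10, h10] at h1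
  have h2 := congrFun (congrFun (r_mul_inv r γ) 1) 1
  rw [mul_entry, hr.h10, one_apply_eq] at h2
  rw [h1]
  linear_combination c δ 1 1 * h2

theorem zero11 {F : Γ} (hgen : ∀ U : Subgroup Γ, IsOpen (U : Set Γ) → I ≤ U → F ∈ U → U = ⊤)
    {c : Γ → Matrix (Fin 2) (Fin 2) k} (hc : c ∈ hr.ordZ) (hcF : c F 1 1 = 0) (γ : Γ) :
    c γ 1 1 = 0 := by
  obtain ⟨h1, h2, h3, h4, h5, -⟩ := hc
  have hm := hr.entry11 h1 h4
  have hone : c 1 1 1 = 0 := by rw [h1.one]; rfl
  let U : Subgroup Γ :=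
    { carrier := {γ | c γ 1 1 = 0}
      mul_mem' := fun {γ δ} hγ hδ => by
        change c (γ * δ) 1 1 = 0
        rw [hm, show c γ 1 1 = 0 from hγ, show c δ 1 1 = 0 from hδ, add_zero]
      one_mem' := hone
      inv_mem' := fun {γ} hγ => by
        change c γ⁻¹ 1 1 = 0
        have h1 := hm γ⁻¹ γ
        rw [inv_mul_cancel, hone, show c γ 1 1 = 0 from hγ, add_zero] at h1
        exact h1.symm }
  have hU : U = ⊤ := by
    apply hgen
    · obtain ⟨V, hV, h⟩ := h3
      refine Subgroup.isOpen_mono (H₁ := V) (fun γ hγ => ?_) hV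
      change c γ 1 1 = 0
      rw [h γ hγ]
      rfl
    · exact fun σ hσ => h5 σ hσ
    · exact hcF
  have : γ ∈ U := by rw [hU]; trivial
  exact this

/-- the coboundary of a diagonal matrix. -/
theorem diag_mem (hrc : ∃ U : Subgroup Γ, IsOpen (U : Set Γ) ∧ ∀ γ ∈ U, r γ = 1) [Finite k]
    (hflat : FlatR p Ω I r) (a : k) : cobM r !![a, 0; 0, -a] ∈ hr.ordZ ∧
      ∀ γ, cobM r !![a, 0; 0, -a] γ 1 1 = 0 := by
  have hinv : ∀ γ, r γ 1 1 * r γ⁻¹ 1 1 = 1 := by
    intro γ
    have h2 := congrFun (congrFun (r_mul_inv r γ) 1) 1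
    rw [mul_entry, hr.h10, one_apply_eq, zero_mul, zero_add] at h2
    exact h2
  have h11 : ∀ γ, cobM r !![a, 0; 0, -a] γ 1 1 = 0 := by
    intro γ
    rw [cobM, Matrix.sub_apply, mul_entry, mul_entry, mul_entry, hr.h10]
    change -a - ((0 * a + r γ 1 1 * 0) * _ + (0 * 0 + r γ 1 1 * -a) * r γ⁻¹ 1 1) = 0
    linear_combination a * hinv γ
  refine ⟨⟨isCoc_cobM r _, trace_cobM _, lc_cobM hrc _, fun γ => ?_, fun σ _ => h11 σ,
    fun l => ?_⟩, h11⟩
  · rw [cobM, Matrix.sub_apply, mul_entry, mul_entry, mul_entry, hr.h10, hr.h10]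
    change 0 - ((0 * a + r γ 1 1 * 0) * _ + (0 * 0 + r γ 1 1 * -a) * 0) = (0 : k)
    ring
  · obtain ⟨Y, hY, hYn⟩ := hr.level_of_flatR hflat (l.comp (LinearMap.mulLeft (ZMod p) (2 * a)))
    refine ⟨Y, ?_, hYn⟩
    have h1 : (fun g : omKer p Ω I => l (cobM r !![a, 0; 0, -a] g.1.1 0 1)) =
        fun g : omKer p Ω I => (l.comp (LinearMap.mulLeft (ZMod p) (2 * a))) (r g.1.1 0 1) := by
      funext g
      rw [LinearMap.comp_apply, LinearMap.mulLeft_apply]
      congr 1
      have h2 := congrFun (congrFun (r_mul_inv r g.1.1) 0) 1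
      have h3 : r g.1.1⁻¹ 1 1 = 1 := hr.h11 _ (I.inv_mem g.1.2)
      rw [mul_entry, h3] at h2
      change r g.1.1 0 0 * r g.1.1⁻¹ 0 1 + r g.1.1 0 1 * 1 = 0 at h2
      rw [cobM, Matrix.sub_apply, mul_entry, mul_entry, mul_entry, h3]
      change 0 - ((r g.1.1 0 0 * a + r g.1.1 0 1 * 0) * r g.1.1⁻¹ 0 1 +
        (r g.1.1 0 0 * 0 + r g.1.1 0 1 * -a) * 1) = 2 * a * r g.1.1 0 1
      linear_combination -a * h2
    rw [h1]
    exact hY

/-- **The bound in the ordinary case.** -/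
theorem flatBound [Finite k] {F : Γ} (hF : FrobData p Ω I F)
    (hgen : ∀ U : Subgroup Γ, IsOpen (U : Set Γ) → I ≤ U → F ∈ U → U = ⊤)
    (hrc : ∃ U : Subgroup Γ, IsOpen (U : Set Γ) ∧ ∀ γ ∈ U, r γ = 1)
    (hflat : FlatR p Ω I r) : FlatBound p Ω I r := by
  classical
  haveI := charP_KR p Ω I
  letI : Algebra (ZMod p) (KR Ω) := ZMod.algebra (KR Ω) p
  haveI : Finite (Matrix (Fin 2) (Fin 2) k) := inferInstanceAs (Finite (Fin 2 → Fin 2 → k))
  haveI := finite_inv0 (r := r)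
  set Z₁ := hr.ordZ with hZ₁
  let W := Module.Dual (ZMod p) k →ₗ[ZMod p] KR Ω
  let D : Z₁ →+ W := AddMonoidHom.mk' (fun c =>
    (AddMonoidHom.mk' (fun l => grO c.2.2.2.2.2.2 l)
      (fun l l' => grO_add_right c.2.2.2.2.2.2 l l')).toZModLinearMap p) fun c c' => by
    apply LinearMap.ext
    intro l
    exact grO_add c.2.2.2.2.2.2 c'.2.2.2.2.2.2 (c + c').2.2.2.2.2.2 l
  have hD : ∀ c l, D c l = grO c.2.2.2.2.2.2 l := fun c l => rfl
  let A : Z₁ →+ k := AddMonoidHom.mk' (fun c => c.1 F 1 1) fun c c' => rfl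
  have hA : ∀ c, A c = c.1 F 1 1 := fun c => rfl
  have hA11 : ∀ c : Z₁, A c = 0 → ∀ γ, c.1 γ 1 1 = 0 := fun c hc γ => hr.zero11 hgen c.2 hc γ
  have hA00 : ∀ c : Z₁, A c = 0 → ∀ γ, c.1 γ 0 0 = 0 := by
    intro c hc γ
    have h1 := c.2.2.1 γ
    rw [trace_fin_two, hA11 c hc, add_zero] at h1
    exact h1
  -- the semilinear operator
  set t : k := algebraMap (ZMod p) k (eps p Ω I F) * (hr.eta F)⁻¹ with ht
  have heps : eps p Ω I F ≠ 0 := by
    intro h0
    have h1 := smul_zeta_eps (p := p) (Ω := Ω) (I := I) F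
    rw [h0, (omCtx p Ω I).chi_zero] at h1
    have h2 : zeta p Ω I = 1 := by
      apply (MulSemiringAction.toRingEquiv Γ Ω F).injective
      change F • zeta p Ω I = F • (1 : Ω)
      rw [h1, smul_one]
    exact (zeta_spec p Ω I).ne_one S.prime.one_lt h2
  have ht0 : t ≠ 0 := by
    apply mul_ne_zero _ (inv_ne_zero (hr.eta_ne_zero F))
    rw [← map_zero (algebraMap (ZMod p) k)]
    exact fun h => heps ((algebraMap (ZMod p) k).injective h)
  set u : KR Ω := res (F • c3 p Ω I / c3 p Ω I) with hu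
  let φ : W →+ W := AddMonoidHom.mk' (fun T => (AddMonoidHom.mk'
      (fun l : Module.Dual (ZMod p) k => u * (T (l.comp (LinearMap.mulLeft (ZMod p) t⁻¹))) ^ p)
      (fun l l' => by
        rw [LinearMap.add_comp, map_add, add_pow_char, mul_add])).toZModLinearMap p) fun T T' => by
    apply LinearMap.ext
    intro l
    change u * ((T + T') _) ^ p = u * (T _) ^ p + u * (T' _) ^ p
    rw [LinearMap.add_apply, add_pow_char, mul_add]
  have hφa : ∀ T l, φ T l = u * (T (l.comp (LinearMap.mulLeft (ZMod p) t⁻¹))) ^ p :=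
    fun T l => rfl
  have hφ : ∀ (a : KR Ω) (T : W), φ (a • T) = a ^ p • φ T := by
    intro a T
    apply LinearMap.ext
    intro l
    rw [hφa, LinearMap.smul_apply, LinearMap.smul_apply, hφa, smul_eq_mul, smul_eq_mul, mul_pow]
    ring
  have hfix : ∀ T ∈ A.ker.map D, φ T = T := by
    rintro _ ⟨c, hc, rfl⟩
    apply LinearMap.ext
    intro l
    have h1 := hr.grO_frob hF c.2.1 (hA00 c hc) c.2.2.2.2.1 (hA11 c hc) c.2.2.2.2.2.2
      (l.comp (LinearMap.mulLeft (ZMod p) t⁻¹))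
    have h2 : (l.comp (LinearMap.mulLeft (ZMod p) t⁻¹)).comp (LinearMap.mulLeft (ZMod p) t) = l := by
      apply LinearMap.ext
      intro x
      rw [LinearMap.comp_apply, LinearMap.comp_apply, LinearMap.mulLeft_apply,
        LinearMap.mulLeft_apply, inv_mul_cancel_left₀ ht0]
    rw [← ht, h2] at h1
    rw [hφa, hD, hD, h1]
  haveI : FiniteDimensional (ZMod p) k := Module.Finite.of_finite
  obtain ⟨hSfin, hScard⟩ := semilinear_card φ hφ (A.ker.map D) hfix
  have hrank : p ^ Module.finrank (KR Ω) W = Nat.card k := by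
    rw [Module.natCard_eq_pow_finrank (K := ZMod p) (V := k), Nat.card_zmod]
    congr 1
    rw [Module.finrank_linearMap_self (ZMod p) (KR Ω) (Module.Dual (ZMod p) k)]
    exact Subspace.dual_finrank_eq
  rw [hrank, ← Nat.card_coe_set_eq] at hScard
  haveI : Finite (A.ker.map D : AddSubgroup W) := hSfin
  -- the kernel
  have hker : ∀ c : Z₁, A c = 0 → D c = 0 → ∃ x : k, ∀ γ, c.1 γ = cobM r !![0, x; 0, 0] γ := by
    intro c hc hDc
    apply hr.exists_cob_E hgen hrc c.2.1 c.2.2.2.1 (hA00 c hc) c.2.2.2.2.1 (hA11 c hc)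
    intro g
    rw [← Module.forall_dual_apply_eq_zero_iff (ZMod p)]
    intro l
    exact eq_zero_of_grO c.2.2.2.2.2.2 l (by rw [← hD, hDc]; rfl) g
  have hE0 : ∀ x : k, (!![0, x; 0, 0] : Matrix (Fin 2) (Fin 2) k).trace = 0 := by
    intro x
    rw [trace_fin_two]
    change (0 : k) + 0 = 0
    rw [add_zero]
  set B₁ : AddSubgroup Z₁ := (cobs r).addSubgroupOf Z₁ with hB₁
  have hkerB : D.ker ⊓ A.ker ≤ B₁ := by
    rintro c ⟨hc1, hc2⟩
    obtain ⟨x, hx⟩ := hker c hc2 hc1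
    exact ⟨_, hE0 x, hx⟩
  have hDA : D.ker.relIndex A.ker = Nat.card (A.ker.map D) := AddSubgroup.relIndex_ker _ _
  have hDA0 : D.ker.relIndex A.ker ≠ 0 := by
    rw [hDA]
    exact Nat.card_pos.ne'
  have hinf : (D.ker ⊓ A.ker).relIndex A.ker = D.ker.relIndex A.ker :=
    AddSubgroup.inf_relIndex_right _ _
  have hB0 : B₁.relIndex A.ker ≠ 0 := by
    intro h0
    have h1 := AddSubgroup.relIndex_eq_zero_of_le_left hkerB h0
    rw [hinf] at h1
    exact hDA0 h1
  have hB1 : B₁.relIndex A.ker ≤ Nat.card k := by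
    have h1 := AddSubgroup.relIndex_le_of_le_left hkerB (L := A.ker) (by rwa [hinf])
    rw [hinf, hDA] at h1
    exact h1.trans hScard
  have hAi : A.ker.index ≠ 0 ∧ A.ker.index ≤ Nat.card k := by
    rw [AddSubgroup.index_ker]
    exact ⟨Nat.card_pos.ne', Nat.card_le_card_of_injective _ Subtype.val_injective⟩
  -- the total index
  have hchain : (B₁ ⊓ A.ker).index = B₁.relIndex A.ker * A.ker.index := by
    rw [← AddSubgroup.relIndex_mul_index (inf_le_right : B₁ ⊓ A.ker ≤ A.ker),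
      AddSubgroup.inf_relIndex_right]
  have hne : (B₁ ⊓ A.ker).index ≠ 0 := by
    rw [hchain]
    exact mul_ne_zero hB0 hAi.1
  haveI : (B₁ ⊓ A.ker).FiniteIndex := ⟨hne⟩
  have hinfle : B₁ ⊓ A.ker ≤ B₁ := inf_le_left
  have hBfin : B₁.FiniteIndex := AddSubgroup.finiteIndex_of_le hinfle
  have hle : B₁.index ≤ B₁.relIndex A.ker * A.ker.index := by
    rw [← hchain]
    exact AddSubgroup.index_antitone hinfle
  have hrel : (cobs r).relIndex Z₁ = B₁.index := rfl
  -- the invariants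
  have hfinal : B₁.relIndex A.ker ≤ Nat.card (inv0 r) := by
    by_cases hcase : ∃ X ∈ inv0 r, X ≠ 0
    · obtain ⟨X, hX, hX0⟩ := hcase
      refine hB1.trans ?_
      let f : k → inv0 r := fun a => ⟨a • X, by
        refine ⟨by rw [trace_smul, hX.1, smul_zero], fun γ => ?_⟩
        rw [cobM_smul, hX.2, smul_zero]⟩
      have hf : Function.Injective f := by
        intro a b hab
        have h1 : a • X = b • X := congrArg Subtype.val hab
        have h2 : (a - b) • X = 0 := by rw [sub_smul, h1, sub_self]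
        rcases smul_eq_zero.1 h2 with h | h
        · exact sub_eq_zero.1 h
        · exact absurd h hX0
      exact Nat.card_le_card_of_injective f hf
    · push Not at hcase
      have hle : A.ker ≤ B₁ := by
        let cd : k → Z₁ := fun a => ⟨cobM r !![a, 0; 0, -a], (hr.diag_mem hrc hflat a).1⟩
        have hcdA : ∀ a, A (cd a) = 0 := fun a => (hr.diag_mem hrc hflat a).2 F
        let f : k → A.ker.map D := fun a => ⟨D (cd a), ⟨cd a, hcdA a, rfl⟩⟩
        have hf : Function.Injective f := by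
          intro a b hab
          have h1 : D (cd a) = D (cd b) := congrArg Subtype.val hab
          have h2 : D (cd a - cd b) = 0 := by rw [map_sub, h1, sub_self]
          obtain ⟨x, hx⟩ := hker (cd a - cd b) (by rw [map_sub, hcdA, hcdA, sub_self]) h2
          have h3 : (!![a, 0; 0, -a] - !![b, 0; 0, -b] - !![0, x; 0, 0] :
              Matrix (Fin 2) (Fin 2) k) ∈ inv0 r := by
            refine ⟨?_, fun γ => ?_⟩
            · rw [trace_sub, trace_sub, hE0, trace_fin_two, trace_fin_two]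
              change a + -a - (b + -b) - 0 = 0
              ring
            · rw [cobM_sub, cobM_sub, ← hx]
              exact sub_self _
          have h4 := congrFun (congrFun (hcase _ h3) 0) 0
          change a - b - 0 = 0 at h4
          rw [sub_zero] at h4
          exact sub_eq_zero.1 h4
        have hfs := (hf.bijective_of_nat_card_le hScard).2
        intro c hc
        obtain ⟨a, ha⟩ := hfs ⟨D c, c, hc, rfl⟩
        have h1 : D (cd a) = D c := congrArg Subtype.val ha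
        have h2 : D (c - cd a) = 0 := by rw [map_sub, h1, sub_self]
        have h3 : A (c - cd a) = 0 := by rw [map_sub, hcdA, show A c = 0 from hc, sub_self]
        obtain ⟨x, hx⟩ := hker _ h3 h2
        refine ⟨!![0, x; 0, 0] + !![a, 0; 0, -a], ?_, fun γ => ?_⟩
        · rw [trace_add, hE0, trace_fin_two]
          change 0 + (a + -a) = (0 : k)
          ring
        · rw [cobM_add, ← hx]
          change c.1 γ = c.1 γ - cobM r !![a, 0; 0, -a] γ + cobM r !![a, 0; 0, -a] γ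
          rw [sub_add_cancel]
      rw [AddSubgroup.relIndex_eq_one.2 hle]
      exact Nat.card_pos
  refine ⟨Z₁, fun c hc => ⟨hc.1, hc.2.1, hc.2.2.1⟩, fun c hc hc0 hcl hf => ?_, ?_, ?_⟩
  · obtain ⟨φ, hφ1, hφ2⟩ := hr.exists_phi hc hf
    have hX0 : (!![0, 0; φ, 0] : Matrix (Fin 2) (Fin 2) k).trace = 0 := by
      rw [trace_fin_two]
      change (0 : k) + 0 = 0
      rw [add_zero]
    have htr : ∀ γ, (c γ - cobM r !![0, 0; φ, 0] γ).trace = 0 := fun γ => by
      rw [trace_sub, hc0, trace_cobM, sub_self]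
    have h00 : ∀ σ ∈ I, (c σ - cobM r !![0, 0; φ, 0] σ) 0 0 = 0 := by
      intro σ hσ
      have h1 := htr σ
      rw [trace_fin_two, hφ2 σ hσ, add_zero] at h1
      exact h1
    have hco := hc.sub (isCoc_cobM r !![0, 0; φ, 0])
    exact ⟨!![0, 0; φ, 0], hX0, hco, htr, hcl.sub (lc_cobM hrc _), hφ1, hφ2, fun l =>
      hr.level_of_flat hco h00 (fun σ _ => hφ1 σ) hφ2 (hf.sub_cob _) l⟩
  · exact hBfin.index_ne_zero
  · calc (cobs r).relIndex Z₁ ≤ B₁.relIndex A.ker * A.ker.index := hle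
      _ ≤ Nat.card (inv0 r) * Nat.card k := Nat.mul_le_mul hfinal hAi.2
      _ = _ := mul_comm _ _

end OrdRep

end Fermat.Agent.Flat
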