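import Mathlib

set_option autoImplicit false
set_option linter.unusedSectionVars false

/-!
# The supersingular model over the prime field (block V0)

`V` two-dimensional over a field `k` of characteristic `p`, `T`, `F` automorphisms with
`F T = T ^ p F`, determinants in `𝔽_p`, `T ^ (p-1) ≠ 1`.
-/

namespace Fermat.Agent.Flat.VZero

open Polynomial

section CH

variable {k V : Type*} [Field k] [AddCommGroup V] [Module k V]

/-- Cayley-Hamilton in rank two -/
theorem ch (hV : Module.finrank k V = 2) (f : Module.End k V) :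
    f * f - (LinearMap.trace k V f) • f + (LinearMap.det f) • (1 : Module.End k V) = 0 := by
  have : FiniteDimensional k V := Module.finite_of_finrank_pos (by rw [hV]; norm_num)
  let b : Module.Basis (Fin 2) k V := Module.finBasisOfFinrankEq k V hV
  have h1 := Matrix.aeval_self_charpoly (LinearMap.toMatrixAlgEquiv b f)
  rw [Matrix.charpoly_fin_two] at h1
  simp only [map_add, map_sub, map_mul, map_pow, aeval_X, aeval_C] at h1
  apply (LinearMap.toMatrixAlgEquiv b).injective
  rw [map_add, map_sub, map_mul, map_smul, map_smul, map_one, map_zero, ← h1, pow_two]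
  have ht : LinearMap.trace k V f = (LinearMap.toMatrixAlgEquiv b f).trace := by
    rw [LinearMap.trace_eq_matrix_trace k b]; rfl
  have hd : LinearMap.det f = (LinearMap.toMatrixAlgEquiv b f).det := by
    rw [← LinearMap.det_toMatrix b]; rfl
  rw [ht, hd, Algebra.smul_def, Algebra.smul_def, mul_one]

/-- a nonscalar endomorphism has a cyclic vector -/
theorem exists_cyclic {T : Module.End k V} (hT : ¬ ∃ c : k, T = c • 1) :
    ∃ v : V, LinearIndependent k ![v, T v] := by
  by_contra hcon
  push Not at hcon
  apply hT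
  obtain ⟨a, ha⟩ := T.exists_eq_smul_id_of_forall_notLinearIndependent hcon
  exact ⟨a, ha⟩

/-- the centralizer of a nonscalar endomorphism in rank two -/
theorem exists_of_commute (hV : Module.finrank k V = 2) {T S : Module.End k V}
    (hT : ¬ ∃ c : k, T = c • 1) (hST : S * T = T * S) : ∃ α β : k, S = α • 1 + β • T := by
  have : FiniteDimensional k V := Module.finite_of_finrank_pos (by rw [hV]; norm_num)
  obtain ⟨v, hv⟩ := exists_cyclic hT
  let b : Module.Basis (Fin 2) k V := basisOfLinearIndependentOfCardEqFinrank hv (by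
    rw [Fintype.card_fin, hV])
  have hb : ∀ i, b i = ![v, T v] i := fun i => by
    simp [b]
  have h1 := b.sum_repr (S v)
  rw [Fin.sum_univ_two, hb, hb] at h1
  simp only [Matrix.cons_val_zero, Matrix.cons_val_one] at h1
  refine ⟨b.repr (S v) 0, b.repr (S v) 1, ?_⟩
  set α := b.repr (S v) 0
  set β := b.repr (S v) 1
  have hv0 : S v = (α • (1 : Module.End k V) + β • T) v := by
    rw [← h1]; simp
  apply b.ext
  intro i
  rw [hb]
  fin_cases i
  · exact hv0
  · change S (T v) = (α • (1 : Module.End k V) + β • T) (T v)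
    have h2 : S (T v) = T (S v) := by
      have := congrArg (fun f : Module.End k V => f v) hST
      exact this
    rw [h2, hv0]
    simp

/-- independence of `1` and a nonscalar endomorphism -/
theorem eq_zero_of_comb {T : Module.End k V} (hT : ¬ ∃ c : k, T = c • 1) {α β : k}
    (h : α • (1 : Module.End k V) + β • T = 0) : α = 0 ∧ β = 0 := by
  obtain ⟨v, hv⟩ := exists_cyclic hT
  have h1 := congrArg (fun f : Module.End k V => f v) h
  have h2 : α • v + β • T v = 0 := by simpa using h1
  exact LinearIndependent.pair_iff.mp hv α β h2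

end CH

section Char

variable {p : ℕ} [hp : Fact p.Prime] {k V : Type*} [Field k] [Algebra (ZMod p) k]
  [AddCommGroup V] [Module k V]

local notation "io" => algebraMap (ZMod p) k

include hp in
theorem charP_k : CharP k p := charP_of_injective_algebraMap (algebraMap (ZMod p) k).injective p

theorem io_pow (a : ZMod p) : (io a) ^ p = io a := by
  rw [← map_pow, ZMod.pow_card]

theorem exists_io_of_pow {x : k} (hx : x ^ p = x) : ∃ a : ZMod p, io a = x := by
  have := charP_k (p := p) (k := k)
  have h1 : x ∈ (⊥ : Subfield k) := (Subfield.mem_bot_iff_pow_eq_self k p).mpr hx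
  obtain ⟨n, hn⟩ := (_root_.mem_bot_iff_intCast p k).mp h1
  exact ⟨(n : ZMod p), by rw [map_intCast, hn]⟩

theorem charP_end [Nontrivial V] : CharP (Module.End k V) p := by
  have := charP_k (p := p) (k := k)
  exact charP_of_injective_algebraMap (algebraMap k (Module.End k V)).injective p

/-- trace in the prime field -/
theorem trace_pow [Nontrivial V] {T F : Module.End k V} (hF : IsUnit F) (hFT : F * T = T ^ p * F)
    {τ : k} {δ : ZMod p} (hδ : δ ≠ 0)
    (h : T * T - τ • T + (io δ) • (1 : Module.End k V) = 0) :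
    τ ^ p = τ ∧ T ^ p * (τ • (1 : Module.End k V) - T ^ p) = (io δ) • (1 : Module.End k V) := by
  have hc := charP_end (p := p) (k := k) (V := V)
  have hδ' : (io δ) ≠ 0 := (map_ne_zero_iff _ (algebraMap (ZMod p) k).injective).mpr hδ
  set T' := τ • (1 : Module.End k V) - T with hT'
  have hTT' : T * T' = (io δ) • (1 : Module.End k V) := by
    rw [hT', mul_sub, mul_smul_comm, mul_one]
    rw [← sub_eq_zero, ← neg_eq_zero, ← h]
    abel
  have hcomm : Commute T T' := by
    rw [hT']
    exact ((Commute.one_right T).smul_right τ).sub_right (Commute.refl T)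
  have e1 : F * T' = (τ • (1 : Module.End k V) - T ^ p) * F := by
    rw [hT', mul_sub, sub_mul, hFT, mul_smul_comm, smul_mul_assoc, mul_one, one_mul]
  have e2 : T ^ p * (τ • (1 : Module.End k V) - T ^ p) = (io δ) • (1 : Module.End k V) := by
    have h1 : T ^ p * (τ • (1 : Module.End k V) - T ^ p) * F = (io δ) • (1 : Module.End k V) * F := by
      rw [mul_assoc, ← e1, ← mul_assoc, ← hFT, mul_assoc, hTT', mul_smul_comm, smul_mul_assoc,
        mul_one, one_mul]
    exact hF.mul_right_cancel h1
  refine ⟨?_, e2⟩
  have hcp : Commute (τ • (1 : Module.End k V)) T := (Commute.one_left T).smul_left τ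
  have e3 : T' ^ p = (τ ^ p) • (1 : Module.End k V) - T ^ p := by
    rw [hT', sub_pow_char_of_commute p hcp, _root_.smul_pow, one_pow]
  have e4 : T ^ p * T' ^ p = (io δ) • (1 : Module.End k V) := by
    rw [← hcomm.mul_pow, hTT', _root_.smul_pow, one_pow, io_pow]
  rw [e3] at e4
  have e5 : (τ ^ p - τ) • T ^ p = 0 := by
    have : T ^ p * ((τ ^ p) • (1 : Module.End k V) - T ^ p) -
        T ^ p * (τ • (1 : Module.End k V) - T ^ p) = (τ ^ p - τ) • T ^ p := by
      rw [mul_sub, mul_sub, mul_smul_comm, mul_smul_comm, mul_one, sub_smul]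
      abel
    rw [← this, e4, e2, sub_self]
  rcases smul_eq_zero.mp e5 with h6 | h6
  · exact sub_eq_zero.mp h6
  · exfalso
    rw [h6, zero_mul] at e2
    exact (smul_ne_zero hδ' one_ne_zero) e2.symm

variable (T : Module.End k V)

/-- elements of the field `𝔽_p[T]` -/
noncomputable def el (a b : ZMod p) : Module.End k V :=
  (io a) • (1 : Module.End k V) + (io b) • T

variable {T}

/-- the axioms extracted from the situation -/
structure Data (T F : Module.End k V) (τ δ u : ZMod p) : Prop where
  hV : Module.finrank k V = 2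
  ns : ¬ ∃ c : k, T = c • 1
  quad : T * T = (io τ) • T - (io δ) • (1 : Module.End k V)
  irr : ∀ x : ZMod p, x * x - τ * x + δ ≠ 0
  FT : F * T = ((io τ) • (1 : Module.End k V) - T) * F
  hu : u ≠ 0
  FF : F * F = (io u) • (1 : Module.End k V)

/-- extraction of the data -/
theorem exists_data (hp2 : p ≠ 2) (hV : Module.finrank k V = 2) {T F : Module.End k V} (hF : IsUnit F)
    (hFT : F * T = T ^ p * F) {δ ε : ZMod p} (hδ : δ ≠ 0) (hε : ε ≠ 0)
    (hdT : LinearMap.det T = io δ) (hdF : LinearMap.det F = io ε) (hTu : IsUnit T)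
    (hT1 : T ^ (p - 1) ≠ 1) : ∃ τ : ZMod p, Data T F τ δ (-ε) ∧
      T ^ p = (io τ) • (1 : Module.End k V) - T := by
  have : FiniteDimensional k V := Module.finite_of_finrank_pos (by rw [hV]; norm_num)
  have hnt : Nontrivial V := Module.nontrivial_of_finrank_pos (R := k) (by rw [hV]; norm_num)
  have hcE := charP_end (p := p) (k := k) (V := V)
  have hck := charP_k (p := p) (k := k)
  have hp1 : p - 1 + 1 = p := Nat.sub_add_cancel hp.out.one_le
  have hTp : T ^ p ≠ T := by
    intro h
    apply hT1
    have h1 : T ^ (p - 1) * T = 1 * T := by rw [← pow_succ, hp1, one_mul, h]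
    exact hTu.mul_right_cancel h1
  have hCH := ch hV T
  rw [hdT] at hCH
  obtain ⟨h1, h2⟩ := trace_pow hF hFT hδ hCH
  obtain ⟨τ, hτ⟩ := exists_io_of_pow h1
  rw [← hτ] at hCH h2
  have hquad : T * T = (io τ) • T - (io δ) • (1 : Module.End k V) := by
    rw [← sub_eq_zero, ← hCH]; abel
  have hns : ¬ ∃ c : k, T = c • 1 := by
    rintro ⟨c, hc⟩
    apply hTp
    have h3 : T ^ p * F = T * F := by
      rw [← hFT, hc, mul_smul_comm, smul_mul_assoc, mul_one, one_mul]
    exact hF.mul_right_cancel h3
  -- irreducibility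
  have hirr : ∀ x : ZMod p, x * x - τ * x + δ ≠ 0 := by
    intro a ha
    set b := τ - a with hb
    set N := T - (io a) • (1 : Module.End k V) with hN
    have hNN : N * N = (io (b - a)) • N := by
      have hδ' : δ = a * b := by rw [hb]; linear_combination ha
      have hτ' : τ = a + b := by rw [hb]; ring
      rw [hN]
      simp only [mul_sub, sub_mul, mul_smul_comm, smul_mul_assoc, mul_one, one_mul, hquad]
      rw [hδ', hτ']
      simp only [map_add, map_sub, map_mul, smul_sub, smul_smul, sub_smul, add_smul]
      module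
    have hNpow : ∀ n : ℕ, N ^ (n + 1) = (io (b - a)) ^ n • N := by
      intro n
      induction n with
      | zero => rw [zero_add, pow_one, pow_zero, one_smul]
      | succ n ih => rw [pow_succ, ih, smul_mul_assoc, hNN, smul_smul, ← pow_succ]
    have hTN : T = (io a) • (1 : Module.End k V) + N := by rw [hN]; abel
    have hcm : Commute ((io a) • (1 : Module.End k V)) N := (Commute.one_left N).smul_left _
    have hTpN : T ^ p = (io a) • (1 : Module.End k V) + (io (b - a)) ^ (p - 1) • N := by
      conv_lhs => rw [hTN]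
      rw [add_pow_char_of_commute p hcm, _root_.smul_pow, one_pow, io_pow]
      congr 1
      rw [← hNpow, hp1]
    by_cases hab : b - a = 0
    · rw [hab, map_zero, zero_pow (by have := hp.out.two_le; omega), zero_smul, add_zero] at hTpN
      -- `T ^ p` is scalar
      apply hns
      refine ⟨io a, ?_⟩
      rw [hTpN, smul_mul_assoc, one_mul] at hFT
      have h3 : F * T = F * ((io a) • (1 : Module.End k V)) := by
        rw [hFT, mul_smul_comm, mul_one]
      exact hF.mul_left_cancel h3
    · apply hTp
      rw [hTpN, ← map_pow, ZMod.pow_card_sub_one_eq_one hab, map_one, one_smul, ← hTN]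
  -- `T ^ p = τ - T`
  have hTp' : T ^ p = (io τ) • (1 : Module.End k V) - T := by
    -- both `T` and `T^p` are roots; `T ^ p = a + b T`
    have hlin : ∀ n : ℕ, ∃ a b : ZMod p, T ^ n = el T a b := by
      intro n
      induction n with
      | zero => exact ⟨1, 0, by simp [el]⟩
      | succ n ih =>
        obtain ⟨a, b, hab⟩ := ih
        refine ⟨-(b * δ), a + b * τ, ?_⟩
        rw [pow_succ, hab, el, el, add_mul, smul_mul_assoc, smul_mul_assoc, one_mul, hquad]
        simp only [map_add, map_neg, map_mul]
        module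
    obtain ⟨a, b, hab⟩ := hlin p
    -- `(a + b T)` is a root
    have h3 : el T a b * ((io τ) • (1 : Module.End k V) - el T a b) =
        (io δ) • (1 : Module.End k V) := by rw [← hab]; exact h2
    have h4 : el T a b * ((io τ) • (1 : Module.End k V) - el T a b) =
        (io (a * τ - a * a + b * b * δ)) • (1 : Module.End k V) +
          (io (b * τ - 2 * a * b - b * b * τ)) • T := by
      rw [el]
      simp only [mul_sub, add_mul, mul_add, smul_mul_assoc, mul_smul_comm, mul_one, one_mul, hquad]
      simp only [map_add, map_mul, map_sub, map_ofNat]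
      module
    rw [h4] at h3
    have h5 : (io (a * τ - a * a + b * b * δ) - io δ) • (1 : Module.End k V) +
          (io (b * τ - 2 * a * b - b * b * τ)) • T = 0 := by
      rw [sub_smul, ← h3]; abel
    obtain ⟨h6, h7⟩ := eq_zero_of_comb hns h5
    have hinj := (algebraMap (ZMod p) k).injective
    have h6' : a * τ - a * a + b * b * δ = δ := hinj (sub_eq_zero.mp h6)
    have h7' : b * (τ - 2 * a - b * τ) = 0 := by
      apply hinj
      rw [map_zero, ← h7]
      congr 1
      ring
    rcases mul_eq_zero.mp h7' with hb | hb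
    · exfalso
      apply hirr a
      rw [hb] at h6'
      linear_combination -h6'
    · have h2p : (2 : ZMod p) ≠ 0 := by
        intro h0
        apply hp2
        have h10 : ((2 : ℕ) : ZMod p) = 0 := by exact_mod_cast h0
        rw [ZMod.natCast_eq_zero_iff] at h10
        exact (Nat.prime_dvd_prime_iff_eq hp.out Nat.prime_two).mp h10
      -- `2 a = τ (1 - b)`
      have h8 : (1 - b * b) * (τ * τ - 4 * δ) = 0 := by
        have h9 : 2 * a = τ * (1 - b) := by linear_combination -hb
        linear_combination 4 * h6' + (2 * a - τ * (1 + b)) * h9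
      have hdisc : τ * τ - 4 * δ ≠ 0 := by
        intro h0
        apply hirr (τ / 2)
        field_simp
        linear_combination -h0
      have h10 : (1 - b) * (1 + b) = 0 := by
        rcases mul_eq_zero.mp h8 with h11 | h11
        · linear_combination h11
        · exact absurd h11 hdisc
      rcases mul_eq_zero.mp h10 with h11 | h11
      · -- `b = 1`
        exfalso
        have hb1 : b = 1 := by linear_combination -h11
        have h2a : 2 * a = 0 := by rw [hb1] at hb; linear_combination -hb
        have ha : a = 0 := (mul_eq_zero.mp h2a).resolve_left h2p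
        apply hTp
        rw [hab, el, hb1, ha, map_zero, map_one, zero_smul, zero_add, one_smul]
      · have hb1 : b = -1 := by linear_combination h11
        have ha : a = τ := by
          apply mul_left_cancel₀ h2p
          rw [hb1] at hb
          linear_combination -hb
        rw [hab, el, hb1, ha, map_neg, map_one, neg_one_smul, sub_eq_add_neg]
  have hFT' : F * T = ((io τ) • (1 : Module.End k V) - T) * F := by rw [← hTp', hFT]
  have hne : T ≠ (io τ) • (1 : Module.End k V) - T := by rw [← hTp']; exact fun h => hTp h.symm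
  -- `F²` is a scalar
  have hFFT : F * F * T = T * (F * F) := by
    rw [mul_assoc, hFT', ← mul_assoc, mul_sub, mul_smul_comm, mul_one, hFT', sub_mul, sub_mul,
      smul_mul_assoc, smul_mul_assoc, sub_mul, smul_mul_assoc, one_mul]
    abel
  obtain ⟨α, β, hαβ⟩ := exists_of_commute hV hns hFFT
  have hFcomm : F * (F * F) = F * F * F := (mul_assoc _ _ _).symm
  rw [hαβ] at hFcomm
  have hβ : β = 0 := by
    have h3 : β • (((io τ) • (1 : Module.End k V) - T - T) * F) = 0 := by
      rw [mul_add, mul_smul_comm, mul_smul_comm, hFT', add_mul, smul_mul_assoc, smul_mul_assoc,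
        mul_one, one_mul] at hFcomm
      rw [sub_mul, smul_sub, sub_eq_zero]
      exact add_left_cancel hFcomm
    rcases smul_eq_zero.mp h3 with h4 | h4
    · exact h4
    · exfalso
      apply hne
      have h5 : (io τ) • (1 : Module.End k V) - T - T = 0 := by
        have h6 : ((io τ) • (1 : Module.End k V) - T - T) * F = 0 * F := by rw [h4, zero_mul]
        exact hF.mul_right_cancel h6
      exact (sub_eq_zero.mp h5).symm
  rw [hβ, zero_smul, add_zero] at hαβ
  have hCHF := ch hV F
  rw [hαβ, hdF] at hCHF
  have hFns : ¬ ∃ c : k, F = c • 1 := by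
    rintro ⟨c, hc⟩
    apply hne
    have h3 : T * F = ((io τ) • (1 : Module.End k V) - T) * F := by
      rw [← hFT', hc, mul_smul_comm, smul_mul_assoc, mul_one, one_mul]
    exact hF.mul_right_cancel h3
  have h3 : (α + io ε) • (1 : Module.End k V) + (-(LinearMap.trace k V F)) • F = 0 := by
    rw [← hCHF, add_smul, neg_smul]; abel
  obtain ⟨h4, -⟩ := eq_zero_of_comb hFns h3
  refine ⟨τ, ⟨hV, hns, hquad, hirr, hFT', neg_ne_zero.mpr hε, ?_⟩, hTp'⟩
  rw [hαβ, map_neg]
  congr 1
  linear_combination h4

section Use

variable {T F : Module.End k V} {τ δ u : ZMod p}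

theorem el_apply (a b : ZMod p) (x : V) : el T a b x = (io a) • x + (io b) • T x := by
  simp [el]

theorem Data.el_mul (D : Data T F τ δ u) (a b c d : ZMod p) :
    el T a b * el T c d = el T (a * c - b * d * δ) (a * d + b * c + b * d * τ) := by
  rw [el, el, el]
  simp only [add_mul, mul_add, smul_mul_assoc, mul_smul_comm, mul_one, one_mul, D.quad]
  simp only [map_add, map_mul, map_sub]
  module

theorem Data.F_el (D : Data T F τ δ u) (a b : ZMod p) :
    F * el T a b = el T (a + b * τ) (-b) * F := by
  rw [el, el, mul_add, mul_smul_comm, mul_smul_comm, D.FT]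
  simp only [add_mul, sub_mul, smul_mul_assoc, mul_one, one_mul]
  simp only [map_add, map_mul, map_neg]
  module

/-- the norm form -/
def nf (τ δ a b : ZMod p) : ZMod p := a * a + a * b * τ + b * b * δ

theorem Data.el_conj (D : Data T F τ δ u) (a b : ZMod p) :
    el T a b * el T (a + b * τ) (-b) = (io (nf τ δ a b)) • (1 : Module.End k V) := by
  rw [D.el_mul, el]
  have e1 : a * (a + b * τ) - b * -b * δ = nf τ δ a b := by rw [nf]; ring
  have e2 : a * -b + b * (a + b * τ) + b * -b * τ = 0 := by ring
  rw [e1, e2, map_zero, zero_smul, add_zero]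

theorem Data.conj_el (D : Data T F τ δ u) (a b : ZMod p) :
    el T (a + b * τ) (-b) * el T a b = (io (nf τ δ a b)) • (1 : Module.End k V) := by
  rw [D.el_mul, el]
  have e1 : (a + b * τ) * a - -b * b * δ = nf τ δ a b := by rw [nf]; ring
  have e2 : (a + b * τ) * b + -b * a + -b * b * τ = 0 := by ring
  rw [e1, e2, map_zero, zero_smul, add_zero]

theorem Data.nf_ne_zero (D : Data T F τ δ u) {a b : ZMod p} (h : a ≠ 0 ∨ b ≠ 0) :
    nf τ δ a b ≠ 0 := by
  intro h0
  rw [nf] at h0
  by_cases hb : b = 0
  · rw [hb] at h0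
    have ha : a ≠ 0 := h.resolve_right (fun h => h hb)
    apply ha
    have : a * a = 0 := by linear_combination h0
    exact mul_self_eq_zero.mp this
  · apply D.irr (-(a / b))
    field_simp
    linear_combination h0

theorem Data.exists_norm (D : Data T F τ δ u) (hp2 : p ≠ 2) : ∃ a b, nf τ δ a b = u := by
  have h2p : (2 : ZMod p) ≠ 0 := by
    intro h0
    apply hp2
    have h10 : ((2 : ℕ) : ZMod p) = 0 := by exact_mod_cast h0
    rw [ZMod.natCast_eq_zero_iff] at h10
    exact (Nat.prime_dvd_prime_iff_eq hp.out Nat.prime_two).mp h10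
  obtain ⟨t, ht⟩ : ∃ t, τ = 2 * t := ⟨τ / 2, by field_simp⟩
  have hD : δ - t ^ 2 ≠ 0 := by
    intro h0
    apply D.irr t
    rw [ht]
    linear_combination h0
  obtain ⟨c, b, hcb⟩ := FiniteField.exists_root_sum_quadratic
    (f := (X ^ 2 - C u : (ZMod p)[X])) (g := (C (δ - t ^ 2) * X ^ 2 : (ZMod p)[X]))
    (degree_X_pow_sub_C two_pos u) (degree_C_mul_X_pow 2 hD) (by
      rw [ZMod.card]
      rcases hp.out.eq_two_or_odd with h | h
      · exact absurd h hp2
      · exact h)
  refine ⟨c - t * b, b, ?_⟩
  simp only [eval_sub, eval_mul, eval_pow, eval_X, eval_C] at hcb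
  rw [nf, ht]
  linear_combination hcb

/-- a vector with `F v = a₀ v` -/
theorem Data.exists_vec (D : Data T F τ δ u) (hp2 : p ≠ 2) (hF : IsUnit F) :
    ∃ (a b : ZMod p) (v : V), nf τ δ a b = u ∧ v ≠ 0 ∧ F v = el T a b v := by
  obtain ⟨a, b, hab⟩ := D.exists_norm hp2
  have hu0 : (io u) ≠ 0 := (map_ne_zero_iff _ (algebraMap (ZMod p) k).injective).mpr D.hu
  set E' := el T (a + b * τ) (-b) with hE'
  have h1 : ∃ w : V, (io u) • w + E' (F w) ≠ 0 := by
    by_contra hcon
    push Not at hcon
    -- `E' F = - u`, hence `F = - E`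
    have h2 : E' * F = -((io u) • (1 : Module.End k V)) := by
      refine LinearMap.ext fun w => ?_
      have := hcon w
      change E' (F w) = -((io u) • w)
      exact eq_neg_of_add_eq_zero_right this
    have h3 : (io u) • F = -((io u) • el T a b) := by
      have h4 : el T a b * (E' * F) = (io u) • F := by
        rw [← mul_assoc, hE', D.el_conj, hab, smul_mul_assoc, one_mul]
      rw [← h4, h2, mul_neg, mul_smul_comm, mul_one]
    have h5 : F = - el T a b := by
      rw [← smul_neg] at h3
      exact smul_right_injective _ hu0 h3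
    have h6 : F * T = T * F := by
      rw [h5, neg_mul, mul_neg, el, add_mul, mul_add, smul_mul_assoc, smul_mul_assoc,
        mul_smul_comm, mul_smul_comm, one_mul, mul_one]
    rw [D.FT] at h6
    have h7 : (io τ) • (1 : Module.End k V) - T = T := hF.mul_right_cancel h6
    have h8 : (io τ) • (1 : Module.End k V) + (-2 : k) • T = 0 := by
      rw [neg_smul, two_smul, ← sub_eq_add_neg, ← sub_sub, h7, sub_self]
    have h9 := (eq_zero_of_comb D.ns h8).2
    apply hp2
    have h10 : (io (2 : ZMod p)) = 0 := by rw [map_ofNat]; linear_combination -h9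
    have h11 : (2 : ZMod p) = 0 := by
      apply (algebraMap (ZMod p) k).injective
      rw [h10, map_zero]
    have h12 : ((2 : ℕ) : ZMod p) = 0 := by exact_mod_cast h11
    rw [ZMod.natCast_eq_zero_iff] at h12
    exact (Nat.prime_dvd_prime_iff_eq hp.out Nat.prime_two).mp h12
  obtain ⟨w, hw⟩ := h1
  refine ⟨a, b, (io u) • w + E' (F w), hab, hw, ?_⟩
  have e1 : F (E' (F w)) = (io u) • el T a b w := by
    have h2 : F * E' = el T a b * F := by
      rw [hE', D.F_el]
      congr 2
      · ring
      · ring
    have h3 : F (E' (F w)) = (el T a b * (F * F)) w := by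
      rw [← mul_assoc, ← h2]; rfl
    rw [h3, D.FF, mul_smul_comm, mul_one]
    rfl
  have e2 : el T a b (E' (F w)) = (io u) • F w := by
    have h3 : el T a b (E' (F w)) = (el T a b * E') (F w) := rfl
    rw [h3, hE', D.el_conj, hab]
    rfl
  rw [map_add, map_smul, e1, map_add, map_smul, e2, add_comm]

end Use

section Final

theorem isUnit_rho {G : Type*} [Group G] (ρ : G →* Module.End k V) (s : G) : IsUnit (ρ s) :=
  IsUnit.map ρ (Group.isUnit s)

/-- coordinates -/
noncomputable def phi (b : Module.Basis (Fin 2) k V) : (Fin 2 → ZMod p) →+ V where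
  toFun c := ∑ i, (algebraMap (ZMod p) k (c i)) • b i
  map_zero' := by simp
  map_add' c d := by
    rw [← Finset.sum_add_distrib]
    refine Finset.sum_congr rfl fun i _ => ?_
    rw [Pi.add_apply, map_add, add_smul]

theorem phi_apply (b : Module.Basis (Fin 2) k V) (c : Fin 2 → ZMod p) :
    phi b c = (io (c 0)) • b 0 + (io (c 1)) • b 1 := by
  change ∑ i, (algebraMap (ZMod p) k (c i)) • b i = _
  rw [Fin.sum_univ_two]

theorem repr_phi (b : Module.Basis (Fin 2) k V) (c : Fin 2 → ZMod p) (i : Fin 2) :
    b.repr (phi b c) i = io (c i) := by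
  change b.repr (∑ i, (algebraMap (ZMod p) k (c i)) • b i) i = _
  rw [b.repr_sum_self]

theorem phi_injective (b : Module.Basis (Fin 2) k V) :
    Function.Injective (phi (p := p) b) := by
  intro c d h
  funext i
  apply (algebraMap (ZMod p) k).injective
  rw [← repr_phi b c, ← repr_phi b d, h]

/-- the alternating form -/
noncomputable def alt (b : Module.Basis (Fin 2) k V) :
    (phi (p := p) b).range →+ (phi (p := p) b).range →+ ZMod p :=
  AddMonoidHom.mk' (fun x => AddMonoidHom.mk' (fun y =>
      ((AddMonoidHom.ofInjective (phi_injective b)).symm x) 0 *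
        ((AddMonoidHom.ofInjective (phi_injective b)).symm y) 1 -
      ((AddMonoidHom.ofInjective (phi_injective b)).symm x) 1 *
        ((AddMonoidHom.ofInjective (phi_injective b)).symm y) 0) (fun y y' => by
          rw [map_add, Pi.add_apply, Pi.add_apply]; ring)) (fun x x' => by
          ext y
          simp only [AddMonoidHom.mk'_apply, AddMonoidHom.add_apply]
          rw [map_add, Pi.add_apply, Pi.add_apply]; ring)

theorem alt_apply (b : Module.Basis (Fin 2) k V) (x y : (phi (p := p) b).range) :
    alt b x y = ((AddMonoidHom.ofInjective (phi_injective b)).symm x) 0 *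
        ((AddMonoidHom.ofInjective (phi_injective b)).symm y) 1 -
      ((AddMonoidHom.ofInjective (phi_injective b)).symm x) 1 *
        ((AddMonoidHom.ofInjective (phi_injective b)).symm y) 0 := rfl

theorem repr_coe (b : Module.Basis (Fin 2) k V) (x : (phi (p := p) b).range) (i : Fin 2) :
    b.repr (x : V) i = io (((AddMonoidHom.ofInjective (phi_injective b)).symm x) i) := by
  have h : phi b ((AddMonoidHom.ofInjective (phi_injective b)).symm x) = (x : V) :=
    congrArg Subtype.val ((AddMonoidHom.ofInjective (phi_injective (p := p) b)).apply_symm_apply x)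
  conv_lhs => rw [← h]
  rw [repr_phi]

theorem io_alt (b : Module.Basis (Fin 2) k V) (x y : (phi (p := p) b).range) :
    io (alt b x y) = b.det ![(x : V), (y : V)] := by
  rw [alt_apply, map_sub, map_mul, map_mul, ← repr_coe, ← repr_coe, ← repr_coe, ← repr_coe,
    Module.Basis.det_apply, Matrix.det_fin_two]
  simp only [Module.Basis.toMatrix_apply, Matrix.cons_val_zero, Matrix.cons_val_one]
  ring

/-- **Block V0** -/
theorem exists_V0 (hp2 : p ≠ 2) (hV : Module.finrank k V = 2) {G : Type*} [Group G]
    (ρ : G →* Module.End k V) (I : Subgroup G) (Fr : G)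
    (hFr : ∀ t ∈ I, ρ Fr * ρ t = ρ t ^ p * ρ Fr) (hcomm : ∀ s ∈ I, ∀ t ∈ I, ρ s * ρ t = ρ t * ρ s)
    (hgen : ∀ s, ∃ n : ℕ, ∃ t ∈ I, ρ s = ρ Fr ^ n * ρ t) (ε : G → ZMod p)
    (hdet : ∀ s, LinearMap.det (ρ s) = algebraMap (ZMod p) k (ε s))
    (hirr : ∀ W : Submodule k V, (∀ s, ∀ x ∈ W, ρ s x ∈ W) → W = ⊥ ∨ W = ⊤)
    (ht : ∃ t ∈ I, ρ t ^ (p - 1) ≠ 1) :
    ∃ (b : Module.Basis (Fin 2) k V) (V0 : AddSubgroup V),
      (∀ x, x ∈ V0 ↔ ∃ c : Fin 2 → ZMod p, x = ∑ i, (algebraMap (ZMod p) k (c i)) • b i) ∧
      (∀ s, ∀ x ∈ V0, ρ s x ∈ V0) ∧ Nat.card V0 = p ^ 2 ∧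
      (∀ W : AddSubgroup V, W ≤ V0 → (∀ t ∈ I, ∀ x ∈ W, ρ t x ∈ W) → W = ⊥ ∨ W = V0) ∧
      ∃ b0 : V0 →+ V0 →+ ZMod p, (∀ x, b0 x x = 0) ∧ (∀ x, x ≠ 0 → ∃ y, b0 x y ≠ 0) ∧
        ∀ s (x y x' y' : V0), (x' : V) = ρ s x → (y' : V) = ρ s y → b0 x' y' = ε s * b0 x y := by
  have : FiniteDimensional k V := Module.finite_of_finrank_pos (by rw [hV]; norm_num)
  have hnt : Nontrivial V := Module.nontrivial_of_finrank_pos (R := k) (by rw [hV]; norm_num)
  have hcE := charP_end (p := p) (k := k) (V := V)
  obtain ⟨t, htI, htp⟩ := ht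
  have hεne : ∀ s, ε s ≠ 0 := by
    intro s h0
    have h1 : LinearMap.det (ρ s) * LinearMap.det (ρ s⁻¹) = 1 := by
      rw [← map_mul, ← map_mul, mul_inv_cancel, map_one, map_one]
    rw [hdet s, h0, map_zero, zero_mul] at h1
    exact zero_ne_one h1
  obtain ⟨τ, D, hTp⟩ := exists_data hp2 hV (isUnit_rho ρ Fr) (hFr t htI) (hεne t) (hεne Fr)
    (hdet t) (hdet Fr) (isUnit_rho ρ t) htp
  set T := ρ t with hT
  set F := ρ Fr with hF
  have hFu : IsUnit F := isUnit_rho ρ Fr
  obtain ⟨a, b, v, hab, hv0, hFv⟩ := D.exists_vec hp2 hFu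
  -- inertia acts through `𝔽_p[T]`
  have hI : ∀ s ∈ I, ∃ c d : ZMod p, ρ s = el T c d := by
    intro s hs
    obtain ⟨α, β, hαβ⟩ := exists_of_commute hV D.ns (hcomm s hs t htI)
    have h1 := hFr s hs
    have hcm : Commute (α • (1 : Module.End k V)) (β • T) :=
      ((Commute.one_left T).smul_left α).smul_right β
    have h2 : ρ s ^ p = (α ^ p) • (1 : Module.End k V) +
        (β ^ p) • ((io τ) • (1 : Module.End k V) - T) := by
      rw [hαβ, add_pow_char_of_commute p hcm, _root_.smul_pow, _root_.smul_pow, one_pow, hTp]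
    rw [h2, hαβ, mul_add, mul_smul_comm, mul_smul_comm, mul_one, D.FT] at h1
    have h3 : ((α + β * io τ) • (1 : Module.End k V) + (-β) • T) * F =
        ((α ^ p + β ^ p * io τ) • (1 : Module.End k V) + (-β ^ p) • T) * F := by
      calc ((α + β * io τ) • (1 : Module.End k V) + (-β) • T) * F
          = α • F + β • (((io τ) • (1 : Module.End k V) - T) * F) := by
            simp only [add_mul, sub_mul, smul_mul_assoc, one_mul]
            module
        _ = _ := by
            rw [h1]
            congr 1
            module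
    have h4 := hFu.mul_right_cancel h3
    have h5 : (α + β * io τ - (α ^ p + β ^ p * io τ)) • (1 : Module.End k V) +
        (-β - (-β ^ p)) • T = 0 := by
      rw [sub_smul, sub_smul]
      have := sub_eq_zero.mpr h4
      rw [← this]
      abel
    obtain ⟨h6, h7⟩ := eq_zero_of_comb D.ns h5
    have hβ : β ^ p = β := by linear_combination h7
    have hα : α ^ p = α := by linear_combination (-1) * h6 + (io τ) * (-1) * hβ
    obtain ⟨c, hc⟩ := exists_io_of_pow hα
    obtain ⟨d, hd⟩ := exists_io_of_pow hβ
    exact ⟨c, d, by rw [hαβ, el, hc, hd]⟩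
  -- independence
  have hind : LinearIndependent k ![v, T v] := by
    rw [LinearIndependent.pair_iff' hv0]
    intro c hc
    -- the line spanned by `v` is stable
    have hel : ∀ x y : ZMod p, el T x y v = (io x + io y * c) • v := by
      intro x y
      rw [el_apply, ← hc, smul_smul, ← add_smul]
    have hstab : ∀ s, ∀ x ∈ Submodule.span k {v}, ρ s x ∈ Submodule.span k {v} := by
      have hFs : ∀ x ∈ Submodule.span k {v}, F x ∈ Submodule.span k {v} := by
        intro x hx
        obtain ⟨r, rfl⟩ := Submodule.mem_span_singleton.mp hx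
        rw [map_smul, hFv, hel, smul_smul]
        exact Submodule.smul_mem _ _ (Submodule.mem_span_singleton_self v)
      have hFn : ∀ n : ℕ, ∀ x ∈ Submodule.span k {v}, (F ^ n) x ∈ Submodule.span k {v} := by
        intro n
        induction n with
        | zero => intro x hx; simpa using hx
        | succ n ih =>
          intro x hx
          rw [pow_succ, Module.End.mul_apply]
          exact ih _ (hFs x hx)
      intro s x hx
      obtain ⟨n, t', ht', hs⟩ := hgen s
      rw [hs, Module.End.mul_apply]
      apply hFn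
      obtain ⟨c', d', hcd⟩ := hI t' ht'
      obtain ⟨r, rfl⟩ := Submodule.mem_span_singleton.mp hx
      rw [hcd, map_smul, hel, smul_smul]
      exact Submodule.smul_mem _ _ (Submodule.mem_span_singleton_self v)
    rcases hirr _ hstab with h | h
    · rw [Submodule.span_singleton_eq_bot] at h
      exact hv0 h
    · have h1 : Module.finrank k (Submodule.span k {v}) = 2 := by rw [h, finrank_top, hV]
      have h2 := finrank_span_le_card (R := k) ({v} : Set V)
      simp only [Set.toFinset_singleton, Finset.card_singleton] at h2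
      omega
  let B : Module.Basis (Fin 2) k V := basisOfLinearIndependentOfCardEqFinrank hind (by
    rw [Fintype.card_fin, hV])
  have hB0 : B 0 = v := by simp [B]
  have hB1 : B 1 = T v := by simp [B]
  have hphi : ∀ c : Fin 2 → ZMod p, phi B c = el T (c 0) (c 1) v := by
    intro c
    rw [phi_apply, hB0, hB1, el_apply]
  have hmem : ∀ x y : ZMod p, el T x y v ∈ (phi (p := p) B).range := by
    intro x y
    refine ⟨![x, y], ?_⟩
    rw [hphi]
    simp
  have hmem' : ∀ z ∈ (phi (p := p) B).range, ∃ x y : ZMod p, z = el T x y v := by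
    rintro z ⟨c, rfl⟩
    exact ⟨c 0, c 1, hphi c⟩
  have hstabI : ∀ s ∈ I, ∀ x ∈ (phi (p := p) B).range, ρ s x ∈ (phi (p := p) B).range := by
    intro s hs z hz
    obtain ⟨x, y, rfl⟩ := hmem' z hz
    obtain ⟨c, d, hcd⟩ := hI s hs
    rw [hcd, ← Module.End.mul_apply, D.el_mul]
    exact hmem _ _
  have hstabF : ∀ x ∈ (phi (p := p) B).range, F x ∈ (phi (p := p) B).range := by
    intro z hz
    obtain ⟨x, y, rfl⟩ := hmem' z hz
    rw [← Module.End.mul_apply, D.F_el, Module.End.mul_apply, hFv, ← Module.End.mul_apply,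
      D.el_mul]
    exact hmem _ _
  have hstabFn : ∀ n : ℕ, ∀ x ∈ (phi (p := p) B).range, (F ^ n) x ∈ (phi (p := p) B).range := by
    intro n
    induction n with
    | zero => intro x hx; simpa using hx
    | succ n ih =>
      intro x hx
      rw [pow_succ, Module.End.mul_apply]
      exact ih _ (hstabF x hx)
  refine ⟨B, (phi (p := p) B).range, ?_, ?_, ?_, ?_, alt B, ?_, ?_, ?_⟩
  · intro x
    constructor
    · rintro ⟨c, rfl⟩
      exact ⟨c, rfl⟩
    · rintro ⟨c, rfl⟩
      exact ⟨c, rfl⟩
  · intro s x hx
    obtain ⟨n, t', ht', hs⟩ := hgen s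
    rw [hs, Module.End.mul_apply]
    exact hstabFn n _ (hstabI t' ht' x hx)
  · rw [← Nat.card_congr (AddMonoidHom.ofInjective (phi_injective (p := p) B)).toEquiv,
      Nat.card_fun, Nat.card_zmod, Nat.card_fin]
  · intro W hW hWI
    by_cases hW0 : W = ⊥
    · exact Or.inl hW0
    · right
      obtain ⟨⟨z, hz⟩, hz0'⟩ := AddSubgroup.ne_bot_iff_exists_ne_zero.mp hW0
      have hz0 : z ≠ 0 := fun h => hz0' (Subtype.ext h)
      apply le_antisymm hW
      intro y hy
      obtain ⟨c, d, rfl⟩ := hmem' z (hW hz)
      obtain ⟨c', d', rfl⟩ := hmem' y hy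
      have hcd : c ≠ 0 ∨ d ≠ 0 := by
        by_contra hcon
        rw [not_or, not_not, not_not] at hcon
        apply hz0
        rw [hcon.1, hcon.2, el_apply, map_zero, zero_smul, zero_smul, zero_add]
      have hN := D.nf_ne_zero hcd
      have hN' : (io (nf τ (ε t) c d)) ≠ 0 :=
        (map_ne_zero_iff _ (algebraMap (ZMod p) k).injective).mpr hN
      -- every `el x y` preserves `W`
      have hsm : ∀ (x : ZMod p), ∀ w ∈ W, (io x) • w ∈ W := by
        intro x w hw
        obtain ⟨m, rfl⟩ := ZMod.natCast_zmod_surjective x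
        rw [map_natCast, Nat.cast_smul_eq_nsmul]
        exact nsmul_mem hw m
      have hWel : ∀ x y : ZMod p, ∀ w ∈ W, el T x y w ∈ W := by
        intro x y w hw
        rw [el_apply]
        exact add_mem (hsm x w hw) (hsm y _ (hWI t htI w hw))
      have h1 := hWel c' d' _ (hsm (nf τ (ε t) c d)⁻¹ _ (hWel (c + d * τ) (-d) _ hz))
      have h2 : el T c' d' ((io (nf τ (ε t) c d)⁻¹) • el T (c + d * τ) (-d) (el T c d v)) =
          el T c' d' v := by
        have h3 : el T (c + d * τ) (-d) (el T c d v) = (io (nf τ (ε t) c d)) • v := by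
          rw [← Module.End.mul_apply, D.conj_el, LinearMap.smul_apply, Module.End.one_apply]
        rw [h3, smul_smul, map_inv₀, inv_mul_cancel₀ hN', one_smul]
      rw [h2] at h1
      exact h1
  · intro x
    rw [alt_apply]
    ring
  · intro x hx
    by_contra hcon
    push Not at hcon
    apply hx
    set e := AddMonoidHom.ofInjective (phi_injective (p := p) B) with he
    have h1 := hcon (e ![1, 0])
    have h2 := hcon (e ![0, 1])
    rw [alt_apply, ← he, e.symm_apply_apply] at h1 h2
    simp only [Matrix.cons_val_zero, Matrix.cons_val_one, mul_zero, mul_one, zero_sub,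
      sub_zero, neg_eq_zero] at h1 h2
    apply e.symm.injective
    rw [map_zero]
    funext i
    fin_cases i
    · exact h2
    · exact h1
  · intro s x y x' y' hx' hy'
    apply (algebraMap (ZMod p) k).injective
    rw [map_mul, io_alt, io_alt, ← hdet, hx', hy', ← Module.Basis.det_comp]
    congr 1
    funext i
    fin_cases i <;> rfl

end Final

end Char

end Fermat.Agent.Flat.VZero
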