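import Fermat.Agent.Flat.Dich
import Fermat.Agent.Flat.OrdC
import Fermat.Agent.Flat.VZero

/-!
# The bound for flat classes
-/

set_option autoImplicit false
set_option linter.unusedSectionVars false
set_option linter.style.haveILetI false

noncomputable section

namespace Fermat.Agent.Flat

open Matrix

variable {p : ℕ} [hp : Fact p.Prime] {Ω : Type} [NormedField Ω] [hU : IsUltrametricDist Ω]
  {Γ : Type} [Group Γ] [TopologicalSpace Γ] [IsTopologicalGroup Γ] [MulSemiringAction Γ Ω]
  {I : Subgroup Γ} [S : Setting p Ω I] {k : Type} [Field k] [Algebra (ZMod p) k]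
  {r : Γ →* Matrix (Fin 2) (Fin 2) k}

/-- Representations generated by inertia and Frobenius. -/
theorem exists_pow_frob [Finite k] (hn : I.Normal) {F : Γ}
    (hgen : ∀ U : Subgroup Γ, IsOpen (U : Set Γ) → I ≤ U → F ∈ U → U = ⊤)
    (hrc : ∃ U : Subgroup Γ, IsOpen (U : Set Γ) ∧ ∀ γ ∈ U, r γ = 1) (s : Γ) :
    ∃ n : ℕ, ∃ t ∈ I, r s = r F ^ n * r t := by
  haveI : Finite (Matrix (Fin 2) (Fin 2) k) := inferInstanceAs (Finite (Fin 2 → Fin 2 → k))
  -- `r F` has finite order
  obtain ⟨N, hN0, hN⟩ : ∃ N : ℕ, 0 < N ∧ r F ^ N = 1 := by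
    obtain ⟨a, b, hab, h⟩ := Finite.exists_ne_map_eq_of_infinite (fun n : ℕ => r F ^ n)
    rcases lt_or_gt_of_ne hab with hlt | hlt
    · refine ⟨b - a, by omega, ?_⟩
      have h1 : r F ^ b = r F ^ a * r F ^ (b - a) := by rw [← pow_add]; congr 1; omega
      rw [h1, ← map_pow] at h
      have h2 := congrArg (fun X => r (F ^ a)⁻¹ * X) h
      rw [r_inv_mul, ← mul_assoc, r_inv_mul, one_mul] at h2
      exact h2.symm
    · refine ⟨a - b, by omega, ?_⟩
      have h1 : r F ^ a = r F ^ b * r F ^ (a - b) := by rw [← pow_add]; congr 1; omega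
      rw [h1, ← map_pow] at h
      have h2 := congrArg (fun X => r (F ^ b)⁻¹ * X) h
      rw [r_inv_mul, ← mul_assoc, r_inv_mul, one_mul] at h2
      exact h2
  let U : Subgroup Γ :=
    { carrier := {s | ∃ n : ℕ, ∃ t ∈ I, r s = r F ^ n * r t}
      one_mem' := ⟨0, 1, I.one_mem, by rw [pow_zero, one_mul]⟩
      mul_mem' := by
        rintro s s' ⟨n, t, ht, h⟩ ⟨n', t', ht', h'⟩
        refine ⟨n + n', ((F ^ n')⁻¹ * t * F ^ n') * t', I.mul_mem (by
          have := hn.conj_mem t ht (F ^ n')⁻¹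
          rwa [inv_inv] at this) ht', ?_⟩
        rw [map_mul, h, h', ← map_pow, ← map_pow, ← map_pow, ← map_mul, ← map_mul, ← map_mul,
          ← map_mul]
        congr 1
        rw [pow_add]
        group
      inv_mem' := by
        rintro s ⟨n, t, ht, h⟩
        refine ⟨(N - 1) * n, F ^ n * t⁻¹ * (F ^ n)⁻¹, hn.conj_mem _ (I.inv_mem ht) _, ?_⟩
        have h1 : r s⁻¹ * r s = r F ^ ((N - 1) * n) * r (F ^ n * t⁻¹ * (F ^ n)⁻¹) * r s := by
          rw [r_inv_mul, h, ← map_pow, ← map_pow, ← map_mul, ← map_mul, ← map_mul]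
          have h2 : F ^ ((N - 1) * n) * (F ^ n * t⁻¹ * (F ^ n)⁻¹) * (F ^ n * t) =
              F ^ ((N - 1) * n + n) := by
            rw [pow_add]
            group
          have h3 : (N - 1) * n + n = N * n := by
            conv_rhs => rw [← Nat.sub_add_cancel hN0]
            ring
          rw [h2, h3, map_pow, pow_mul, hN, one_pow]
        have h2 := congrArg (fun X => X * r s⁻¹) h1
        rw [mul_assoc, r_mul_inv, mul_one, mul_assoc, r_mul_inv, mul_one] at h2
        exact h2 }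
  have hU : U = ⊤ := by
    apply hgen
    · obtain ⟨V, hV, h⟩ := hrc
      refine Subgroup.isOpen_mono (H₁ := V) (fun γ hγ => ?_) hV
      exact ⟨0, 1, I.one_mem, by rw [h γ hγ, pow_zero, one_mul, map_one]⟩
    · exact fun t ht => ⟨0, t, ht, by rw [pow_zero, one_mul]⟩
    · exact ⟨1, 1, I.one_mem, by rw [pow_one, map_one, mul_one]⟩
  have : s ∈ U := by rw [hU]; trivial
  exact this

/-- The irreducible case: there is a form over `𝔽_p`. -/
theorem flatBound_irr [Finite k] {F : Γ} (hF : FrobData p Ω I F)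
    (hgen : ∀ U : Subgroup Γ, IsOpen (U : Set Γ) → I ≤ U → F ∈ U → U = ⊤)
    (hrc : ∃ U : Subgroup Γ, IsOpen (U : Set Γ) ∧ ∀ γ ∈ U, r γ = 1)
    (hdet : ∀ γ, (r γ).det = algebraMap (ZMod p) k (eps p Ω I γ))
    (D : Ord p Ω I (fun s => vAct r s.1)) (htop : ∀ x, D.rad x < 1)
    (hline : ∀ v : Fin 2 → k, v ≠ 0 → ∃ γ, ∀ a : k, r γ *ᵥ v ≠ a • v) :
    FlatBound p Ω I r := by
  classical
  haveI : CharP k p := charP_of_injective_algebraMap (algebraMap (ZMod p) k).injective p
  have hact : IsAct (vAct r) := isAct_vAct r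
  have hactI : IsAct (fun s : I => vAct r s.1) := hact.rI I
  -- irreducibility
  have hirr : ∀ C : AddSubgroup (Fin 2 → k), (∀ (a : k), ∀ x ∈ C, a • x ∈ C) →
      (∀ γ, ∀ x ∈ C, r γ *ᵥ x ∈ C) → (∃ x ∈ C, x ≠ 0) → C = ⊤ := by
    intro C h1 h2 ⟨v, hv, hv0⟩
    by_contra hne
    obtain ⟨γ, hγ⟩ := hline v hv0
    obtain ⟨a, ha⟩ := line_of_ne_top C h1 hv hv0 hne (h2 γ v hv)
    exact hγ a ha
  have hne0 : ∃ x : Fin 2 → k, x ≠ 0 := ⟨![1, 0], fun h => one_ne_zero (congrFun h 0)⟩
  obtain ⟨N, lam, c, hc0, ⟨x₁, hx₁, hx₁0⟩, hinj, hst, hmin, hlam⟩ :=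
    exists_lead_sub hactI D htop hne0
  -- wild inertia acts trivially
  have hwild : ∀ σ : I, Wild p Ω σ → r σ.1 = 1 := by
    let C : AddSubgroup (Fin 2 → k) :=
      { carrier := {x | ∀ σ : I, Wild p Ω σ → r σ.1 *ᵥ x = x}
        zero_mem' := fun σ _ => mulVec_zero _
        add_mem' := fun {a b} ha hb σ hσ => by rw [mulVec_add, ha σ hσ, hb σ hσ]
        neg_mem' := fun {a} ha σ hσ => by rw [mulVec_neg, ha σ hσ] }
    have hC : C = ⊤ := by
      apply hirr C
      · intro a x hx σ hσ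
        rw [mulVec_smul, hx σ hσ]
      · intro γ x hx σ hσ
        have h1 := hx _ (wild_conj hF.normal hF.norm_smul hσ γ⁻¹)
        have h2 : r (γ⁻¹ * σ.1 * γ⁻¹⁻¹) *ᵥ x = x := h1
        rw [inv_inv] at h2
        conv_rhs => rw [← h2]
        rw [mulVec_mulVec, mulVec_mulVec, ← map_mul, ← map_mul]
        congr 2
        group
      · refine ⟨x₁, fun σ hσ => ?_, hx₁0⟩
        have h1 := hlam σ ⟨x₁, hx₁⟩ ⟨_, hst σ x₁ hx₁⟩ rfl
        rw [hσ c hc0, one_mul] at h1
        exact congrArg Subtype.val (hinj h1)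
    intro σ hσ
    apply Matrix.ext_of_mulVec_single
    intro i
    rw [one_mulVec]
    have : (Pi.single i 1 : Fin 2 → k) ∈ C := by rw [hC]; trivial
    exact this σ hσ
  have hcomm : ∀ s ∈ I, ∀ t ∈ I, r s * r t = r t * r s := by
    intro s hs t ht
    have h1 : r (s * t * s⁻¹ * t⁻¹) = 1 := hwild _ (wild_comm ⟨s, hs⟩ ⟨t, ht⟩)
    have h2 : r (s * t * s⁻¹ * t⁻¹ * (t * s)) = r (t * s) := by rw [map_mul, h1, one_mul]
    have h3 : s * t * s⁻¹ * t⁻¹ * (t * s) = s * t := by group
    rw [h3, map_mul, map_mul] at h2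
    exact h2
  have hFr : ∀ t ∈ I, r F * r t = r t ^ p * r F := by
    intro t ht
    have h1 : r (F * t * F⁻¹ * (t ^ p)⁻¹) = 1 := hwild _ (hF.wild_frob ⟨t, ht⟩)
    have h2 : r (F * t * F⁻¹ * (t ^ p)⁻¹ * (t ^ p * F)) = r (t ^ p * F) := by
      rw [map_mul, h1, one_mul]
    have h3 : F * t * F⁻¹ * (t ^ p)⁻¹ * (t ^ p * F) = F * t := by group
    rw [h3, map_mul, map_mul, map_pow] at h2
    exact h2
  -- inertia acts non-trivially enough
  have htp : ∃ t ∈ I, r t ^ (p - 1) ≠ 1 := by
    by_contra hcon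
    push Not at hcon
    haveI := charP_KR p Ω I
    -- scalars
    have hscal : ∀ σ : I, ∃ a : ℕ, ∀ x ∈ N, vAct r σ.1 x = a • x := by
      intro σ
      have hpow : ∀ (n : ℕ) (x y : N), y.1 = vAct r (σ.1 ^ n) x.1 →
          lam y = tame c σ ^ n * lam x := by
        intro n
        induction n with
        | zero =>
          intro x y hy
          rw [pow_zero, hact.one] at hy
          rw [pow_zero, one_mul, Subtype.ext hy]
        | succ n ih =>
          intro x y hy
          have h1 := ih x ⟨vAct r (σ.1 ^ n) x.1, hst (σ ^ n) x.1 x.2⟩ rfl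
          rw [pow_succ', mul_assoc, ← h1]
          apply hlam
          rw [hy, pow_succ', hact.mul]
      have h1 : tame c σ ^ (p - 1) = 1 := by
        have h2 := hpow (p - 1) ⟨x₁, hx₁⟩ ⟨x₁, hx₁⟩ (by
          rw [vAct, map_pow, hcon σ.1 σ.2, one_mulVec])
        have h3 : lam ⟨x₁, hx₁⟩ ≠ 0 := by
          intro h0
          apply hx₁0
          have := hinj (h0.trans (map_zero lam).symm)
          exact congrArg Subtype.val this
        exact mul_right_cancel₀ h3 (h2.symm.trans (one_mul _).symm)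
      have h2 : tame c σ ^ p = tame c σ := by
        have h3 : p = (p - 1) + 1 := by have := hp.out.two_le; omega
        conv_lhs => rw [h3]
        rw [pow_succ, h1, one_mul]
      have h7 := (Subfield.mem_bot_iff_pow_eq_self (KR Ω) p).2 h2
      rw [mem_bot_iff_intCast p (KR Ω)] at h7
      obtain ⟨n, hn⟩ := h7
      refine ⟨((n : ZMod p)).val, fun x hx => ?_⟩
      have h4 : (((n : ZMod p)).val : KR Ω) = tame c σ := by
        rw [← hn]
        have h5 : (((n : ZMod p)).val : ZMod p) = n := ZMod.natCast_zmod_val _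
        have h6 := congrArg (ZMod.castHom (dvd_refl p) (KR Ω)) h5
        rw [map_natCast, map_intCast] at h6
        exact h6
      have h5 : (⟨vAct r σ.1 x, hst σ x hx⟩ : N) = ((n : ZMod p)).val • ⟨x, hx⟩ := by
        apply hinj
        rw [map_nsmul, nsmul_eq_mul, h4]
        exact hlam σ _ _ rfl
      exact congrArg Subtype.val h5
    -- the line of `x₁`
    let L : AddSubgroup (Fin 2 → k) := AddSubgroup.zmultiples x₁
    have hLN : L ≤ N := by
      rw [AddSubgroup.zmultiples_le]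
      exact hx₁
    have hLst : ∀ σ : I, ∀ x ∈ L, vAct r σ.1 x ∈ L := by
      intro σ x hx
      obtain ⟨a, ha⟩ := hscal σ
      rw [ha x (hLN hx)]
      exact L.nsmul_mem hx a
    have hLcard : Nat.card L = p := by
      rw [Nat.card_zmultiples]
      apply addOrderOf_eq_prime _ hx₁0
      have := nsmul_p_vec1 (p := p) x₁
      rwa [pow_one] at this
    let ρL : I → L → L := fun σ x => ⟨vAct r σ.1 x.1, hLst σ x.1 x.2⟩
    have hactL : IsAct ρL := hactI.of_injective L.subtype L.subtype_injective fun σ x => rfl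
    have hx₁ω : ∀ σ : I, vAct r σ.1 x₁ = algebraMap (ZMod p) k (omega p Ω I σ) • x₁ := by
      intro σ
      rcases rank_one_char hactL hLcard
        (D.restrict L.subtype L.subtype_injective fun σ x => rfl) with h | h
      · exfalso
        apply hx₁0
        apply D.eq_zero_of_fixed hactI (n := 1) (fun z => nsmul_p_vec1 z) (htop _)
        intro σ
        exact congrArg Subtype.val (h σ ⟨x₁, AddSubgroup.mem_zmultiples x₁⟩)
      · have h1 : vAct r σ.1 x₁ = (omega p Ω I σ).val • x₁ :=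
          congrArg Subtype.val (h σ ⟨x₁, AddSubgroup.mem_zmultiples x₁⟩)
        rw [h1, ← Nat.cast_smul_eq_nsmul k]
        congr 1
        have h5 : (((omega p Ω I σ)).val : ZMod p) = omega p Ω I σ := ZMod.natCast_zmod_val _
        conv_rhs => rw [← h5]
        rw [map_natCast]
    let C : AddSubgroup (Fin 2 → k) :=
      { carrier := {x | ∀ σ : I, vAct r σ.1 x = algebraMap (ZMod p) k (omega p Ω I σ) • x}
        zero_mem' := fun σ => by rw [hact.zero, smul_zero]
        add_mem' := fun {a b} ha hb σ => by rw [hact.add, ha σ, hb σ, smul_add]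
        neg_mem' := fun {a} ha σ => by rw [hact.neg, ha σ, smul_neg] }
    have hC : C = ⊤ := by
      apply hirr C
      · intro a x hx σ
        have h1 : vAct r σ.1 (a • x) = a • vAct r σ.1 x := mulVec_smul _ _ _
        rw [h1, hx σ, smul_comm]
      · intro γ x hx σ
        have h1 := hx (⟨γ⁻¹ * σ.1 * γ⁻¹⁻¹, hF.normal.conj_mem σ.1 σ.2 γ⁻¹⟩ : I)
        rw [omega_conj hF.normal] at h1
        have h2 : vAct r σ.1 (r γ *ᵥ x) = r γ *ᵥ (vAct r (γ⁻¹ * σ.1 * γ⁻¹⁻¹) x) := by
          change r σ.1 *ᵥ (r γ *ᵥ x) = r γ *ᵥ (r _ *ᵥ x)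
          rw [mulVec_mulVec, mulVec_mulVec, ← map_mul, ← map_mul]
          congr 2
          group
        rw [h2]
        change r γ *ᵥ (vAct r (γ⁻¹ * σ.1 * γ⁻¹⁻¹) x) = _
        rw [h1, mulVec_smul]
      · exact ⟨x₁, hx₁ω, hx₁0⟩
    obtain ⟨σ₀, hσ₀⟩ := exists_omega_ne_one p Ω I
    have h1 : r σ₀.1 = algebraMap (ZMod p) k (omega p Ω I σ₀) • 1 := by
      apply Matrix.ext_of_mulVec_single
      intro i
      have : (Pi.single i 1 : Fin 2 → k) ∈ C := by rw [hC]; trivial
      rw [smul_mulVec, one_mulVec]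
      exact this σ₀
    have h2 := hdet σ₀.1
    rw [h1, det_smul, det_one, mul_one, Fintype.card_fin, eps_eq_omega, pow_two, ← map_mul] at h2
    have h4 := (algebraMap (ZMod p) k).injective h2
    exact hσ₀ (mul_right_cancel₀ (omega_ne_zero σ₀) (h4.trans (one_mul _).symm))
  -- descent to the prime field
  let L : Matrix (Fin 2) (Fin 2) k ≃ₐ[k] Module.End k (Fin 2 → k) := Matrix.toLinAlgEquiv'
  let ρ : Γ →* Module.End k (Fin 2 → k) :=
    (L : Matrix (Fin 2) (Fin 2) k →* Module.End k (Fin 2 → k)).comp r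
  have hρL : ∀ γ, ρ γ = L (r γ) := fun γ => rfl
  have hρ : ∀ γ x, ρ γ x = r γ *ᵥ x := fun γ x => rfl
  obtain ⟨b, V0, hV0, hst0, -, hirr0, -⟩ := VZero.exists_V0 (p := p) S.odd
    (by rw [Module.finrank_fin_fun]) ρ I F
    (fun t ht => by rw [hρL, hρL, ← map_mul L, ← map_pow L, ← map_mul L, hFr t ht])
    (fun s hs t ht => by rw [hρL, hρL, ← map_mul L, ← map_mul L, hcomm s hs t ht])
    (fun s => by
      obtain ⟨n, t, ht, h⟩ := exists_pow_frob hF.normal hgen hrc s
      exact ⟨n, t, ht, by rw [hρL, hρL, hρL, h, map_mul, map_pow]⟩)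
    (eps p Ω I)
    (fun s => by
      rw [← hdet s]
      exact LinearMap.det_toLin' (r s))
    (by
      intro W hW
      by_cases h0 : ∃ x ∈ W, x ≠ 0
      · right
        have h1 := hirr W.toAddSubgroup (fun a x hx => W.smul_mem a hx) (fun γ x hx => hW γ x hx) h0
        rw [eq_top_iff]
        intro x _
        have : x ∈ W.toAddSubgroup := by rw [h1]; trivial
        exact this
      · left
        push Not at h0
        rw [eq_bot_iff]
        intro x hx
        exact h0 x hx)
    (by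
      obtain ⟨t, ht, h⟩ := htp
      refine ⟨t, ht, fun h1 => h (L.injective ?_)⟩
      rw [map_pow, map_one]
      exact h1)
  haveI : Invertible ((Pi.basisFun k (Fin 2)).toMatrix b) := Module.Basis.invertibleToMatrix _ _
  let B : (Matrix (Fin 2) (Fin 2) k)ˣ := unitOfInvertible ((Pi.basisFun k (Fin 2)).toMatrix b)
  let j : (Fin 2 → ZMod p) →+ (Fin 2 → k) := (cjV B).symm.toAddMonoidHom.comp (vAlg p k)
  have hj : ∀ c, j c = ∑ i, (algebraMap (ZMod p) k (c i)) • b i := by
    intro c
    funext i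
    change ∑ s, (Pi.basisFun k (Fin 2)).toMatrix b i s * algebraMap (ZMod p) k (c s) = _
    rw [Finset.sum_apply]
    refine Finset.sum_congr rfl fun s _ => ?_
    rw [Module.Basis.toMatrix_apply, Pi.basisFun_repr, Pi.smul_apply, smul_eq_mul, mul_comm]
  have hvinj : Function.Injective (vAlg p k) := by
    intro x y h
    funext i
    exact (algebraMap (ZMod p) k).injective (congrFun h i)
  have hjinj : Function.Injective j := (cjV B).symm.injective.comp hvinj
  have hjV : ∀ x, x ∈ V0 ↔ ∃ c, x = j c := by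
    intro x
    rw [hV0]
    exact exists_congr fun c => by rw [hj]
  have hconj : ∀ γ c, (cjV B).symm (conjR B r γ *ᵥ vAlg p k c) = r γ *ᵥ j c := by
    intro γ c
    apply (cjV B).injective
    rw [AddEquiv.apply_symm_apply, ← cjV_mulVec]
    change _ = cjM B (r γ) *ᵥ cjV B ((cjV B).symm (vAlg p k c))
    rw [AddEquiv.apply_symm_apply]
    rfl
  have hA : ∀ γ, ∃ A : Matrix (Fin 2) (Fin 2) (ZMod p), conjR B r γ = mAlg p k A := by
    intro γ
    have h1 : ∀ s : Fin 2, ∃ c, r γ *ᵥ j (Pi.single s 1) = j c := fun s =>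
      (hjV _).1 (hst0 γ _ ((hjV _).2 ⟨_, rfl⟩))
    choose c hc using h1
    refine ⟨Matrix.of fun i s => c s i, ?_⟩
    apply Matrix.ext_of_mulVec_single
    intro s
    have h2 : (Pi.single s 1 : Fin 2 → k) = vAlg p k (Pi.single s 1) := by
      funext i
      change _ = algebraMap (ZMod p) k ((Pi.single s 1 : Fin 2 → ZMod p) i)
      rw [Pi.single_apply, Pi.single_apply]
      split_ifs
      · rw [map_one]
      · rw [map_zero]
    rw [h2, vAlg_mulVec]
    have h3 : conjR B r γ *ᵥ vAlg p k (Pi.single s 1) = vAlg p k (c s) := by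
      apply (cjV B).symm.injective
      rw [hconj, hc]
      rfl
    rw [h3]
    congr 1
    rw [mulVec_single_one]
    rfl
  choose A hA using hA
  have hmInj : Function.Injective (mAlg p k) := fun A A' h => by
    ext i j
    exact (algebraMap (ZMod p) k).injective (congrFun (congrFun h i) j)
  let r₀ : Γ →* Matrix (Fin 2) (Fin 2) (ZMod p) :=
    { toFun := A
      map_one' := hmInj (by rw [← hA, map_one, map_one])
      map_mul' := fun γ δ => hmInj (by rw [← hA, map_mul, map_mul, hA, hA]) }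
  have hr₀A : ∀ γ, mAlg p k (r₀ γ) = conjR B r γ := fun γ => (hA γ).symm
  have hext : extR k r₀ = conjR B r := MonoidHom.ext fun γ => hr₀A γ
  have hjr : ∀ γ c, j (r₀ γ *ᵥ c) = r γ *ᵥ j c := by
    intro γ c
    rw [← hconj, ← hr₀A, vAlg_mulVec]
    rfl
  apply FlatBound.of_conj B
  rw [← hext]
  apply flatBound_ss hF hgen
  · obtain ⟨U, hU, h⟩ := hrc
    refine ⟨U, hU, fun γ hγ => hmInj ?_⟩
    rw [hr₀A, conjR_apply', h γ hγ, cjM_apply, mul_one, Units.inv_mul, map_one]
  · intro γ
    apply (algebraMap (ZMod p) k).injective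
    rw [RingHom.map_det, ← hdet]
    change (mAlg p k (r₀ γ)).det = _
    rw [hr₀A, det_conjR]
  · intro N hN
    have h1 : N.map j ≤ V0 := by
      rintro _ ⟨c, -, rfl⟩
      exact (hjV _).2 ⟨c, rfl⟩
    rcases hirr0 (N.map j) h1 (by
      rintro t ht _ ⟨c, hc, rfl⟩
      exact ⟨r₀ t *ᵥ c, hN t ht c hc, hjr t c⟩) with h | h
    · left
      rwa [AddSubgroup.map_eq_bot_iff_of_injective _ hjinj] at h
    · right
      rw [eq_top_iff]
      intro c _
      have h2 : j c ∈ N.map j := by
        rw [h]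
        exact (hjV _).2 ⟨c, rfl⟩
      obtain ⟨c', hc', h3⟩ := h2
      rwa [← hjinj h3]
  · exact ⟨D.restrict j hjinj fun σ c => hjr σ.1 c⟩

/-- **The bound for flat classes, general case.** -/
theorem flatBound_of_flat [Finite k] {F : Γ} (hF : FrobData p Ω I F)
    (hgen : ∀ U : Subgroup Γ, IsOpen (U : Set Γ) → I ≤ U → F ∈ U → U = ⊤)
    (hrc : ∃ U : Subgroup Γ, IsOpen (U : Set Γ) ∧ ∀ γ ∈ U, r γ = 1)
    (hdet : ∀ γ, (r γ).det = algebraMap (ZMod p) k (eps p Ω I γ))
    (hflat : FlatR p Ω I r) : FlatBound p Ω I r := by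
  haveI : CharP k p := charP_of_injective_algebraMap (algebraMap (ZMod p) k).injective p
  have hact : IsAct (vAct r) := isAct_vAct r
  have hflat' := hflat
  obtain ⟨D⟩ := hflat
  by_cases htop : D.conn = ⊤
  · have htop' : ∀ x, D.rad x < 1 := by
      intro x
      have : x ∈ D.conn := by rw [htop]; trivial
      exact this
    apply flatBound_irr hF hgen hrc hdet D htop'
    intro v hv
    by_contra hcon
    push Not at hcon
    exact no_line hF hdet D htop' hv hcon
  · by_cases hbot : D.conn = ⊥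
    · exfalso
      obtain ⟨σ₀, hσ₀⟩ := exists_omega_ne_one p Ω I
      have h1 : r σ₀.1 = 1 := by
        apply Matrix.ext_of_mulVec_single
        intro i
        have h2 := D.smul_sub_mem_conn σ₀ (Pi.single i 1)
        rw [hbot, AddSubgroup.mem_bot, sub_eq_zero] at h2
        rw [one_mulVec]
        exact h2
      have h2 := hdet σ₀.1
      rw [h1, det_one, eps_eq_omega] at h2
      have h4 := (algebraMap (ZMod p) k).injective ((map_one _).trans h2)
      exact hσ₀ h4.symm
    · obtain ⟨⟨v, hv⟩, hv0⟩ := AddSubgroup.ne_bot_iff_exists_ne_zero.mp hbot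
      have hv0' : v ≠ 0 := fun h => hv0 (Subtype.ext h)
      obtain ⟨B, hB⟩ := ordRep_of_conn hF.normal hdet D hv hv0' htop
      apply FlatBound.of_conj B
      apply hB.flatBound hF hgen
      · obtain ⟨U, hU, h⟩ := hrc
        refine ⟨U, hU, fun γ hγ => ?_⟩
        rw [conjR_apply', h γ hγ, cjM_apply, mul_one, Units.inv_mul]
      · exact hflat'.cjM B

end Fermat.Agent.Flat
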