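import Fermat.Agent.Flat.LocalInst

/-!
# Flat classes in the local cohomology at `p`
-/

set_option autoImplicit false
set_option linter.unusedSectionVars false
set_option linter.style.haveILetI false

noncomputable section

namespace Fermat.Agent.Flat

open Loc Matrix

open Fermat.Agent.PT Fermat.Agent.PTC Fermat.Agent.TWP

variable {p : ℕ} [hp : Fact p.Prime] {k : Type} [Field k]

/-- cochains as matrix valued functions -/
def evM {Γ : Type} [Group Γ] (L : Levels Γ) (ρ : Act Γ (ad0 k)) :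
    Z1 L ρ →+ (Γ → Matrix (Fin 2) (Fin 2) k) :=
  AddMonoidHom.mk' (fun c γ => ((c.1 γ : ad0 k) : Matrix (Fin 2) (Fin 2) k)) fun _ _ => rfl

theorem evM_apply {Γ : Type} [Group Γ] {L : Levels Γ} {ρ : Act Γ (ad0 k)} (c : Z1 L ρ) (γ : Γ) :
    evM L ρ c γ = ((c.1 γ : ad0 k) : Matrix (Fin 2) (Fin 2) k) := rfl

/-- **Flat classes**: the subgroup of the local cohomology. -/
theorem exists_flat_subgroup (hp2 : p ≠ 2) [Finite k] (r : PTC.GQ →* Matrix (Fin 2) (Fin 2) k)
    (hb : haveI := setting_padic (p := p) hp2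
      FlatBound p (PadicAlgCl p) (inert p) (r.comp (localGaloisToGlobal p))) :
    haveI := setting_padic (p := p) hp2
    ∃ T : AddSubgroup (H1 (allL.comap (rl (ExtCitation.pPrime p)))
        ((twAct 1 r).comp (rl (ExtCitation.pPrime p)))),
      Finite T ∧ Nat.card T ≤ Nat.card k *
        Nat.card (H0 ((twAct 1 r).comp (rl (ExtCitation.pPrime p)))) ∧
      ∀ c : Z1 (allL.comap (rl (ExtCitation.pPrime p)))
        ((twAct 1 r).comp (rl (ExtCitation.pPrime p))),
        FlatE p (PadicAlgCl p) (inert p) (r.comp (localGaloisToGlobal p))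
          (fun γ : GP p => ((c.1 γ : ad0 k) : Matrix (Fin 2) (Fin 2) k)) →
        H1.mk _ _ c ∈ T := by
  haveI := setting_padic (p := p) hp2
  obtain ⟨Z, h1, h2, h3, h4⟩ := hb
  set r' : GP p →* Matrix (Fin 2) (Fin 2) k := r.comp (localGaloisToGlobal p) with hr'
  let L : Levels (GP p) := allL.comap (localGaloisToGlobal p)
  let ρ : Act (GP p) (ad0 k) := (twAct 1 r).comp (localGaloisToGlobal p)
  have hρ : ∀ (γ : GP p) (X : ad0 k), ((ρ γ X : ad0 k) : Matrix (Fin 2) (Fin 2) k) =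
      r' γ * X.1 * r' γ⁻¹ := by
    intro γ X
    change (1 : k) • (r (localGaloisToGlobal p γ) * X.1 * r (localGaloisToGlobal p γ)⁻¹) = _
    rw [one_smul, hr', MonoidHom.comp_apply, MonoidHom.comp_apply,
      map_inv (localGaloisToGlobal p)]
  -- levels
  have hLC : ∀ c : Z1 L ρ, LC (evM L ρ c) := by
    intro c
    obtain ⟨⟨N, ⟨N', hN', rfl⟩, hN⟩, hcoc⟩ := mem_Z1'.1 c.2
    refine ⟨_, isOpen_comap_level hN', fun γ hγ => ?_⟩
    have e1 := hN 1 γ hγ
    have e2 := hcoc 1 1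
    rw [mul_one, act_one, left_eq_add] at e2
    rw [one_mul, e2] at e1
    rw [evM_apply, e1]
    rfl
  have hcoc : ∀ c : Z1 L ρ, IsCoc r' (evM L ρ c) := by
    intro c γ δ
    have e1 := (mem_Z1'.1 c.2).2 γ δ
    rw [evM_apply, evM_apply, evM_apply, e1, ← hρ]
    rfl
  have htr : ∀ (c : Z1 L ρ) (γ : GP p), (evM L ρ c γ).trace = 0 := fun c γ => (c.1 γ).2
  -- kernel
  have hker : (H1.mk L ρ).ker = (cobs r').comap (evM L ρ) := by
    ext c
    rw [AddMonoidHom.mem_ker, H1.mk_eq_zero, AddSubgroup.mem_comap, mem_cobs]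
    constructor
    · rintro ⟨a, ha⟩
      refine ⟨-a.1, by rw [trace_neg, show a.1.trace = 0 from a.2, neg_zero], fun γ => ?_⟩
      rw [evM_apply, ← ha, d0_apply, cobM_neg, cobM, ← hρ, neg_sub]
      rfl
    · rintro ⟨X, hX, h⟩
      refine ⟨-⟨X, hX⟩, ?_⟩
      funext γ
      apply Subtype.ext
      have e1 := h γ
      rw [evM_apply] at e1
      rw [e1, d0_apply, map_neg, cobM]
      have e2 := hρ γ ⟨X, hX⟩
      change -((ρ γ ⟨X, hX⟩ : ad0 k) : Matrix (Fin 2) (Fin 2) k) - -X = _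
      rw [e2]
      abel
  let T : AddSubgroup (H1 L ρ) := ((Z ⊔ cobs r').comap (evM L ρ)).map (H1.mk L ρ)
  have hsup : (cobs r').relIndex (Z ⊔ cobs r') = (cobs r').relIndex Z :=
    AddSubgroup.relIndex_sup_right _ _
  have hle : ((Z ⊔ cobs r').comap (evM L ρ)).map (evM L ρ) ≤ Z ⊔ cobs r' :=
    AddSubgroup.map_comap_le _ _
  have hT : Nat.card T = (cobs r').relIndex (((Z ⊔ cobs r').comap (evM L ρ)).map (evM L ρ)) := by
    rw [← AddSubgroup.relIndex_comap, ← hker, AddSubgroup.relIndex_ker]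
  have hT1 : Nat.card T ≠ 0 := by
    rw [hT]
    intro h0
    have := AddSubgroup.relIndex_eq_zero_of_le_right hle h0
    rw [hsup] at this
    exact h3 this
  have hT2 : Nat.card T ≤ (cobs r').relIndex Z := by
    rw [hT, ← hsup]
    exact AddSubgroup.relIndex_le_of_le_right hle (by rwa [hsup])
  have hinv : Nat.card (inv0 r') = Nat.card (H0 ρ) := by
    apply Nat.card_congr
    refine ⟨fun X => ⟨⟨X.1, X.2.1⟩, mem_H0.2 fun g => Subtype.ext ?_⟩,
      fun X => ⟨X.1.1, X.1.2, fun γ => ?_⟩, fun X => rfl, fun X => rfl⟩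
    · rw [hρ]
      exact (sub_eq_zero.1 (X.2.2 g)).symm
    · have e1 := congrArg Subtype.val (mem_H0.1 X.2 γ)
      rw [hρ] at e1
      rw [cobM, e1, sub_self]
  refine ⟨T, Nat.finite_of_card_ne_zero hT1, ?_, fun c hc => ?_⟩
  · calc Nat.card T ≤ (cobs r').relIndex Z := hT2
      _ ≤ Nat.card k * Nat.card (inv0 r') := h4
      _ = Nat.card k * Nat.card (H0 ρ) := by rw [hinv]
  · obtain ⟨X, hX, hXZ⟩ := h2 (evM L ρ c) (hcoc c) (htr c) (hLC c) hc
    refine ⟨c, ?_, rfl⟩
    change evM L ρ c ∈ Z ⊔ cobs r'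
    have e1 : evM L ρ c = (fun γ => evM L ρ c γ - cobM r' X γ) + (fun γ => cobM r' X γ) := by
      funext γ
      rw [Pi.add_apply, sub_add_cancel]
    rw [e1]
    exact AddSubgroup.add_mem_sup hXZ ⟨X, hX, fun γ => rfl⟩

end Fermat.Agent.Flat
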