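import Fermat.Agent.Flat.FlatB
import Fermat.Agent.Flat.ToH1
import Fermat.Agent.Flat.FrobExists
import Fermat.Agent.TWP.Primes

/-!
# The bound for flat classes: representations of the absolute Galois group of `ℚ`
-/

set_option autoImplicit false
set_option linter.unusedSectionVars false
set_option linter.style.haveILetI false

noncomputable section

namespace Fermat.Agent.Flat

open Loc Matrix

open Fermat.Agent.PT Fermat.Agent.PTC Fermat.Agent.TWP

variable {p : ℕ} [hp : Fact p.Prime] {k : Type} [Field k]

/-- **The bound for the flat classes of the local group**. -/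
theorem flatBound_local (hp2 : p ≠ 2) [Finite k] [Algebra (ZMod p) k]
    (r : GP p →* Matrix (Fin 2) (Fin 2) k)
    (hrc : ∃ U : Subgroup (GP p), IsOpen (U : Set (GP p)) ∧ ∀ γ ∈ U, r γ = 1)
    (hdet : haveI := setting_padic (p := p) hp2
      ∀ γ, (r γ).det = algebraMap (ZMod p) k (eps p (PadicAlgCl p) (inert p) γ))
    (hflat : haveI := setting_padic (p := p) hp2
      FlatR p (PadicAlgCl p) (inert p) r) :
    haveI := setting_padic (p := p) hp2
    FlatBound p (PadicAlgCl p) (inert p) r := by
  haveI := setting_padic (p := p) hp2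
  obtain ⟨F, hF⟩ := exists_frob (p := p)
  exact flatBound_of_flat (frobData_of hF) (gen_of_frob hF) hrc hdet hflat

/-- **The bound for the flat classes**. -/
theorem flatBound_global (hp2 : p ≠ 2) [Finite k] (hchar : (p : k) = 0)
    (r : PTC.GQ →* Matrix (Fin 2) (Fin 2) k)
    (hcont : ∃ L : IntermediateField ℚ (AlgebraicClosure ℚ), FiniteDimensional ℚ L ∧
      ∀ σ : PTC.GQ, (∀ x ∈ L, σ x = x) → r σ = 1)
    (hdet : ∀ (σ : PTC.GQ) (a : ℕ), (∀ μ : AlgebraicClosure ℚ, μ ^ p = 1 → σ μ = μ ^ a) →
      (r σ).det = a)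
    (hflat : haveI := setting_padic (p := p) hp2
      FlatR p (PadicAlgCl p) (inert p) (r.comp (localGaloisToGlobal p))) :
    haveI := setting_padic (p := p) hp2
    FlatBound p (PadicAlgCl p) (inert p) (r.comp (localGaloisToGlobal p)) := by
  haveI := setting_padic (p := p) hp2
  haveI : CharP k p := (CharP.charP_iff_prime_eq_zero hp.out).2 hchar
  letI : Algebra (ZMod p) k := ZMod.algebra k p
  refine flatBound_local hp2 _ ?_ ?_ hflat
  · obtain ⟨L, hL, h⟩ := hcont
    obtain ⟨N, hN, hNL⟩ := exists_allL_le L hL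
    refine ⟨_, isOpen_comap_level hN, fun γ hγ => ?_⟩
    rw [MonoidHom.comp_apply]
    apply h
    have h1 := hNL hγ
    rw [IntermediateField.mem_fixingSubgroup_iff] at h1
    exact h1
  · intro γ
    rw [MonoidHom.comp_apply, hdet _ _ (fun μ hμ => ltg_root hp2 γ μ hμ)]
    conv_rhs => rw [← ZMod.natCast_zmod_val (eps p (PadicAlgCl p) (inert p) γ)]
    rw [map_natCast]

/-- **The bound for the flat classes**, for residual data. -/
theorem flatBound_RD (hp2 : p ≠ 2) [Finite k] {r : PTC.GQ →* Matrix (Fin 2) (Fin 2) k}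
    (hr : RD p r)
    (hflat : haveI := setting_padic (p := p) hp2
      FlatR p (PadicAlgCl p) (inert p) (r.comp (localGaloisToGlobal p))) :
    haveI := setting_padic (p := p) hp2
    FlatBound p (PadicAlgCl p) (inert p) (r.comp (localGaloisToGlobal p)) :=
  flatBound_global hp2 hr.char r hr.cont hr.det hflat

end Fermat.Agent.Flat
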