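import Fermat.Agent.Flat.Res

/-!
# Kummer theory with levels
-/

set_option autoImplicit false
set_option linter.unusedSectionVars false
set_option linter.style.haveILetI false

noncomputable section

namespace Fermat.Agent.Flat

/-- Kummer context: `G` acts on `Ω`, the value group of the fixed field `L` is `(q₁ ^ p) ^ ℤ`, the
primitive `p`-th root of unity `ζ` is in `L` with `‖ζ - 1‖ = q₁ ^ (p e)`. -/
structure KumCtx (p : ℕ) (Ω : Type) [NormedField Ω] (G : Type) [Group G]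
    [MulSemiringAction G Ω] (q₁ : ℝ) (e : ℕ) (ζ : Ω) : Prop where
  prime : p.Prime
  ultra : IsUltrametricDist Ω
  charZero : CharZero Ω
  norm_smul : ∀ (g : G) (x : Ω), ‖g • x‖ = ‖x‖
  triv : ∀ (g : G) (x : Ω), ‖x‖ ≤ 1 → ‖g • x - x‖ < 1
  pos : 0 < q₁
  lt_one : q₁ < 1
  e_pos : 0 < e
  prim : IsPrimitiveRoot ζ p
  fix : ∀ g : G, g • ζ = ζ
  norm_zeta : ‖ζ - 1‖ = q₁ ^ (p * e)
  val : ∀ x : Ω, x ≠ 0 → (∀ g : G, g • x = x) → ∃ n : ℤ, ‖x‖ = (q₁ ^ p) ^ n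
  exists_pi : ∃ π : Ω, (∀ g : G, g • π = π) ∧ ‖π‖ = q₁ ^ p
  near : ∀ x : Ω, ‖x‖ ≤ 1 → ∃ s : Ω, (∀ g : G, g • s = s) ∧ ‖x - s‖ < 1

/-- `ζ ^ a`. -/
def chi {p : ℕ} {Ω : Type} [NormedField Ω] (ζ : Ω) (a : ZMod p) : Ω := ζ ^ a.val

/-- `y` is a Kummer generator for `f`. -/
def IsKum {p : ℕ} {Ω : Type} [NormedField Ω] {G : Type} [Group G]
    [MulSemiringAction G Ω] (ζ : Ω) (f : G → ZMod p) (y : Ω) : Prop :=
  y ≠ 0 ∧ ∀ g : G, g • y = chi ζ (f g) * y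

namespace KumCtx

variable {p : ℕ} {Ω : Type} [NormedField Ω] {G : Type} [Group G]
    [MulSemiringAction G Ω] {q₁ : ℝ} {e : ℕ} {ζ : Ω} (C : KumCtx p Ω G q₁ e ζ)
include C

theorem neZero : NeZero p := ⟨C.prime.ne_zero⟩

theorem norm_add_le (x y : Ω) : ‖x + y‖ ≤ max ‖x‖ ‖y‖ :=
  haveI := C.ultra
  IsUltrametricDist.norm_add_le_max x y

theorem norm_sub_le (x y : Ω) : ‖x - y‖ ≤ max ‖x‖ ‖y‖ := by
  rw [sub_eq_add_neg, ← norm_neg y]
  exact C.norm_add_le x (-y)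

theorem norm_sum_le {ι : Type*} (s : Finset ι) (f : ι → Ω) {r : ℝ} (hr : 0 ≤ r)
    (h : ∀ i ∈ s, ‖f i‖ ≤ r) : ‖∑ i ∈ s, f i‖ ≤ r :=
  haveI := C.ultra
  IsUltrametricDist.norm_sum_le_of_forall_le_of_nonneg hr h

theorem norm_sum_lt {ι : Type*} (s : Finset ι) (f : ι → Ω) {r : ℝ} (hr : 0 < r)
    (h : ∀ i ∈ s, ‖f i‖ < r) : ‖∑ i ∈ s, f i‖ < r := by
  classical
  induction s using Finset.induction_on with
  | empty => simpa using hr
  | insert a s ha ih =>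
    rw [Finset.sum_insert ha]
    refine (C.norm_add_le _ _).trans_lt (max_lt (h a (Finset.mem_insert_self _ _)) ?_)
    exact ih fun i hi => h i (Finset.mem_insert_of_mem hi)

theorem norm_add_eq {x y : Ω} (h : ‖y‖ < ‖x‖) : ‖x + y‖ = ‖x‖ := by
  apply le_antisymm ((C.norm_add_le x y).trans (max_le le_rfl h.le))
  by_contra hlt
  push Not at hlt
  have h1 : ‖x‖ ≤ max ‖x + y‖ ‖y‖ := by
    have := C.norm_sub_le (x + y) y
    rwa [add_sub_cancel_right] at this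
  rcases le_max_iff.1 h1 with h2 | h2
  · exact absurd h2 (not_le.2 hlt)
  · exact absurd h2 (not_le.2 h)

theorem chi_add (a b : ZMod p) : chi ζ (a + b) = chi ζ a * chi ζ b := by
  haveI := C.neZero
  rw [chi, chi, chi, ← pow_add, ZMod.val_add]
  exact (pow_eq_pow_mod _ C.prim.pow_eq_one).symm

theorem chi_zero : chi ζ (0 : ZMod p) = 1 := by
  rw [chi, ZMod.val_zero, pow_zero]

theorem chi_ne_zero (a : ZMod p) : chi ζ a ≠ 0 :=
  pow_ne_zero _ (C.prim.ne_zero C.prime.ne_zero)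

theorem chi_nsmul (n : ℕ) (a : ZMod p) : chi ζ ((n : ZMod p) * a) = chi ζ a ^ n := by
  induction n with
  | zero => simp [C.chi_zero]
  | succ n ih => rw [Nat.cast_succ, add_mul, one_mul, C.chi_add, ih, pow_succ]

theorem chi_mul (a b : ZMod p) : chi ζ (a * b) = chi ζ b ^ a.val := by
  haveI := C.neZero
  rw [← C.chi_nsmul, ZMod.natCast_zmod_val]

theorem chi_neg (a : ZMod p) : chi ζ (-a) = (chi ζ a)⁻¹ := by
  apply eq_inv_of_mul_eq_one_left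
  rw [← C.chi_add, neg_add_cancel, C.chi_zero]

theorem chi_injective : Function.Injective (chi (p := p) ζ) := by
  haveI := C.neZero
  intro a b h
  exact ZMod.val_injective p (C.prim.pow_inj (ZMod.val_lt a) (ZMod.val_lt b) h)

theorem smul_chi (g : G) (a : ZMod p) : g • chi ζ a = chi ζ a := by
  rw [chi, smul_pow', C.fix]

theorem chi_pow (a : ZMod p) : chi ζ a ^ p = 1 := by
  rw [chi, ← pow_mul, mul_comm, pow_mul, C.prim.pow_eq_one, one_pow]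

theorem norm_chi (a : ZMod p) : ‖chi ζ a‖ = 1 := by
  have h1 : ‖chi ζ a‖ ^ p = 1 := by rw [← norm_pow, C.chi_pow, norm_one]
  exact (pow_eq_one_iff_of_nonneg (norm_nonneg _) C.prime.ne_zero).1 h1

theorem chi_one : chi ζ (1 : ZMod p) = ζ := by
  haveI : Fact (1 < p) := ⟨C.prime.one_lt⟩
  rw [chi, ZMod.val_one, pow_one]

/-- orthogonality -/
theorem sum_chi (k : ZMod p) : ∑ j ∈ Finset.range p, chi ζ ((j : ZMod p) * k) =
    if k = 0 then (p : Ω) else 0 := by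
  split_ifs with h
  · rw [h]
    simp [C.chi_zero]
  · have h1 : chi ζ k - 1 ≠ 0 := by
      rw [sub_ne_zero, ← C.chi_zero]
      exact fun h' => h (C.chi_injective h')
    have h2 := geom_sum_mul (chi ζ k) p
    rw [C.chi_pow, sub_self] at h2
    have h3 := (mul_eq_zero.1 h2).resolve_right h1
    rw [← h3]
    exact Finset.sum_congr rfl fun j _ => C.chi_nsmul j k

theorem norm_chi_sub_one_le (a : ZMod p) : ‖chi ζ a - 1‖ ≤ q₁ ^ (p * e) := by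
  rw [← C.norm_zeta, chi, ← geom_sum_mul, norm_mul]
  have h1 : ‖∑ i ∈ Finset.range a.val, ζ ^ i‖ ≤ 1 := by
    apply C.norm_sum_le _ _ zero_le_one
    intro i _
    have := C.norm_chi 1
    rw [C.chi_one] at this
    rw [norm_pow, this, one_pow]
  calc _ ≤ 1 * ‖ζ - 1‖ := mul_le_mul_of_nonneg_right h1 (norm_nonneg _)
    _ = _ := one_mul _

theorem norm_chi_sub_one {a : ZMod p} (ha : a ≠ 0) : ‖chi ζ a - 1‖ = q₁ ^ (p * e) := by
  haveI : Fact p.Prime := ⟨C.prime⟩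
  apply le_antisymm (C.norm_chi_sub_one_le a)
  have h1 : ζ = chi ζ a ^ (a⁻¹ : ZMod p).val := by
    rw [← C.chi_mul, inv_mul_cancel₀ ha, C.chi_one]
  rw [← C.norm_zeta]
  conv_lhs => rw [h1]
  rw [← geom_sum_mul, norm_mul]
  have h2 : ‖∑ i ∈ Finset.range (a⁻¹ : ZMod p).val, chi ζ a ^ i‖ ≤ 1 := by
    apply C.norm_sum_le _ _ zero_le_one
    intro i _
    rw [norm_pow, C.norm_chi, one_pow]
  calc _ ≤ 1 * ‖chi ζ a - 1‖ := mul_le_mul_of_nonneg_right h2 (norm_nonneg _)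
    _ = _ := one_mul _

theorem rho_pos : 0 < q₁ ^ (p * e) := pow_pos C.pos _

theorem rho_lt_one : q₁ ^ (p * e) < 1 :=
  pow_lt_one₀ C.pos.le C.lt_one (Nat.mul_ne_zero C.prime.ne_zero C.e_pos.ne')

/-! ### Calculus of Kummer generators -/

theorem kum_one : IsKum ζ (fun _ : G => (0 : ZMod p)) (1 : Ω) :=
  ⟨one_ne_zero, fun g => by rw [smul_one, C.chi_zero, one_mul]⟩

theorem kum_mul {f f' : G → ZMod p} {y y' : Ω} (h : IsKum ζ f y) (h' : IsKum ζ f' y') :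
    IsKum ζ (fun g => f g + f' g) (y * y') :=
  ⟨mul_ne_zero h.1 h'.1, fun g => by rw [smul_mul', h.2, h'.2, C.chi_add]; ring⟩

theorem kum_inv {f : G → ZMod p} {y : Ω} (h : IsKum ζ f y) :
    IsKum ζ (fun g => -f g) y⁻¹ :=
  ⟨inv_ne_zero h.1, fun g => by
    rw [smul_inv₀', h.2, C.chi_neg, mul_inv]⟩

theorem kum_pow {f : G → ZMod p} {y : Ω} (h : IsKum ζ f y) (n : ℕ) :
    IsKum ζ (fun g => (n : ZMod p) * f g) (y ^ n) :=
  ⟨pow_ne_zero _ h.1, fun g => by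
    rw [smul_pow', h.2, C.chi_nsmul, mul_pow]⟩

theorem kum_fixed {f : G → ZMod p} {y : Ω} (h : IsKum ζ f y) {c : Ω} (hc0 : c ≠ 0)
    (hc : ∀ g : G, g • c = c) : IsKum ζ f (c * y) :=
  ⟨mul_ne_zero hc0 h.1, fun g => by rw [smul_mul', h.2, hc]; ring⟩

theorem kum_div {f : G → ZMod p} {y y' : Ω} (h : IsKum ζ f y) (h' : IsKum ζ f y') (g : G) :
    g • (y / y') = y / y' := by
  rw [smul_div₀', h.2, h'.2, mul_div_mul_left _ _ (C.chi_ne_zero _)]

/-- Transport by a ring automorphism normalizing `G`. -/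
theorem kum_conj {f : G → ZMod p} {y : Ω} (h : IsKum ζ f y) (T : Ω →+* Ω) (c : G → G)
    (hc : ∀ (g : G) (x : Ω), g • T x = T (c g • x)) {a : ZMod p} (ha : T ζ = chi ζ a) :
    IsKum ζ (fun g => a * f (c g)) (T y) := by
  haveI := C.neZero
  refine ⟨fun h0 => h.1 (T.injective (by rw [h0, map_zero])), fun g => ?_⟩
  rw [hc, h.2, map_mul, chi, map_pow, ha, ← C.chi_nsmul, ZMod.natCast_zmod_val, mul_comm (f (c g))]

/-- A Kummer generator of a nonzero character is not too close to one. -/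
theorem lt_norm_sub_one {f : G → ZMod p} {y : Ω} (h : IsKum ζ f y) {g : G} (hg : f g ≠ 0) :
    q₁ ^ (p * e) < ‖y - 1‖ := by
  by_contra hle
  push Not at hle
  have hz : ζ - 1 ≠ 0 := by
    rw [← norm_ne_zero_iff, C.norm_zeta]
    exact C.rho_pos.ne'
  have hy : ‖y‖ = 1 := by
    have h1 : ‖y - 1‖ < ‖(1 : Ω)‖ := by
      rw [norm_one]; exact hle.trans_lt C.rho_lt_one
    have h2 := C.norm_add_eq h1
    rwa [add_sub_cancel, norm_one] at h2
  have hw : ‖(y - 1) / (ζ - 1)‖ ≤ 1 := by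
    rw [norm_div, C.norm_zeta]
    exact div_le_one_of_le₀ hle C.rho_pos.le
  have h1 := C.triv g _ hw
  have h2 : g • ((y - 1) / (ζ - 1)) - (y - 1) / (ζ - 1) = (chi ζ (f g) - 1) / (ζ - 1) * y := by
    rw [smul_div₀', smul_sub, smul_sub, C.fix, smul_one, h.2]
    field_simp
    ring
  rw [h2, norm_mul, hy, mul_one, norm_div, C.norm_zeta, C.norm_chi_sub_one hg,
    div_self C.rho_pos.ne'] at h1
  exact lt_irrefl _ h1

theorem fixed_pow {f : G → ZMod p} {y : Ω} (h : IsKum ζ f y) (g : G) : g • (y ^ p) = y ^ p := by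
  rw [smul_pow', h.2, mul_pow, C.chi_pow, one_mul]

theorem norm_eq_zpow {f : G → ZMod p} {y : Ω} (h : IsKum ζ f y) : ∃ n : ℤ, ‖y‖ = q₁ ^ n := by
  obtain ⟨n, hn⟩ := C.val (y ^ p) (pow_ne_zero _ h.1) (C.fixed_pow h)
  refine ⟨n, ?_⟩
  have h1 : ‖y‖ ^ p = (q₁ ^ n) ^ p := by
    rw [← norm_pow, hn, ← zpow_natCast, ← zpow_natCast, ← zpow_mul, ← zpow_mul, mul_comm]
  exact (pow_left_inj₀ (norm_nonneg _) (zpow_nonneg C.pos.le _) C.prime.ne_zero).1 h1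

theorem norm_pow_sub_one {y : Ω} (hy : q₁ ^ (p * e) < ‖y - 1‖) : ‖y ^ p - 1‖ = ‖y - 1‖ ^ p := by
  classical
  haveI := C.neZero
  have h1 : y ^ p - 1 = ∏ a : ZMod p, (y - chi ζ a) := by
    have h2 := Polynomial.X_pow_sub_one_eq_prod C.prime.pos C.prim
    have h3 := congrArg (Polynomial.eval y) h2
    rw [Polynomial.eval_prod] at h3
    simp only [Polynomial.eval_sub, Polynomial.eval_pow, Polynomial.eval_X, Polynomial.eval_one,
      Polynomial.eval_C] at h3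
    rw [h3]
    symm
    refine Finset.prod_bij (fun a _ => chi ζ a) ?_ ?_ ?_ ?_
    · intro a _
      rw [Polynomial.mem_nthRootsFinset C.prime.pos]
      exact C.chi_pow a
    · intro a _ b _ h
      exact C.chi_injective h
    · intro x hx
      rw [Polynomial.mem_nthRootsFinset C.prime.pos] at hx
      obtain ⟨i, hi, hix⟩ := C.prim.eq_pow_of_pow_eq_one hx
      refine ⟨(i : ZMod p), Finset.mem_univ _, ?_⟩
      rw [chi, ZMod.val_natCast, Nat.mod_eq_of_lt hi, hix]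
    · intro a _
      rfl
  rw [h1, norm_prod, Finset.prod_congr rfl (g := fun _ => ‖y - 1‖), Finset.prod_const,
    Finset.card_univ, ZMod.card]
  intro a _
  have h2 : y - chi ζ a = (y - 1) + (-(chi ζ a - 1)) := by ring
  rw [h2]
  apply C.norm_add_eq
  rw [norm_neg]
  exact (C.norm_chi_sub_one_le a).trans_lt hy

theorem pow_inj_iff {a b : ℤ} : q₁ ^ a = q₁ ^ b ↔ a = b :=
  ⟨fun h => zpow_right_injective₀ C.pos C.lt_one.ne h, fun h => by rw [h]⟩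

theorem zpow_lt_iff {a b : ℤ} : q₁ ^ a < q₁ ^ b ↔ b < a :=
  zpow_lt_zpow_iff_right_of_lt_one₀ C.pos C.lt_one

theorem zpow_le_iff {a b : ℤ} : q₁ ^ a ≤ q₁ ^ b ↔ b ≤ a :=
  zpow_le_zpow_iff_right_of_lt_one₀ C.pos C.lt_one

/-- The norm of `y - 1`. -/
theorem exists_level {f : G → ZMod p} {y : Ω} (h : IsKum ζ f y) {g : G} (hg : f g ≠ 0)
    (hy : ‖y - 1‖ < 1) : ∃ i : ℕ, 0 < i ∧ i < p * e ∧ ‖y - 1‖ = q₁ ^ i := by
  have h1 := C.lt_norm_sub_one h hg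
  have h2 := C.norm_pow_sub_one h1
  have h3 : y ^ p - 1 ≠ 0 := by
    rw [← norm_ne_zero_iff, h2]
    exact pow_ne_zero _ (C.rho_pos.trans h1).ne'
  obtain ⟨n, hn⟩ := C.val (y ^ p - 1) h3 fun g => by
    rw [smul_sub, C.fixed_pow h, smul_one]
  have h4 : ‖y - 1‖ = q₁ ^ n := by
    have h5 : ‖y - 1‖ ^ p = (q₁ ^ n) ^ p := by
      rw [← h2, hn, ← zpow_natCast, ← zpow_natCast, ← zpow_mul, ← zpow_mul, mul_comm]
    exact (pow_left_inj₀ (norm_nonneg _) (zpow_nonneg C.pos.le _) C.prime.ne_zero).1 h5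
  rw [h4] at h1 hy
  have h5 : n < (p * e : ℕ) := by
    rw [← zpow_natCast] at h1
    exact C.zpow_lt_iff.1 h1
  have h6 : 0 < n := by
    rw [← zpow_zero q₁] at hy
    exact C.zpow_lt_iff.1 hy
  refine ⟨n.toNat, by omega, by omega, ?_⟩
  rw [h4, ← zpow_natCast, Int.toNat_of_nonneg h6.le]

/-- Improvement. -/
theorem improve {f : G → ZMod p} {y : Ω} (h : IsKum ζ f y) {j : ℕ} (hj : 0 < j)
    (hy : ‖y - 1‖ = q₁ ^ (p * j)) : ∃ y', IsKum ζ f y' ∧ ‖y' - 1‖ < q₁ ^ (p * j) := by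
  obtain ⟨π, hπ, hπn⟩ := C.exists_pi
  have hpos : 0 < q₁ ^ (p * j) := pow_pos C.pos _
  have hπj : ‖π ^ j‖ = q₁ ^ (p * j) := by rw [norm_pow, hπn, pow_mul]
  have hπ0 : π ^ j ≠ 0 := by rw [← norm_ne_zero_iff, hπj]; exact hpos.ne'
  have hw : ‖(y - 1) / π ^ j‖ = 1 := by rw [norm_div, hy, hπj, div_self hpos.ne']
  obtain ⟨s, hs, hs'⟩ := C.near _ hw.le
  have hs1 : ‖s‖ ≤ 1 := by
    have h1 : s = (y - 1) / π ^ j + (-((y - 1) / π ^ j - s)) := by ring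
    rw [h1]
    refine (C.norm_add_le _ _).trans (max_le hw.le ?_)
    rw [norm_neg]
    exact hs'.le
  have hc1 : ‖s * π ^ j‖ < 1 := by
    rw [norm_mul, hπj]
    calc ‖s‖ * q₁ ^ (p * j) ≤ 1 * q₁ ^ (p * j) := mul_le_mul_of_nonneg_right hs1 hpos.le
      _ < 1 := by
        rw [one_mul]
        exact pow_lt_one₀ C.pos.le C.lt_one (Nat.mul_ne_zero C.prime.ne_zero hj.ne')
  have hcn : ‖1 + s * π ^ j‖ = 1 := by
    have := C.norm_add_eq (x := (1 : Ω)) (y := s * π ^ j) (by rw [norm_one]; exact hc1)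
    rwa [norm_one] at this
  have hc0 : 1 + s * π ^ j ≠ 0 := by rw [← norm_ne_zero_iff, hcn]; exact one_ne_zero
  refine ⟨(1 + s * π ^ j)⁻¹ * y, C.kum_fixed h (inv_ne_zero hc0) fun g => by
    rw [smul_inv₀', smul_add, smul_mul', smul_pow', hs, hπ, smul_one], ?_⟩
  have h1 : (1 + s * π ^ j)⁻¹ * y - 1 = ((y - 1) / π ^ j - s) * π ^ j / (1 + s * π ^ j) := by
    field_simp
    ring
  rw [h1, norm_div, hcn, div_one, norm_mul, hπj]
  calc _ < 1 * q₁ ^ (p * j) := mul_lt_mul_of_pos_right hs' hpos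
    _ = _ := one_mul _

theorem normal_aux {f : G → ZMod p} {g : G} (hg : f g ≠ 0) (k : ℕ) : ∀ (y : Ω) (i : ℕ),
    IsKum ζ f y → 0 < i → i < p * e → ‖y - 1‖ = q₁ ^ i → p * e - i ≤ k →
    ∃ (y' : Ω) (i' : ℕ), IsKum ζ f y' ∧ 0 < i' ∧ i' < p * e ∧ ¬ p ∣ i' ∧ ‖y' - 1‖ = q₁ ^ i' ∧
      i ≤ i' := by
  induction k with
  | zero => intro y i _ _ hi _ hk; omega
  | succ k ih =>
    intro y i h hi0 hi hy hk
    by_cases hdvd : p ∣ i
    · obtain ⟨j, rfl⟩ := hdvd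
      have hj : 0 < j := Nat.pos_of_ne_zero (by rintro rfl; simp at hi0)
      obtain ⟨y', h', hlt⟩ := C.improve h hj hy
      have hlt1 : ‖y' - 1‖ < 1 := hlt.trans
        (pow_lt_one₀ C.pos.le C.lt_one (Nat.mul_ne_zero C.prime.ne_zero hj.ne'))
      obtain ⟨i', hi0', hi', hy'⟩ := C.exists_level h' hg hlt1
      rw [hy'] at hlt
      have h5 : p * j < i' := (pow_lt_pow_iff_right_of_lt_one₀ C.pos C.lt_one).1 hlt
      obtain ⟨y'', i'', h1, h2, h3, h4, h6, h7⟩ := ih y' i' h' hi0' hi' hy' (by omega)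
      exact ⟨y'', i'', h1, h2, h3, h4, h6, by omega⟩
    · exact ⟨y, i, h, hi0, hi, hdvd, hy, le_rfl⟩

/-- Normal form of Kummer generators. -/
theorem normal {f : G → ZMod p} {g : G} (hg : f g ≠ 0) {y : Ω} (h : IsKum ζ f y) {n : ℤ}
    (hn : ‖y‖ = (q₁ ^ p) ^ n) : ∃ (y' : Ω) (i : ℕ), IsKum ζ f y' ∧ 0 < i ∧ i < p * e ∧ ¬ p ∣ i ∧
      ‖y' - 1‖ = q₁ ^ i := by
  obtain ⟨π, hπ, hπn⟩ := C.exists_pi
  have hπ0 : π ≠ 0 := by
    rw [← norm_ne_zero_iff, hπn]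
    exact (pow_pos C.pos _).ne'
  have hw : ‖y / π ^ n‖ = 1 := by
    rw [norm_div, norm_zpow, hn, hπn, div_self (zpow_ne_zero _ (pow_pos C.pos _).ne')]
  obtain ⟨s, hs, hs'⟩ := C.near _ hw.le
  have hs1 : ‖s‖ = 1 := by
    have h1 : s = y / π ^ n + (-(y / π ^ n - s)) := by ring
    rw [h1, C.norm_add_eq, hw]
    rw [norm_neg, hw]
    exact hs'
  have hs0 : s ≠ 0 := by rw [← norm_ne_zero_iff, hs1]; exact one_ne_zero
  have h' : IsKum ζ f ((π ^ n * s)⁻¹ * y) :=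
    C.kum_fixed h (inv_ne_zero (mul_ne_zero (zpow_ne_zero _ hπ0) hs0)) fun g => by
      rw [smul_inv₀', smul_mul', smul_zpow₀', hs, hπ]
  have h1 : (π ^ n * s)⁻¹ * y - 1 = (y / π ^ n - s) / s := by
    have : π ^ n ≠ 0 := zpow_ne_zero _ hπ0
    field_simp
  have hlt : ‖(π ^ n * s)⁻¹ * y - 1‖ < 1 := by
    rw [h1, norm_div, hs1, div_one]
    exact hs'
  obtain ⟨i, hi0, hi, hy⟩ := C.exists_level h' hg hlt
  obtain ⟨y'', i'', h1, h2, h3, h4, h6, -⟩ := C.normal_aux hg _ _ i h' hi0 hi hy le_rfl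
  exact ⟨y'', i'', h1, h2, h3, h4, h6⟩

/-- Normal form of Kummer generators near one. -/
theorem normal' {f : G → ZMod p} {g : G} (hg : f g ≠ 0) {y : Ω} (h : IsKum ζ f y) {j : ℕ}
    (hj : 0 < j) (hy : ‖y - 1‖ ≤ q₁ ^ j) : ∃ (y' : Ω) (i : ℕ), IsKum ζ f y' ∧ j ≤ i ∧
      i < p * e ∧ ¬ p ∣ i ∧ ‖y' - 1‖ = q₁ ^ i := by
  have hlt : ‖y - 1‖ < 1 := hy.trans_lt (pow_lt_one₀ C.pos.le C.lt_one hj.ne')
  obtain ⟨i, hi0, hi, hyi⟩ := C.exists_level h hg hlt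
  obtain ⟨y', i', h1, h2, h3, h4, h5, h6⟩ := C.normal_aux hg _ _ i h hi0 hi hyi le_rfl
  rw [hyi] at hy
  have h7 := (pow_le_pow_iff_right_of_lt_one₀ C.pos C.lt_one).1 hy
  exact ⟨y', i', h1, by omega, h3, h4, h5⟩

/-- Uniqueness of the leading coefficient. -/
theorem kum_unique {f : G → ZMod p} {y y' : Ω} (h : IsKum ζ f y) (h' : IsKum ζ f y') {i : ℕ}
    (hi0 : 0 < i) (hi : ¬ p ∣ i) (hy : ‖y - 1‖ ≤ q₁ ^ i) (hy' : ‖y' - 1‖ ≤ q₁ ^ i) :
    ‖y - y'‖ < q₁ ^ i := by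
  have hlt : q₁ ^ i < 1 := pow_lt_one₀ C.pos.le C.lt_one hi0.ne'
  have hyn : ‖y'‖ = 1 := by
    have h1 : ‖y' - 1‖ < ‖(1 : Ω)‖ := by
      rw [norm_one]; exact hy'.trans_lt hlt
    have h2 := C.norm_add_eq h1
    rwa [add_sub_cancel, norm_one] at h2
  have h1 : ‖y - y'‖ ≤ q₁ ^ i := by
    have h2 : y - y' = (y - 1) - (y' - 1) := by ring
    rw [h2]
    exact (C.norm_sub_le _ _).trans (max_le hy hy')
  apply lt_of_le_of_ne h1
  intro heq
  have h2 : ‖y / y' - 1‖ = q₁ ^ i := by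
    rw [div_sub_one h'.1, norm_div, heq, hyn, div_one]
  obtain ⟨n, hn⟩ := C.val (y / y' - 1) (by
    rw [← norm_ne_zero_iff, h2]
    exact (pow_pos C.pos _).ne') fun g => by
      rw [smul_sub, C.kum_div h h', smul_one]
  rw [h2, ← zpow_natCast, ← zpow_natCast, ← zpow_mul] at hn
  have h3 := C.pow_inj_iff.1 hn
  apply hi
  rw [← Int.natCast_dvd_natCast]
  exact ⟨n, h3⟩

end KumCtx

end Fermat.Agent.Flat
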