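import Fermat.Agent.Flat.Local
import Mathlib.Analysis.Normed.Group.Ultra

set_option autoImplicit false
set_option linter.unusedSectionVars false

/-!
# Kummer levels: the context and elementary facts
-/

open Polynomial

namespace Fermat.Agent.Flat

variable {p : ℕ} [hp : Fact p.Prime]

local notation "Ω" => PadicAlgCl p
local notation "Γ" => (PadicAlgCl p ≃ₐ[ℚ_[p]] PadicAlgCl p)

namespace Kum

section Ultra

theorem nadd (x y : Ω) : ‖x + y‖ ≤ max ‖x‖ ‖y‖ := PadicAlgCl.isNonarchimedean p x y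

theorem nsub (x y : Ω) : ‖x - y‖ ≤ max ‖x‖ ‖y‖ := by
  rw [sub_eq_add_neg, ← norm_neg y]
  exact nadd x (-y)

theorem nadd_eq {x y : Ω} (h : ‖y‖ < ‖x‖) : ‖x + y‖ = ‖x‖ := by
  apply le_antisymm
  · exact (nadd x y).trans (max_le le_rfl h.le)
  · by_contra hc
    rw [not_le] at hc
    have h1 : ‖x‖ ≤ max ‖x + y‖ ‖y‖ := by
      have := nsub (x + y) y
      rwa [add_sub_cancel_right] at this
    exact absurd h1 (not_le.mpr (max_lt hc h))

theorem nsum_le {ι : Type*} (s : Finset ι) (f : ι → Ω) {r : ℝ} (hr : 0 ≤ r)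
    (h : ∀ i ∈ s, ‖f i‖ ≤ r) : ‖∑ i ∈ s, f i‖ ≤ r := by
  classical
  induction s using Finset.induction_on with
  | empty => simpa using hr
  | insert a s ha ih =>
    rw [Finset.sum_insert ha]
    refine (nadd _ _).trans (max_le (h a (Finset.mem_insert_self _ _)) ?_)
    exact ih fun i hi => h i (Finset.mem_insert_of_mem hi)

theorem nsum_lt {ι : Type*} (s : Finset ι) (f : ι → Ω) {r : ℝ} (hr : 0 < r)
    (h : ∀ i ∈ s, ‖f i‖ < r) : ‖∑ i ∈ s, f i‖ < r := by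
  classical
  induction s using Finset.induction_on with
  | empty => simpa using hr
  | insert a s ha ih =>
    rw [Finset.sum_insert ha]
    refine (nadd _ _).trans_lt (max_lt (h a (Finset.mem_insert_self _ _)) ?_)
    exact ih fun i hi => h i (Finset.mem_insert_of_mem hi)

/-- terms with distinct norms are bounded by the sum -/
theorem term_le {ι : Type*} (s : Finset ι) (t : ι → Ω)
    (hd : ∀ i ∈ s, ∀ j ∈ s, i ≠ j → t i ≠ 0 → t j ≠ 0 → ‖t i‖ ≠ ‖t j‖) {i : ι} (hi : i ∈ s) :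
    ‖t i‖ ≤ ‖∑ j ∈ s, t j‖ := by
  classical
  obtain ⟨m, hm, hmax⟩ := s.exists_max_image (fun i => ‖t i‖) ⟨i, hi⟩
  refine (hmax i hi).trans ?_
  by_cases h0 : t m = 0
  · rw [h0, norm_zero]; exact norm_nonneg _
  · have h1 : 0 < ‖t m‖ := norm_pos_iff.mpr h0
    have h2 : ‖∑ j ∈ s.erase m, t j‖ < ‖t m‖ := by
      refine nsum_lt _ _ h1 fun j hj => ?_
      obtain ⟨hjm, hjs⟩ := Finset.mem_erase.mp hj
      by_cases hj0 : t j = 0
      · rw [hj0, norm_zero]; exact h1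
      · exact lt_of_le_of_ne (hmax j hjs) (hd j hjs m hm hjm hj0 h0)
    rw [← Finset.add_sum_erase s t hm, nadd_eq h2]

end Ultra

end Kum

/-- the context for Kummer theory over `L = Ω^G` -/
structure KumCtx (p : ℕ) [hp : Fact p.Prime] where
  /-- the group -/
  G : Subgroup (PadicAlgCl p ≃ₐ[ℚ_[p]] PadicAlgCl p)
  le_inert : G ≤ Loc.inert p
  /-- `p`-th root of the generator of the value group of `L` -/
  q1 : ℝ
  q1_pos : 0 < q1
  q1_lt : q1 < 1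
  /-- `e` -/
  e : ℕ
  e_pos : 0 < e
  /-- a primitive `p`-th root of unity in `L` -/
  z : PadicAlgCl p
  hz : IsPrimitiveRoot z p
  z_fixed : ∀ g ∈ G, g z = z
  z_norm : ‖z - 1‖ = q1 ^ (p * e)
  val : ∀ x : PadicAlgCl p, x ≠ 0 → (∀ g ∈ G, g x = x) → ∃ n : ℤ, ‖x‖ = (q1 ^ p) ^ n
  /-- a uniformizer of `L` -/
  pi : PadicAlgCl p
  pi_fixed : ∀ g ∈ G, g pi = pi
  pi_norm : ‖pi‖ = q1 ^ p

namespace KumCtx

variable (C : KumCtx p)

/-- Kummer generators for the character `f`. -/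
def IsKum (f : C.G → ZMod p) (y : Ω) : Prop :=
  y ≠ 0 ∧ ∀ g : C.G, (g : Γ) y = C.z ^ (f g).val * y

/-- the power of `z` -/
noncomputable def zp (a : ZMod p) : Ω := C.z ^ a.val

theorem z_pow_p : C.z ^ p = 1 := C.hz.pow_eq_one

theorem zp_natCast (n : ℕ) : C.zp (n : ZMod p) = C.z ^ n := by
  rw [zp, ZMod.val_natCast]
  conv_rhs => rw [← Nat.mod_add_div n p, pow_add, pow_mul, C.z_pow_p, one_pow, mul_one]

theorem zp_zero : C.zp 0 = 1 := by
  have := C.zp_natCast 0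
  rwa [Nat.cast_zero, pow_zero] at this

theorem zp_add (a b : ZMod p) : C.zp (a + b) = C.zp a * C.zp b := by
  obtain ⟨m, rfl⟩ := ZMod.natCast_zmod_surjective a
  obtain ⟨n, rfl⟩ := ZMod.natCast_zmod_surjective b
  rw [← Nat.cast_add, zp_natCast, zp_natCast, zp_natCast, pow_add]

theorem zp_ne_zero (a : ZMod p) : C.zp a ≠ 0 := by
  rw [zp]
  exact pow_ne_zero _ (C.hz.ne_zero hp.out.ne_zero)

theorem zp_pow (a : ZMod p) (n : ℕ) : C.zp a ^ n = C.zp (n * a) := by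
  induction n with
  | zero => rw [pow_zero, Nat.cast_zero, zero_mul, zp_zero]
  | succ n ih => rw [pow_succ, ih, Nat.cast_succ, add_mul, one_mul, zp_add]

theorem zp_neg (a : ZMod p) : C.zp (-a) = (C.zp a)⁻¹ := by
  rw [eq_comm, inv_eq_of_mul_eq_one_right]
  rw [← zp_add, add_neg_cancel, zp_zero]

theorem norm_z : ‖C.z‖ = 1 := Loc.norm_eq_one_of_pow hp.out.ne_zero C.z_pow_p

theorem norm_zp (a : ZMod p) : ‖C.zp a‖ = 1 := by rw [zp, norm_pow, C.norm_z, one_pow]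

theorem zp_fixed {g : Γ} (hg : g ∈ C.G) (a : ZMod p) : g (C.zp a) = C.zp a := by
  rw [zp, map_pow, C.z_fixed g hg]

theorem norm_pow_sub_one_le {w : Ω} (hw : ‖w‖ ≤ 1) (n : ℕ) : ‖w ^ n - 1‖ ≤ ‖w - 1‖ := by
  rw [← geom_sum_mul, norm_mul]
  refine mul_le_of_le_one_left (norm_nonneg _) ?_
  refine Kum.nsum_le _ _ zero_le_one fun i _ => ?_
  rw [norm_pow]
  exact pow_le_one₀ (norm_nonneg _) hw

theorem norm_zp_sub_one_le (a : ZMod p) : ‖C.zp a - 1‖ ≤ C.q1 ^ (p * C.e) := by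
  rw [← C.z_norm]
  exact norm_pow_sub_one_le C.norm_z.le _

theorem norm_zp_sub_one {a : ZMod p} (ha : a ≠ 0) : ‖C.zp a - 1‖ = C.q1 ^ (p * C.e) := by
  apply le_antisymm (C.norm_zp_sub_one_le a)
  have h1 : C.zp a ^ (a⁻¹ : ZMod p).val = C.z := by
    rw [zp_pow, ZMod.natCast_zmod_val, inv_mul_cancel₀ ha]
    have := C.zp_natCast 1
    rwa [Nat.cast_one, pow_one] at this
  rw [← C.z_norm]
  conv_lhs => rw [← h1]
  exact norm_pow_sub_one_le (C.norm_zp a).le _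

theorem zp_injective : Function.Injective C.zp := by
  intro a b hab
  by_contra hne
  have h1 : C.zp (a - b) = 1 := by
    rw [sub_eq_add_neg, zp_add, zp_neg, hab, mul_inv_cancel₀ (C.zp_ne_zero b)]
  have h2 := C.norm_zp_sub_one (sub_ne_zero.mpr hne)
  rw [h1, sub_self, norm_zero] at h2
  exact (pow_pos C.q1_pos _).ne h2

theorem sum_zp : ∑ a : ZMod p, C.zp a = 0 := by
  have h1 := C.hz.geom_sum_eq_zero hp.out.one_lt
  rw [← h1]
  refine Finset.sum_nbij' (fun a : ZMod p => a.val) (fun n : ℕ => (n : ZMod p)) ?_ ?_ ?_ ?_ ?_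
  · intro a _
    exact Finset.mem_range.mpr (ZMod.val_lt a)
  · intro n _
    exact Finset.mem_univ _
  · intro a _
    exact ZMod.natCast_zmod_val a
  · intro n hn
    rw [Finset.mem_range] at hn
    exact ZMod.val_natCast_of_lt hn
  · intro a _
    rfl

theorem sum_zp_mul {m : ZMod p} (hm : m ≠ 0) : ∑ a : ZMod p, C.zp (a * m) = 0 := by
  rw [← C.sum_zp]
  exact Fintype.sum_bijective (fun a => a * m) (mulRight_bijective₀ m hm) _ _ (fun _ => rfl)

/-! ### calculus -/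

variable {C}

theorem IsKum.one : C.IsKum (fun _ => 0) 1 := ⟨one_ne_zero, fun g => by
  rw [map_one, ZMod.val_zero, pow_zero, one_mul]⟩

theorem isKum_iff {f : C.G → ZMod p} {y : Ω} :
    C.IsKum f y ↔ y ≠ 0 ∧ ∀ g : C.G, (g : Γ) y = C.zp (f g) * y := Iff.rfl

theorem IsKum.mul {f f' : C.G → ZMod p} {y y' : Ω} (h : C.IsKum f y) (h' : C.IsKum f' y') :
    C.IsKum (fun g => f g + f' g) (y * y') := by
  rw [isKum_iff] at *
  refine ⟨mul_ne_zero h.1 h'.1, fun g => ?_⟩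
  rw [map_mul, h.2, h'.2, zp_add]
  ring

theorem IsKum.inv {f : C.G → ZMod p} {y : Ω} (h : C.IsKum f y) :
    C.IsKum (fun g => - f g) y⁻¹ := by
  rw [isKum_iff] at *
  refine ⟨inv_ne_zero h.1, fun g => ?_⟩
  rw [map_inv₀, h.2, zp_neg, mul_inv]

theorem IsKum.pow {f : C.G → ZMod p} {y : Ω} (h : C.IsKum f y) (n : ℕ) :
    C.IsKum (fun g => n * f g) (y ^ n) := by
  rw [isKum_iff] at *
  refine ⟨pow_ne_zero n h.1, fun g => ?_⟩
  rw [map_pow, h.2, mul_pow, zp_pow]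

theorem IsKum.smul {f : C.G → ZMod p} {y : Ω} (h : C.IsKum f y) (c : ZMod p) :
    C.IsKum (fun g => c * f g) (y ^ c.val) := by
  have := h.pow c.val
  rwa [ZMod.natCast_zmod_val] at this

theorem IsKum.of_fixed {y : Ω} (hy : y ≠ 0) (h : ∀ g ∈ C.G, g y = y) :
    C.IsKum (fun _ => 0) y := by
  rw [isKum_iff]
  refine ⟨hy, fun g => ?_⟩
  rw [h g g.2, zp_zero, one_mul]

theorem IsKum.mul_fixed {f : C.G → ZMod p} {y w : Ω} (h : C.IsKum f y) (hw : w ≠ 0)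
    (hfix : ∀ g ∈ C.G, g w = w) : C.IsKum f (y * w) := by
  have := h.mul (IsKum.of_fixed hw hfix)
  simpa only [add_zero] using this

theorem IsKum.div_fixed {f : C.G → ZMod p} {y w : Ω} (h : C.IsKum f y) (hw : w ≠ 0)
    (hfix : ∀ g ∈ C.G, g w = w) : C.IsKum f (y / w) := by
  rw [div_eq_mul_inv]
  exact h.mul_fixed (inv_ne_zero hw) fun g hg => by rw [map_inv₀, hfix g hg]

/-- two Kummer generators for the same character differ by an element of `L` -/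
theorem IsKum.div_mem {f : C.G → ZMod p} {y y' : Ω} (h : C.IsKum f y) (h' : C.IsKum f y') :
    ∀ g ∈ C.G, g (y / y') = y / y' := by
  intro g hg
  rw [isKum_iff] at h h'
  have h1 := h.2 ⟨g, hg⟩
  have h2 := h'.2 ⟨g, hg⟩
  change g y = _ at h1
  change g y' = _ at h2
  rw [map_div₀, h1, h2, mul_div_mul_left _ _ (C.zp_ne_zero _)]

/-- the `p`-th power is in `L` -/
theorem IsKum.pow_mem {f : C.G → ZMod p} {y : Ω} (h : C.IsKum f y) :
    ∀ g ∈ C.G, g (y ^ p) = y ^ p := by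
  intro g hg
  rw [isKum_iff] at h
  have h1 := h.2 ⟨g, hg⟩
  change g y = _ at h1
  rw [map_pow, h1, mul_pow, zp_pow, CharP.cast_eq_zero, zero_mul, zp_zero, one_mul]

theorem q1_zpow_inj {a b : ℤ} (h : C.q1 ^ a = C.q1 ^ b) : a = b :=
  zpow_right_injective₀ C.q1_pos C.q1_lt.ne h

theorem q1_zpow_le_iff {a b : ℤ} : C.q1 ^ a ≤ C.q1 ^ b ↔ b ≤ a :=
  zpow_le_zpow_iff_right_of_lt_one₀ C.q1_pos C.q1_lt

theorem q1_zpow_lt_iff {a b : ℤ} : C.q1 ^ a < C.q1 ^ b ↔ b < a :=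
  zpow_lt_zpow_iff_right_of_lt_one₀ C.q1_pos C.q1_lt

/-- the norm of an element of `L` -/
theorem norm_of_fixed {x : Ω} (hx : x ≠ 0) (h : ∀ g ∈ C.G, g x = x) :
    ∃ n : ℤ, ‖x‖ = C.q1 ^ ((p : ℤ) * n) := by
  obtain ⟨n, hn⟩ := C.val x hx h
  refine ⟨n, ?_⟩
  rw [hn, zpow_mul, zpow_natCast]

/-- the norm of a Kummer generator -/
theorem IsKum.norm_eq {f : C.G → ZMod p} {y : Ω} (h : C.IsKum f y) :
    ∃ m : ℤ, ‖y‖ = C.q1 ^ m := by
  obtain ⟨n, hn⟩ := norm_of_fixed (pow_ne_zero p h.1) h.pow_mem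
  refine ⟨n, ?_⟩
  have h2 : (C.q1 ^ n) ^ p = C.q1 ^ ((p : ℤ) * n) := by
    rw [← zpow_natCast, ← zpow_mul, mul_comm]
  rw [norm_pow, ← h2] at hn
  exact (pow_left_inj₀ (norm_nonneg _) (zpow_pos C.q1_pos _).le hp.out.ne_zero).mp hn

theorem IsKum.norm_eq_one_of_sub {f : C.G → ZMod p} {y : Ω} (_h : C.IsKum f y)
    (hy : ‖y - 1‖ < 1) : ‖y‖ = 1 := by
  have e : y = 1 + (y - 1) := by ring
  rw [e, Kum.nadd_eq (by rw [norm_one]; exact hy), norm_one]

/-- uniqueness at non-divisible levels -/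
theorem IsKum.unique {f : C.G → ZMod p} {y y' : Ω} (h : C.IsKum f y) (h' : C.IsKum f y') {i : ℕ}
    (hi : 0 < i) (hip : ¬ p ∣ i) (hy : ‖y - 1‖ ≤ C.q1 ^ i) (hy' : ‖y' - 1‖ ≤ C.q1 ^ i) :
    ‖y - y'‖ < C.q1 ^ i := by
  have hq : C.q1 ^ i < 1 := pow_lt_one₀ C.q1_pos.le C.q1_lt hi.ne'
  have hy'1 : ‖y'‖ = 1 := h'.norm_eq_one_of_sub (hy'.trans_lt hq)
  have hle : ‖y - y'‖ ≤ C.q1 ^ i := by
    have e : y - y' = (y - 1) - (y' - 1) := by ring
    rw [e]
    exact (Kum.nsub _ _).trans (max_le hy hy')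
  by_cases h0 : y = y'
  · rw [h0, sub_self, norm_zero]
    exact pow_pos C.q1_pos i
  · refine lt_of_le_of_ne hle fun heq => hip ?_
    have hc : y / y' - 1 ≠ 0 := by
      intro h1
      apply h0
      rw [sub_eq_zero, div_eq_one_iff_eq h'.1] at h1
      exact h1
    have hcf : ∀ g ∈ C.G, g (y / y' - 1) = y / y' - 1 := fun g hg => by
      rw [map_sub, map_one, h.div_mem h' g hg]
    obtain ⟨n, hn⟩ := norm_of_fixed hc hcf
    have e : y / y' - 1 = (y - y') / y' := by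
      field_simp [h'.1]
    rw [e, norm_div, hy'1, div_one, heq, ← zpow_natCast] at hn
    have := q1_zpow_inj hn
    exact Int.natCast_dvd_natCast.mp ⟨n, this⟩

/-- conjugation of Kummer generators -/
theorem IsKum.conj {f : C.G → ZMod p} {y : Ω} (h : C.IsKum f y) {τ : Γ}
    (hτ : ∀ g ∈ C.G, τ⁻¹ * g * τ ∈ C.G) {a : ZMod p} (ha : τ C.z = C.z ^ a.val) :
    C.IsKum (fun g : C.G => a * f ⟨τ⁻¹ * g * τ, hτ g g.2⟩) (τ y) := by
  rw [isKum_iff] at *
  refine ⟨(map_ne_zero_iff τ τ.injective).mpr h.1, fun g => ?_⟩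
  have h1 := h.2 ⟨τ⁻¹ * g * τ, hτ g g.2⟩
  change (τ⁻¹ * (g : Γ) * τ) y = _ at h1
  have h2 : (g : Γ) (τ y) = τ ((τ⁻¹ * (g : Γ) * τ) y) := by
    rw [AlgEquiv.mul_apply, AlgEquiv.mul_apply]
    exact (smul_inv_smul τ _).symm
  rw [h2, h1, map_mul]
  congr 1
  set b := f ⟨τ⁻¹ * g * τ, hτ g g.2⟩
  rw [zp, map_pow, ha]
  change C.zp a ^ b.val = _
  rw [zp_pow, ZMod.natCast_zmod_val, mul_comm]

end KumCtx

end Fermat.Agent.Flat
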