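import Fermat.Agent.Flat.Kum

/-!
# Existence of Kummer generators and the break inequality
-/

set_option autoImplicit false
set_option linter.unusedSectionVars false
set_option linter.style.haveILetI false

noncomputable section

namespace Fermat.Agent.Flat

namespace KumCtx

variable {p : ℕ} {Ω : Type} [NormedField Ω] {G : Type} [Group G]
    [MulSemiringAction G Ω] {q₁ : ℝ} {e : ℕ} {ζ : Ω} (C : KumCtx p Ω G q₁ e ζ)
include C

/-- Norms of sums with distinct norms. -/
theorem norm_le_norm_sum {ι : Type*} (s : Finset ι) (t : ι → Ω)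
    (h : ∀ i ∈ s, ∀ j ∈ s, i ≠ j → t i ≠ 0 → ‖t i‖ ≠ ‖t j‖) :
    ∀ i ∈ s, ‖t i‖ ≤ ‖∑ j ∈ s, t j‖ := by
  classical
  intro i hi
  obtain ⟨i₀, hi₀, hmax⟩ := Finset.exists_max_image s (fun i => ‖t i‖) ⟨i, hi⟩
  refine (hmax i hi).trans ?_
  by_cases h0 : t i₀ = 0
  · simp only [h0, norm_zero]
    exact norm_nonneg _
  · rw [← Finset.add_sum_erase s t hi₀]
    rw [C.norm_add_eq]
    apply C.norm_sum_lt _ _ (norm_pos_iff.2 h0)
    intro j hj
    rw [Finset.mem_erase] at hj
    exact lt_of_le_of_ne (hmax j hj.2) (h i₀ hi₀ j hj.2 hj.1.symm h0).symm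

section Char

variable {f : G → ZMod p} (hf : ∀ g h, f (g * h) = f g + f h)
include hf

theorem map_one : f 1 = 0 := by
  have := hf 1 1
  rw [mul_one] at this
  exact left_eq_add.1 this

theorem map_inv (g : G) : f g⁻¹ = -f g := by
  have := hf g⁻¹ g
  rw [inv_mul_cancel, C.map_one hf] at this
  exact eq_neg_of_add_eq_zero_left this.symm

theorem map_pow (g : G) (n : ℕ) : f (g ^ n) = n * f g := by
  induction n with
  | zero => rw [pow_zero, C.map_one hf]; simp
  | succ n ih => rw [pow_succ, hf, ih]; push_cast; ring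

theorem surj {g₀ : G} (hg₀ : f g₀ ≠ 0) (k : ZMod p) : ∃ g, f g = k := by
  haveI : Fact p.Prime := ⟨C.prime⟩
  refine ⟨g₀ ^ (k * (f g₀)⁻¹).val, ?_⟩
  rw [C.map_pow hf, ZMod.natCast_zmod_val, mul_assoc, inv_mul_cancel₀ hg₀, mul_one]

variable {β : Ω} (hβ : ∀ g, f g = 0 → g • β = β)
include hβ

theorem smul_eq_of_eq {g h : G} (hgh : f g = f h) : g • β = h • β := by
  have h1 : f (h⁻¹ * g) = 0 := by rw [hf, C.map_inv hf, hgh, neg_add_cancel]
  have h2 := hβ _ h1
  rw [mul_smul, inv_smul_eq_iff] at h2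
  exact h2

/-- the resolvents -/
theorem exists_resolvent {g₀ : G} (hg₀ : f g₀ ≠ 0) : ∃ r : ℕ → Ω,
    (∀ (g : G) (j : ℕ), g • r j = chi ζ ((j : ZMod p) * f g) * r j) ∧
    ∑ j ∈ Finset.range p, r j = p * β := by
  haveI := C.neZero
  have hs := C.surj hf hg₀
  choose t ht using hs
  refine ⟨fun j => ∑ k : ZMod p, chi ζ (-((j : ZMod p) * k)) * t k • β, ?_, ?_⟩
  · intro g j
    rw [Finset.smul_sum, Finset.mul_sum]
    refine Fintype.sum_equiv (Equiv.addRight (f g)) _ _ fun k => ?_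
    rw [smul_mul', C.smul_chi, ← mul_smul, ← mul_assoc, ← C.chi_add]
    congr 1
    · congr 1
      rw [Equiv.coe_addRight]
      ring
    · apply C.smul_eq_of_eq hf hβ
      rw [hf, ht, Equiv.coe_addRight, ht, add_comm]
  · rw [Finset.sum_comm]
    have h1 : ∀ k : ZMod p, ∑ j ∈ Finset.range p, chi ζ (-((j : ZMod p) * k)) * t k • β =
        if k = 0 then p * β else 0 := by
      intro k
      rw [← Finset.sum_mul]
      have h2 : ∑ j ∈ Finset.range p, chi ζ (-((j : ZMod p) * k)) =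
          ∑ j ∈ Finset.range p, chi ζ ((j : ZMod p) * (-k)) :=
        Finset.sum_congr rfl fun j _ => by rw [mul_neg]
      rw [h2, C.sum_chi]
      by_cases hk : k = 0
      · rw [if_pos (by rw [hk, neg_zero]), if_pos hk]
        congr 1
        have : t k • β = (1 : G) • β := C.smul_eq_of_eq hf hβ (by rw [ht, C.map_one hf, hk])
        rw [this, one_smul]
      · rw [if_neg (by rwa [neg_eq_zero]), if_neg hk, zero_mul]
    rw [Finset.sum_congr rfl fun k _ => h1 k]
    simp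

/-- Existence of Kummer generators. -/
theorem exists_kum {g₀ : G} (hg₀ : g₀ • β ≠ β) : ∃ y, IsKum ζ f y := by
  haveI : Fact p.Prime := ⟨C.prime⟩
  haveI := C.charZero
  have hf0 : f g₀ ≠ 0 := fun h => hg₀ (hβ g₀ h)
  obtain ⟨r, hr, hrs⟩ := C.exists_resolvent hf hβ hf0
  have hp0 : (p : Ω) ≠ 0 := by exact_mod_cast C.prime.ne_zero
  obtain ⟨j, hj, hj0, hjr⟩ : ∃ j ∈ Finset.range p, j ≠ 0 ∧ r j ≠ 0 := by
    by_contra hcon
    push Not at hcon
    have h1 : ∑ j ∈ Finset.range p, r j = r 0 := by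
      apply Finset.sum_eq_single
      · intro j hj hj0
        exact hcon j hj hj0
      · intro h
        exact absurd (Finset.mem_range.2 C.prime.pos) h
    rw [h1] at hrs
    apply hg₀
    have h2 := hr g₀ 0
    rw [Nat.cast_zero, zero_mul, C.chi_zero, one_mul, hrs, smul_mul'] at h2
    have h3 : g₀ • (p : Ω) = p := map_natCast (MulSemiringAction.toRingHom G Ω g₀) p
    rw [h3] at h2
    exact mul_left_cancel₀ hp0 h2
  have hjp : (j : ZMod p) ≠ 0 := by
    intro h
    rw [ZMod.natCast_eq_zero_iff] at h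
    exact hj0 (Nat.eq_zero_of_dvd_of_lt h (Finset.mem_range.1 hj))
  refine ⟨r j ^ ((j : ZMod p)⁻¹).val, pow_ne_zero _ hjr, fun g => ?_⟩
  rw [smul_pow', hr, mul_pow, ← C.chi_mul, ← mul_assoc, inv_mul_cancel₀ hjp, one_mul]

/-- Expansion in powers of a Kummer generator. -/
theorem exists_expansion {g₀ : G} (hg₀ : f g₀ ≠ 0) {y : Ω} (hy : IsKum ζ f y) :
    ∃ P : Polynomial Ω, P.natDegree < p ∧ (∀ g : G, P.map (MulSemiringAction.toRingHom G Ω g) = P) ∧
      P.eval y = β := by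
  haveI := C.charZero
  obtain ⟨r, hr, hrs⟩ := C.exists_resolvent hf hβ hg₀
  have hp0 : (p : Ω) ≠ 0 := by exact_mod_cast C.prime.ne_zero
  refine ⟨∑ j ∈ Finset.range p, Polynomial.C (r j / (p * y ^ j)) * Polynomial.X ^ j, ?_, ?_, ?_⟩
  · apply lt_of_le_of_lt (b := p - 1)
    · apply Polynomial.natDegree_sum_le_of_forall_le
      intro j hj
      rw [Finset.mem_range] at hj
      exact (Polynomial.natDegree_C_mul_X_pow_le _ _).trans (by omega)
    · have := C.prime.pos
      omega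
  · intro g
    rw [Polynomial.map_sum]
    refine Finset.sum_congr rfl fun j _ => ?_
    rw [Polynomial.map_mul, Polynomial.map_pow, Polynomial.map_X, Polynomial.map_C]
    congr 2
    change g • (r j / (p * y ^ j)) = _
    have h3 : g • (p : Ω) = p := map_natCast (MulSemiringAction.toRingHom G Ω g) p
    rw [smul_div₀', hr, smul_mul', smul_pow', hy.2, h3, mul_pow, ← C.chi_nsmul]
    have h4 := C.chi_ne_zero ((j : ZMod p) * f g)
    have h5 : y ^ j ≠ 0 := pow_ne_zero _ hy.1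
    field_simp
  · rw [Polynomial.eval_finsetSum]
    have h1 : ∀ j ∈ Finset.range p,
        (Polynomial.C (r j / (p * y ^ j)) * Polynomial.X ^ j).eval y = r j / p := by
      intro j _
      have h5 : y ^ j ≠ 0 := pow_ne_zero _ hy.1
      rw [Polynomial.eval_mul, Polynomial.eval_C, Polynomial.eval_pow, Polynomial.eval_X]
      field_simp
    rw [Finset.sum_congr rfl h1, ← Finset.sum_div, hrs, mul_div_cancel_left₀ _ hp0]

end Char

/-- Terms of the expansion of an integral element. -/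
theorem norm_coeff_le {P : Polynomial Ω} (hP : P.natDegree < p)
    (hPf : ∀ g : G, P.map (MulSemiringAction.toRingHom G Ω g) = P) {δ : Ω} {n : ℤ}
    (hn : ‖δ‖ = q₁ ^ n) (hpn : ¬ (p : ℤ) ∣ n) (hle : ‖P.eval δ‖ ≤ 1) {j : ℕ} (hj0 : 0 < j)
    (hj : j < p) : ‖P.coeff j * δ ^ j‖ ≤ q₁ := by
  have hfix : ∀ (g : G) (j : ℕ), g • P.coeff j = P.coeff j := by
    intro g j
    have := congrArg (fun Q => Q.coeff j) (hPf g)
    simp only [Polynomial.coeff_map] at this
    exact this
  have hδ : δ ≠ 0 := by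
    rw [← norm_ne_zero_iff, hn]
    exact (zpow_pos C.pos n).ne'
  have hval : ∀ j : ℕ, P.coeff j ≠ 0 → ∃ m : ℤ, ‖P.coeff j * δ ^ j‖ = q₁ ^ (p * m + n * j) := by
    intro j hj
    obtain ⟨m, hm⟩ := C.val _ hj fun g => hfix g j
    refine ⟨m, ?_⟩
    rw [norm_mul, norm_pow, hm, hn, ← zpow_natCast, ← zpow_natCast, ← zpow_mul, ← zpow_mul,
      ← zpow_add₀ C.pos.ne']
  rw [Polynomial.eval_eq_sum_range' hP] at hle
  have h1 := C.norm_le_norm_sum (Finset.range p) (fun j => P.coeff j * δ ^ j) (by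
    intro i hi k hk hik hne heq
    rw [Finset.mem_range] at hi hk
    have hi0 : P.coeff i ≠ 0 := left_ne_zero_of_mul hne
    have hk0 : P.coeff k ≠ 0 := by
      intro h0
      rw [h0, zero_mul, norm_zero, norm_eq_zero] at heq
      exact hne heq
    obtain ⟨m, hm⟩ := hval i hi0
    obtain ⟨m', hm'⟩ := hval k hk0
    rw [hm, hm'] at heq
    have h2 := C.pow_inj_iff.1 heq
    have h3 : (p : ℤ) ∣ n * ((i : ℤ) - k) := ⟨m' - m, by linear_combination h2⟩
    rcases (Nat.prime_iff_prime_int.1 C.prime).dvd_or_dvd h3 with h4 | h4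
    · exact hpn h4
    · have h5 : (i : ℤ) - k = 0 := by
        apply Int.eq_zero_of_abs_lt_dvd h4
        rw [abs_lt]
        constructor <;> omega
      exact hik (by omega)) j (Finset.mem_range.2 hj)
  have h2 := h1.trans hle
  by_cases h0 : P.coeff j = 0
  · rw [h0, zero_mul, norm_zero]
    exact C.pos.le
  · obtain ⟨m, hm⟩ := hval j h0
    rw [hm] at h2 ⊢
    rw [← zpow_zero q₁] at h2
    have h3 := C.zpow_le_iff.1 h2
    have h4 : (p * m + n * j : ℤ) ≠ 0 := by
      intro h4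
      have h5 : (p : ℤ) ∣ n * j := ⟨-m, by linear_combination h4⟩
      rcases (Nat.prime_iff_prime_int.1 C.prime).dvd_or_dvd h5 with h6 | h6
      · exact hpn h6
      · rw [Int.natCast_dvd_natCast] at h6
        exact absurd (Nat.le_of_dvd hj0 h6) (not_le.2 hj)
    conv_rhs => rw [← zpow_one q₁]
    rw [C.zpow_le_iff]
    omega

section Bound

variable {f : G → ZMod p} (hf : ∀ g h, f (g * h) = f g + f h) {β : Ω}
  (hβ : ∀ g, f g = 0 → g • β = β) (hβ1 : ‖β‖ ≤ 1) {y : Ω} (hy : IsKum ζ f y)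
include hf hβ hβ1 hy

theorem bound {i : ℕ} (hi0 : 0 < i) (hi : i < p * e) (hpi : ¬ p ∣ i) (hyi : ‖y - 1‖ = q₁ ^ i)
    (g : G) : ‖g • β - β‖ ≤ q₁ ^ (1 + p * e - i) := by
  by_cases hg : f g = 0
  · rw [hβ g hg, sub_self, norm_zero]
    exact pow_nonneg C.pos.le _
  obtain ⟨P, hP, hPf, hPy⟩ := C.exists_expansion hf hβ hg hy
  set δ := y - 1 with hδ
  set Q := P.comp (Polynomial.X + Polynomial.C 1) with hQ
  have hQd : Q.natDegree < p := by
    rw [hQ, Polynomial.natDegree_comp, Polynomial.natDegree_X_add_C, mul_one]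
    exact hP
  have hQf : ∀ g : G, Q.map (MulSemiringAction.toRingHom G Ω g) = Q := by
    intro g
    rw [hQ, Polynomial.map_comp, hPf, Polynomial.map_add, Polynomial.map_X, Polynomial.map_C,
      _root_.map_one]
  have hQe : Q.eval δ = β := by
    rw [hQ, Polynomial.eval_comp, Polynomial.eval_add, Polynomial.eval_X, Polynomial.eval_C, hδ,
      sub_add_cancel, hPy]
  have hfix : ∀ (g : G) (j : ℕ), g • Q.coeff j = Q.coeff j := by
    intro g j
    have := congrArg (fun R => R.coeff j) (hQf g)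
    simp only [Polynomial.coeff_map] at this
    exact this
  have hpi' : ¬ (p : ℤ) ∣ (i : ℤ) := by rwa [Int.natCast_dvd_natCast]
  have hδn : ‖δ‖ = q₁ ^ (i : ℤ) := by rw [hyi, zpow_natCast]
  have hlt1 : q₁ ^ i < 1 := pow_lt_one₀ C.pos.le C.lt_one hi0.ne'
  have hyn : ‖y‖ = 1 := by
    have h1 : ‖δ‖ < ‖(1 : Ω)‖ := by rw [norm_one, hyi]; exact hlt1
    have h2 := C.norm_add_eq h1
    rwa [hδ, add_sub_cancel, norm_one] at h2
  have hδpos : 0 < ‖δ‖ := by rw [hyi]; exact pow_pos C.pos _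
  have hgδ : g • δ - δ = (chi ζ (f g) - 1) * y := by
    rw [hδ, smul_sub, smul_one, hy.2]
    ring
  have hgδn : ‖g • δ - δ‖ ≤ q₁ ^ (p * e) := by
    rw [hgδ, norm_mul, hyn, mul_one]
    exact C.norm_chi_sub_one_le _
  have hgβ : g • β = Q.eval (g • δ) := by
    rw [← hQe]
    have h1 := Polynomial.hom_eval₂ Q (RingHom.id Ω) (MulSemiringAction.toRingHom G Ω g) δ
    rw [Polynomial.eval₂_id] at h1
    change MulSemiringAction.toRingHom G Ω g (Q.eval δ) = _
    rw [h1, RingHom.comp_id, ← Polynomial.eval_map, hQf]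
    rfl
  have h1 : g • β - β = ∑ j ∈ Finset.range p, Q.coeff j * ((g • δ) ^ j - δ ^ j) := by
    conv_lhs => rw [hgβ, ← hQe]
    rw [Polynomial.eval_eq_sum_range' hQd, Polynomial.eval_eq_sum_range' hQd,
      ← Finset.sum_sub_distrib]
    exact Finset.sum_congr rfl fun j _ => by rw [mul_sub]
  rw [h1]
  apply C.norm_sum_le _ _ (pow_nonneg C.pos.le _)
  intro j hj
  rw [Finset.mem_range] at hj
  rcases Nat.eq_zero_or_pos j with rfl | hj0
  · simp only [pow_zero, sub_self, mul_zero, norm_zero]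
    exact pow_nonneg C.pos.le _
  have h2 := C.norm_coeff_le hQd hQf hδn hpi' (by rw [hQe]; exact hβ1) hj0 hj
  have h3 : ‖(g • δ) ^ j - δ ^ j‖ ≤ ‖δ‖ ^ (j - 1) * q₁ ^ (p * e) := by
    rw [← geom_sum₂_mul, norm_mul]
    apply mul_le_mul _ hgδn (norm_nonneg _) (by positivity)
    apply C.norm_sum_le _ _ (by positivity)
    intro k hk
    rw [Finset.mem_range] at hk
    rw [norm_mul, norm_pow, norm_pow, C.norm_smul, ← pow_add]
    apply le_of_eq
    congr 1
    omega
  have h4 : ‖Q.coeff j‖ * ‖δ‖ ^ (j - 1) * ‖δ‖ ≤ q₁ := by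
    rw [mul_assoc, ← pow_succ, Nat.sub_add_cancel hj0, ← norm_pow, ← norm_mul]
    exact h2
  rw [norm_mul]
  have h5 : q₁ ^ (1 + p * e - i) * ‖δ‖ = q₁ * q₁ ^ (p * e) := by
    rw [hyi, ← pow_add, ← pow_succ']
    congr 1
    omega
  apply le_of_mul_le_mul_right _ hδpos
  rw [h5]
  calc ‖Q.coeff j‖ * ‖(g • δ) ^ j - δ ^ j‖ * ‖δ‖
      ≤ ‖Q.coeff j‖ * (‖δ‖ ^ (j - 1) * q₁ ^ (p * e)) * ‖δ‖ := by
        apply mul_le_mul_of_nonneg_right _ (norm_nonneg _)
        exact mul_le_mul_of_nonneg_left h3 (norm_nonneg _)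
    _ = (‖Q.coeff j‖ * ‖δ‖ ^ (j - 1) * ‖δ‖) * q₁ ^ (p * e) := by ring
    _ ≤ q₁ * q₁ ^ (p * e) := mul_le_mul_of_nonneg_right h4 (pow_nonneg C.pos.le _)

theorem bound_zero {n : ℤ} (hn : ‖y‖ = q₁ ^ n) (hpn : ¬ (p : ℤ) ∣ n) (g : G) :
    ‖g • β - β‖ ≤ q₁ ^ (1 + p * e) := by
  by_cases hg : f g = 0
  · rw [hβ g hg, sub_self, norm_zero]
    exact pow_nonneg C.pos.le _
  obtain ⟨P, hP, hPf, hPy⟩ := C.exists_expansion hf hβ hg hy
  have hgβ : g • β = P.eval (g • y) := by
    rw [← hPy]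
    have h1 := Polynomial.hom_eval₂ P (RingHom.id Ω) (MulSemiringAction.toRingHom G Ω g) y
    rw [Polynomial.eval₂_id] at h1
    change MulSemiringAction.toRingHom G Ω g (P.eval y) = _
    rw [h1, RingHom.comp_id, ← Polynomial.eval_map, hPf]
    rfl
  have h1 : g • β - β = ∑ j ∈ Finset.range p, P.coeff j * ((g • y) ^ j - y ^ j) := by
    conv_lhs => rw [hgβ, ← hPy]
    rw [Polynomial.eval_eq_sum_range' hP, Polynomial.eval_eq_sum_range' hP,
      ← Finset.sum_sub_distrib]
    exact Finset.sum_congr rfl fun j _ => by rw [mul_sub]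
  rw [h1]
  apply C.norm_sum_le _ _ (pow_nonneg C.pos.le _)
  intro j hj
  rw [Finset.mem_range] at hj
  rcases Nat.eq_zero_or_pos j with rfl | hj0
  · simp only [pow_zero, sub_self, mul_zero, norm_zero]
    exact pow_nonneg C.pos.le _
  have h2 := C.norm_coeff_le hP hPf hn hpn (by rw [hPy]; exact hβ1) hj0 hj
  have h3 : P.coeff j * ((g • y) ^ j - y ^ j) =
      (P.coeff j * y ^ j) * (chi ζ ((j : ZMod p) * f g) - 1) := by
    rw [hy.2, mul_pow, ← C.chi_nsmul]
    ring
  rw [h3, norm_mul, pow_add, pow_one]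
  exact mul_le_mul h2 (C.norm_chi_sub_one_le _) (norm_nonneg _) C.pos.le

end Bound

/-- products of integral polynomials are integral -/
theorem norm_coeff_prod_le {ι : Type*} (s : Finset ι) (P : ι → Polynomial Ω)
    (h : ∀ i ∈ s, ∀ j, ‖(P i).coeff j‖ ≤ 1) (j : ℕ) : ‖(∏ i ∈ s, P i).coeff j‖ ≤ 1 := by
  classical
  induction s using Finset.induction_on generalizing j with
  | empty =>
    rw [Finset.prod_empty, Polynomial.coeff_one]
    split_ifs <;> simp
  | insert a s ha ih =>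
    rw [Finset.prod_insert ha, Polynomial.coeff_mul]
    apply C.norm_sum_le _ _ zero_le_one
    intro x _
    rw [norm_mul]
    exact mul_le_one₀ (h a (Finset.mem_insert_self _ _) _) (norm_nonneg _)
      (ih (fun i hi => h i (Finset.mem_insert_of_mem hi)) _)

section Break

variable {A : Type} [AddCommGroup A] [Finite A] {Z : G → A}
  (hZ : ∀ g h, Z (g * h) = Z g + Z h) (hZs : Function.Surjective Z) {lam : A →+ ZMod p}
  {a₀ : A} (ha₀ : lam a₀ ≠ 0) {α : Ω} (hα1 : ‖α‖ ≤ 1) (hα : ∀ g, Z g = 0 → g • α = α)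
  (hαd : ∀ g, Z g ≠ 0 → q₁ ^ p ≤ ‖g • α - α‖)
include hZ hZs ha₀ hα1 hα hαd

theorem exists_coeff : ∃ (g₀ : G) (β : Ω), (∀ g, lam (Z g) = 0 → g • β = β) ∧ ‖β‖ ≤ 1 ∧
    q₁ ^ Nat.card A ≤ ‖g₀ • β - β‖ := by
  classical
  haveI : Fact p.Prime := ⟨C.prime⟩
  haveI := Fintype.ofFinite A
  have hZ1 : Z 1 = 0 := by
    have := hZ 1 1
    rw [mul_one] at this
    exact left_eq_add.1 this
  have hZi : ∀ g, Z g⁻¹ = -Z g := by
    intro g
    have := hZ g⁻¹ g
    rw [inv_mul_cancel, hZ1] at this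
    exact eq_neg_of_add_eq_zero_left this.symm
  have hαe : ∀ g h, Z g = Z h → g • α = h • α := by
    intro g h hgh
    have h1 : Z (h⁻¹ * g) = 0 := by rw [hZ, hZi, hgh, neg_add_cancel]
    have h2 := hα _ h1
    rw [mul_smul, inv_smul_eq_iff] at h2
    exact h2
  choose s hs using hZs
  set K : Finset A := Finset.univ.filter fun a => lam a = 0 with hK
  have hKcard : Nat.card A = p * K.card := by
    have h1 := AddSubgroup.card_mul_index lam.ker
    have h2 : lam.ker.index = p := by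
      rw [AddSubgroup.index_ker]
      have h3 : lam.range = ⊤ := by
        rw [AddMonoidHom.range_eq_top]
        intro x
        refine ⟨(x * (lam a₀)⁻¹).val • a₀, ?_⟩
        rw [map_nsmul, nsmul_eq_mul, ZMod.natCast_zmod_val, mul_assoc, inv_mul_cancel₀ ha₀, mul_one]
      rw [h3, Nat.card_congr (AddSubgroup.topEquiv (G := ZMod p)).toEquiv, Nat.card_zmod]
    have h4 : Nat.card lam.ker = K.card := by
      rw [Nat.card_eq_fintype_card, Fintype.card_subtype, hK]
      exact congrArg Finset.card (Finset.filter_congr fun x _ => AddMonoidHom.mem_ker)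
    rw [h2, h4, mul_comm] at h1
    exact h1.symm
  set F : Polynomial Ω := ∏ a ∈ K, (Polynomial.X - Polynomial.C (s a • α)) with hF
  have hFmap : ∀ g : G, F.map (MulSemiringAction.toRingHom G Ω g) =
      ∏ a ∈ K, (Polynomial.X - Polynomial.C (s (a + Z g) • α)) := by
    intro g
    rw [hF, Polynomial.map_prod]
    refine Finset.prod_congr rfl fun a _ => ?_
    rw [Polynomial.map_sub, Polynomial.map_X, Polynomial.map_C]
    congr 2
    change g • s a • α = _
    rw [← mul_smul]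
    apply hαe
    rw [hZ, hs, hs, add_comm]
  have hFfix : ∀ g : G, lam (Z g) = 0 → F.map (MulSemiringAction.toRingHom G Ω g) = F := by
    intro g hg
    rw [hFmap, hF]
    refine Finset.prod_bij (fun a _ => a + Z g) ?_ ?_ ?_ ?_
    · intro a ha
      rw [hK, Finset.mem_filter] at ha ⊢
      exact ⟨Finset.mem_univ _, by rw [map_add, ha.2, hg, add_zero]⟩
    · intro a _ a' _ h
      exact add_right_cancel h
    · intro a ha
      refine ⟨a - Z g, ?_, sub_add_cancel _ _⟩
      rw [hK, Finset.mem_filter] at ha ⊢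
      exact ⟨Finset.mem_univ _, by rw [map_sub, ha.2, hg, sub_zero]⟩
    · intro a _
      rfl
  have hFint : ∀ j, ‖F.coeff j‖ ≤ 1 := by
    apply C.norm_coeff_prod_le
    intro a _ j
    rw [Polynomial.coeff_sub, Polynomial.coeff_X, Polynomial.coeff_C]
    refine (C.norm_sub_le _ _).trans (max_le ?_ ?_)
    · split_ifs <;> simp
    · split_ifs
      · rwa [C.norm_smul]
      · simp
  obtain ⟨g₀, hg₀⟩ : ∃ g₀, Z g₀ = a₀ := ⟨s a₀, hs a₀⟩
  have hev0 : F.eval α = 0 := by
    rw [hF, Polynomial.eval_prod]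
    apply Finset.prod_eq_zero (i := 0)
    · rw [hK, Finset.mem_filter]
      exact ⟨Finset.mem_univ _, map_zero _⟩
    · rw [Polynomial.eval_sub, Polynomial.eval_X, Polynomial.eval_C, hα _ (hs 0), sub_self]
  have hev1 : q₁ ^ Nat.card A ≤
      ‖(F.map (MulSemiringAction.toRingHom G Ω g₀)).eval α‖ := by
    rw [hFmap, Polynomial.eval_prod, norm_prod, hKcard, pow_mul, ← Finset.prod_const]
    apply Finset.prod_le_prod
    · intro a _
      exact pow_nonneg C.pos.le _
    · intro a ha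
      rw [hK, Finset.mem_filter] at ha
      rw [Polynomial.eval_sub, Polynomial.eval_X, Polynomial.eval_C, norm_sub_rev]
      apply hαd
      rw [hs, hg₀]
      intro h
      have h2 := congrArg lam h
      rw [map_add, ha.2, zero_add, map_zero] at h2
      exact ha₀ h2
  -- some coefficient moves a lot
  have hex : ∃ j, q₁ ^ Nat.card A ≤ ‖g₀ • F.coeff j - F.coeff j‖ := by
    by_contra hcon
    push Not at hcon
    have h1 : (F.map (MulSemiringAction.toRingHom G Ω g₀)).eval α =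
        ∑ j ∈ Finset.range (F.natDegree + 1), (g₀ • F.coeff j - F.coeff j) * α ^ j := by
      have h2 : (F.map (MulSemiringAction.toRingHom G Ω g₀)).eval α =
          (F.map (MulSemiringAction.toRingHom G Ω g₀)).eval α - F.eval α := by
        rw [hev0, sub_zero]
      rw [h2, Polynomial.eval_eq_sum_range' (n := F.natDegree + 1)
        (lt_of_le_of_lt (Polynomial.natDegree_map_le) (Nat.lt_succ_self _)),
        Polynomial.eval_eq_sum_range, ← Finset.sum_sub_distrib]
      refine Finset.sum_congr rfl fun j _ => ?_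
      rw [Polynomial.coeff_map, sub_mul]
      rfl
    rw [h1] at hev1
    apply absurd hev1 (not_le.2 _)
    apply C.norm_sum_lt _ _ (pow_pos C.pos _)
    intro j _
    rw [norm_mul, norm_pow]
    calc _ ≤ ‖g₀ • F.coeff j - F.coeff j‖ * 1 :=
          mul_le_mul_of_nonneg_left (pow_le_one₀ (norm_nonneg _) hα1) (norm_nonneg _)
      _ = ‖g₀ • F.coeff j - F.coeff j‖ := mul_one _
      _ < _ := hcon j
  obtain ⟨j, hj⟩ := hex
  refine ⟨g₀, F.coeff j, fun g hg => ?_, hFint j, hj⟩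
  have := congrArg (fun Q => Q.coeff j) (hFfix g hg)
  simp only [Polynomial.coeff_map] at this
  exact this

/-- **The break inequality.** -/
theorem break_level (hcard : Nat.card A ≤ p * e) : ∃ (y : Ω) (i : ℕ),
    IsKum ζ (fun g => lam (Z g)) y ∧ 0 < i ∧ i < p * e ∧ ¬ p ∣ i ∧ ‖y - 1‖ = q₁ ^ i ∧
    1 + p * e ≤ i + Nat.card A := by
  obtain ⟨g₀, β, hβ, hβ1, hg₀⟩ := C.exists_coeff hZ hZs ha₀ hα1 hα hαd
  have hf : ∀ g h, (fun g => lam (Z g)) (g * h) = (fun g => lam (Z g)) g + (fun g => lam (Z g)) h :=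
    fun g h => by simp only [hZ, map_add]
  have hne : g₀ • β ≠ β := by
    intro h
    rw [h, sub_self, norm_zero] at hg₀
    exact absurd hg₀ (not_le.2 (pow_pos C.pos _))
  have hfg : lam (Z g₀) ≠ 0 := fun h => hne (hβ g₀ h)
  obtain ⟨y, hy⟩ := C.exists_kum hf hβ hne
  obtain ⟨n, hn⟩ := C.norm_eq_zpow hy
  by_cases hpn : (p : ℤ) ∣ n
  · obtain ⟨m, rfl⟩ := hpn
    rw [zpow_mul, zpow_natCast] at hn
    obtain ⟨y', i, hy', hi0, hi, hpi, hyi⟩ := C.normal (f := fun g => lam (Z g)) hfg hy hn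
    refine ⟨y', i, hy', hi0, hi, hpi, hyi, ?_⟩
    have h1 := hg₀.trans (C.bound hf hβ hβ1 hy' hi0 hi hpi hyi g₀)
    have h2 := (pow_le_pow_iff_right_of_lt_one₀ C.pos C.lt_one).1 h1
    omega
  · exfalso
    have h1 := hg₀.trans (C.bound_zero hf hβ hβ1 hy hn hpn g₀)
    have h2 := (pow_le_pow_iff_right_of_lt_one₀ C.pos C.lt_one).1 h1
    omega

end Break

end KumCtx

end Fermat.Agent.Flat
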