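import Fermat.Agent.Flat.KumBasic

set_option autoImplicit false
set_option linter.unusedSectionVars false

/-!
# Kummer levels: existence of generators, levels, and the ramification bound
-/

open Polynomial

namespace Fermat.Agent.Flat

variable {p : ℕ} [hp : Fact p.Prime]

local notation "Ω" => PadicAlgCl p
local notation "Γ" => (PadicAlgCl p ≃ₐ[ℚ_[p]] PadicAlgCl p)

namespace KumCtx

variable {C : KumCtx p}

section Additive

variable {f : C.G → ZMod p} (hf : ∀ g h, f (g * h) = f g + f h)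

include hf

theorem f_one : f 1 = 0 := by
  have := hf 1 1
  rw [mul_one] at this
  exact left_eq_add.mp this

theorem f_inv (g : C.G) : f g⁻¹ = - f g := by
  have := hf g⁻¹ g
  rw [inv_mul_cancel, f_one hf] at this
  exact eq_neg_of_add_eq_zero_left this.symm

theorem f_pow (g : C.G) (n : ℕ) : f (g ^ n) = n * f g := by
  induction n with
  | zero => rw [pow_zero, f_one hf, Nat.cast_zero, zero_mul]
  | succ n ih => rw [pow_succ, hf, ih, Nat.cast_succ, add_mul, one_mul]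

theorem exists_f_eq_one {g0 : C.G} (hg0 : f g0 ≠ 0) : ∃ s : C.G, f s = 1 := by
  refine ⟨g0 ^ ((f g0)⁻¹ : ZMod p).val, ?_⟩
  rw [f_pow hf, ZMod.natCast_zmod_val, inv_mul_cancel₀ hg0]

/-- decomposition into eigenvectors -/
theorem exists_decomp {g0 : C.G} (hg0 : f g0 ≠ 0) {b : Ω}
    (hb : ∀ g : C.G, f g = 0 → (g : Γ) b = b) :
    ∃ B : ZMod p → Ω, b = ∑ j, B j ∧ ∀ j, ∀ g : C.G, (g : Γ) (B j) = C.zp (j * f g) * B j := by
  obtain ⟨s, hs⟩ := exists_f_eq_one hf hg0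
  set c : ZMod p → Ω := fun m => ((s ^ m.val : C.G) : Γ) b with hc
  have hc0 : c 0 = b := by
    simp only [c, ZMod.val_zero, pow_zero]
    rfl
  have hgc : ∀ (g : C.G) (m : ZMod p), (g : Γ) (c m) = c (m + f g) := by
    intro g m
    have h1 := hb ((s ^ (m + f g).val)⁻¹ * g * s ^ m.val) (by
      rw [hf, hf, f_inv hf, f_pow hf, f_pow hf, hs, ZMod.natCast_zmod_val, ZMod.natCast_zmod_val]
      ring)
    have h2 : (g : Γ) (c m) = ((s ^ (m + f g).val : C.G) : Γ)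
        ((((s ^ (m + f g).val)⁻¹ * g * s ^ m.val : C.G) : Γ) b) := by
      have e : (s ^ (m + f g).val : C.G) * ((s ^ (m + f g).val)⁻¹ * g * s ^ m.val) =
          g * s ^ m.val := by group
      have e' := congrArg (fun k : C.G => (k : Γ) b) e
      simp only [Subgroup.coe_mul, AlgEquiv.mul_apply] at e' ⊢
      exact e'.symm
    rw [h2, h1]
  have hp0 : (p : Ω) ≠ 0 := by exact_mod_cast hp.out.ne_zero
  refine ⟨fun j => (p : Ω)⁻¹ * ∑ m : ZMod p, C.zp (m * (-j)) * c m, ?_, ?_⟩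
  · rw [← Finset.mul_sum, Finset.sum_comm]
    have h1 : ∀ m : ZMod p, ∑ j : ZMod p, C.zp (m * (-j)) * c m =
        if m = 0 then (p : Ω) * b else 0 := by
      intro m
      rw [← Finset.sum_mul]
      split_ifs with hm
      · subst hm
        simp only [zero_mul, C.zp_zero, Finset.sum_const, Finset.card_univ, ZMod.card,
          nsmul_eq_mul, mul_one, hc0]
      · have h2 := C.sum_zp_mul (m := -m) (neg_ne_zero.mpr hm)
        have h3 : ∑ j : ZMod p, C.zp (m * (-j)) = 0 := by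
          rw [← h2]
          refine Finset.sum_congr rfl fun j _ => ?_
          congr 1
          ring
        rw [h3, zero_mul]
    rw [Finset.sum_congr rfl fun m _ => h1 m, Finset.sum_ite_eq' Finset.univ (0 : ZMod p),
      if_pos (Finset.mem_univ _)]
    field_simp
  · intro j g
    rw [map_mul, map_inv₀, map_natCast, map_sum, mul_left_comm]
    congr 1
    rw [Finset.mul_sum]
    refine Fintype.sum_bijective (fun m => m + f g) (Equiv.addRight (f g)).bijective _ _ ?_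
    intro m
    rw [map_mul, C.zp_fixed g.2, hgc, ← mul_assoc, ← zp_add]
    congr 2
    ring

/-- (a) existence of a Kummer generator -/
theorem exists_kum {b : Ω} (hb : ∀ g : C.G, f g = 0 → (g : Γ) b = b) {g0 : C.G}
    (hg0 : (g0 : Γ) b ≠ b) : ∃ y, C.IsKum f y := by
  have hf0 : f g0 ≠ 0 := fun h => hg0 (hb g0 h)
  obtain ⟨B, hB, hBg⟩ := exists_decomp hf hf0 hb
  obtain ⟨j, hj, hBj⟩ : ∃ j, j ≠ 0 ∧ B j ≠ 0 := by
    by_contra hcon
    push Not at hcon
    apply hg0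
    have h1 : b = B 0 := by
      rw [hB]
      refine Finset.sum_eq_single 0 (fun j _ hj => hcon j hj) ?_
      intro h; exact absurd (Finset.mem_univ _) h
    rw [h1, hBg, zero_mul, C.zp_zero, one_mul]
  refine ⟨B j ^ (j⁻¹ : ZMod p).val, ?_⟩
  have h1 : C.IsKum (fun g => j * f g) (B j) := by
    rw [isKum_iff]
    exact ⟨hBj, hBg j⟩
  have h2 := h1.smul j⁻¹
  have h3 : (fun g => j⁻¹ * (j * f g)) = f := by
    funext g
    rw [← mul_assoc, inv_mul_cancel₀ hj, one_mul]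
  rwa [h3] at h2

/-- coefficients with respect to the powers of a Kummer generator -/
theorem exists_coeffs {y : Ω} (hy : C.IsKum f y) {b : Ω}
    (hb : ∀ g : C.G, f g = 0 → (g : Γ) b = b) :
    ∃ c : ℕ → Ω, (∀ k, ∀ g ∈ C.G, g (c k) = c k) ∧ b = ∑ k ∈ Finset.range p, c k * y ^ k := by
  by_cases h0 : ∃ g0 : C.G, f g0 ≠ 0
  · obtain ⟨g0, hg0⟩ := h0
    obtain ⟨B, hB, hBg⟩ := exists_decomp hf hg0 hb
    refine ⟨fun k => B k / y ^ k, ?_, ?_⟩
    · intro k g hg
      have h1 := hBg k ⟨g, hg⟩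
      change g (B k) = _ at h1
      have h2 := (isKum_iff.mp (hy.pow k)).2 ⟨g, hg⟩
      change g (y ^ k) = _ at h2
      rw [map_div₀, h1, h2, mul_div_mul_left _ _ (C.zp_ne_zero _)]
    · rw [hB]
      refine Finset.sum_nbij' (fun a : ZMod p => a.val) (fun n : ℕ => (n : ZMod p)) ?_ ?_ ?_ ?_ ?_
      · intro a _
        exact Finset.mem_range.mpr (ZMod.val_lt a)
      · intro n _
        exact Finset.mem_univ _
      · intro a _
        exact ZMod.natCast_zmod_val a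
      · intro n hn
        rw [Finset.mem_range] at hn
        exact ZMod.val_natCast_of_lt hn
      · intro a _
        dsimp only
        rw [ZMod.natCast_zmod_val, div_mul_cancel₀ _ (pow_ne_zero _ hy.1)]
  · push Not at h0
    refine ⟨fun k => if k = 0 then b else 0, ?_, ?_⟩
    · intro k g hg
      dsimp only
      split_ifs
      · exact hb ⟨g, hg⟩ (h0 _)
      · exact map_zero _
    · rw [Finset.sum_eq_single 0]
      · simp
      · intro k _ hk
        simp [hk]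
      · intro h
        exact absurd (Finset.mem_range.mpr hp.out.pos) h

/-- the same, with respect to the powers of `y - 1` -/
theorem exists_coeffs_sub_one {y : Ω} (hy : C.IsKum f y) {b : Ω}
    (hb : ∀ g : C.G, f g = 0 → (g : Γ) b = b) :
    ∃ c : ℕ → Ω, (∀ k, ∀ g ∈ C.G, g (c k) = c k) ∧
      b = ∑ k ∈ Finset.range p, c k * (y - 1) ^ k := by
  obtain ⟨c, hc, hbc⟩ := exists_coeffs hf hy hb
  refine ⟨fun l => ∑ k ∈ Finset.range p, c k * (k.choose l : Ω), ?_, ?_⟩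
  · intro l g hg
    rw [map_sum]
    refine Finset.sum_congr rfl fun k _ => ?_
    rw [map_mul, map_natCast, hc k g hg]
  · rw [hbc]
    have h1 : ∀ k ∈ Finset.range p, c k * y ^ k =
        ∑ l ∈ Finset.range p, c k * (k.choose l : Ω) * (y - 1) ^ l := by
      intro k hk
      rw [Finset.mem_range] at hk
      have e : y = (y - 1) + 1 := by ring
      conv_lhs => rw [e, add_pow]
      simp only [one_pow, mul_one]
      rw [Finset.mul_sum]
      have hsub : Finset.range (k + 1) ⊆ Finset.range p := Finset.range_subset_range.mpr hk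
      rw [← Finset.sum_subset hsub]
      · refine Finset.sum_congr rfl fun l _ => ?_
        ring
      · intro l _ hl
        rw [Finset.mem_range, not_lt] at hl
        rw [Nat.choose_eq_zero_of_lt (by omega), Nat.cast_zero, mul_zero, zero_mul]
    rw [Finset.sum_congr rfl h1, Finset.sum_comm]
    refine Finset.sum_congr rfl fun l _ => ?_
    rw [Finset.sum_mul]

end Additive

/-- sizes of the terms of an expansion -/
theorem term_le_q1 {w : Ω} {m : ℤ} (hw : ‖w‖ = C.q1 ^ m) (hm : ¬ (p : ℤ) ∣ m) {c : ℕ → Ω}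
    (hc : ∀ k, ∀ g ∈ C.G, g (c k) = c k) (hb : ‖∑ k ∈ Finset.range p, c k * w ^ k‖ ≤ 1) {k : ℕ}
    (hk : k < p) (hk0 : k ≠ 0) : ‖c k * w ^ k‖ ≤ C.q1 := by
  have hw0 : w ≠ 0 := by
    intro h
    rw [h, norm_zero] at hw
    exact (zpow_pos C.q1_pos m).ne hw
  have key : ∀ k, c k * w ^ k ≠ 0 → ∃ n : ℤ, ‖c k * w ^ k‖ = C.q1 ^ ((p : ℤ) * n + m * k) := by
    intro k hk
    obtain ⟨n, hn⟩ := norm_of_fixed (left_ne_zero_of_mul hk) (hc k)
    refine ⟨n, ?_⟩
    rw [norm_mul, norm_pow, hn, hw, zpow_add₀ C.q1_pos.ne', zpow_mul, zpow_mul, zpow_natCast,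
      zpow_natCast]
  have hpp : Prime (p : ℤ) := Nat.prime_iff_prime_int.mp hp.out
  have h1 : ‖c k * w ^ k‖ ≤ 1 := by
    refine (Kum.term_le (Finset.range p) (fun k => c k * w ^ k) ?_ (Finset.mem_range.mpr hk)).trans hb
    intro i hi j hj hij hi0 hj0 heq
    rw [Finset.mem_range] at hi hj
    obtain ⟨n, hn⟩ := key i hi0
    obtain ⟨n', hn'⟩ := key j hj0
    rw [hn, hn'] at heq
    have h2 := q1_zpow_inj heq
    have h3 : (p : ℤ) ∣ m * ((i : ℤ) - j) := ⟨n' - n, by linarith⟩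
    rcases hpp.dvd_mul.mp h3 with h4 | h4
    · exact hm h4
    · obtain ⟨d, hd⟩ := h4
      have h5 : d = 0 := by
        by_contra hd0
        rcases lt_or_gt_of_ne hd0 with hlt | hgt
        · have : (p : ℤ) * d ≤ p * (-1) := by
            apply mul_le_mul_of_nonneg_left _ (by positivity)
            omega
          omega
        · have : (p : ℤ) * 1 ≤ p * d := by
            apply mul_le_mul_of_nonneg_left _ (by positivity)
            omega
          omega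
      rw [h5, mul_zero] at hd
      omega
  by_cases hz : c k * w ^ k = 0
  · rw [hz, norm_zero]
    exact C.q1_pos.le
  · obtain ⟨n, hn⟩ := key k hz
    rw [hn] at h1 ⊢
    have h2 : 0 ≤ (p : ℤ) * n + m * k := by
      rw [← zpow_zero C.q1, q1_zpow_le_iff] at h1
      exact h1
    have h3 : (p : ℤ) * n + m * k ≠ 0 := by
      intro h4
      have h5 : (p : ℤ) ∣ m * k := ⟨-n, by linarith⟩
      rcases hpp.dvd_mul.mp h5 with h6 | h6
      · exact hm h6
      · have := Nat.le_of_dvd (Nat.pos_of_ne_zero hk0) (Int.natCast_dvd_natCast.mp h6)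
        omega
    have h4 : C.q1 ^ ((p : ℤ) * n + m * k) ≤ C.q1 ^ (1 : ℤ) := by
      rw [q1_zpow_le_iff]
      omega
    rwa [zpow_one] at h4

/-- (c0) the bound for a ramified Kummer generator -/
theorem bound_zero {f : C.G → ZMod p} (hf : ∀ g h, f (g * h) = f g + f h) {y : Ω}
    (hy : C.IsKum f y) (hyn : ∀ n : ℤ, ‖y‖ ≠ (C.q1 ^ p) ^ n) {b : Ω}
    (hb : ∀ g : C.G, f g = 0 → (g : Γ) b = b) (hb1 : ‖b‖ ≤ 1) (g : C.G) :
    ‖(g : Γ) b - b‖ ≤ C.q1 ^ (1 + p * C.e) := by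
  obtain ⟨m, hm⟩ := hy.norm_eq
  have hmp : ¬ (p : ℤ) ∣ m := by
    rintro ⟨n, rfl⟩
    apply hyn n
    rw [hm, zpow_mul, zpow_natCast]
  obtain ⟨c, hc, hbc⟩ := exists_coeffs hf hy hb
  have hterm := fun k (hk : k < p) (hk0 : k ≠ 0) =>
    term_le_q1 hm hmp hc (by rw [← hbc]; exact hb1) hk hk0
  have h1 : (g : Γ) b - b = ∑ k ∈ Finset.range p, (C.zp (k * f g) - 1) * (c k * y ^ k) := by
    conv_lhs => rw [hbc]
    rw [map_sum, ← Finset.sum_sub_distrib]
    refine Finset.sum_congr rfl fun k _ => ?_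
    have h2 := (isKum_iff.mp (hy.pow k)).2 g
    rw [map_mul, hc k g g.2, h2]
    ring
  rw [h1]
  refine Kum.nsum_le _ _ (pow_pos C.q1_pos _).le fun k hk => ?_
  rw [Finset.mem_range] at hk
  by_cases hk0 : k = 0
  · rw [hk0, Nat.cast_zero, zero_mul, C.zp_zero, sub_self, zero_mul, norm_zero]
    exact (pow_pos C.q1_pos _).le
  · rw [norm_mul, add_comm, pow_add, pow_one]
    exact mul_le_mul (C.norm_zp_sub_one_le _) (hterm k hk hk0) (norm_nonneg _)
      (pow_pos C.q1_pos _).le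

/-- (c) the bound for a Kummer generator of level `i` -/
theorem bound {f : C.G → ZMod p} (hf : ∀ g h, f (g * h) = f g + f h) {y : Ω}
    (hy : C.IsKum f y) {i : ℕ} (hi0 : 0 < i) (hi : i < p * C.e) (hip : ¬ p ∣ i)
    (hyn : ‖y - 1‖ = C.q1 ^ i) {b : Ω}
    (hb : ∀ g : C.G, f g = 0 → (g : Γ) b = b) (hb1 : ‖b‖ ≤ 1) (g : C.G) :
    ‖(g : Γ) b - b‖ ≤ C.q1 ^ (1 + p * C.e - i) := by
  have hq1 : C.q1 ^ i < 1 := pow_lt_one₀ C.q1_pos.le C.q1_lt hi0.ne'
  have hy1 : ‖y‖ = 1 := hy.norm_eq_one_of_sub (hyn.trans_lt hq1)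
  obtain ⟨c, hc, hbc⟩ := exists_coeffs_sub_one hf hy hb
  have hterm := fun k (hk : k < p) (hk0 : k ≠ 0) =>
    term_le_q1 (w := y - 1) (m := (i : ℤ)) (by rw [hyn, zpow_natCast])
      (fun h => hip (Int.natCast_dvd_natCast.mp h)) hc (by rw [← hbc]; exact hb1) hk hk0
  set x := y - 1 with hx
  have hgx : ‖(g : Γ) x - x‖ ≤ C.q1 ^ (p * C.e) := by
    have h2 := (isKum_iff.mp hy).2 g
    have e : (g : Γ) x - x = (C.zp (f g) - 1) * y := by
      rw [hx, map_sub, map_one, h2]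
      ring
    rw [e, norm_mul, hy1, mul_one]
    exact C.norm_zp_sub_one_le _
  have hgxn : ‖(g : Γ) x‖ = C.q1 ^ i := by rw [Loc.norm_aut, hyn]
  have h1 : (g : Γ) b - b = ∑ k ∈ Finset.range p, c k * ((g : Γ) x ^ k - x ^ k) := by
    conv_lhs => rw [hbc]
    rw [map_sum, ← Finset.sum_sub_distrib]
    refine Finset.sum_congr rfl fun k _ => ?_
    rw [map_mul, hc k g g.2, map_pow]
    ring
  rw [h1]
  refine Kum.nsum_le _ _ (pow_pos C.q1_pos _).le fun k hk => ?_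
  rw [Finset.mem_range] at hk
  rcases k with _ | k
  · rw [pow_zero, pow_zero, sub_self, mul_zero, norm_zero]
    exact (pow_pos C.q1_pos _).le
  · have h2 : ‖(g : Γ) x ^ (k + 1) - x ^ (k + 1)‖ ≤ C.q1 ^ (p * C.e) * (C.q1 ^ i) ^ k := by
      rw [← (Commute.all ((g : Γ) x) x).mul_geom_sum₂, norm_mul]
      refine mul_le_mul hgx ?_ (norm_nonneg _) (pow_pos C.q1_pos _).le
      refine Kum.nsum_le _ _ (pow_nonneg (pow_pos C.q1_pos _).le _) fun j hj => ?_
      rw [Finset.mem_range] at hj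
      rw [norm_mul, norm_pow, norm_pow, hgxn, hyn, ← pow_add]
      apply le_of_eq
      congr 1
      omega
    have h3 := hterm (k + 1) hk (Nat.succ_ne_zero k)
    rw [norm_mul, norm_pow, hyn] at h3
    rw [norm_mul]
    have hqi : 0 < C.q1 ^ i := pow_pos C.q1_pos i
    have h4 : ‖c (k + 1)‖ * (C.q1 ^ i) ^ k ≤ C.q1 / C.q1 ^ i := by
      rw [le_div_iff₀ hqi, mul_assoc, ← pow_succ]
      exact h3
    calc ‖c (k + 1)‖ * ‖(g : Γ) x ^ (k + 1) - x ^ (k + 1)‖
        ≤ ‖c (k + 1)‖ * (C.q1 ^ (p * C.e) * (C.q1 ^ i) ^ k) :=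
          mul_le_mul_of_nonneg_left h2 (norm_nonneg _)
      _ = C.q1 ^ (p * C.e) * (‖c (k + 1)‖ * (C.q1 ^ i) ^ k) := by ring
      _ ≤ C.q1 ^ (p * C.e) * (C.q1 / C.q1 ^ i) :=
          mul_le_mul_of_nonneg_left h4 (pow_pos C.q1_pos _).le
      _ = C.q1 ^ (1 + p * C.e - i) := by
          rw [← mul_div_assoc, ← pow_succ, div_eq_iff hqi.ne', ← pow_add]
          congr 1
          omega

/-- (b) a nontrivial Kummer generator is not too close to `1` -/
theorem gt {f : C.G → ZMod p} {y : Ω} (hy : C.IsKum f y) {g : C.G} (hg : f g ≠ 0) :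
    C.q1 ^ (p * C.e) < ‖y - 1‖ := by
  by_contra hcon
  rw [not_lt, ← C.z_norm] at hcon
  have hz1 : C.z - 1 ≠ 0 := by
    intro h
    have := C.z_norm
    rw [h, norm_zero] at this
    exact (pow_pos C.q1_pos _).ne this
  set w := (y - 1) / (C.z - 1) with hw
  have hw1 : ‖w‖ ≤ 1 := by
    rw [hw, norm_div]
    exact div_le_one_of_le₀ hcon (norm_nonneg _)
  have h1 := Loc.mem_inert.mp (C.le_inert g.2) w hw1
  have h2 := (isKum_iff.mp hy).2 g
  have e : (g : Γ) w - w = (C.zp (f g) - 1) / (C.z - 1) * (1 + (C.z - 1) * w) := by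
    rw [hw, map_div₀, map_sub, map_sub, map_one, C.z_fixed g g.2, h2]
    field_simp
    ring
  have hlt : ‖(C.z - 1) * w‖ < ‖(1 : Ω)‖ := by
    rw [norm_mul, norm_one, C.z_norm]
    exact mul_lt_one_of_nonneg_of_lt_one_left (pow_pos C.q1_pos _).le
      (pow_lt_one₀ C.q1_pos.le C.q1_lt (Nat.mul_ne_zero hp.out.ne_zero C.e_pos.ne')) hw1
  rw [e, norm_mul, Kum.nadd_eq hlt, norm_one, mul_one, norm_div, C.norm_zp_sub_one hg, C.z_norm,
    div_self (pow_pos C.q1_pos _).ne'] at h1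
  exact lt_irrefl _ h1

/-- norm of `x^p - 1` away from the `p`-th roots of unity -/
theorem norm_pow_sub_one {y : Ω} (hy : C.q1 ^ (p * C.e) < ‖y - 1‖) : ‖y ^ p - 1‖ = ‖y - 1‖ ^ p := by
  have h1 := C.hz.pow_sub_pow_eq_prod_sub_mul y 1 hp.out.pos
  rw [one_pow] at h1
  rw [h1, norm_prod]
  have h2 : ∀ ζ ∈ nthRootsFinset p (1 : Ω), ‖y - ζ * 1‖ = ‖y - 1‖ := by
    intro ζ hζ
    rw [mem_nthRootsFinset hp.out.pos] at hζ
    obtain ⟨k, -, hk⟩ := C.hz.eq_pow_of_pow_eq_one hζ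
    have e : y - ζ * 1 = (y - 1) + (-(ζ - 1)) := by ring
    rw [e, Kum.nadd_eq]
    rw [norm_neg, ← hk]
    refine (norm_pow_sub_one_le C.norm_z.le k).trans_lt ?_
    rw [C.z_norm]
    exact hy
  rw [Finset.prod_congr rfl h2, Finset.prod_const, C.hz.card_nthRootsFinset]

/-- the level of a Kummer generator which is a principal unit -/
theorem exists_level {f : C.G → ZMod p} {y : Ω} (hy : C.IsKum f y) {g : C.G} (hg : f g ≠ 0)
    (hy1 : ‖y - 1‖ < 1) : ∃ i : ℕ, 0 < i ∧ i < p * C.e ∧ ‖y - 1‖ = C.q1 ^ i := by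
  have h1 := gt hy hg
  have h2 := norm_pow_sub_one h1
  have h3 : y ^ p - 1 ≠ 0 := by
    intro h
    rw [h, norm_zero] at h2
    have : 0 < ‖y - 1‖ ^ p := pow_pos ((pow_pos C.q1_pos _).trans h1) p
    exact this.ne h2
  obtain ⟨n, hn⟩ := norm_of_fixed h3 (fun g hg => by rw [map_sub, map_one, hy.pow_mem g hg])
  have h4 : (C.q1 ^ n) ^ p = C.q1 ^ ((p : ℤ) * n) := by
    rw [← zpow_natCast, ← zpow_mul, mul_comm]
  rw [h2, ← h4] at hn
  have h5 : ‖y - 1‖ = C.q1 ^ n :=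
    (pow_left_inj₀ (norm_nonneg _) (zpow_pos C.q1_pos _).le hp.out.ne_zero).mp hn
  have h6 : 0 < n := by
    rw [h5, ← zpow_zero C.q1, q1_zpow_lt_iff] at hy1
    exact hy1
  obtain ⟨m, rfl⟩ := Int.eq_ofNat_of_zero_le h6.le
  refine ⟨m, by exact_mod_cast h6, ?_, by rw [h5]; exact zpow_natCast _ _⟩
  rw [h5, ← zpow_natCast, q1_zpow_lt_iff] at h1
  exact_mod_cast h1

/-- approximation by elements of `L` -/
theorem exists_fixed_near {x : Ω} (hx : ‖x‖ ≤ 1) :
    ∃ s : Ω, (∀ g ∈ C.G, g s = s) ∧ ‖x - s‖ < 1 := by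
  obtain ⟨s, hs, hxs, -⟩ := Loc.exists_fixed_approx hx
  exact ⟨s, fun g hg => hs g (C.le_inert hg), hxs⟩

theorem exists_principal {f : C.G → ZMod p} {y : Ω} (hy : C.IsKum f y) {n : ℤ}
    (hn : ‖y‖ = (C.q1 ^ p) ^ n) : ∃ y', C.IsKum f y' ∧ ‖y' - 1‖ < 1 := by
  have hpi0 : C.pi ≠ 0 := by
    intro h
    have := C.pi_norm
    rw [h, norm_zero] at this
    exact (pow_pos C.q1_pos _).ne this
  have h1 : C.IsKum f (y / C.pi ^ n) := hy.div_fixed (zpow_ne_zero n hpi0) fun g hg => by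
    rw [map_zpow₀, C.pi_fixed g hg]
  have h2 : ‖y / C.pi ^ n‖ = 1 := by
    rw [norm_div, norm_zpow, C.pi_norm, hn]
    exact div_self (zpow_pos (pow_pos C.q1_pos p) n).ne'
  obtain ⟨s, hs, hys⟩ := exists_fixed_near (C := C) h2.le
  have hs1 : ‖s‖ = 1 := by
    have e : s = y / C.pi ^ n + (-(y / C.pi ^ n - s)) := by ring
    rw [e, Kum.nadd_eq, h2]
    rw [norm_neg, h2]
    exact hys
  have hs0 : s ≠ 0 := by
    intro h
    rw [h, norm_zero] at hs1
    exact zero_ne_one hs1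
  refine ⟨y / C.pi ^ n / s, h1.div_fixed hs0 hs, ?_⟩
  have e : y / C.pi ^ n / s - 1 = (y / C.pi ^ n - s) / s := by
    field_simp
  rw [e, norm_div, hs1, div_one]
  exact hys

/-- (b) normal form of a Kummer generator -/
theorem normal {f : C.G → ZMod p} {y : Ω} (hy : C.IsKum f y) {g : C.G} (hg : f g ≠ 0) {n : ℤ}
    (hn : ‖y‖ = (C.q1 ^ p) ^ n) :
    ∃ (y' : Ω) (i : ℕ), C.IsKum f y' ∧ 0 < i ∧ i < p * C.e ∧ ¬ p ∣ i ∧ ‖y' - 1‖ = C.q1 ^ i := by
  classical
  obtain ⟨y1, hy1, hy1n⟩ := exists_principal hy hn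
  obtain ⟨i1, hi1, hi1', hi1n⟩ := exists_level hy1 hg hy1n
  let Q : ℕ → Prop := fun i => 0 < i ∧ ∃ y', C.IsKum f y' ∧ ‖y' - 1‖ = C.q1 ^ i
  have hQ1 : Q i1 := ⟨hi1, y1, hy1, hi1n⟩
  have hbd : ∀ i, Q i → i ≤ p * C.e := by
    rintro i ⟨hi, y', hy', hn'⟩
    have h1 := gt hy' hg
    rw [hn'] at h1
    by_contra hlt
    rw [not_le] at hlt
    exact absurd h1 (not_lt.mpr (pow_le_pow_of_le_one C.q1_pos.le C.q1_lt.le hlt.le))
  obtain ⟨hI0, y', hy', hI⟩ : Q (Nat.findGreatest Q (p * C.e)) :=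
    Nat.findGreatest_spec (hbd i1 hQ1) hQ1
  set I := Nat.findGreatest Q (p * C.e) with hIdef
  have hmax : ∀ i, Q i → i ≤ I := fun i hi => Nat.le_findGreatest (hbd i hi) hi
  have hIlt : C.q1 ^ I < 1 := pow_lt_one₀ C.q1_pos.le C.q1_lt hI0.ne'
  obtain ⟨I', hI'0, hI'lt, hI'n⟩ := exists_level hy' hg (hI.trans_lt hIlt)
  have hII' : I = I' := by
    rw [hI, ← zpow_natCast, ← zpow_natCast] at hI'n
    exact_mod_cast q1_zpow_inj hI'n
  refine ⟨y', I, hy', hI0, by omega, ?_, hI⟩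
  rintro ⟨j, hj⟩
  have hpi0 : C.pi ≠ 0 := by
    intro h
    have := C.pi_norm
    rw [h, norm_zero] at this
    exact (pow_pos C.q1_pos _).ne this
  have hpij : ‖C.pi ^ j‖ = C.q1 ^ I := by rw [norm_pow, C.pi_norm, ← pow_mul, ← hj]
  set x := y' - 1 with hx
  have hx1 : ‖x / C.pi ^ j‖ ≤ 1 := by
    rw [norm_div, hpij, hI, div_self (pow_pos C.q1_pos _).ne']
  obtain ⟨s, hs, hxs⟩ := exists_fixed_near (C := C) hx1
  have hs1 : ‖s‖ ≤ 1 := by
    have e : s = x / C.pi ^ j - (x / C.pi ^ j - s) := by ring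
    rw [e]
    exact (Kum.nsub _ _).trans (max_le hx1 hxs.le)
  have hsp : ‖s * C.pi ^ j‖ < 1 := by
    rw [norm_mul, hpij]
    exact (mul_le_of_le_one_left (pow_pos C.q1_pos _).le hs1).trans_lt hIlt
  have hd : ‖1 + s * C.pi ^ j‖ = 1 := by
    rw [Kum.nadd_eq (by rw [norm_one]; exact hsp), norm_one]
  have hd0 : 1 + s * C.pi ^ j ≠ 0 := by
    intro h
    rw [h, norm_zero] at hd
    exact zero_ne_one hd
  have hy'' : C.IsKum f (y' / (1 + s * C.pi ^ j)) := hy'.div_fixed hd0 fun g hg => by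
    rw [map_add, map_one, map_mul, map_pow, hs g hg, C.pi_fixed g hg]
  have hlt : ‖y' / (1 + s * C.pi ^ j) - 1‖ < C.q1 ^ I := by
    have e : y' / (1 + s * C.pi ^ j) - 1 = (x / C.pi ^ j - s) * C.pi ^ j / (1 + s * C.pi ^ j) := by
      rw [hx]
      field_simp
      ring
    rw [e, norm_div, hd, div_one, norm_mul, hpij]
    exact mul_lt_of_lt_one_left (pow_pos C.q1_pos _) hxs
  obtain ⟨k, hk0, hklt, hkn⟩ := exists_level hy'' hg (hlt.trans hIlt)
  have h3 := hmax k ⟨hk0, _, hy'', hkn⟩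
  rw [hkn] at hlt
  exact absurd hlt (not_lt.mpr (pow_le_pow_of_le_one C.q1_pos.le C.q1_lt.le h3))

end KumCtx

end Fermat.Agent.Flat
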