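import Fermat.Agent.Flat.SSK
import Fermat.Agent.Flat.LocalSetting
import Fermat.Agent.TWP.Coh

/-!
# The local Galois group of `ℚ_p`
-/

set_option autoImplicit false
set_option linter.unusedSectionVars false
set_option linter.style.haveILetI false

noncomputable section

namespace Fermat.Agent.Flat

open Loc Matrix

variable {p : ℕ} [hp : Fact p.Prime]

/-- The local Galois group. -/
abbrev GP (p : ℕ) [Fact p.Prime] : Type := PadicAlgCl p ≃ₐ[ℚ_[p]] PadicAlgCl p

theorem frobData_of {F : GP p} (hF : ∀ x : PadicAlgCl p, ‖x‖ ≤ 1 → ‖F x - x ^ p‖ < 1) :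
    FrobData p (PadicAlgCl p) (inert p) F where
  normal := by
    constructor
    intro s hs γ x hx
    have h1 : (γ * s * γ⁻¹) x - x = γ (s (γ⁻¹ x) - γ⁻¹ x) := by
      rw [map_sub, AlgEquiv.mul_apply, AlgEquiv.mul_apply]
      congr 1
      exact (smul_inv_smul γ x).symm
    rw [h1, norm_aut]
    exact hs _ (by rwa [norm_aut])
  norm_smul γ x := norm_aut γ x
  frob x hx := hF x hx

theorem gen_of_frob {F : GP p} (hF : ∀ x : PadicAlgCl p, ‖x‖ ≤ 1 → ‖F x - x ^ p‖ < 1)
    (U : Subgroup (GP p)) (hU : IsOpen (U : Set (GP p))) (hI : inert p ≤ U) (hFU : F ∈ U) :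
    U = ⊤ := by
  rw [eq_top_iff]
  intro s _
  obtain ⟨n, hn⟩ := exists_frob_pow hU hI hF s
  have h1 := U.mul_mem (U.pow_mem hFU n) hn
  rwa [mul_inv_cancel_left] at h1

/-- compatibility of the cyclotomic characters -/
theorem ltg_root (hp2 : p ≠ 2) (γ : GP p) (μ : AlgebraicClosure ℚ) (hμ : μ ^ p = 1) :
    haveI := setting_padic (p := p) hp2
    localGaloisToGlobal p γ μ = μ ^ (eps p (PadicAlgCl p) (inert p) γ).val := by
  haveI := setting_padic (p := p) hp2
  haveI := neZero_p p (PadicAlgCl p) (inert p)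
  apply (padicEmbedding p).toRingHom.injective
  change padicEmbedding p (localGaloisToGlobal p γ μ) = padicEmbedding p (μ ^ _)
  rw [padicEmbedding_localGaloisToGlobal, map_pow]
  have h1 : (padicEmbedding p μ) ^ p = 1 := by rw [← map_pow, hμ, map_one]
  obtain ⟨i, -, hi⟩ := (zeta_spec p (PadicAlgCl p) (inert p)).eq_pow_of_pow_eq_one h1
  rw [← hi, map_pow]
  have h2 := smul_zeta_eps (p := p) (Ω := PadicAlgCl p) (I := inert p) γ
  have h3 : γ (zeta p (PadicAlgCl p) (inert p)) =
    zeta p (PadicAlgCl p) (inert p) ^ (eps p (PadicAlgCl p) (inert p) γ).val := h2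
  rw [h3, ← pow_mul, ← pow_mul, mul_comm]

open IntermediateField in
/-- pulled back levels are open -/
theorem isOpen_comap_level {N : Subgroup PTC.GQ} (hN : N ∈ PTC.allL.carrier) :
    IsOpen ((N.comap (localGaloisToGlobal p) : Subgroup (GP p)) : Set (GP p)) := by
  obtain ⟨-, F, hF, rfl⟩ := hN
  haveI : FiniteDimensional ℚ F := hF
  -- the subfield generated by the image of a basis
  let b := Module.finBasis ℚ F
  let s : Set (PadicAlgCl p) := Set.range fun i => padicEmbedding p ((b i : F) : AlgebraicClosure ℚ)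
  have hs : s.Finite := Set.finite_range _
  haveI : FiniteDimensional ℚ_[p] (IntermediateField.adjoin ℚ_[p] s) := by
    haveI := hs.to_subtype
    exact IntermediateField.finiteDimensional_adjoin fun x _ =>
      (Algebra.IsIntegral.isIntegral x)
  have h1 : IsOpen ((IntermediateField.adjoin ℚ_[p] s).fixingSubgroup : Set (GP p)) :=
    IntermediateField.fixingSubgroup_isOpen _
  refine Subgroup.isOpen_mono ?_ h1
  intro γ hγ
  rw [Subgroup.mem_comap, IntermediateField.mem_fixingSubgroup_iff]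
  intro x hx
  apply (padicEmbedding p).toRingHom.injective
  change padicEmbedding p (localGaloisToGlobal p γ x) = padicEmbedding p x
  rw [padicEmbedding_localGaloisToGlobal]
  have h2 : ∀ i, γ (padicEmbedding p ((b i : F) : AlgebraicClosure ℚ)) =
      padicEmbedding p ((b i : F) : AlgebraicClosure ℚ) := by
    intro i
    rw [IntermediateField.mem_fixingSubgroup_iff] at hγ
    exact hγ _ (IntermediateField.subset_adjoin _ _ ⟨i, rfl⟩)
  have h3 : x = ∑ i, algebraMap ℚ (AlgebraicClosure ℚ) (b.repr ⟨x, hx⟩ i) *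
      ((b i : F) : AlgebraicClosure ℚ) := by
    have h4 := congrArg (fun y : F => (y : AlgebraicClosure ℚ)) (b.sum_repr ⟨x, hx⟩)
    simp only at h4
    conv_lhs => rw [← show ((⟨x, hx⟩ : F) : AlgebraicClosure ℚ) = x from rfl, ← b.sum_repr ⟨x, hx⟩]
    rw [IntermediateField.coe_sum]
    refine Finset.sum_congr rfl fun i _ => ?_
    rw [Algebra.smul_def]
    rfl
  rw [h3, map_sum, map_sum]
  refine Finset.sum_congr rfl fun i _ => ?_
  have h5 : padicEmbedding p (algebraMap ℚ (AlgebraicClosure ℚ) (b.repr ⟨x, hx⟩ i)) =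
      algebraMap ℚ (PadicAlgCl p) (b.repr ⟨x, hx⟩ i) := (padicEmbedding p).commutes _
  rw [map_mul, map_mul, h2, h5]
  congr 1
  have h6 : algebraMap ℚ (PadicAlgCl p) (b.repr ⟨x, hx⟩ i) =
      ((b.repr ⟨x, hx⟩ i : ℚ) : PadicAlgCl p) := rfl
  rw [h6]
  exact map_ratCast γ _

end Fermat.Agent.Flat
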