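import Fermat.Agent.Flat.SSBound

/-!
# Flat cocycles with values in trace zero matrices: the statement of the bound
-/

set_option autoImplicit false
set_option linter.unusedSectionVars false
set_option linter.style.haveILetI false

noncomputable section

namespace Fermat.Agent.Flat

open Matrix

section Coc

variable {k : Type} [Field k] {Γ : Type} [Group Γ]

/-- The action on `k ^ 2` -/
def vAct (r : Γ →* Matrix (Fin 2) (Fin 2) k) (γ : Γ) (v : Fin 2 → k) : Fin 2 → k := r γ *ᵥ v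

/-- The action on the extension. -/
def eAct (r : Γ →* Matrix (Fin 2) (Fin 2) k) (c : Γ → Matrix (Fin 2) (Fin 2) k) (γ : Γ)
    (z : (Fin 2 → k) × (Fin 2 → k)) : (Fin 2 → k) × (Fin 2 → k) :=
  (r γ *ᵥ z.1, r γ *ᵥ z.2 + c γ *ᵥ (r γ *ᵥ z.1))

/-- cocycles -/
def IsCoc (r : Γ →* Matrix (Fin 2) (Fin 2) k) (c : Γ → Matrix (Fin 2) (Fin 2) k) : Prop :=
  ∀ γ δ, c (γ * δ) = c γ + r γ * c δ * r γ⁻¹

/-- coboundary of `X` -/
def cobM (r : Γ →* Matrix (Fin 2) (Fin 2) k) (X : Matrix (Fin 2) (Fin 2) k) (γ : Γ) :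
    Matrix (Fin 2) (Fin 2) k := X - r γ * X * r γ⁻¹

variable {r : Γ →* Matrix (Fin 2) (Fin 2) k}

theorem r_mul_inv (r : Γ →* Matrix (Fin 2) (Fin 2) k) (γ : Γ) : r γ * r γ⁻¹ = 1 := by
  rw [← map_mul, mul_inv_cancel, map_one]

theorem r_inv_mul (r : Γ →* Matrix (Fin 2) (Fin 2) k) (γ : Γ) : r γ⁻¹ * r γ = 1 := by
  rw [← map_mul, inv_mul_cancel, map_one]

theorem isAct_vAct (r : Γ →* Matrix (Fin 2) (Fin 2) k) : IsAct (vAct r) where
  one v := by rw [vAct, map_one, one_mulVec]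
  mul γ δ v := by rw [vAct, vAct, vAct, map_mul, mulVec_mulVec]
  add γ v w := by rw [vAct, vAct, vAct, mulVec_add]

theorem IsCoc.one {c : Γ → Matrix (Fin 2) (Fin 2) k} (h : IsCoc r c) : c 1 = 0 := by
  have h1 := h 1 1
  rw [mul_one, inv_one, map_one, one_mul, mul_one] at h1
  exact left_eq_add.1 h1

theorem IsCoc.isAct {c : Γ → Matrix (Fin 2) (Fin 2) k} (h : IsCoc r c) : IsAct (eAct r c) where
  one z := by
    simp only [eAct]
    rw [map_one, one_mulVec, one_mulVec, h.one, zero_mulVec, add_zero]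
  mul γ δ z := by
    simp only [eAct]
    rw [h, map_mul, add_mulVec, mulVec_add, mulVec_mulVec, mulVec_mulVec, mulVec_mulVec,
      mulVec_mulVec, mulVec_mulVec]
    have h1 : r γ * c δ * r γ⁻¹ * (r γ * r δ) = r γ * (c δ * r δ) := by
      rw [mul_assoc (r γ * c δ), ← mul_assoc (r γ⁻¹), r_inv_mul, one_mul, mul_assoc]
    rw [h1]
    refine Prod.ext rfl ?_
    simp only [mulVec_mulVec, mul_assoc]
    abel
  add γ z z' := by
    simp only [eAct, Prod.fst_add, Prod.snd_add]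
    rw [mulVec_add, mulVec_add, mulVec_add]
    refine Prod.ext rfl ?_
    simp only [Prod.snd_add]
    abel

theorem isCoc_cobM (r : Γ →* Matrix (Fin 2) (Fin 2) k) (X : Matrix (Fin 2) (Fin 2) k) :
    IsCoc r (cobM r X) := by
  intro γ δ
  rw [cobM, cobM, cobM, _root_.mul_inv_rev, map_mul, map_mul, mul_sub, sub_mul]
  simp only [mul_assoc]
  abel

theorem IsCoc.add {c c' : Γ → Matrix (Fin 2) (Fin 2) k} (h : IsCoc r c) (h' : IsCoc r c') :
    IsCoc r (fun γ => c γ + c' γ) := by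
  intro γ δ
  simp only
  rw [h, h', mul_add, add_mul]
  abel

theorem IsCoc.neg {c : Γ → Matrix (Fin 2) (Fin 2) k} (h : IsCoc r c) :
    IsCoc r (fun γ => -c γ) := by
  intro γ δ
  simp only
  rw [h, mul_neg, neg_mul]
  abel

theorem IsCoc.sub {c c' : Γ → Matrix (Fin 2) (Fin 2) k} (h : IsCoc r c) (h' : IsCoc r c') :
    IsCoc r (fun γ => c γ - c' γ) := by
  intro γ δ
  simp only
  rw [h, h', mul_sub, sub_mul]
  abel

theorem isCoc_zero : IsCoc r (0 : Γ → Matrix (Fin 2) (Fin 2) k) := by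
  intro γ δ
  simp only [Pi.zero_apply]
  rw [mul_zero, zero_mul, add_zero]

theorem trace_conj (γ : Γ) (X : Matrix (Fin 2) (Fin 2) k) :
    (r γ * X * r γ⁻¹).trace = X.trace := by
  rw [trace_mul_comm, ← mul_assoc, r_inv_mul, one_mul]

theorem trace_cobM (X : Matrix (Fin 2) (Fin 2) k) (γ : Γ) : (cobM r X γ).trace = 0 := by
  rw [cobM, trace_sub, trace_conj, sub_self]

theorem cobM_add (X Y : Matrix (Fin 2) (Fin 2) k) (γ : Γ) :
    cobM r (X + Y) γ = cobM r X γ + cobM r Y γ := by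
  rw [cobM, cobM, cobM, mul_add, add_mul]
  abel

theorem cobM_neg (X : Matrix (Fin 2) (Fin 2) k) (γ : Γ) :
    cobM r (-X) γ = -cobM r X γ := by
  rw [cobM, cobM, mul_neg, neg_mul]
  abel

theorem cobM_sub (X Y : Matrix (Fin 2) (Fin 2) k) (γ : Γ) :
    cobM r (X - Y) γ = cobM r X γ - cobM r Y γ := by
  rw [cobM, cobM, cobM, mul_sub, sub_mul]
  abel

theorem cobM_zero (γ : Γ) : cobM r 0 γ = 0 := by
  rw [cobM, mul_zero, zero_mul, sub_zero]

theorem cobM_mulVec (X : Matrix (Fin 2) (Fin 2) k) (γ : Γ) (v : Fin 2 → k) :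
    cobM r X γ *ᵥ (r γ *ᵥ v) = X *ᵥ (r γ *ᵥ v) - r γ *ᵥ (X *ᵥ v) := by
  rw [cobM, sub_mulVec]
  congr 1
  rw [mulVec_mulVec, mulVec_mulVec, mul_assoc (r γ * X), r_inv_mul, mul_one]

variable (r) in
/-- The group of coboundaries of trace zero matrices. -/
def cobs : AddSubgroup (Γ → Matrix (Fin 2) (Fin 2) k) where
  carrier := {c | ∃ X : Matrix (Fin 2) (Fin 2) k, X.trace = 0 ∧ ∀ γ, c γ = cobM r X γ}
  zero_mem' := ⟨0, trace_zero _ _, fun γ => (cobM_zero γ).symm⟩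
  add_mem' := by
    rintro c c' ⟨X, hX, h⟩ ⟨X', hX', h'⟩
    refine ⟨X + X', by rw [trace_add, hX, hX', add_zero], fun γ => ?_⟩
    rw [Pi.add_apply, h, h', cobM_add]
  neg_mem' := by
    rintro c ⟨X, hX, h⟩
    refine ⟨-X, by rw [trace_neg, hX, neg_zero], fun γ => ?_⟩
    rw [Pi.neg_apply, h, cobM_neg]

theorem mem_cobs {c : Γ → Matrix (Fin 2) (Fin 2) k} : c ∈ cobs r ↔
    ∃ X : Matrix (Fin 2) (Fin 2) k, X.trace = 0 ∧ ∀ γ, c γ = cobM r X γ := Iff.rfl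

variable (r) in
/-- The invariants of the adjoint representation. -/
def inv0 : AddSubgroup (Matrix (Fin 2) (Fin 2) k) where
  carrier := {X | X.trace = 0 ∧ ∀ γ, cobM r X γ = 0}
  zero_mem' := ⟨trace_zero _ _, fun γ => cobM_zero γ⟩
  add_mem' := by
    rintro X Y ⟨hX, h⟩ ⟨hY, h'⟩
    exact ⟨by rw [trace_add, hX, hY, add_zero], fun γ => by rw [cobM_add, h, h', add_zero]⟩
  neg_mem' := by
    rintro X ⟨hX, h⟩
    exact ⟨by rw [trace_neg, hX, neg_zero], fun γ => by rw [cobM_neg, h, neg_zero]⟩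

theorem mem_inv0 {X : Matrix (Fin 2) (Fin 2) k} : X ∈ inv0 r ↔
    X.trace = 0 ∧ ∀ γ, cobM r X γ = 0 := Iff.rfl

theorem finite_inv0 [Finite k] : Finite (inv0 r) := by
  haveI : Finite (Matrix (Fin 2) (Fin 2) k) := inferInstanceAs (Finite (Fin 2 → Fin 2 → k))
  infer_instance

end Coc

section Bound

variable (p : ℕ) (Ω : Type) [NormedField Ω] [hU : IsUltrametricDist Ω]
  {Γ : Type} [Group Γ] [TopologicalSpace Γ] [IsTopologicalGroup Γ]
  [MulSemiringAction Γ Ω] (I : Subgroup Γ) [S : Setting p Ω I] {k : Type} [Field k]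

/-- Flat cocycles. -/
def FlatE (r : Γ →* Matrix (Fin 2) (Fin 2) k) (c : Γ → Matrix (Fin 2) (Fin 2) k) : Prop :=
  Nonempty (Ord p Ω I (fun s => eAct r c s.1))

/-- Flat representations. -/
def FlatR (r : Γ →* Matrix (Fin 2) (Fin 2) k) : Prop :=
  Nonempty (Ord p Ω I (fun s => vAct r s.1))

/-- **The bound for the flat classes.** -/
def FlatBound (r : Γ →* Matrix (Fin 2) (Fin 2) k) : Prop :=
  ∃ Z : AddSubgroup (Γ → Matrix (Fin 2) (Fin 2) k),
    (∀ c ∈ Z, IsCoc r c ∧ (∀ γ, (c γ).trace = 0) ∧ LC c) ∧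
    (∀ c, IsCoc r c → (∀ γ, (c γ).trace = 0) → LC c → FlatE p Ω I r c →
      ∃ X : Matrix (Fin 2) (Fin 2) k, X.trace = 0 ∧ (fun γ => c γ - cobM r X γ) ∈ Z) ∧
    (cobs r).relIndex Z ≠ 0 ∧ (cobs r).relIndex Z ≤ Nat.card k * Nat.card (inv0 r)

variable {p Ω I}

/-- Transport along an isomorphism. -/
def Ord.transport {M N : Type} [AddCommGroup M] [AddCommGroup N] {ρ : I → M → M} {ρ' : I → N → N}
    (D : Ord p Ω I ρ) (e : N ≃+ M) (he : ∀ σ x, e (ρ' σ x) = ρ σ (e x)) : Ord p Ω I ρ' :=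
  D.restrict e.toAddMonoidHom e.injective he

omit [TopologicalSpace Γ] [IsTopologicalGroup Γ] in
/-- Changing by a coboundary. -/
theorem FlatE.sub_cob {r : Γ →* Matrix (Fin 2) (Fin 2) k}
    {c : Γ → Matrix (Fin 2) (Fin 2) k} (h : FlatE p Ω I r c)
    (X : Matrix (Fin 2) (Fin 2) k) : FlatE p Ω I r (fun γ => c γ - cobM r X γ) := by
  obtain ⟨D⟩ := h
  let e : ((Fin 2 → k) × (Fin 2 → k)) ≃+ ((Fin 2 → k) × (Fin 2 → k)) :=
    { toFun := fun z => (z.1, z.2 + X *ᵥ z.1)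
      invFun := fun z => (z.1, z.2 - X *ᵥ z.1)
      left_inv := fun z => Prod.ext rfl (add_sub_cancel_right _ _)
      right_inv := fun z => Prod.ext rfl (sub_add_cancel _ _)
      map_add' := fun z z' => by
        refine Prod.ext rfl ?_
        simp only [Prod.fst_add, Prod.snd_add, mulVec_add]
        abel }
  refine ⟨D.transport e ?_⟩
  intro σ z
  change (r σ.1 *ᵥ z.1, r σ.1 *ᵥ z.2 + (c σ.1 - cobM r X σ.1) *ᵥ (r σ.1 *ᵥ z.1) +
    X *ᵥ (r σ.1 *ᵥ z.1)) = (r σ.1 *ᵥ z.1, r σ.1 *ᵥ (z.2 + X *ᵥ z.1) +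
      c σ.1 *ᵥ (r σ.1 *ᵥ z.1))
  refine Prod.ext rfl ?_
  simp only
  rw [mulVec_add, sub_mulVec, cobM_mulVec]
  abel

section Conj

variable (B : (Matrix (Fin 2) (Fin 2) k)ˣ)

/-- conjugate representation `B⁻¹ r B`. -/
def conjR (r : Γ →* Matrix (Fin 2) (Fin 2) k) : Γ →* Matrix (Fin 2) (Fin 2) k where
  toFun γ := (B⁻¹ : (Matrix (Fin 2) (Fin 2) k)ˣ) * r γ * B
  map_one' := by rw [map_one, mul_one, Units.inv_mul]
  map_mul' γ δ := by
    rw [map_mul]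
    have h : ((B : Matrix (Fin 2) (Fin 2) k)) * ((B⁻¹ : (Matrix (Fin 2) (Fin 2) k)ˣ) :
      Matrix (Fin 2) (Fin 2) k) = 1 := Units.mul_inv B
    calc _ = (B⁻¹ : (Matrix (Fin 2) (Fin 2) k)ˣ) * r γ * 1 * r δ * B := by
          rw [mul_one, ← mul_assoc]
      _ = _ := by
          rw [← h]
          simp only [mul_assoc]

/-- conjugation of matrices. -/
def cjM : Matrix (Fin 2) (Fin 2) k ≃+ Matrix (Fin 2) (Fin 2) k where
  toFun X := (B⁻¹ : (Matrix (Fin 2) (Fin 2) k)ˣ) * X * B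
  invFun X := B * X * (B⁻¹ : (Matrix (Fin 2) (Fin 2) k)ˣ)
  left_inv X := by
    have h : ((B : Matrix (Fin 2) (Fin 2) k)) * ((B⁻¹ : (Matrix (Fin 2) (Fin 2) k)ˣ) :
      Matrix (Fin 2) (Fin 2) k) = 1 := Units.mul_inv B
    simp only
    rw [← mul_assoc, ← mul_assoc, h, one_mul, mul_assoc, h, mul_one]
  right_inv X := by
    have h : ((B⁻¹ : (Matrix (Fin 2) (Fin 2) k)ˣ) : Matrix (Fin 2) (Fin 2) k) *
      (B : Matrix (Fin 2) (Fin 2) k) = 1 := Units.inv_mul B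
    simp only
    rw [← mul_assoc, ← mul_assoc, h, one_mul, mul_assoc, h, mul_one]
  map_add' X Y := by rw [mul_add, add_mul]

theorem cjM_apply (X : Matrix (Fin 2) (Fin 2) k) :
    cjM B X = (B⁻¹ : (Matrix (Fin 2) (Fin 2) k)ˣ) * X * B := rfl

theorem conjR_apply (r : Γ →* Matrix (Fin 2) (Fin 2) k) (γ : Γ) :
    conjR B r γ = cjM B (r γ) := rfl

theorem cjM_mul (X Y : Matrix (Fin 2) (Fin 2) k) : cjM B (X * Y) = cjM B X * cjM B Y := by
  have h : ((B : Matrix (Fin 2) (Fin 2) k)) * ((B⁻¹ : (Matrix (Fin 2) (Fin 2) k)ˣ) :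
      Matrix (Fin 2) (Fin 2) k) = 1 := Units.mul_inv B
  rw [cjM_apply, cjM_apply, cjM_apply]
  calc _ = (B⁻¹ : (Matrix (Fin 2) (Fin 2) k)ˣ) * X * 1 * Y * B := by
          rw [mul_one, ← mul_assoc]
      _ = _ := by
          rw [← h]
          simp only [mul_assoc]

theorem trace_cjM (X : Matrix (Fin 2) (Fin 2) k) : (cjM B X).trace = X.trace := by
  have h : ((B : Matrix (Fin 2) (Fin 2) k)) * ((B⁻¹ : (Matrix (Fin 2) (Fin 2) k)ˣ) :
      Matrix (Fin 2) (Fin 2) k) = 1 := Units.mul_inv B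
  rw [cjM_apply, trace_mul_comm, ← mul_assoc, h, one_mul]

theorem cjM_cobM (r : Γ →* Matrix (Fin 2) (Fin 2) k) (X : Matrix (Fin 2) (Fin 2) k) (γ : Γ) :
    cjM B (cobM r X γ) = cobM (conjR B r) (cjM B X) γ := by
  rw [cobM, cobM, map_sub, cjM_mul, cjM_mul, conjR_apply, conjR_apply]

theorem IsCoc.cjM {r : Γ →* Matrix (Fin 2) (Fin 2) k} {c : Γ → Matrix (Fin 2) (Fin 2) k}
    (h : IsCoc r c) : IsCoc (conjR B r) (fun γ => Flat.cjM B (c γ)) := by
  intro γ δ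
  simp only
  rw [h, map_add, cjM_mul, cjM_mul, conjR_apply, conjR_apply]

theorem isCoc_of_cjM {r : Γ →* Matrix (Fin 2) (Fin 2) k} {c : Γ → Matrix (Fin 2) (Fin 2) k}
    (h : IsCoc (conjR B r) (fun γ => Flat.cjM B (c γ))) : IsCoc r c := by
  intro γ δ
  apply (Flat.cjM B).injective
  have h1 := h γ δ
  simp only at h1
  rw [h1, map_add, cjM_mul, cjM_mul, conjR_apply, conjR_apply]

/-- conjugation of vectors. -/
def cjV : (Fin 2 → k) ≃+ (Fin 2 → k) where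
  toFun v := (B⁻¹ : (Matrix (Fin 2) (Fin 2) k)ˣ) *ᵥ v
  invFun v := (B : Matrix (Fin 2) (Fin 2) k) *ᵥ v
  left_inv v := by
    simp only
    rw [mulVec_mulVec, Units.mul_inv, one_mulVec]
  right_inv v := by
    simp only
    rw [mulVec_mulVec, Units.inv_mul, one_mulVec]
  map_add' v w := mulVec_add _ _ _

theorem cjV_mulVec (X : Matrix (Fin 2) (Fin 2) k) (v : Fin 2 → k) :
    cjM B X *ᵥ cjV B v = cjV B (X *ᵥ v) := by
  change ((B⁻¹ : (Matrix (Fin 2) (Fin 2) k)ˣ) * X * B : Matrix (Fin 2) (Fin 2) k) *ᵥ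
    ((B⁻¹ : (Matrix (Fin 2) (Fin 2) k)ˣ) *ᵥ v) = (B⁻¹ : (Matrix (Fin 2) (Fin 2) k)ˣ) *ᵥ (X *ᵥ v)
  rw [mulVec_mulVec, mulVec_mulVec, mul_assoc, Units.mul_inv, mul_one]

omit [TopologicalSpace Γ] [IsTopologicalGroup Γ] in
theorem FlatE.cjM {r : Γ →* Matrix (Fin 2) (Fin 2) k} {c : Γ → Matrix (Fin 2) (Fin 2) k}
    (h : FlatE p Ω I r c) : FlatE p Ω I (conjR B r) (fun γ => Flat.cjM B (c γ)) := by
  obtain ⟨D⟩ := h
  refine ⟨D.transport ((cjV B).symm.prodCongr (cjV B).symm) ?_⟩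
  intro σ z
  obtain ⟨⟨z1, h1⟩, ⟨z2, h2⟩⟩ := And.intro ((cjV B).surjective z.1) ((cjV B).surjective z.2)
  have hz : z = (cjV B z1, cjV B z2) := Prod.ext h1.symm h2.symm
  rw [hz]
  refine Prod.ext ?_ ?_
  · change (cjV B).symm (Flat.cjM B (r σ.1) *ᵥ cjV B z1) = r σ.1 *ᵥ (cjV B).symm (cjV B z1)
    rw [cjV_mulVec, AddEquiv.symm_apply_apply, AddEquiv.symm_apply_apply]
  · change (cjV B).symm (Flat.cjM B (r σ.1) *ᵥ cjV B z2 +
      Flat.cjM B (c σ.1) *ᵥ (Flat.cjM B (r σ.1) *ᵥ cjV B z1)) =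
        r σ.1 *ᵥ (cjV B).symm (cjV B z2) + c σ.1 *ᵥ (r σ.1 *ᵥ (cjV B).symm (cjV B z1))
    rw [cjV_mulVec, cjV_mulVec, cjV_mulVec, map_add, AddEquiv.symm_apply_apply,
      AddEquiv.symm_apply_apply, AddEquiv.symm_apply_apply, AddEquiv.symm_apply_apply]

omit [TopologicalSpace Γ] [IsTopologicalGroup Γ] in
theorem FlatR.cjM {r : Γ →* Matrix (Fin 2) (Fin 2) k} (h : FlatR p Ω I r) :
    FlatR p Ω I (conjR B r) := by
  obtain ⟨D⟩ := h
  refine ⟨D.transport (cjV B).symm ?_⟩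
  intro σ z
  obtain ⟨z1, rfl⟩ := (cjV B).surjective z
  change (cjV B).symm (Flat.cjM B (r σ.1) *ᵥ cjV B z1) = r σ.1 *ᵥ (cjV B).symm (cjV B z1)
  rw [cjV_mulVec, AddEquiv.symm_apply_apply, AddEquiv.symm_apply_apply]

theorem FlatBound.of_conj {r : Γ →* Matrix (Fin 2) (Fin 2) k} (h : FlatBound p Ω I (conjR B r)) :
    FlatBound p Ω I r := by
  obtain ⟨Z, h1, h2, h3, h4⟩ := h
  let T : (Γ → Matrix (Fin 2) (Fin 2) k) →+ (Γ → Matrix (Fin 2) (Fin 2) k) :=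
    AddMonoidHom.mk' (fun c γ => Flat.cjM B (c γ)) fun c c' => by
      funext γ
      exact map_add (Flat.cjM B) _ _
  have hTs : Function.Surjective T := by
    intro c
    refine ⟨fun γ => (Flat.cjM B).symm (c γ), ?_⟩
    funext γ
    exact (Flat.cjM B).apply_symm_apply _
  have hcob : (cobs (conjR B r)).comap T = cobs r := by
    ext c
    rw [AddSubgroup.mem_comap, mem_cobs, mem_cobs]
    constructor
    · rintro ⟨X, hX, h⟩
      refine ⟨(Flat.cjM B).symm X, ?_, fun γ => (Flat.cjM B).injective ?_⟩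
      · rw [← trace_cjM B, AddEquiv.apply_symm_apply, hX]
      · rw [cjM_cobM, AddEquiv.apply_symm_apply]
        exact h γ
    · rintro ⟨X, hX, h⟩
      refine ⟨Flat.cjM B X, by rw [trace_cjM, hX], fun γ => ?_⟩
      change Flat.cjM B (c γ) = _
      rw [h, cjM_cobM]
  have hidx : (cobs r).relIndex (Z.comap T) = (cobs (conjR B r)).relIndex Z := by
    rw [← hcob, AddSubgroup.relIndex_comap, AddSubgroup.map_comap_eq_self_of_surjective hTs]
  have hinv : Nat.card (inv0 (conjR B r)) = Nat.card (inv0 r) := by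
    symm
    apply Nat.card_congr
    refine (Flat.cjM B).toEquiv.subtypeEquiv fun X => ?_
    change X ∈ inv0 r ↔ Flat.cjM B X ∈ inv0 (conjR B r)
    rw [mem_inv0, mem_inv0, trace_cjM]
    refine and_congr Iff.rfl (forall_congr' fun γ => ?_)
    rw [← cjM_cobM, map_eq_zero_iff _ (Flat.cjM B).injective]
  refine ⟨Z.comap T, ?_, ?_, ?_, ?_⟩
  · intro c hc
    obtain ⟨ha, hb, U, hU, hc⟩ := h1 _ hc
    refine ⟨isCoc_of_cjM B ha, fun γ => ?_, U, hU, fun γ hγ => ?_⟩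
    · rw [← trace_cjM B]
      exact hb γ
    · apply (Flat.cjM B).injective
      rw [map_zero]
      exact hc γ hγ
  · intro c hc hc0 hcl hf
    obtain ⟨X, hX, hXZ⟩ := h2 (fun γ => Flat.cjM B (c γ)) (hc.cjM B)
      (fun γ => by rw [trace_cjM, hc0])
      (by
        obtain ⟨U, hU, hcU⟩ := hcl
        exact ⟨U, hU, fun γ hγ => by
          change Flat.cjM B (c γ) = 0
          rw [hcU γ hγ, map_zero]⟩)
      (hf.cjM B)
    refine ⟨(Flat.cjM B).symm X, ?_, ?_⟩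
    · rw [← trace_cjM B, AddEquiv.apply_symm_apply, hX]
    · change T _ ∈ Z
      convert hXZ using 1
      funext γ
      change Flat.cjM B (c γ - cobM r ((Flat.cjM B).symm X) γ) = _
      rw [map_sub, cjM_cobM, AddEquiv.apply_symm_apply]
  · rwa [hidx]
  · rwa [hidx, ← hinv]

end Conj

end Bound

end Fermat.Agent.Flat
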