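import Fermat.Agent.Flat.OrdKum

/-!
# Flat self-extensions of ordinary representations
-/

set_option autoImplicit false
set_option linter.unusedSectionVars false
set_option linter.style.haveILetI false

noncomputable section

namespace Fermat.Agent.Flat

open Matrix

variable {p : ℕ} [hp : Fact p.Prime] {Ω : Type} [NormedField Ω] [hU : IsUltrametricDist Ω]
  {Γ : Type} [Group Γ] [MulSemiringAction Γ Ω] {I : Subgroup Γ} [S : Setting p Ω I]
  {k : Type} [Field k] [Algebra (ZMod p) k]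

/-- Ordinary representations, in an adapted basis. -/
structure OrdRep (p : ℕ) [Fact p.Prime] (Ω : Type) [NormedField Ω] {Γ : Type} [Group Γ]
    [MulSemiringAction Γ Ω] (I : Subgroup Γ) [Setting p Ω I] {k : Type} [Field k]
    [Algebra (ZMod p) k] (r : Γ →* Matrix (Fin 2) (Fin 2) k) : Prop where
  normal : I.Normal
  h10 : ∀ γ, r γ 1 0 = 0
  h11 : ∀ σ ∈ I, r σ 1 1 = 1
  h00 : ∀ σ : I, r σ.1 0 0 = algebraMap (ZMod p) k (omega p Ω I σ)

theorem mulVec_zero' (A : Matrix (Fin 2) (Fin 2) k) (v : Fin 2 → k) :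
    (A *ᵥ v) 0 = A 0 0 * v 0 + A 0 1 * v 1 := by
  simp only [mulVec, dotProduct, Fin.sum_univ_two]

theorem mulVec_one' (A : Matrix (Fin 2) (Fin 2) k) (v : Fin 2 → k) :
    (A *ᵥ v) 1 = A 1 0 * v 0 + A 1 1 * v 1 := by
  simp only [mulVec, dotProduct, Fin.sum_univ_two]

theorem mul_entry (A B : Matrix (Fin 2) (Fin 2) k) (i j : Fin 2) :
    (A * B) i j = A i 0 * B 0 j + A i 1 * B 1 j := by
  rw [mul_apply, Fin.sum_univ_two]

theorem nsmul_p_vec [CharP k p] (z : (Fin 2 → k) × (Fin 2 → k)) : p ^ 1 • z = 0 := by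
  rw [pow_one]
  refine Prod.ext ?_ ?_
  · funext i
    change p • z.1 i = 0
    rw [nsmul_eq_mul, CharP.cast_eq_zero, zero_mul]
  · funext i
    change p • z.2 i = 0
    rw [nsmul_eq_mul, CharP.cast_eq_zero, zero_mul]

namespace OrdRep

variable {r : Γ →* Matrix (Fin 2) (Fin 2) k} (hr : OrdRep p Ω I r)
include hr

theorem ne00 (γ : Γ) : r γ 0 0 ≠ 0 := by
  intro h
  have h1 := congrFun (congrFun (r_inv_mul r γ) 0) 0
  rw [mul_entry, h, hr.h10, mul_zero, mul_zero, add_zero] at h1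
  exact zero_ne_one h1

theorem ne11 (γ : Γ) : r γ 1 1 ≠ 0 := by
  intro h
  have h1 := congrFun (congrFun (r_mul_inv r γ) 1) 1
  rw [mul_entry, h, hr.h10, zero_mul, zero_mul, add_zero] at h1
  exact zero_ne_one h1

/-- Step A. -/
theorem exists_phi [Finite k] {c : Γ → Matrix (Fin 2) (Fin 2) k} (hc : IsCoc r c)
    (hf : FlatE p Ω I r c) : ∃ φ : k,
      (∀ γ, (c γ - cobM r !![0, 0; φ, 0] γ) 1 0 = 0) ∧
      ∀ σ ∈ I, (c σ - cobM r !![0, 0; φ, 0] σ) 1 1 = 0 := by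
  classical
  haveI : CharP k p := charP_of_injective_algebraMap (algebraMap (ZMod p) k).injective p
  obtain ⟨D⟩ := hf
  have hact : IsAct (eAct r c) := hc.isAct
  have hactI : IsAct (fun s : I => eAct r c s.1) := hact.rI I
  -- functoriality
  have hfun : ∀ T : ((Fin 2 → k) × (Fin 2 → k)) →+ ((Fin 2 → k) × (Fin 2 → k)),
      (∀ σ ∈ I, ∃ σ' ∈ I, ∀ z, T (eAct r c σ z) = eAct r c σ' (T z)) →
      ∀ z ∈ D.conn, T z ∈ D.conn := by
    intro T hT z hz
    have h1 : D.conn ≤ D.conn.comap T := by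
      apply D.conn_le hactI (n := 1) (fun z => nsmul_p_vec z)
      intro σ x
      rw [AddSubgroup.mem_comap, map_sub]
      obtain ⟨σ', hσ', h⟩ := hT σ.1 σ.2
      rw [h]
      exact D.smul_sub_mem_conn ⟨σ', hσ'⟩ (T x)
    exact h1 hz
  have hsmul : ∀ (a : k), ∀ z ∈ D.conn, a • z ∈ D.conn := by
    intro a
    apply hfun (DistribSMul.toAddMonoidHom _ a)
    intro σ hσ
    refine ⟨σ, hσ, fun z => ?_⟩
    change a • eAct r c σ z = eAct r c σ (a • z)
    simp only [eAct, Prod.smul_mk, smul_add, Prod.smul_fst, Prod.smul_snd, mulVec_smul]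
  have hgal : ∀ (γ : Γ), ∀ z ∈ D.conn, eAct r c γ z ∈ D.conn := by
    intro γ
    apply hfun (hact.hom γ)
    intro σ hσ
    refine ⟨γ * σ * γ⁻¹, hr.normal.conj_mem σ hσ γ, fun z => ?_⟩
    rw [hact.hom_apply, hact.hom_apply, hact.mul, hact.mul, hact.inv_apply]
  -- the intersection with `V`
  have hV : ∀ w : Fin 2 → k, ((0 : Fin 2 → k), w) ∈ D.conn → w 1 = 0 := by
    intro w hw
    let j : (Fin 2 → k) →+ (Fin 2 → k) × (Fin 2 → k) := AddMonoidHom.inr _ _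
    have hj : Function.Injective j := fun b b' h => congrArg Prod.snd h
    have he : ∀ (σ : I) b, j (rI I (vAct r) σ b) = eAct r c σ.1 (j b) := by
      intro σ b
      refine Prod.ext ?_ ?_
      · change (0 : Fin 2 → k) = r σ.1 *ᵥ 0
        rw [mulVec_zero]
      · change r σ.1 *ᵥ b = r σ.1 *ᵥ b + c σ.1 *ᵥ (r σ.1 *ᵥ 0)
        rw [mulVec_zero, mulVec_zero, add_zero]
    let DV := D.restrict j hj he
    have h1 : w ∈ DV.conn := by
      rw [Ord.mem_conn, Ord.rad_restrict]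
      exact hw
    let N : AddSubgroup (Fin 2 → k) :=
      { carrier := {w | w 1 = 0}
        add_mem' := fun {a b} ha hb => by
          change a 1 + b 1 = 0
          rw [show a 1 = 0 from ha, show b 1 = 0 from hb, add_zero]
        zero_mem' := rfl
        neg_mem' := fun {a} ha => by
          change -a 1 = 0
          rw [show a 1 = 0 from ha, neg_zero] }
    have h2 : DV.conn ≤ N := by
      apply DV.conn_le ((isAct_vAct r).rI I) (n := 1)
      · intro z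
        have := congrArg Prod.fst (nsmul_p_vec (p := p) (z, (0 : Fin 2 → k)))
        exact this
      · intro σ x
        change (r σ.1 *ᵥ x) 1 - x 1 = 0
        rw [mulVec_one', hr.h10, hr.h11 _ σ.2, zero_mul, one_mul, zero_add, sub_self]
    exact h2 h1
  -- the projection to the quotient
  have hQ : ∀ z ∈ D.conn, z.1 1 = 0 := by
    intro z hz
    let N : AddSubgroup ((Fin 2 → k) × (Fin 2 → k)) :=
      { carrier := {w | w.1 1 = 0}
        add_mem' := fun {a b} ha hb => by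
          change a.1 1 + b.1 1 = 0
          rw [show a.1 1 = 0 from ha, show b.1 1 = 0 from hb, add_zero]
        zero_mem' := rfl
        neg_mem' := fun {a} ha => by
          change -a.1 1 = 0
          rw [show a.1 1 = 0 from ha, neg_zero] }
    have h2 : D.conn ≤ N := by
      apply D.conn_le hactI (n := 1) (fun z => nsmul_p_vec z)
      intro σ x
      change (r σ.1 *ᵥ x.1) 1 - x.1 1 = 0
      rw [mulVec_one', hr.h10, hr.h11 _ σ.2, zero_mul, one_mul, zero_add, sub_self]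
    exact h2 hz
  -- an element
  obtain ⟨w, hw⟩ : ∃ w : Fin 2 → k, ((![1, 0] : Fin 2 → k), w) ∈ D.conn := by
    obtain ⟨σ₀, hσ₀⟩ := exists_omega_ne_one p Ω I
    have h1 := D.smul_sub_mem_conn σ₀ ((![1, 0] : Fin 2 → k), (0 : Fin 2 → k))
    set a : k := algebraMap (ZMod p) k (omega p Ω I σ₀) - 1 with ha
    have ha0 : a ≠ 0 := by
      intro h0
      rw [ha, sub_eq_zero, ← map_one (algebraMap (ZMod p) k)] at h0
      exact hσ₀ ((algebraMap (ZMod p) k).injective h0)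
    have h2 := hsmul a⁻¹ _ h1
    refine ⟨(a⁻¹ • (eAct r c σ₀.1 ((![1, 0] : Fin 2 → k), (0 : Fin 2 → k)) -
      ((![1, 0] : Fin 2 → k), (0 : Fin 2 → k)))).2, ?_⟩
    convert h2 using 1
    refine Prod.ext ?_ rfl
    funext i
    change (![1, 0] : Fin 2 → k) i = a⁻¹ * ((r σ₀.1 *ᵥ ![1, 0]) i - (![1, 0] : Fin 2 → k) i)
    fin_cases i
    · change (1 : k) = a⁻¹ * ((r σ₀.1 *ᵥ ![1, 0]) 0 - 1)
      rw [mulVec_zero', hr.h00]
      change (1 : k) = a⁻¹ * (_ * 1 + _ * 0 - 1)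
      rw [mul_one, mul_zero, add_zero, ← ha, inv_mul_cancel₀ ha0]
    · change (0 : k) = a⁻¹ * ((r σ₀.1 *ᵥ ![1, 0]) 1 - 0)
      rw [mulVec_one', hr.h10]
      change (0 : k) = a⁻¹ * (_ * 1 + _ * 0 - 0)
      rw [mul_zero, mul_one, add_zero, sub_zero, mul_zero]
  have h7 : ∀ z ∈ D.conn, z.2 1 = z.1 0 * w 1 := by
    intro z hz
    have h1 := D.conn.sub_mem hz (hsmul (z.1 0) _ hw)
    have h2 : z - z.1 0 • ((![1, 0] : Fin 2 → k), w) = (0, z.2 - z.1 0 • w) := by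
      refine Prod.ext ?_ rfl
      funext i
      fin_cases i
      · change z.1 0 - z.1 0 * 1 = 0
        rw [mul_one, sub_self]
      · change z.1 1 - z.1 0 * 0 = 0
        rw [hQ z hz, mul_zero, sub_zero]
    rw [h2] at h1
    have h3 := hV _ h1
    exact sub_eq_zero.1 h3
  have hX0 : ∀ v : Fin 2 → k, ((!![0, 0; w 1, 0] : Matrix (Fin 2) (Fin 2) k) *ᵥ v) 0 = 0 := by
    intro v
    rw [mulVec_zero']
    change 0 * v 0 + 0 * v 1 = 0
    rw [zero_mul, zero_mul, add_zero]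
  have hX1 : ∀ v : Fin 2 → k, ((!![0, 0; w 1, 0] : Matrix (Fin 2) (Fin 2) k) *ᵥ v) 1 =
      w 1 * v 0 := by
    intro v
    rw [mulVec_one']
    change w 1 * v 0 + 0 * v 1 = _
    rw [zero_mul, add_zero]
  have e0 : ∀ γ, (r γ *ᵥ ![1, 0]) 0 = r γ 0 0 := by
    intro γ
    rw [mulVec_zero']
    change r γ 0 0 * 1 + r γ 0 1 * 0 = _
    rw [mul_one, mul_zero, add_zero]
  have e1 : ∀ γ, (r γ *ᵥ ![1, 0]) 1 = 0 := by
    intro γ
    rw [mulVec_one', hr.h10]
    change 0 * 1 + r γ 1 1 * 0 = (0 : k)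
    rw [zero_mul, mul_zero, add_zero]
  have e2 : ∀ γ, (r γ *ᵥ w) 1 = r γ 1 1 * w 1 := by
    intro γ
    rw [mulVec_one', hr.h10, zero_mul, zero_add]
  have e3 : ∀ γ v, (r γ *ᵥ ((!![0, 0; w 1, 0] : Matrix (Fin 2) (Fin 2) k) *ᵥ v)) 1 =
      r γ 1 1 * (w 1 * v 0) := by
    intro γ v
    rw [mulVec_one' (r γ), hX0, hX1, mul_zero, zero_add]
  refine ⟨w 1, ?_⟩
  have hA : ∀ γ, (c γ - cobM r !![0, 0; w 1, 0] γ) 1 0 = 0 := by
    intro γ
    have h1 : (r γ *ᵥ w) 1 + (c γ *ᵥ (r γ *ᵥ ![1, 0])) 1 = (r γ *ᵥ ![1, 0]) 0 * w 1 :=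
      h7 _ (hgal γ _ hw)
    rw [e0, e2] at h1
    have h2 : ((c γ - cobM r !![0, 0; w 1, 0] γ) *ᵥ (r γ *ᵥ ![1, 0])) 1 =
        (c γ *ᵥ (r γ *ᵥ ![1, 0])) 1 - (w 1 * r γ 0 0 - r γ 1 1 * (w 1 * 1)) := by
      rw [sub_mulVec, cobM_mulVec, Pi.sub_apply, Pi.sub_apply, hX1, e3, e0]
      rfl
    rw [mulVec_one' (c γ - cobM r !![0, 0; w 1, 0] γ), e0, e1, mul_zero, add_zero] at h2
    have h3 : (c γ - cobM r !![0, 0; w 1, 0] γ) 1 0 * r γ 0 0 = 0 := by
      rw [h2]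
      linear_combination h1
    exact (mul_eq_zero.1 h3).resolve_right (hr.ne00 γ)
  refine ⟨hA, fun σ hσ => ?_⟩
  have f0 : (r σ *ᵥ ![0, 1]) 0 = r σ 0 1 := by
    rw [mulVec_zero']
    change r σ 0 0 * 0 + r σ 0 1 * 1 = _
    rw [mul_one, mul_zero, zero_add]
  have f1 : (r σ *ᵥ ![0, 1]) 1 = 1 := by
    rw [mulVec_one', hr.h11 _ hσ, hr.h10]
    change 0 * 0 + 1 * 1 = (1 : k)
    rw [mul_one, mul_zero, zero_add]
  have h1 : (r σ *ᵥ (0 : Fin 2 → k)) 1 + (c σ *ᵥ (r σ *ᵥ ![0, 1])) 1 - 0 =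
      ((r σ *ᵥ ![0, 1]) 0 - 0) * w 1 :=
    h7 _ (D.smul_sub_mem_conn ⟨σ, hσ⟩ ((![0, 1] : Fin 2 → k), (0 : Fin 2 → k)))
  rw [mulVec_zero, f0, Pi.zero_apply, sub_zero, sub_zero, zero_add] at h1
  have h2 : ((c σ - cobM r !![0, 0; w 1, 0] σ) *ᵥ (r σ *ᵥ ![0, 1])) 1 =
      (c σ *ᵥ (r σ *ᵥ ![0, 1])) 1 - (w 1 * r σ 0 1 - r σ 1 1 * (w 1 * 0)) := by
    rw [sub_mulVec, cobM_mulVec, Pi.sub_apply, Pi.sub_apply, hX1, e3, f0]
    rfl
  rw [mulVec_one' (c σ - cobM r !![0, 0; w 1, 0] σ), f1, hA, zero_mul, mul_one, zero_add, h1] at h2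
  rw [h2]
  ring

/-- The cocycle identity for the upper right entry, on inertia. -/
theorem ococ [Finite k] {c : Γ → Matrix (Fin 2) (Fin 2) k} (hc : IsCoc r c)
    (h00 : ∀ σ ∈ I, c σ 0 0 = 0) (h10 : ∀ σ ∈ I, c σ 1 0 = 0) (h11 : ∀ σ ∈ I, c σ 1 1 = 0)
    (l : k →ₗ[ZMod p] ZMod p) : OCoc Ω (fun σ : I => l (c σ.1 0 1)) := by
  intro σ τ
  have h1 := congrFun (congrFun (hc σ.1 τ.1) 0) 1
  rw [Matrix.add_apply, mul_entry, mul_entry, mul_entry, h00 _ τ.2, h10 _ τ.2, h11 _ τ.2,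
    hr.h11 _ (I.inv_mem σ.2), hr.h00] at h1
  simp only [mul_zero, zero_mul, add_zero, zero_add, mul_one] at h1
  change l (c (σ.1 * τ.1) 0 1) = _
  rw [h1, map_add, ← Algebra.smul_def, map_smul, smul_eq_mul]

/-- the level condition -/
theorem level_of_flat [Finite k] {c : Γ → Matrix (Fin 2) (Fin 2) k} (hc : IsCoc r c)
    (h00 : ∀ σ ∈ I, c σ 0 0 = 0) (h10 : ∀ σ ∈ I, c σ 1 0 = 0) (h11 : ∀ σ ∈ I, c σ 1 1 = 0)
    (hf : FlatE p Ω I r c) (l : k →ₗ[ZMod p] ZMod p) :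
    ∃ Y : Ω, IsKum (zeta p Ω I) (fun g : omKer p Ω I => l (c g.1.1 0 1)) Y ∧
      ‖Y - 1‖ ≤ q2 p ^ (p - 1) := by
  by_cases hl : Function.Surjective l
  swap
  · -- the functional is zero
    have hl0 : ∀ x, l x = 0 := by
      intro x
      by_contra hx
      apply hl
      intro a
      refine ⟨(a * (l x)⁻¹) • x, ?_⟩
      rw [map_smul, smul_eq_mul, mul_assoc, inv_mul_cancel₀ hx, mul_one]
    refine ⟨1, ?_, ?_⟩
    · have h1 := (omCtx p Ω I).kum_one
      have h2 : (fun g : omKer p Ω I => l (c g.1.1 0 1)) = fun _ => 0 := funext fun g => hl0 _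
      rw [h2]
      exact h1
    · rw [sub_self, norm_zero]
      exact pow_nonneg (q2_pos p Ω I).le _
  obtain ⟨D⟩ := hf
  have hO := hr.ococ hc h00 h10 h11 l
  suffices hsuf : Nonempty (Ord p Ω I (oAct p Ω (fun σ : I => l (c σ.1 0 1)))) by
    obtain ⟨DQ⟩ := hsuf
    exact oAct_level hO DQ
  -- the subgroup
  let j : k × ZMod p × k →+ (Fin 2 → k) × (Fin 2 → k) :=
    AddMonoidHom.mk' (fun z => (![z.1, algebraMap (ZMod p) k z.2.1], ![z.2.2, 0])) fun z z' => by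
      refine Prod.ext ?_ ?_
      · funext i
        fin_cases i
        · rfl
        · exact map_add _ _ _
      · funext i
        fin_cases i
        · rfl
        · exact (add_zero (0 : k)).symm
  have hj : Function.Injective j := by
    rintro ⟨a, b, d⟩ ⟨a', b', d'⟩ h
    have h1 : a = a' := congrFun (congrArg Prod.fst h) 0
    have h2 : algebraMap (ZMod p) k b = algebraMap (ZMod p) k b' :=
      congrFun (congrArg Prod.fst h) 1
    have h3 : d = d' := congrFun (congrArg Prod.snd h) 0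
    rw [h1, h3, (algebraMap (ZMod p) k).injective h2]
  let ρ₁ : I → k × ZMod p × k → k × ZMod p × k := fun σ z =>
    (r σ.1 0 0 * z.1 + r σ.1 0 1 * algebraMap (ZMod p) k z.2.1, z.2.1,
      r σ.1 0 0 * z.2.2 + c σ.1 0 1 * algebraMap (ZMod p) k z.2.1)
  have hact : IsAct (fun s : I => eAct r c s.1) := hc.isAct.rI I
  have he : ∀ σ z, j (ρ₁ σ z) = eAct r c σ.1 (j z) := by
    intro σ z
    have hv : r σ.1 *ᵥ ![z.1, algebraMap (ZMod p) k z.2.1] =
        ![r σ.1 0 0 * z.1 + r σ.1 0 1 * algebraMap (ZMod p) k z.2.1,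
          algebraMap (ZMod p) k z.2.1] := by
      funext i
      fin_cases i
      · exact mulVec_zero' _ _
      · refine (mulVec_one' _ _).trans ?_
        rw [hr.h10, hr.h11 _ σ.2, zero_mul, zero_add, one_mul]
        rfl
    refine Prod.ext hv.symm ?_
    change ![_, _] = r σ.1 *ᵥ ![z.2.2, 0] + c σ.1 *ᵥ (r σ.1 *ᵥ ![z.1, algebraMap (ZMod p) k z.2.1])
    rw [hv]
    funext i
    fin_cases i
    · change r σ.1 0 0 * z.2.2 + c σ.1 0 1 * algebraMap (ZMod p) k z.2.1 =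
        (r σ.1 *ᵥ ![z.2.2, 0]) 0 + (c σ.1 *ᵥ ![r σ.1 0 0 * z.1 +
          r σ.1 0 1 * algebraMap (ZMod p) k z.2.1, algebraMap (ZMod p) k z.2.1]) 0
      rw [mulVec_zero', mulVec_zero', h00 _ σ.2]
      change _ = r σ.1 0 0 * z.2.2 + r σ.1 0 1 * 0 + (0 * _ + c σ.1 0 1 *
        algebraMap (ZMod p) k z.2.1)
      ring
    · change (0 : k) = (r σ.1 *ᵥ ![z.2.2, 0]) 1 + (c σ.1 *ᵥ ![r σ.1 0 0 * z.1 +
          r σ.1 0 1 * algebraMap (ZMod p) k z.2.1, algebraMap (ZMod p) k z.2.1]) 1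
      rw [mulVec_one', mulVec_one', h10 _ σ.2, h11 _ σ.2, hr.h10, hr.h11 _ σ.2]
      change (0 : k) = 0 * z.2.2 + 1 * 0 + (0 * _ + 0 * _)
      ring
  have hact₁ : IsAct ρ₁ := hact.of_injective j hj he
  let D₁ : Ord p Ω I ρ₁ := D.restrict j hj he
  let π : k × ZMod p × k →+ ZMod p × ZMod p :=
    AddMonoidHom.mk' (fun z => (z.2.1, l z.2.2)) fun z z' => by
      refine Prod.ext rfl ?_
      exact map_add _ _ _
  have hπ : Function.Surjective π := by
    rintro ⟨a, b⟩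
    obtain ⟨x, hx⟩ := hl b
    exact ⟨(0, a, x), Prod.ext rfl hx⟩
  obtain ⟨DQ, -⟩ := D₁.exists_quot hact₁ (isAct_oAct hO) π hπ (by
    intro σ z
    refine Prod.ext rfl ?_
    change l (r σ.1 0 0 * z.2.2 + c σ.1 0 1 * algebraMap (ZMod p) k z.2.1) =
      omega p Ω I σ * l z.2.2 + l (c σ.1 0 1) * z.2.1
    rw [hr.h00, map_add, ← Algebra.smul_def, map_smul, smul_eq_mul, mul_comm (c σ.1 0 1),
      ← Algebra.smul_def, map_smul, smul_eq_mul, mul_comm z.2.1])
  exact ⟨DQ⟩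

/-- the level condition for the representation itself -/
theorem level_of_flatR [Finite k] (hf : FlatR p Ω I r) (l : k →ₗ[ZMod p] ZMod p) :
    ∃ Y : Ω, IsKum (zeta p Ω I) (fun g : omKer p Ω I => l (r g.1.1 0 1)) Y ∧
      ‖Y - 1‖ ≤ q2 p ^ (p - 1) := by
  by_cases hl : Function.Surjective l
  swap
  · have hl0 : ∀ x, l x = 0 := by
      intro x
      by_contra hx
      apply hl
      intro a
      refine ⟨(a * (l x)⁻¹) • x, ?_⟩
      rw [map_smul, smul_eq_mul, mul_assoc, inv_mul_cancel₀ hx, mul_one]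
    refine ⟨1, ?_, ?_⟩
    · have h1 := (omCtx p Ω I).kum_one
      have h2 : (fun g : omKer p Ω I => l (r g.1.1 0 1)) = fun _ => 0 := funext fun g => hl0 _
      rw [h2]
      exact h1
    · rw [sub_self, norm_zero]
      exact pow_nonneg (q2_pos p Ω I).le _
  obtain ⟨D⟩ := hf
  have hO : OCoc Ω (fun σ : I => l (r σ.1 0 1)) := by
    intro σ τ
    have h1 := congrFun (congrFun (map_mul r σ.1 τ.1) 0) 1
    rw [mul_entry, hr.h11 _ τ.2, hr.h00, mul_one] at h1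
    change l (r (σ.1 * τ.1) 0 1) = _
    rw [h1, map_add, ← Algebra.smul_def, map_smul, smul_eq_mul, add_comm]
  suffices hsuf : Nonempty (Ord p Ω I (oAct p Ω (fun σ : I => l (r σ.1 0 1)))) by
    obtain ⟨DQ⟩ := hsuf
    exact oAct_level hO DQ
  let j : k × ZMod p →+ (Fin 2 → k) :=
    AddMonoidHom.mk' (fun z => ![z.1, algebraMap (ZMod p) k z.2]) fun z z' => by
      funext i
      fin_cases i
      · rfl
      · exact map_add _ _ _
  have hj : Function.Injective j := by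
    rintro ⟨a, b⟩ ⟨a', b'⟩ h
    have h1 : a = a' := congrFun h 0
    have h2 : algebraMap (ZMod p) k b = algebraMap (ZMod p) k b' := congrFun h 1
    rw [h1, (algebraMap (ZMod p) k).injective h2]
  let ρ₁ : I → k × ZMod p → k × ZMod p := fun σ z =>
    (r σ.1 0 0 * z.1 + r σ.1 0 1 * algebraMap (ZMod p) k z.2, z.2)
  have hact : IsAct (fun s : I => vAct r s.1) := (isAct_vAct r).rI I
  have he : ∀ σ z, j (ρ₁ σ z) = vAct r σ.1 (j z) := by
    intro σ z
    funext i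
    fin_cases i
    · exact (mulVec_zero' (r σ.1) ![z.1, algebraMap (ZMod p) k z.2]).symm
    · refine Eq.symm ((mulVec_one' (r σ.1) ![z.1, algebraMap (ZMod p) k z.2]).trans ?_)
      rw [hr.h10, hr.h11 _ σ.2, zero_mul, zero_add, one_mul]
      rfl
  have hact₁ : IsAct ρ₁ := hact.of_injective j hj he
  let D₁ : Ord p Ω I ρ₁ := D.restrict j hj he
  let π : k × ZMod p →+ ZMod p × ZMod p :=
    AddMonoidHom.mk' (fun z => (z.2, l z.1)) fun z z' => by
      refine Prod.ext rfl ?_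
      exact map_add _ _ _
  have hπ : Function.Surjective π := by
    rintro ⟨a, b⟩
    obtain ⟨x, hx⟩ := hl b
    exact ⟨(x, a), Prod.ext rfl hx⟩
  obtain ⟨DQ, -⟩ := D₁.exists_quot hact₁ (isAct_oAct hO) π hπ (by
    intro σ z
    refine Prod.ext rfl ?_
    change l (r σ.1 0 0 * z.1 + r σ.1 0 1 * algebraMap (ZMod p) k z.2) =
      omega p Ω I σ * l z.1 + l (r σ.1 0 1) * z.2
    rw [hr.h00, map_add, ← Algebra.smul_def, map_smul, smul_eq_mul, mul_comm (r σ.1 0 1),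
      ← Algebra.smul_def, map_smul, smul_eq_mul, mul_comm z.2])
  exact ⟨DQ⟩

end OrdRep

end Fermat.Agent.Flat
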