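import Mathlib

/-!
# Frobenius-semilinear maps
-/

set_option autoImplicit false
set_option linter.style.haveILetI false

namespace Fermat.Agent.Flat

theorem semilinear_indep {p : ℕ} [Fact p.Prime] {κ : Type} [Field κ] [Algebra (ZMod p) κ]
    {V : Type} [AddCommGroup V] [Module κ V] [Module (ZMod p) V] [IsScalarTower (ZMod p) κ V]
    (φ : V →+ V) (hφ : ∀ (a : κ) v, φ (a • v) = a ^ p • φ v) {ι : Type} {v : ι → V}
    (hv : ∀ i, φ (v i) = v i) (hli : LinearIndependent (ZMod p) v) : LinearIndependent κ v := by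
  classical
  haveI : CharP κ p := charP_of_injective_algebraMap (algebraMap (ZMod p) κ).injective p
  rw [linearIndependent_iff'] at hli ⊢
  intro s
  induction s using Finset.strongInduction with
  | H s ih =>
    intro g hg
    by_contra hcon
    push Not at hcon
    obtain ⟨i₀, hi₀, hgi⟩ := hcon
    set g' : ι → κ := fun i => (g i₀)⁻¹ * g i with hg'
    have h1 : ∑ i ∈ s, g' i • v i = 0 := by
      have := congrArg (fun w => (g i₀)⁻¹ • w) hg
      simp only [Finset.smul_sum, smul_zero, smul_smul] at this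
      exact this
    have h2 : ∑ i ∈ s, g' i ^ p • v i = 0 := by
      have := congrArg φ h1
      rw [map_sum, map_zero] at this
      rw [← this]
      exact Finset.sum_congr rfl fun i _ => by rw [hφ, hv]
    have h3 : ∑ i ∈ s.erase i₀, (g' i ^ p - g' i) • v i = 0 := by
      have h4 : ∑ i ∈ s, (g' i ^ p - g' i) • v i = 0 := by
        simp only [sub_smul, Finset.sum_sub_distrib]
        rw [h1, h2, sub_self]
      rw [← Finset.add_sum_erase s _ hi₀] at h4
      have h5 : g' i₀ = 1 := inv_mul_cancel₀ hgi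
      rw [h5, one_pow, sub_self, zero_smul, zero_add] at h4
      exact h4
    have h4 := ih (s.erase i₀) (Finset.erase_ssubset hi₀) _ h3
    have h5 : ∀ i ∈ s, ∃ c : ZMod p, g' i = algebraMap (ZMod p) κ c := by
      intro i hi
      have h6 : g' i ^ p = g' i := by
        by_cases hii : i = i₀
        · rw [hii, show g' i₀ = 1 from inv_mul_cancel₀ hgi, one_pow]
        · exact sub_eq_zero.1 (h4 i (Finset.mem_erase.2 ⟨hii, hi⟩))
      have h7 := (Subfield.mem_bot_iff_pow_eq_self κ p).2 h6
      rw [mem_bot_iff_intCast p κ] at h7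
      obtain ⟨n, hn⟩ := h7
      exact ⟨(n : ZMod p), by rw [← hn, map_intCast]⟩
    choose! c hc using h5
    have h6 : ∑ i ∈ s, c i • v i = 0 := by
      rw [← h1]
      refine Finset.sum_congr rfl fun i hi => ?_
      rw [hc i hi, algebraMap_smul]
    have h7 := hli s c h6 i₀ hi₀
    have h8 := hc i₀ hi₀
    rw [h7, map_zero, show g' i₀ = 1 from inv_mul_cancel₀ hgi] at h8
    exact one_ne_zero h8

theorem semilinear_card {p : ℕ} [Fact p.Prime] {κ : Type} [Field κ] [Algebra (ZMod p) κ]
    {V : Type} [AddCommGroup V] [Module κ V] [Module (ZMod p) V] [IsScalarTower (ZMod p) κ V]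
    [FiniteDimensional κ V] (φ : V →+ V) (hφ : ∀ (a : κ) v, φ (a • v) = a ^ p • φ v)
    (S : AddSubgroup V) (hS : ∀ s ∈ S, φ s = s) :
    (S : Set V).Finite ∧ (S : Set V).ncard ≤ p ^ Module.finrank κ V := by
  classical
  let S' : Submodule (ZMod p) V := AddSubgroup.toZModSubmodule p S
  let b := Module.Basis.ofVectorSpace (ZMod p) S'
  have hli : LinearIndependent (ZMod p) (fun i => (b i : V)) :=
    b.linearIndependent.map' S'.subtype (Submodule.ker_subtype S')
  have h1 : LinearIndependent κ (fun i => (b i : V)) :=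
    semilinear_indep φ hφ (fun i => hS _ (b i).2) hli
  haveI : Finite (Module.Basis.ofVectorSpaceIndex (ZMod p) S') :=
    h1.finite
  haveI := Fintype.ofFinite (Module.Basis.ofVectorSpaceIndex (ZMod p) S')
  have h2 := h1.fintype_card_le_finrank
  haveI : Finite S' := Finite.of_equiv _ b.equivFun.toEquiv.symm
  have h3 : Nat.card S' ≤ p ^ Module.finrank κ V := by
    rw [Nat.card_congr b.equivFun.toEquiv, Nat.card_fun, Nat.card_zmod,
      Nat.card_eq_fintype_card]
    exact Nat.pow_le_pow_right (Fact.out : p.Prime).pos h2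
  refine ⟨Set.toFinite (S' : Set V), ?_⟩
  rw [← Nat.card_coe_set_eq]
  exact h3

end Fermat.Agent.Flat
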