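import Fermat.Agent.Flat.OrdA
import Fermat.Agent.Flat.SemiLin

/-!
# Counting flat classes in the ordinary case
-/

set_option autoImplicit false
set_option linter.unusedSectionVars false
set_option linter.style.haveILetI false

noncomputable section

namespace Fermat.Agent.Flat

open Matrix

section Pi3

variable (p : ℕ) (Ω : Type) [NormedField Ω] [hU : IsUltrametricDist Ω] (I : Type) [Group I]
    [MulSemiringAction I Ω] [S : Setting p Ω I]

include S in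
theorem exists_pi3 : ∃ y : Ω, ‖y‖ = q2 p := by
  haveI := S.isAlgClosed
  obtain ⟨y, hy⟩ := IsAlgClosed.exists_pow_nat_eq (zeta p Ω I - 1) S.prime.pos
  refine ⟨y, ?_⟩
  have h1 : ‖y‖ ^ p = q2 p ^ p := by
    rw [← norm_pow, hy, norm_zeta_sub_one p Ω I, q2_pow p Ω I]
  exact (pow_left_inj₀ (norm_nonneg _) (q2_pos p Ω I).le S.prime.ne_zero).1 h1

/-- An element of norm `q2 ^ (p - 1)`. -/
def c3 : Ω := (exists_pi3 p Ω I).choose ^ (p - 1)

theorem norm_c3 : ‖c3 p Ω I‖ = q2 p ^ (p - 1) := by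
  rw [c3, norm_pow, (exists_pi3 p Ω I).choose_spec]

theorem c3_ne_zero : c3 p Ω I ≠ 0 := by
  rw [← norm_ne_zero_iff, norm_c3]
  exact (pow_pos (q2_pos p Ω I) _).ne'

theorem norm_c3_lt_one : ‖c3 p Ω I‖ < 1 := by
  rw [norm_c3]
  exact pow_lt_one₀ (q2_pos p Ω I).le (q2_lt_one p Ω I) (sub_one_ne_zero' p Ω I)

include S in
theorem not_dvd_sub_one : ¬ p ∣ p - 1 := by
  intro hd
  have h1 := Nat.le_of_dvd (by have := one_lt_sub_one p Ω I; omega) hd
  have := S.prime.two_le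
  omega

end Pi3

variable {p : ℕ} [hp : Fact p.Prime] {Ω : Type} [NormedField Ω] [hU : IsUltrametricDist Ω]
  {Γ : Type} [Group Γ] [MulSemiringAction Γ Ω] {I : Subgroup Γ} [S : Setting p Ω I]
  {k : Type} [Field k] [Algebra (ZMod p) k]

section Lev

variable (p Ω I) in
/-- level condition for a cochain -/
def LevO (c : Γ → Matrix (Fin 2) (Fin 2) k) (l : k →ₗ[ZMod p] ZMod p) : Prop :=
  ∃ Y : Ω, IsKum (zeta p Ω I) (fun g : omKer p Ω I => l (c g.1.1 0 1)) Y ∧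
      ‖Y - 1‖ ≤ q2 p ^ (p - 1)

theorem levO_zero (l : k →ₗ[ZMod p] ZMod p) :
    LevO p Ω I (0 : Γ → Matrix (Fin 2) (Fin 2) k) l := by
  refine ⟨1, ?_, ?_⟩
  · have h1 := (omCtx p Ω I).kum_one
    have h2 : (fun g : omKer p Ω I => l ((0 : Γ → Matrix (Fin 2) (Fin 2) k) g.1.1 0 1)) =
        fun _ => 0 := funext fun g => map_zero l
    rw [h2]
    exact h1
  · rw [sub_self, norm_zero]
    exact pow_nonneg (q2_pos p Ω I).le _

theorem LevO.add {c c' : Γ → Matrix (Fin 2) (Fin 2) k} {l : k →ₗ[ZMod p] ZMod p}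
    (h : LevO p Ω I c l) (h' : LevO p Ω I c' l) : LevO p Ω I (c + c') l := by
  obtain ⟨Y, hY, hYn⟩ := h
  obtain ⟨Y', hY', hYn'⟩ := h'
  refine ⟨Y * Y', ?_, norm_mul_sub_one (pow_le_one₀ (q2_pos p Ω I).le (q2_lt_one p Ω I).le)
    hYn hYn'⟩
  have h1 := (omCtx p Ω I).kum_mul hY hY'
  have h2 : (fun g : omKer p Ω I => l ((c + c') g.1.1 0 1)) =
      fun g : omKer p Ω I => l (c g.1.1 0 1) + l (c' g.1.1 0 1) := funext fun g => map_add l _ _
  rw [h2]
  exact h1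

theorem LevO.neg {c : Γ → Matrix (Fin 2) (Fin 2) k} {l : k →ₗ[ZMod p] ZMod p}
    (h : LevO p Ω I c (-l)) : LevO p Ω I (-c) l := by
  obtain ⟨Y, hY, hYn⟩ := h
  refine ⟨Y, ?_, hYn⟩
  have h2 : (fun g : omKer p Ω I => l ((-c) g.1.1 0 1)) =
      fun g : omKer p Ω I => (-l) (c g.1.1 0 1) := funext fun g => map_neg l _
  rw [h2]
  exact hY

/-- the leading coefficient -/
def grO {c : Γ → Matrix (Fin 2) (Fin 2) k} (hc : ∀ l, LevO p Ω I c l) (l : k →ₗ[ZMod p] ZMod p) :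
    KR Ω := gr (c3 p Ω I) (hc l).choose

theorem grO_eq {c : Γ → Matrix (Fin 2) (Fin 2) k} (hc : ∀ l, LevO p Ω I c l)
    (l : k →ₗ[ZMod p] ZMod p) {Y : Ω}
    (hY : IsKum (zeta p Ω I) (fun g : omKer p Ω I => l (c g.1.1 0 1)) Y)
    (hYn : ‖Y - 1‖ ≤ q2 p ^ (p - 1)) : grO hc l = gr (c3 p Ω I) Y := by
  have C := omCtx p Ω I
  have h1 := (hc l).choose_spec
  have hn := norm_c3 p Ω I
  apply gr_congr (c3_ne_zero p Ω I) (by rw [hn]; exact h1.2) (by rw [hn]; exact hYn)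
  rw [hn]
  exact C.kum_unique h1.1 hY (Nat.pos_of_ne_zero (sub_one_ne_zero' p Ω I))
    (not_dvd_sub_one p Ω I) h1.2 hYn

theorem grO_add {c c' : Γ → Matrix (Fin 2) (Fin 2) k} (hc : ∀ l, LevO p Ω I c l)
    (hc' : ∀ l, LevO p Ω I c' l) (hcc : ∀ l, LevO p Ω I (c + c') l)
    (l : k →ₗ[ZMod p] ZMod p) : grO hcc l = grO hc l + grO hc' l := by
  have C := omCtx p Ω I
  have h1 := (hc l).choose_spec
  have h2 := (hc' l).choose_spec
  have hn := norm_c3 p Ω I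
  have h3 := C.kum_mul h1.1 h2.1
  have h4 : (fun g : omKer p Ω I => l ((c + c') g.1.1 0 1)) =
      fun g : omKer p Ω I => l (c g.1.1 0 1) + l (c' g.1.1 0 1) := funext fun g => map_add l _ _
  rw [← h4] at h3
  have h5 := norm_mul_sub_one (pow_le_one₀ (q2_pos p Ω I).le (q2_lt_one p Ω I).le) h1.2 h2.2
  rw [grO_eq hcc l h3 h5, gr_mul (c3_ne_zero p Ω I) (norm_c3_lt_one p Ω I) (by rw [hn]; exact h1.2)
    (by rw [hn]; exact h2.2)]
  rfl

theorem grO_add_right {c : Γ → Matrix (Fin 2) (Fin 2) k} (hc : ∀ l, LevO p Ω I c l)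
    (l l' : k →ₗ[ZMod p] ZMod p) : grO hc (l + l') = grO hc l + grO hc l' := by
  have C := omCtx p Ω I
  have h1 := (hc l).choose_spec
  have h2 := (hc l').choose_spec
  have hn := norm_c3 p Ω I
  have h3 := C.kum_mul h1.1 h2.1
  have h4 : (fun g : omKer p Ω I => (l + l') (c g.1.1 0 1)) =
      fun g : omKer p Ω I => l (c g.1.1 0 1) + l' (c g.1.1 0 1) := rfl
  rw [← h4] at h3
  have h5 := norm_mul_sub_one (pow_le_one₀ (q2_pos p Ω I).le (q2_lt_one p Ω I).le) h1.2 h2.2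
  rw [grO_eq hc (l + l') h3 h5, gr_mul (c3_ne_zero p Ω I) (norm_c3_lt_one p Ω I)
    (by rw [hn]; exact h1.2) (by rw [hn]; exact h2.2)]
  rfl

/-- vanishing of the leading coefficient. -/
theorem eq_zero_of_grO {c : Γ → Matrix (Fin 2) (Fin 2) k} (hc : ∀ l, LevO p Ω I c l)
    (l : k →ₗ[ZMod p] ZMod p) (h0 : grO hc l = 0) (g : omKer p Ω I) : l (c g.1.1 0 1) = 0 := by
  have C := omCtx p Ω I
  by_contra hne
  have h1 := (hc l).choose_spec
  have hn := norm_c3 p Ω I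
  have h2 := norm_sub_one_lt_of_gr (c3_ne_zero p Ω I) (by rw [hn]; exact h1.2) h0
  rw [hn] at h2
  obtain ⟨i, hi0, hi, hin⟩ := C.exists_level h1.1 (g := g) hne
    (h2.trans (by rw [← hn]; exact norm_c3_lt_one p Ω I))
  rw [hin] at h2
  rw [mul_one] at hi
  have h3 : p - 1 < i := (pow_lt_pow_iff_right_of_lt_one₀ C.pos C.lt_one).1 h2
  omega

end Lev

/-- abstract vanishing lemma -/
theorem coc_vanish {G : Type} [Group G] [TopologicalSpace G] [IsTopologicalGroup G]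
    {J : Subgroup G} (hJ : J.Normal) {F : G}
    (hgen : ∀ U : Subgroup G, IsOpen (U : Set G) → J ≤ U → F ∈ U → U = ⊤)
    {η b : G → k} (hη : ∀ γ δ, η (γ * δ) = η γ * η δ) (hη1 : η 1 = 1)
    (hb : ∀ γ δ, b (γ * δ) = b γ + η γ * b δ)
    (hopen : ∃ U : Subgroup G, IsOpen (U : Set G) ∧ ∀ γ ∈ U, b γ = 0 ∧ η γ = 1)
    {τ : G} (hτ : τ ∈ J) (hτη : η τ ≠ 1) (h0 : ∀ g ∈ J, η g = 1 → b g = 0) :
    ∃ x : k, ∀ γ, b γ = x - η γ * x := by
  have hb1 : b 1 = 0 := by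
    have := hb 1 1
    rw [mul_one, hη1, one_mul] at this
    exact left_eq_add.1 this
  set x : k := b τ / (1 - η τ) with hx
  have hτ0 : 1 - η τ ≠ 0 := sub_ne_zero.2 (Ne.symm hτη)
  set b' : G → k := fun γ => b γ - (x - η γ * x) with hb'
  have hb'm : ∀ γ δ, b' (γ * δ) = b' γ + η γ * b' δ := by
    intro γ δ
    simp only [hb', hb, hη]
    ring
  have hb'1 : b' 1 = 0 := by
    simp only [hb', hb1, hη1]
    ring
  have hb'τ : b' τ = 0 := by
    simp only [hb', hx]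
    field_simp
    ring
  let U : Subgroup G :=
    { carrier := {γ | b' γ = 0}
      mul_mem' := fun {γ δ} hγ hδ => by
        change b' (γ * δ) = 0
        rw [hb'm, show b' γ = 0 from hγ, show b' δ = 0 from hδ, mul_zero, add_zero]
      one_mem' := hb'1
      inv_mem' := fun {γ} hγ => by
        change b' γ⁻¹ = 0
        have h1 := hb'm γ⁻¹ γ
        rw [inv_mul_cancel, hb'1, show b' γ = 0 from hγ, mul_zero, add_zero] at h1
        exact h1.symm }
  have hJU : J ≤ U := by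
    intro σ hσ
    set g := τ * σ * τ⁻¹ * σ⁻¹ with hg
    have hgJ : g ∈ J := J.mul_mem (J.mul_mem (J.mul_mem hτ hσ) (J.inv_mem hτ)) (J.inv_mem hσ)
    have hinv : ∀ γ, η γ * η γ⁻¹ = 1 := fun γ => by rw [← hη, mul_inv_cancel, hη1]
    have hgη : η g = 1 := by
      rw [hg, hη, hη, hη]
      calc η τ * η σ * η τ⁻¹ * η σ⁻¹ = (η τ * η τ⁻¹) * (η σ * η σ⁻¹) := by ring
        _ = 1 := by rw [hinv, hinv, one_mul]
    have hgb : b' g = 0 := by
      simp only [hb', h0 g hgJ hgη, hgη]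
      ring
    have h1 : τ * σ = g * (σ * τ) := by rw [hg]; group
    have h2 := hb'm τ σ
    rw [h1, hb'm, hb'm σ τ, hgη, hgb, hb'τ] at h2
    have h3 : (1 - η τ) * b' σ = 0 := by linear_combination h2
    exact (mul_eq_zero.1 h3).resolve_left hτ0
  have hFU : F ∈ U := by
    have h1 : τ * F = F * (F⁻¹ * τ * F) := by group
    have h2 := hb'm τ F
    have h3 : b' (F⁻¹ * τ * F) = 0 := hJU (by
      have := hJ.conj_mem τ hτ F⁻¹
      rwa [inv_inv] at this)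
    rw [h1, hb'm, h3, hb'τ] at h2
    have h4 : (1 - η τ) * b' F = 0 := by linear_combination h2
    exact (mul_eq_zero.1 h4).resolve_left hτ0
  have hUo : IsOpen (U : Set G) := by
    obtain ⟨U₀, hU₀, h⟩ := hopen
    refine Subgroup.isOpen_mono (H₁ := U₀) ?_ hU₀
    intro γ hγ
    change b γ - (x - η γ * x) = 0
    rw [(h γ hγ).1, (h γ hγ).2]
    ring
  refine ⟨x, fun γ => ?_⟩
  have h1 : γ ∈ U := by rw [hgen U hUo hJU hFU]; trivial
  exact sub_eq_zero.1 h1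

namespace OrdRep

variable {r : Γ →* Matrix (Fin 2) (Fin 2) k} (hr : OrdRep p Ω I r)
include hr

/-- the character of the upper right entry. -/
def eta (_ : OrdRep p Ω I r) (γ : Γ) : k := r γ 0 0 * r γ⁻¹ 1 1

theorem eta_mul (γ δ : Γ) : hr.eta (γ * δ) = hr.eta γ * hr.eta δ := by
  rw [eta, eta, eta, _root_.mul_inv_rev, map_mul, map_mul, mul_entry, mul_entry, hr.h10, hr.h10]
  ring

theorem eta_one : hr.eta 1 = 1 := by
  rw [eta, inv_one, map_one, one_apply_eq, one_apply_eq, one_mul]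

theorem eta_ne_zero (γ : Γ) : hr.eta γ ≠ 0 := mul_ne_zero (hr.ne00 γ) (hr.ne11 _)

theorem eta_inertia (σ : I) : hr.eta σ.1 = algebraMap (ZMod p) k (omega p Ω I σ) := by
  rw [eta, hr.h11 _ (I.inv_mem σ.2), mul_one, hr.h00]

theorem conj_E (γ : Γ) (x : k) : r γ * !![0, x; 0, 0] * r γ⁻¹ = !![0, hr.eta γ * x; 0, 0] := by
  ext i j
  rw [mul_entry, mul_entry, mul_entry]
  fin_cases i <;> fin_cases j <;>
    simp [hr.h10, eta, mul_comm, mul_left_comm]

theorem entry01 {c : Γ → Matrix (Fin 2) (Fin 2) k} (hc : IsCoc r c)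
    (h00 : ∀ γ, c γ 0 0 = 0) (h10 : ∀ γ, c γ 1 0 = 0) (h11 : ∀ γ, c γ 1 1 = 0) (γ δ : Γ) :
    c (γ * δ) 0 1 = c γ 0 1 + hr.eta γ * c δ 0 1 := by
  have h1 : c δ = !![0, c δ 0 1; 0, 0] := by
    ext i j
    fin_cases i <;> fin_cases j
    · exact h00 δ
    · rfl
    · exact h10 δ
    · exact h11 δ
  have h2 := hc γ δ
  rw [h1, hr.conj_E] at h2
  have h3 := congrFun (congrFun h2 0) 1
  exact h3

theorem exists_cob_E [TopologicalSpace Γ] [IsTopologicalGroup Γ] {F : Γ}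
    (hgen : ∀ U : Subgroup Γ, IsOpen (U : Set Γ) → I ≤ U → F ∈ U → U = ⊤)
    (hrc : ∃ U : Subgroup Γ, IsOpen (U : Set Γ) ∧ ∀ γ ∈ U, r γ = 1)
    {c : Γ → Matrix (Fin 2) (Fin 2) k} (hc : IsCoc r c) (hcl : LC c)
    (h00 : ∀ γ, c γ 0 0 = 0) (h10 : ∀ γ, c γ 1 0 = 0) (h11 : ∀ γ, c γ 1 1 = 0)
    (h0 : ∀ g : omKer p Ω I, c g.1.1 0 1 = 0) : ∃ x : k, ∀ γ, c γ = cobM r !![0, x; 0, 0] γ := by
  obtain ⟨σ₀, hσ₀⟩ := exists_omega_ne_one p Ω I
  obtain ⟨x, hx⟩ := coc_vanish hr.normal hgen (η := hr.eta) (b := fun γ => c γ 0 1) hr.eta_mul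
    hr.eta_one (hr.entry01 hc h00 h10 h11) (by
      obtain ⟨U, hU, hUc⟩ := hcl
      obtain ⟨V, hV, hVc⟩ := hrc
      refine ⟨U ⊓ V, hU.inter hV, fun γ hγ => ⟨?_, ?_⟩⟩
      · rw [hUc γ hγ.1]
        rfl
      · rw [eta, hVc γ hγ.2, hVc _ (V.inv_mem hγ.2), one_apply_eq, one_apply_eq, one_mul])
    σ₀.2 (by
      rw [hr.eta_inertia, ← map_one (algebraMap (ZMod p) k)]
      exact fun h => hσ₀ ((algebraMap (ZMod p) k).injective h))
    (fun g hg hgη => by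
      refine h0 ⟨⟨g, hg⟩, ?_⟩
      have h1 := hr.eta_inertia ⟨g, hg⟩
      rw [hgη, ← map_one (algebraMap (ZMod p) k)] at h1
      exact ((algebraMap (ZMod p) k).injective h1).symm)
  refine ⟨x, fun γ => ?_⟩
  rw [cobM, hr.conj_E]
  have h1 := hx γ
  ext i j
  fin_cases i <;> fin_cases j
  · change c γ 0 0 = 0 - 0
    rw [h00, sub_zero]
  · exact h1
  · change c γ 1 0 = 0 - 0
    rw [h10, sub_zero]
  · change c γ 1 1 = 0 - 0
    rw [h11, sub_zero]

/-- The Frobenius equation. -/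
theorem grO_frob {F : Γ} (hF : FrobData p Ω I F) {c : Γ → Matrix (Fin 2) (Fin 2) k}
    (hc : IsCoc r c) (h00 : ∀ γ, c γ 0 0 = 0) (h10 : ∀ γ, c γ 1 0 = 0) (h11 : ∀ γ, c γ 1 1 = 0)
    (hlev : ∀ l, LevO p Ω I c l) (l : k →ₗ[ZMod p] ZMod p) :
    grO hlev (l.comp (LinearMap.mulLeft (ZMod p)
      (algebraMap (ZMod p) k (eps p Ω I F) * (hr.eta F)⁻¹))) =
        res (F • c3 p Ω I / c3 p Ω I) * grO hlev l ^ p := by
  have C := omCtx p Ω I
  have hn := norm_c3 p Ω I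
  have hY := (hlev l).choose_spec
  set Y := (hlev l).choose with hYdef
  have h1 := C.kum_conj hY.1 (MulSemiringAction.toRingHom Γ Ω F) (fun g : omKer p Ω I =>
      (⟨⟨F⁻¹ * g.1.1 * F, by
        have := hF.normal.conj_mem g.1.1 g.1.2 F⁻¹
        rwa [inv_inv] at this⟩, by
        rw [mem_omKer]
        apply (algebraMap (ZMod p) k).injective
        rw [← hr.eta_inertia, map_one]
        change hr.eta (F⁻¹ * g.1.1 * F) = 1
        rw [hr.eta_mul, hr.eta_mul, hr.eta_inertia, mem_omKer.1 g.2, map_one, mul_one,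
          ← hr.eta_mul, inv_mul_cancel, hr.eta_one]⟩ : omKer p Ω I))
      (fun g z => by
        change g.1.1 • F • z = F • ((F⁻¹ * g.1.1 * F) • z)
        rw [← mul_smul, ← mul_smul]
        congr 1
        group) (a := eps p Ω I F) (smul_zeta_eps F)
  have h2 : (fun g : omKer p Ω I => eps p Ω I F * l (c (F⁻¹ * g.1.1 * F) 0 1)) =
      fun g : omKer p Ω I => (l.comp (LinearMap.mulLeft (ZMod p)
        (algebraMap (ZMod p) k (eps p Ω I F) * (hr.eta F)⁻¹))) (c g.1.1 0 1) := by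
    funext g
    have h3 := hr.entry01 hc h00 h10 h11 F (F⁻¹ * g.1.1 * F)
    have h4 := hr.entry01 hc h00 h10 h11 g.1.1 F
    have h5 : F * (F⁻¹ * g.1.1 * F) = g.1.1 * F := by group
    have h6 : hr.eta g.1.1 = 1 := by rw [hr.eta_inertia, mem_omKer.1 g.2, map_one]
    rw [h5, h4, h6, one_mul, add_comm] at h3
    have h7 := add_left_cancel h3
    have h8 : algebraMap (ZMod p) k (eps p Ω I F) * (hr.eta F)⁻¹ * c g.1.1 0 1 =
        algebraMap (ZMod p) k (eps p Ω I F) * c (F⁻¹ * g.1.1 * F) 0 1 := by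
      rw [h7, mul_assoc, inv_mul_cancel_left₀ (hr.eta_ne_zero F)]
    rw [LinearMap.comp_apply, LinearMap.mulLeft_apply, h8, ← Algebra.smul_def, map_smul,
      smul_eq_mul]
  have h3 : ‖F • Y - 1‖ ≤ q2 p ^ (p - 1) := by
    have h4 : F • Y - 1 = F • (Y - 1) := by rw [smul_sub, smul_one]
    rw [h4, hF.norm_smul]
    exact hY.2
  have h4 : IsKum (zeta p Ω I) (fun g : omKer p Ω I => (l.comp (LinearMap.mulLeft (ZMod p)
        (algebraMap (ZMod p) k (eps p Ω I F) * (hr.eta F)⁻¹))) (c g.1.1 0 1)) (F • Y) := by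
    rw [← h2]
    exact h1
  rw [grO_eq hlev _ h4 h3, hF.gr_frob (c3_ne_zero p Ω I) (by rw [hn]; exact hY.2)]
  rfl

end OrdRep

end Fermat.Agent.Flat
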