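import Fermat.Agent.Flat.SSK
import Fermat.Agent.Flat.Conn

/-!
# Modules of order `p` and extensions of `ℤ/p` by `μ_p`
-/

set_option autoImplicit false
set_option linter.unusedSectionVars false
set_option linter.style.haveILetI false

noncomputable section

namespace Fermat.Agent.Flat

variable {p : ℕ} {Ω : Type} [NormedField Ω] [hU : IsUltrametricDist Ω] {I : Type} [Group I]
    [MulSemiringAction I Ω] [S : Setting p Ω I]

section Omega

variable (p Ω I) in
include S in
theorem one_lt_sub_one : 1 < p - 1 := by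
  have := S.prime.two_le
  have := S.odd
  omega

variable (p Ω I) in
include S in
/-- The cyclotomic character is nontrivial. -/
theorem exists_omega_ne_one : ∃ σ : I, omega p Ω I σ ≠ 1 := by
  haveI := neZero_p p Ω I
  haveI : Fact p.Prime := ⟨S.prime⟩
  by_contra hcon
  push Not at hcon
  have hfix : ∀ σ : I, σ • (zeta p Ω I - 1) = zeta p Ω I - 1 := by
    intro σ
    have h4 : zp p Ω I 1 = zeta p Ω I := by
      have := zp_natCast p Ω I 1
      rwa [Nat.cast_one, pow_one] at this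
    rw [smul_sub, smul_one, smul_zeta, hcon, h4]
  have hn := norm_zeta_sub_one p Ω I
  have h0 : zeta p Ω I - 1 ≠ 0 := by
    rw [← norm_ne_zero_iff, hn]
    exact (rho_pos p Ω I).ne'
  obtain ⟨n, h1⟩ := S.norm_fixed _ h0 hfix
  rw [hn] at h1
  have hpp := one_lt_p p Ω I
  have h2 := rho_pow p Ω I
  rw [h1, ← zpow_natCast, ← zpow_mul, ← zpow_neg_one] at h2
  have h3 := zpow_right_injective₀ (p_pos p Ω I) hpp.ne' h2
  have h4 : ((p - 1 : ℕ) : ℤ) ∣ -1 := ⟨n, by rw [mul_comm]; exact h3.symm⟩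
  have h5 := one_lt_sub_one p Ω I
  rw [dvd_neg, Int.natCast_dvd] at h4
  have h6 := Nat.le_of_dvd (by decide) h4
  simp at h6
  omega

variable (p Ω I) in
/-- The kernel of the cyclotomic character. -/
def omKer : Subgroup I where
  carrier := {σ | omega p Ω I σ = 1}
  mul_mem' {a b} ha hb := by
    change omega p Ω I (a * b) = 1
    rw [omega_mul, show omega p Ω I a = 1 from ha, show omega p Ω I b = 1 from hb, mul_one]
  one_mem' := omega_one p Ω I
  inv_mem' {a} ha := by
    have h := omega_mul p Ω I a⁻¹ a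
    rw [inv_mul_cancel, omega_one, show omega p Ω I a = 1 from ha, mul_one] at h
    exact h.symm

theorem mem_omKer {σ : I} : σ ∈ omKer p Ω I ↔ omega p Ω I σ = 1 := Iff.rfl

theorem omega_inv_mul (σ : I) : omega p Ω I σ⁻¹ * omega p Ω I σ = 1 := by
  rw [← omega_mul, inv_mul_cancel, omega_one]

theorem omega_ne_zero (σ : I) : omega p Ω I σ ≠ 0 := by
  haveI : Fact p.Prime := ⟨S.prime⟩
  intro h
  have := omega_inv_mul (p := p) (Ω := Ω) σ
  rw [h, mul_zero] at this
  exact zero_ne_one this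

variable (p) in
/-- `p`-th root of `rho`. -/
def q2 : ℝ := rho p ^ ((1 : ℝ) / p)

variable (p Ω I) in
include S in
theorem q2_pow : q2 p ^ p = rho p := by
  have hp0 := p_pos p Ω I
  rw [q2, ← Real.rpow_natCast, ← Real.rpow_mul (rho_pos p Ω I).le, one_div,
    inv_mul_cancel₀ hp0.ne', Real.rpow_one]

variable (p Ω I) in
include S in
theorem q2_pos : 0 < q2 p := Real.rpow_pos_of_pos (rho_pos p Ω I) _

variable (p Ω I) in
include S in
theorem q2_lt_one : q2 p < 1 := by
  apply Real.rpow_lt_one (rho_pos p Ω I).le (rho_lt_one p Ω I)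
  exact div_pos one_pos (p_pos p Ω I)

variable (p Ω I) in
include S in
theorem sub_one_ne_zero' : p - 1 ≠ 0 := by
  have := S.prime.two_le
  omega

variable (p Ω I) in
/-- The Kummer context over `K(ζ)`. -/
theorem omCtx : KumCtx p Ω (omKer p Ω I) (q2 p) 1 (zeta p Ω I) where
  prime := S.prime
  ultra := S.ultra
  charZero := S.charZero
  norm_smul g x := S.norm_smul g.1 x
  triv g x hx := S.norm_smul_sub_lt g.1 x hx
  pos := q2_pos p Ω I
  lt_one := q2_lt_one p Ω I
  e_pos := one_pos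
  prim := zeta_spec p Ω I
  fix g := by
    haveI := neZero_p p Ω I
    change g.1 • zeta p Ω I = _
    rw [smul_zeta, mem_omKer.1 g.2]
    have := zp_natCast p Ω I 1
    rwa [Nat.cast_one, pow_one] at this
  norm_zeta := by rw [mul_one, q2_pow p Ω I, norm_zeta_sub_one p Ω I]
  val x hx hfix := by
    haveI : Fact p.Prime := ⟨S.prime⟩
    letI : MulAction I {a : ZMod p // a ≠ 0} :=
      { smul := fun σ a => ⟨omega p Ω I σ * a.1, mul_ne_zero (omega_ne_zero σ) a.2⟩
        one_smul := fun a => Subtype.ext (by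
          change omega p Ω I 1 * a.1 = a.1
          rw [omega_one, one_mul])
        mul_smul := fun σ τ a => Subtype.ext (by
          change omega p Ω I (σ * τ) * a.1 = omega p Ω I σ * (omega p Ω I τ * a.1)
          rw [omega_mul, mul_assoc]) }
    obtain ⟨k, hk⟩ := norm_pow_card_of_stab (p := p) (I := I) (X := {a : ZMod p // a ≠ 0}) hx
      (fun a σ hσ => hfix ⟨σ, by
        have h1 : omega p Ω I σ * a.1 = a.1 := congrArg Subtype.val hσ
        exact mul_right_cancel₀ a.2 (h1.trans (one_mul _).symm)⟩)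
    have hcard : Nat.card {a : ZMod p // a ≠ 0} = p - 1 := by
      classical
      rw [Nat.card_eq_fintype_card, Fintype.card_subtype_compl, Fintype.card_subtype_eq,
        ZMod.card]
    rw [hcard] at hk
    refine ⟨-k, ?_⟩
    rw [q2_pow p Ω I]
    have h1 : ‖x‖ ^ (p - 1) = (rho p ^ (-k)) ^ (p - 1) := by
      rw [hk, ← zpow_natCast (rho p ^ (-k)), ← zpow_mul, mul_comm, zpow_mul, zpow_natCast,
        rho_pow p Ω I, inv_zpow, zpow_neg, inv_inv]
    exact (pow_left_inj₀ (norm_nonneg _) (zpow_nonneg (rho_pos p Ω I).le _)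
      (sub_one_ne_zero' p Ω I)).1 h1
  exists_pi := by
    refine ⟨zeta p Ω I - 1, fun g => ?_, by rw [norm_zeta_sub_one p Ω I, q2_pow p Ω I]⟩
    haveI := neZero_p p Ω I
    have h1 : g.1 • zeta p Ω I = zeta p Ω I := by
      rw [smul_zeta, mem_omKer.1 g.2]
      have := zp_natCast p Ω I 1
      rwa [Nat.cast_one, pow_one] at this
    change g.1 • (zeta p Ω I - 1) = _
    rw [smul_sub, smul_one, h1]
  near x hx := by
    obtain ⟨s, hs, hxs⟩ := S.exists_fixed_near x hx
    exact ⟨s, fun g => hs g.1, hxs⟩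

end Omega

section RankOne

variable {M : Type} [AddCommGroup M] {ρ : I → M → M}

theorem rad_nsmul_le (D : Ord p Ω I ρ) (n : ℕ) (z : M) : D.rad (n • z) ≤ D.rad z := by
  induction n with
  | zero => rw [zero_smul, D.rad_zero]; exact D.rad_nonneg z
  | succ n ih =>
    rw [succ_nsmul]
    exact (D.rad_add_le _ _).trans (max_le ih le_rfl)

theorem exists_nsmul_of_card (hc : Nat.card M = p) (hp : p.Prime) {z : M} (hz : z ≠ 0) (x : M) :
    ∃ n : ℕ, n • z = x := by
  haveI : Fact p.Prime := ⟨hp⟩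
  exact AddSubmonoid.mem_multiples_iff _ _ |>.1 (mem_multiples_of_prime_card hc hz)

/-- **Raynaud's theorem for modules of order `p`.** -/
theorem rank_one (h : IsAct ρ) (hc : Nat.card M = p) (D : Ord p Ω I ρ) :
    (∀ σ x, ρ σ x = x) ∨ ∀ x ≠ 0, D.rad x = rho p := by
  classical
  have hfin : Finite M := Nat.finite_of_card_ne_zero (by
    rw [hc]; exact S.prime.ne_zero)
  have hconst : ∀ x y : M, x ≠ 0 → y ≠ 0 → D.rad x = D.rad y := by
    have hle : ∀ x y : M, x ≠ 0 → D.rad y ≤ D.rad x := by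
      intro x y hx
      obtain ⟨n, rfl⟩ := exists_nsmul_of_card hc S.prime hx y
      exact rad_nsmul_le D n x
    exact fun x y hx hy => le_antisymm (hle y x hy) (hle x y hx)
  by_cases hr : ∃ z : M, z ≠ 0 ∧ D.rad z < 1
  · right
    obtain ⟨z, hz, hz1⟩ := hr
    intro x hx
    rw [hconst x z hx hz]
    obtain ⟨f, hf, hfz⟩ := D.exists_eq_rad z
    have hpz : p • z = 0 := by
      have := card_nsmul_eq_zero' (G := M) (x := z)
      rwa [hc] at this
    have hge := D.rho_le_rad hz (n := 1) (by rwa [pow_one])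
    have hx0 : f z - f 0 ≠ 0 := by
      rw [← norm_ne_zero_iff, hfz]
      exact ((rho_pos p Ω I).trans_le hge).ne'
    letI : MulAction I {m : M // m ≠ 0} :=
      { smul := fun σ m => ⟨ρ σ m.1, fun h0 => m.2 (h.injective σ (by
          rw [h0, h.zero]))⟩
        one_smul := fun m => Subtype.ext (h.one m.1)
        mul_smul := fun σ τ m => Subtype.ext (h.mul σ τ m.1) }
    obtain ⟨k, hk⟩ := norm_pow_card_of_stab (p := p) (I := I) (X := {m : M // m ≠ 0}) hx0
      (fun m σ hσ => by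
        have h1 : ρ σ m.1 = m.1 := congrArg Subtype.val hσ
        have h2 : ρ σ z = z := by
          obtain ⟨n, hn⟩ := exists_nsmul_of_card hc S.prime m.2 z
          rw [← hn, h.nsmul, h1]
        rw [smul_sub, ← D.equi f hf, ← D.equi f hf, h2, h.zero])
    have hcard : Nat.card {m : M // m ≠ 0} = p - 1 := by
      haveI := Fintype.ofFinite M
      rw [Nat.card_eq_fintype_card, Fintype.card_subtype_compl, Fintype.card_subtype_eq,
        ← Nat.card_eq_fintype_card, hc]
    rw [hcard, hfz] at hk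
    have hp1 := sub_one_ne_zero' p Ω I
    have hpp := one_lt_p p Ω I
    have h1 : (p : ℝ) ^ k < 1 := by
      rw [← hk]
      exact pow_lt_one₀ (D.rad_nonneg z) hz1 hp1
    have h2 : (p : ℝ) ^ (-1 : ℤ) ≤ (p : ℝ) ^ k := by
      rw [← hk, zpow_neg_one, ← rho_pow p Ω I]
      exact pow_le_pow_left₀ (rho_pos p Ω I).le hge _
    have h3 : k < 0 := by
      by_contra hcon
      push Not at hcon
      exact absurd h1 (not_lt.2 (one_le_zpow₀ hpp.le hcon))
    have h4 : -1 ≤ k := (zpow_le_zpow_iff_right₀ hpp).1 h2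
    have h5 : k = -1 := by omega
    rw [h5, zpow_neg_one, ← rho_pow p Ω I] at hk
    exact (pow_left_inj₀ (D.rad_nonneg z) (rho_pos p Ω I).le hp1).1 hk
  · left
    push Not at hr
    intro σ x
    by_contra hne
    have h1 := hr (ρ σ x - x) (sub_ne_zero.2 hne)
    exact absurd (D.rad_smul_sub_lt_one σ x) (not_lt.2 h1)

end RankOne

section Level

variable [hp : Fact p.Prime]

/-- extension of `ℤ/p` by `μ_p`. -/
def oAct (p : ℕ) (Ω : Type) [NormedField Ω] {I : Type} [Group I] [MulSemiringAction I Ω]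
    [Setting p Ω I] (f : I → ZMod p) (σ : I) (z : ZMod p × ZMod p) : ZMod p × ZMod p :=
  (z.1, omega p Ω I σ * z.2 + f σ * z.1)

variable (Ω) in
/-- cocycles with values in `μ_p`. -/
def OCoc (f : I → ZMod p) : Prop := ∀ σ τ, f (σ * τ) = f σ + omega p Ω I σ * f τ

theorem OCoc.one {f : I → ZMod p} (hf : OCoc Ω f) : f 1 = 0 := by
  have h := hf 1 1
  rw [mul_one, omega_one, one_mul] at h
  exact left_eq_add.1 h

theorem OCoc.conj {f : I → ZMod p} (hf : OCoc Ω f) (τ g : I) (hg : omega p Ω I g = 1) :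
    omega p Ω I τ * f (τ⁻¹ * g * τ) = f g := by
  have h1 := hf τ (τ⁻¹ * g * τ)
  have h2 := hf g τ
  have h3 : τ * (τ⁻¹ * g * τ) = g * τ := by group
  rw [h3, h2, hg, one_mul, add_comm] at h1
  exact (add_left_cancel h1).symm

theorem isAct_oAct {f : I → ZMod p} (hf : OCoc Ω f) : IsAct (oAct p Ω f) where
  one z := by
    rw [oAct, omega_one, hf.one, one_mul, zero_mul, add_zero]
  mul σ τ z := by
    simp only [oAct]
    rw [omega_mul, hf]
    refine Prod.ext rfl ?_
    simp only
    ring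
  add σ z z' := by
    simp only [oAct, Prod.fst_add, Prod.snd_add]
    refine Prod.ext rfl ?_
    simp only [Prod.snd_add]
    ring

/-- **Flat extensions of `ℤ/p` by `μ_p` are peu ramifiées.** -/
theorem oAct_level {f : I → ZMod p} (hf : OCoc Ω f) (D : Ord p Ω I (oAct p Ω f)) :
    ∃ Y : Ω, IsKum (zeta p Ω I) (fun g : omKer p Ω I => f g.1) Y ∧ ‖Y - 1‖ ≤ q2 p ^ (p - 1) := by
  haveI := charP_KR p Ω I
  have C := omCtx p Ω I
  by_cases h0 : ∀ g : omKer p Ω I, f g.1 = 0
  · refine ⟨1, ?_, ?_⟩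
    · have h1 := C.kum_one
      have h2 : (fun g : omKer p Ω I => f g.1) = fun _ => 0 := funext h0
      rw [h2]
      exact h1
    · rw [sub_self, norm_zero]
      exact pow_nonneg (q2_pos p Ω I).le _
  push Not at h0
  obtain ⟨g₀, hg₀⟩ := h0
  -- the radius
  let ρμ : I → ZMod p → ZMod p := fun σ b => omega p Ω I σ * b
  have hρμ : IsAct ρμ := by
    refine ⟨fun b => ?_, fun σ τ b => ?_, fun σ b b' => ?_⟩
    · change omega p Ω I 1 * b = b
      rw [omega_one, one_mul]
    · change omega p Ω I (σ * τ) * b = omega p Ω I σ * (omega p Ω I τ * b)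
      rw [omega_mul, mul_assoc]
    · exact mul_add _ _ _
  let j : ZMod p →+ ZMod p × ZMod p := AddMonoidHom.inr _ _
  have hj : Function.Injective j := fun b b' h => congrArg Prod.snd h
  have he : ∀ σ b, j (ρμ σ b) = oAct p Ω f σ (j b) := by
    intro σ b
    refine Prod.ext rfl ?_
    change omega p Ω I σ * b = omega p Ω I σ * b + f σ * 0
    rw [mul_zero, add_zero]
  have hrad : ∀ b : ZMod p, b ≠ 0 → D.rad (0, b) = rho p := by
    intro b hb
    rcases rank_one hρμ (Nat.card_zmod p) (D.restrict j hj he) with h | h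
    · exfalso
      obtain ⟨σ, hσ⟩ := exists_omega_ne_one p Ω I
      apply hσ
      have h1 : omega p Ω I σ * 1 = 1 := h σ 1
      rwa [mul_one] at h1
    · have h1 := h b hb
      rw [D.rad_restrict] at h1
      exact h1
  obtain ⟨h, hh, hhn⟩ := D.exists_norm_add_sub_eq (1, 0) (0, f g₀.1)
  rw [hrad _ hg₀] at hhn
  set β := h (1, 0) with hβ
  have hact : ∀ g : omKer p Ω I, oAct p Ω f g.1 (1, 0) = (1, 0) + (0, f g.1) := by
    intro g
    refine Prod.ext ?_ ?_
    · change (1 : ZMod p) = 1 + 0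
      rw [add_zero]
    · change omega p Ω I g.1 * 0 + f g.1 * 1 = 0 + f g.1
      rw [mul_zero, mul_one]
  have hgβ : ∀ g : omKer p Ω I, g • β = h ((1, 0) + (0, f g.1)) := by
    intro g
    rw [← hact g, D.equi h hh]
    rfl
  have hβfix : ∀ g : omKer p Ω I, f g.1 = 0 → g • β = β := by
    intro g hg
    rw [hgβ, hg]
    have : ((1, 0) + (0, 0) : ZMod p × ZMod p) = (1, 0) := by
      rw [show ((0, 0) : ZMod p × ZMod p) = 0 from rfl, add_zero]
    rw [this]
  have hβ1 : ‖β‖ ≤ 1 := D.norm_le_one hh _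
  have hβ0 : ‖g₀ • β - β‖ = rho p := by rw [hgβ]; exact hhn
  have hβne : g₀ • β ≠ β := by
    intro h1
    rw [h1, sub_self, norm_zero] at hβ0
    exact (rho_pos p Ω I).ne hβ0
  have hfm : ∀ g g' : omKer p Ω I, f (g * g').1 = f g.1 + f g'.1 := by
    intro g g'
    have h1 := hf g.1 g'.1
    rw [mem_omKer.1 g.2, one_mul] at h1
    exact h1
  obtain ⟨y, hy⟩ := C.exists_kum (f := fun g : omKer p Ω I => f g.1) hfm hβfix hβne
  obtain ⟨n, hn⟩ := C.norm_eq_zpow hy
  have hpn : (p : ℤ) ∣ n := by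
    by_contra hpn
    have h1 := C.bound_zero (f := fun g : omKer p Ω I => f g.1) hfm hβfix hβ1 hy hn hpn g₀
    rw [hβ0, mul_one, pow_add, pow_one, q2_pow p Ω I] at h1
    have h2 : q2 p * rho p < 1 * rho p :=
      mul_lt_mul_of_pos_right (q2_lt_one p Ω I) (rho_pos p Ω I)
    rw [one_mul] at h2
    exact absurd h1 (not_le.2 h2)
  obtain ⟨m, rfl⟩ := hpn
  obtain ⟨Y, i, hY, hi0, hi, hpi, hYi⟩ := C.normal (f := fun g : omKer p Ω I => f g.1) hg₀ hy
    (n := m) (by rw [hn, zpow_mul, zpow_natCast])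
  rw [mul_one] at hi
  refine ⟨Y, hY, ?_⟩
  rw [hYi]
  -- the level is `p - 1`
  have hc0 : Y - 1 ≠ 0 := by
    rw [← norm_ne_zero_iff, hYi]
    exact (pow_pos (q2_pos p Ω I) _).ne'
  have htame : ∀ τ : I, tame (Y - 1) τ = 1 := by
    intro τ
    have h1 := C.kum_conj hY (MulSemiringAction.toRingHom I Ω τ) (fun g : omKer p Ω I =>
      (⟨τ⁻¹ * g.1 * τ, by
        rw [mem_omKer, omega_mul, omega_mul, mem_omKer.1 g.2, mul_one, omega_inv_mul]⟩ :
          omKer p Ω I))
      (fun g z => by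
        change g.1 • τ • z = τ • ((τ⁻¹ * g.1 * τ) • z)
        rw [← mul_smul, ← mul_smul]
        congr 1
        group) (a := omega p Ω I τ) (smul_zeta p Ω I τ)
    have h2 : (fun g : omKer p Ω I => omega p Ω I τ * f (τ⁻¹ * g.1 * τ)) =
        fun g : omKer p Ω I => f g.1 := by
      funext g
      exact hf.conj τ g.1 (mem_omKer.1 g.2)
    rw [h2] at h1
    have h3 : ‖τ • Y - 1‖ ≤ q2 p ^ i := by
      have h4 : τ • Y - 1 = τ • (Y - 1) := by rw [smul_sub, smul_one]
      rw [h4, S.norm_smul, hYi]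
    have h5 : ‖τ • Y - Y‖ < q2 p ^ i := C.kum_unique h1 hY hi0 hpi h3 hYi.le
    have h6 : gr (Y - 1) (τ • Y) = gr (Y - 1) Y :=
      gr_congr hc0 (by rw [hYi]; exact h3) le_rfl (by rw [hYi]; exact h5)
    rw [gr_smul (p := p) hc0 le_rfl τ] at h6
    have h7 : gr (Y - 1) Y ≠ 0 := gr_ne_zero hc0 rfl
    exact mul_right_cancel₀ h7 (h6.trans (one_mul _).symm)
  have hpp := one_lt_p p Ω I
  have hnorm : ‖(Y - 1) ^ p‖ = rho p ^ i := by
    rw [norm_pow, hYi, ← pow_mul, mul_comm, pow_mul, q2_pow p Ω I]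
  have hpd : ¬ p ∣ p - 1 := by
    intro hd
    have h1 := Nat.le_of_dvd (by have := one_lt_sub_one p Ω I; omega) hd
    have := S.prime.two_le
    omega
  have hnorm2 : ‖(Y - 1) ^ p‖ ^ (p - 1) = (p : ℝ) ^ (-(i : ℤ)) := by
    rw [hnorm, ← pow_mul, mul_comm, pow_mul, rho_pow p Ω I, inv_pow, zpow_neg, zpow_natCast]
  obtain ⟨k, hk⟩ := norm_eq_zpow_of_tame p hpd hnorm2 (fun σ => by
    rw [tame_pow (Ω := Ω) (I := I) p hc0 p σ, htame, one_pow])
  rw [hk, ← zpow_natCast, ← zpow_mul] at hnorm2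
  have h8 := zpow_right_injective₀ (p_pos p Ω I) hpp.ne' hnorm2
  have h9 : ((p - 1 : ℕ) : ℤ) ∣ (i : ℤ) := ⟨-k, by linear_combination h8⟩
  rw [Int.natCast_dvd_natCast] at h9
  obtain ⟨t, ht⟩ := h9
  have h10 := one_lt_sub_one p Ω I
  have h11 : t = 1 := by
    rcases Nat.lt_trichotomy t 1 with h | h | h
    · have : t = 0 := by omega
      rw [this, mul_zero] at ht
      omega
    · exact h
    · have h12 : (p - 1) * 2 ≤ (p - 1) * t := Nat.mul_le_mul_left _ h
      omega
  rw [h11, mul_one] at ht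
  rw [ht]

end Level

end Fermat.Agent.Flat
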