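import Fermat.Agent.Flat.Dual
import Mathlib.Algebra.Module.ZMod
import Mathlib.LinearAlgebra.Dual.Lemmas

/-!
# Products and quotients of orders
-/

set_option autoImplicit false
set_option linter.unusedSectionVars false
set_option linter.style.haveILetI false

noncomputable section

namespace Fermat.Agent.Flat

/-- An additive action. -/
structure IsAct {I : Type} [Group I] {M : Type} [AddCommGroup M] (ρ : I → M → M) : Prop where
  one : ∀ x, ρ 1 x = x
  mul : ∀ σ τ x, ρ (σ * τ) x = ρ σ (ρ τ x)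
  add : ∀ σ x y, ρ σ (x + y) = ρ σ x + ρ σ y

namespace IsAct

variable {I : Type} [Group I] {M : Type} [AddCommGroup M] {ρ : I → M → M} (h : IsAct ρ)
include h

theorem zero (σ : I) : ρ σ 0 = 0 := by
  have := h.add σ 0 0
  rw [add_zero] at this
  exact (add_eq_left.1 this.symm)

/-- the action of one element as an additive map -/
def hom (σ : I) : M →+ M where
  toFun := ρ σ
  map_zero' := h.zero σ
  map_add' := h.add σ

theorem hom_apply (σ : I) (x : M) : h.hom σ x = ρ σ x := rfl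

theorem neg (σ : I) (x : M) : ρ σ (-x) = -ρ σ x := map_neg (h.hom σ) x

theorem sub (σ : I) (x y : M) : ρ σ (x - y) = ρ σ x - ρ σ y := map_sub (h.hom σ) x y

theorem nsmul (σ : I) (n : ℕ) (x : M) : ρ σ (n • x) = n • ρ σ x := map_nsmul (h.hom σ) n x

theorem inv_apply (σ : I) (x : M) : ρ σ⁻¹ (ρ σ x) = x := by
  rw [← h.mul, inv_mul_cancel, h.one]

theorem apply_inv (σ : I) (x : M) : ρ σ (ρ σ⁻¹ x) = x := by
  rw [← h.mul, mul_inv_cancel, h.one]

theorem injective (σ : I) : Function.Injective (ρ σ) := fun x y hxy => by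
  rw [← h.inv_apply σ x, hxy, h.inv_apply]

end IsAct

variable {p : ℕ} {Ω : Type} [NormedField Ω] {I : Type} [Group I] [MulSemiringAction I Ω]
    [S : Setting p Ω I]

section Zeta

variable (p Ω I)

include S in
theorem exists_zeta : ∃ ζ : Ω, IsPrimitiveRoot ζ p := by
  haveI := S.charZero
  haveI := S.isAlgClosed
  haveI : NeZero (p : Ω) := ⟨by exact_mod_cast S.prime.ne_zero⟩
  exact HasEnoughRootsOfUnity.exists_primitiveRoot Ω p

/-- A primitive `p`-th root of unity. -/
def zeta : Ω := (exists_zeta p Ω I).choose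

theorem zeta_spec : IsPrimitiveRoot (zeta p Ω I) p := (exists_zeta p Ω I).choose_spec

/-- `ζ ^ a` for `a` modulo `p`. -/
def zp (a : ZMod p) : Ω := zeta p Ω I ^ a.val

theorem zp_natCast (n : ℕ) : zp p Ω I (n : ZMod p) = zeta p Ω I ^ n := by
  rw [zp, ZMod.val_natCast]
  exact (pow_eq_pow_mod n (zeta_spec p Ω I).pow_eq_one).symm

include S in
theorem neZero_p : NeZero p := ⟨S.prime.ne_zero⟩

theorem zp_add (a b : ZMod p) : zp p Ω I (a + b) = zp p Ω I a * zp p Ω I b := by
  haveI := neZero_p p Ω I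
  rw [zp, zp, zp, ← pow_add, ZMod.val_add]
  exact (pow_eq_pow_mod _ (zeta_spec p Ω I).pow_eq_one).symm

@[simp]
theorem zp_zero : zp p Ω I 0 = 1 := by
  rw [zp, ZMod.val_zero, pow_zero]

theorem zp_ne_zero (a : ZMod p) : zp p Ω I a ≠ 0 :=
  pow_ne_zero _ ((zeta_spec p Ω I).ne_zero (Setting.prime (Ω := Ω) (I := I)).ne_zero)

theorem zp_injective : Function.Injective (zp p Ω I) := by
  haveI := neZero_p p Ω I
  intro a b h
  exact ZMod.val_injective p ((zeta_spec p Ω I).pow_inj (ZMod.val_lt a) (ZMod.val_lt b) h)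

theorem zp_mul_natCast (a : ZMod p) (n : ℕ) : zp p Ω I ((n : ZMod p) * a) = zp p Ω I a ^ n := by
  induction n with
  | zero => simp
  | succ n ih => rw [Nat.cast_succ, add_mul, one_mul, zp_add, ih, pow_succ]

theorem exists_omega (σ : I) : ∃ a : ZMod p, σ • zeta p Ω I = zp p Ω I a := by
  haveI := neZero_p p Ω I
  have h1 : (σ • zeta p Ω I) ^ p = 1 := by
    rw [← smul_pow', (zeta_spec p Ω I).pow_eq_one, smul_one]
  obtain ⟨i, -, hi⟩ := (zeta_spec p Ω I).eq_pow_of_pow_eq_one (k := p) h1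
  exact ⟨i, by rw [zp_natCast, hi]⟩

/-- The mod `p` cyclotomic character. -/
def omega (σ : I) : ZMod p := (exists_omega p Ω I σ).choose

theorem smul_zeta (σ : I) : σ • zeta p Ω I = zp p Ω I (omega p Ω I σ) :=
  (exists_omega p Ω I σ).choose_spec

theorem smul_zp (σ : I) (a : ZMod p) : σ • zp p Ω I a = zp p Ω I (omega p Ω I σ * a) := by
  haveI := neZero_p p Ω I
  have h1 : a = ((a.val : ℕ) : ZMod p) := (ZMod.natCast_zmod_val a).symm
  rw [mul_comm]
  conv_rhs => rw [h1]
  rw [zp_mul_natCast, zp, smul_pow', smul_zeta]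

theorem omega_one : omega p Ω I 1 = 1 := by
  apply zp_injective p Ω I
  rw [← smul_zeta, one_smul]
  have := zp_natCast p Ω I 1
  rw [Nat.cast_one, pow_one] at this
  exact this.symm

theorem omega_mul (σ τ : I) : omega p Ω I (σ * τ) = omega p Ω I σ * omega p Ω I τ := by
  apply zp_injective p Ω I
  rw [← smul_zeta, mul_smul, smul_zeta p Ω I τ, smul_zp]

/-- the norm of `ζ - 1` -/
theorem norm_zp_sub_one {a : ZMod p} (ha : a ≠ 0) : ‖zp p Ω I a - 1‖ = rho p := by
  haveI : Fact p.Prime := ⟨S.prime⟩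
  haveI := neZero_p p Ω I
  have hpp := p_pos p Ω I
  -- the product over all nonzero `b` of `1 - ζ^b` is `p`
  have hcop : ∀ b : ZMod p, b ≠ 0 → ‖zp p Ω I b - 1‖ = ‖zeta p Ω I - 1‖ := by
    intro b hb
    have hle : ∀ c : ZMod p, ∀ (n : ℕ), ‖zp p Ω I c ^ n - 1‖ ≤ ‖zp p Ω I c - 1‖ := by
      intro c n
      have hc1 : ‖zp p Ω I c‖ = 1 := by
        have h1 : ‖zp p Ω I c‖ ^ p = 1 := by
          rw [← norm_pow, zp, ← pow_mul, mul_comm, pow_mul, (zeta_spec p Ω I).pow_eq_one, one_pow,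
            norm_one]
        exact (pow_eq_one_iff_of_nonneg (norm_nonneg _) S.prime.ne_zero).1 h1
      rw [← geom_sum_mul, norm_mul]
      have h2 : ‖∑ i ∈ Finset.range n, zp p Ω I c ^ i‖ ≤ 1 := by
        apply norm_sum_le_of_le p Ω I _ _ one_pos.le
        intro i _
        rw [norm_pow, hc1, one_pow]
      calc _ ≤ 1 * ‖zp p Ω I c - 1‖ := mul_le_mul_of_nonneg_right h2 (norm_nonneg _)
        _ = _ := one_mul _
    have hz1 : zp p Ω I 1 = zeta p Ω I := by
      have := zp_natCast p Ω I 1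
      rwa [Nat.cast_one, pow_one] at this
    apply le_antisymm
    · have := hle 1 b.val
      rw [← zp_mul_natCast, mul_one, ZMod.natCast_zmod_val, hz1] at this
      exact this
    · have := hle b (b⁻¹ : ZMod p).val
      rw [← zp_mul_natCast, ZMod.natCast_zmod_val, inv_mul_cancel₀ hb, hz1] at this
      exact this
  rw [hcop a ha]
  have h1 : ‖zeta p Ω I - 1‖ ^ (p - 1) = (p : ℝ)⁻¹ := by
    have h3 : ∏ μ ∈ primitiveRoots p Ω, (1 - μ) = (p : Ω) := by
      have h4 : (Polynomial.cyclotomic p Ω).eval 1 = (p : Ω) := by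
        rw [Polynomial.eval_one_cyclotomic_prime]
      rw [← h4, Polynomial.cyclotomic_eq_prod_X_sub_primitiveRoots (zeta_spec p Ω I),
        Polynomial.eval_prod]
      exact Finset.prod_congr rfl fun μ _ => by simp
    have h5 := congrArg norm h3
    rw [norm_prod, S.norm_p] at h5
    rw [← h5]
    rw [Finset.prod_congr rfl (g := fun _ => ‖zeta p Ω I - 1‖) fun μ hμ => by
      have hμ' := (mem_primitiveRoots S.prime.pos).1 hμ
      obtain ⟨i, hi, hi'⟩ := (zeta_spec p Ω I).eq_pow_of_pow_eq_one hμ'.pow_eq_one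
      rw [norm_sub_rev, ← hi', ← zp_natCast]
      apply hcop
      intro h0
      rw [← hi', ← zp_natCast, h0, zp_zero] at hμ'
      exact S.prime.one_lt.ne' (hμ'.eq_orderOf.trans orderOf_one)]
    rw [Finset.prod_const, (zeta_spec p Ω I).card_primitiveRoots, Nat.totient_prime S.prime]
  have h2 := rho_pow p Ω I
  rw [← h1] at h2
  have hp1 : p - 1 ≠ 0 := by
    have := S.prime.two_le
    omega
  exact (pow_left_inj₀ (norm_nonneg _) (rho_pos p Ω I).le hp1).1 h2.symm

end Zeta

end Fermat.Agent.Flat
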