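import Fermat.Agent.Flat.Char

/-!
# Residues and tame characters
-/

set_option autoImplicit false
set_option linter.unusedSectionVars false
set_option linter.style.haveILetI false

noncomputable section

namespace Fermat.Agent.Flat

section Residue

variable (Ω : Type) [NormedField Ω] [hU : IsUltrametricDist Ω]

/-- The closed unit ball as a valuation ring. -/
def Ball : ValuationSubring Ω where
  carrier := {x | ‖x‖ ≤ 1}
  mul_mem' {a b} ha hb := by
    change ‖a * b‖ ≤ 1
    rw [norm_mul]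
    exact mul_le_one₀ ha (norm_nonneg _) hb
  one_mem' := by change ‖(1 : Ω)‖ ≤ 1; rw [norm_one]
  add_mem' {a b} ha hb := (IsUltrametricDist.norm_add_le_max a b).trans (max_le ha hb)
  zero_mem' := by change ‖(0 : Ω)‖ ≤ 1; simp
  neg_mem' {a} ha := by change ‖-a‖ ≤ 1; rwa [norm_neg]
  mem_or_inv_mem' x := by
    by_cases h : ‖x‖ ≤ 1
    · exact Or.inl h
    · right
      change ‖x⁻¹‖ ≤ 1
      rw [norm_inv]
      exact inv_le_one_of_one_le₀ (not_le.1 h).le

/-- The residue field. -/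
abbrev KR : Type := IsLocalRing.ResidueField (Ball Ω)

variable {Ω}

theorem mem_Ball {x : Ω} : x ∈ Ball Ω ↔ ‖x‖ ≤ 1 := Iff.rfl

theorem isUnit_Ball_iff (x : Ball Ω) : IsUnit x ↔ ‖(x : Ω)‖ = 1 := by
  rw [isUnit_iff_exists_inv]
  constructor
  · rintro ⟨y, hy⟩
    have h1 : ‖(x : Ω)‖ * ‖(y : Ω)‖ = 1 := by
      rw [← norm_mul]
      have h2 : (x : Ω) * (y : Ω) = 1 := congrArg Subtype.val hy
      rw [h2, norm_one]
    have hx : ‖(x : Ω)‖ ≤ 1 := x.2
    have hy1 : ‖(y : Ω)‖ ≤ 1 := y.2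
    apply le_antisymm hx
    rw [← h1]
    exact mul_le_of_le_one_right (norm_nonneg _) hy1
  · intro h
    have hx0 : (x : Ω) ≠ 0 := by
      intro h0
      rw [h0, norm_zero] at h
      exact zero_ne_one h
    refine ⟨⟨(x : Ω)⁻¹, ?_⟩, ?_⟩
    · change ‖(x : Ω)⁻¹‖ ≤ 1
      rw [norm_inv, h, inv_one]
    · apply Subtype.ext
      exact mul_inv_cancel₀ hx0

theorem residue_Ball_eq_zero_iff (x : Ball Ω) :
    IsLocalRing.residue (Ball Ω) x = 0 ↔ ‖(x : Ω)‖ < 1 := by
  rw [IsLocalRing.residue_eq_zero_iff, IsLocalRing.mem_maximalIdeal, mem_nonunits_iff,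
    isUnit_Ball_iff]
  have hx : ‖(x : Ω)‖ ≤ 1 := x.2
  exact ⟨fun h => lt_of_le_of_ne hx h, fun h => h.ne⟩

open scoped Classical in
/-- The total residue map. -/
def res (x : Ω) : KR Ω := if h : ‖x‖ ≤ 1 then IsLocalRing.residue (Ball Ω) ⟨x, h⟩ else 0

theorem res_of_le {x : Ω} (h : ‖x‖ ≤ 1) : res x = IsLocalRing.residue (Ball Ω) ⟨x, h⟩ := by
  rw [res, dif_pos h]

theorem res_eq_zero_iff {x : Ω} (h : ‖x‖ ≤ 1) : res x = 0 ↔ ‖x‖ < 1 := by
  rw [res_of_le h, residue_Ball_eq_zero_iff]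

@[simp] theorem res_zero : res (0 : Ω) = 0 := by
  rw [res_eq_zero_iff (by simp)]; simp

@[simp] theorem res_one : res (1 : Ω) = 1 := by
  rw [res_of_le (by simp)]
  exact map_one _

theorem res_add {x y : Ω} (hx : ‖x‖ ≤ 1) (hy : ‖y‖ ≤ 1) : res (x + y) = res x + res y := by
  rw [res_of_le hx, res_of_le hy,
    res_of_le ((IsUltrametricDist.norm_add_le_max x y).trans (max_le hx hy)), ← map_add]
  rfl

theorem res_mul {x y : Ω} (hx : ‖x‖ ≤ 1) (hy : ‖y‖ ≤ 1) : res (x * y) = res x * res y := by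
  rw [res_of_le hx, res_of_le hy,
    res_of_le (by rw [norm_mul]; exact mul_le_one₀ hx (norm_nonneg _) hy), ← map_mul]
  rfl

theorem res_neg {x : Ω} (hx : ‖x‖ ≤ 1) : res (-x) = -res x := by
  rw [res_of_le hx, res_of_le (by rwa [norm_neg]), ← map_neg]
  rfl

theorem res_sub {x y : Ω} (hx : ‖x‖ ≤ 1) (hy : ‖y‖ ≤ 1) : res (x - y) = res x - res y := by
  rw [sub_eq_add_neg, res_add hx (by rwa [norm_neg]), res_neg hy, sub_eq_add_neg]

theorem res_pow {x : Ω} (hx : ‖x‖ ≤ 1) (n : ℕ) : res (x ^ n) = res x ^ n := by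
  rw [res_of_le hx, res_of_le (by rw [norm_pow]; exact pow_le_one₀ (norm_nonneg _) hx), ← map_pow]
  rfl

theorem res_sum {ι : Type*} (s : Finset ι) (f : ι → Ω) (h : ∀ i ∈ s, ‖f i‖ ≤ 1) :
    res (∑ i ∈ s, f i) = ∑ i ∈ s, res (f i) := by
  classical
  induction s using Finset.induction_on with
  | empty => simp
  | insert a s ha ih =>
    have h1 : ∀ i ∈ s, ‖f i‖ ≤ 1 := fun i hi => h i (Finset.mem_insert_of_mem hi)
    rw [Finset.sum_insert ha, Finset.sum_insert ha, ← ih h1]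
    apply res_add (h a (Finset.mem_insert_self _ _))
    exact IsUltrametricDist.norm_sum_le_of_forall_le_of_nonneg zero_le_one h1

theorem res_eq_iff {x y : Ω} (hx : ‖x‖ ≤ 1) (hy : ‖y‖ ≤ 1) : res x = res y ↔ ‖x - y‖ < 1 := by
  rw [← sub_eq_zero, ← res_sub hx hy, res_eq_zero_iff]
  rw [sub_eq_add_neg]
  exact (IsUltrametricDist.norm_add_le_max x (-y)).trans (max_le hx (by rwa [norm_neg]))

theorem res_natCast (n : ℕ) : res (n : Ω) = n := by
  rw [res_of_le (IsUltrametricDist.norm_natCast_le_one Ω n)]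
  exact map_natCast _ n

theorem res_ne_zero {x : Ω} (hx : ‖x‖ = 1) : res x ≠ 0 := by
  rw [Ne, res_eq_zero_iff hx.le, hx]
  exact lt_irrefl _

theorem res_surj (k : KR Ω) : ∃ x : Ω, ‖x‖ ≤ 1 ∧ res x = k := by
  obtain ⟨y, rfl⟩ := IsLocalRing.residue_surjective k
  exact ⟨y, y.2, res_of_le y.2⟩

end Residue

section Setting

variable {p : ℕ} {Ω : Type} [NormedField Ω] [hU : IsUltrametricDist Ω] {I : Type} [Group I]
    [MulSemiringAction I Ω] [S : Setting p Ω I]

variable (p Ω I) in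
include S in
theorem charP_KR : CharP (KR Ω) p := by
  haveI : Fact p.Prime := ⟨S.prime⟩
  have h : ((p : ℕ) : KR Ω) = 0 := by
    rw [← res_natCast, res_eq_zero_iff (IsUltrametricDist.norm_natCast_le_one Ω p), S.norm_p]
    exact inv_lt_one_of_one_lt₀ (one_lt_p p Ω I)
  exact (CharP.charP_iff_prime_eq_zero S.prime).2 h

variable (p) in
include S in
theorem res_smul (σ : I) {x : Ω} (hx : ‖x‖ ≤ 1) : res (σ • x) = res x := by
  rw [res_eq_iff (by rwa [S.norm_smul]) hx]
  exact S.norm_smul_sub_lt σ x hx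

/-- The tame character attached to `c`. -/
def tame (c : Ω) (σ : I) : KR Ω := res (σ • c / c)

variable (p) in
include S in
theorem norm_smul_div {c : Ω} (hc : c ≠ 0) (σ : I) : ‖σ • c / c‖ = 1 := by
  rw [norm_div, S.norm_smul, div_self (norm_ne_zero_iff.2 hc)]

variable (p) in
include S in
theorem tame_ne_zero {c : Ω} (hc : c ≠ 0) (σ : I) : tame c σ ≠ 0 :=
  res_ne_zero (norm_smul_div p hc σ)

variable (p) in
include S in
theorem tame_mul {c d : Ω} (hc : c ≠ 0) (hd : d ≠ 0) (σ : I) :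
    tame (c * d) σ = tame c σ * tame d σ := by
  rw [tame, tame, tame, ← res_mul (norm_smul_div p hc σ).le (norm_smul_div p hd σ).le, smul_mul']
  congr 1
  field_simp

variable (p) in
include S in
theorem tame_pow {c : Ω} (hc : c ≠ 0) (n : ℕ) (σ : I) : tame (c ^ n) σ = tame c σ ^ n := by
  rw [tame, tame, ← res_pow (norm_smul_div p hc σ).le, smul_pow', div_pow]

variable (p) in
include S in
theorem tame_eq {c d : Ω} (hc : c ≠ 0) (h : ‖c‖ = ‖d‖) (σ : I) : tame c σ = tame d σ := by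
  have hd : d ≠ 0 := by
    intro h0
    rw [h0, norm_zero, norm_eq_zero] at h
    exact hc h
  have h1 : ‖c / d‖ = 1 := by rw [norm_div, h, div_self (norm_ne_zero_iff.2 hd)]
  have h2 : c = (c / d) * d := by field_simp
  have h3 : tame (c / d) σ = 1 := by
    have h4 : res (σ • (c / d)) = res (c / d) := res_smul p σ h1.le
    have h5 : tame (c / d) σ * res (c / d) = res (c / d) := by
      rw [tame, ← res_mul (norm_smul_div p (div_ne_zero hc hd) σ).le h1.le,
        div_mul_cancel₀ _ (div_ne_zero hc hd), h4]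
    exact mul_eq_right₀ (res_ne_zero h1) |>.1 h5
  rw [h2, tame_mul p (div_ne_zero hc hd) hd, h3, one_mul]

variable (p) in
include S in
theorem tame_one_smul {c : Ω} (hc : c ≠ 0) : tame c (1 : I) = 1 := by
  rw [tame, one_smul, div_self hc, res_one]

variable (p) in
include S in
/-- `tame c` is a homomorphism. -/
theorem tame_map_mul {c : Ω} (hc : c ≠ 0) (σ τ : I) : tame c (σ * τ) = tame c σ * tame c τ := by
  have h1 : (σ * τ) • c / c = (σ • c / c) * (σ • (τ • c / c)) := by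
    rw [mul_smul, smul_div₀']
    have : σ • c ≠ 0 := by
      rw [← norm_ne_zero_iff, S.norm_smul]
      exact norm_ne_zero_iff.2 hc
    field_simp
  rw [tame, h1, res_mul (norm_smul_div p hc σ).le (by
    rw [S.norm_smul]; exact (norm_smul_div p hc τ).le), res_smul p σ (norm_smul_div p hc τ).le]
  rfl

variable (p) in
include S in
theorem tame_of_fixed {c : Ω} (hc : c ≠ 0) {σ : I} (h : σ • c = c) : tame c σ = 1 := by
  rw [tame, h, div_self hc, res_one]

variable (p I) in
include S in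
/-- roots of unity of order prime to `p` are determined by their residue -/
theorem eq_one_of_pow {n : ℕ} (hn : ¬ p ∣ n) {x : Ω} (hx : x ^ n = 1) (h1 : res x = 1) :
    x = 1 := by
  by_contra hne
  have hn0 : n ≠ 0 := by
    rintro rfl
    exact hn (dvd_zero p)
  have hx1 : ‖x‖ = 1 := by
    have h2 : ‖x‖ ^ n = 1 := by rw [← norm_pow, hx, norm_one]
    exact (pow_eq_one_iff_of_nonneg (norm_nonneg _) hn0).1 h2
  have h3 : ∑ j ∈ Finset.range n, x ^ j = 0 := by
    have h4 := geom_sum_mul x n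
    rw [hx, sub_self] at h4
    exact (mul_eq_zero.1 h4).resolve_right (sub_ne_zero.2 hne)
  have h4 := congrArg res h3
  rw [res_sum _ _ fun j _ => by rw [norm_pow, hx1, one_pow], res_zero] at h4
  simp only [res_pow hx1.le, h1, one_pow, Finset.sum_const, Finset.card_range, nsmul_eq_mul,
    mul_one] at h4
  have h5 := norm_natCast_eq_one p Ω I hn
  rw [← res_natCast, res_eq_zero_iff h5.le, h5] at h4
  exact lt_irrefl _ h4

variable (p) in
include S in
/-- the tame character of an element with norm in `p ^ ℚ'` is trivial only if the norm is in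
`p ^ ℤ`. -/
theorem norm_eq_zpow_of_tame {n : ℕ} (hn : ¬ p ∣ n) {d : Ω} {m : ℤ}
    (hdn : ‖d‖ ^ n = (p : ℝ) ^ m) (ht : ∀ σ : I, tame d σ = 1) : ∃ k : ℤ, ‖d‖ = (p : ℝ) ^ k := by
  haveI := S.isAlgClosed
  haveI := S.charZero
  have hn0 : n ≠ 0 := by
    rintro rfl
    exact hn (dvd_zero p)
  have hp0 : (p : Ω) ≠ 0 := by exact_mod_cast S.prime.ne_zero
  obtain ⟨d', hd'⟩ := IsAlgClosed.exists_pow_nat_eq ((p : Ω) ^ (-m)) (Nat.pos_of_ne_zero hn0)
  have hd'0 : d' ≠ 0 := by
    rintro rfl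
    rw [zero_pow hn0] at hd'
    exact zpow_ne_zero _ hp0 hd'.symm
  have hnorm : ‖d'‖ = ‖d‖ := by
    have h1 : ‖d'‖ ^ n = ‖d‖ ^ n := by
      rw [← norm_pow, hd', norm_zpow, S.norm_p, hdn, inv_zpow, zpow_neg, inv_inv]
    exact (pow_left_inj₀ (norm_nonneg _) (norm_nonneg _) hn0).1 h1
  have hfix : ∀ σ : I, σ • d' = d' := by
    intro σ
    have h1 : (σ • d' / d') ^ n = 1 := by
      have h2 : σ • (p : Ω) = p := map_natCast (MulSemiringAction.toRingHom I Ω σ) p
      rw [div_pow, ← smul_pow', hd', smul_zpow₀', h2, div_self (zpow_ne_zero _ hp0)]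
    have h2 : σ • d' / d' = 1 := by
      apply eq_one_of_pow p I hn h1
      have h3 := tame_eq p hd'0 hnorm σ
      rw [ht σ] at h3
      exact h3
    rw [div_eq_one_iff_eq hd'0] at h2
    exact h2
  rw [← hnorm]
  exact S.norm_fixed d' hd'0 hfix

end Setting

end Fermat.Agent.Flat
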