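import Fermat.Agent.Flat.SSFinal

/-!
# The bound for flat classes in the supersingular case
-/

set_option autoImplicit false
set_option linter.unusedSectionVars false
set_option linter.style.haveILetI false

noncomputable section

namespace Fermat.Agent.Flat

variable {p : ℕ} {Ω : Type} [NormedField Ω] [hU : IsUltrametricDist Ω]

section Lev

variable {I : Type} [Group I] [MulSemiringAction I Ω] [S : Setting p Ω I]

namespace SS

variable {M : Type} [AddCommGroup M] {ρ : I → M → M} {b : M →+ M →+ ZMod p}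
  (hS : SS p Ω I ρ b) {lam : M →+ KR Ω} (hinj : Function.Injective lam)
  (hlam : ∀ σ x, lam (ρ σ x) = psi p Ω σ * lam x)
include hinj hlam

theorem levAll_zero (j : ℕ) : hS.LevAll (0 : actKer hS.act → M →+ M) j := by
  intro x y
  refine ⟨1, ?_, ?_⟩
  · have h1 := (hS.kumCtx hinj hlam).kum_one
    have h2 : coe' b (0 : actKer hS.act → M →+ M) x y = fun _ => 0 := by
      funext g
      change b y 0 = 0
      rw [map_zero]
    rw [h2]
    exact h1
  · rw [sub_self, norm_zero]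
    exact pow_nonneg (q1_pos p Ω I).le _

theorem levAll_add {c c' : actKer hS.act → M →+ M} {j : ℕ} (h : hS.LevAll c j)
    (h' : hS.LevAll c' j) : hS.LevAll (fun g => c g + c' g) j := by
  intro x y
  obtain ⟨Y, hY, hYn⟩ := h x y
  obtain ⟨Y', hY', hYn'⟩ := h' x y
  refine ⟨Y * Y', ?_, norm_mul_sub_one (pow_le_one₀ (q1_pos p Ω I).le (q1_lt_one p Ω I).le)
    hYn hYn'⟩
  have h1 := (hS.kumCtx hinj hlam).kum_mul hY hY'
  have h2 : coe' b (fun g => c g + c' g) x y = fun g => coe' b c x y g + coe' b c' x y g := by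
    funext g
    rw [coe', coe', coe', AddMonoidHom.add_apply, map_add]
  rw [h2]
  exact h1

theorem levAll_neg {c : actKer hS.act → M →+ M} {j : ℕ} (h : hS.LevAll c j) :
    hS.LevAll (fun g => -c g) j := by
  intro x y
  obtain ⟨Y, hY, hYn⟩ := h (-x) y
  refine ⟨Y, ?_, hYn⟩
  have h2 : coe' b (fun g => -c g) x y = coe' b c (-x) y := by
    funext g
    rw [coe', coe', AddMonoidHom.neg_apply, map_neg, map_neg, map_neg]
  rw [h2]
  exact hY

end SS

end Lev

section Bound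

variable {Γ : Type} [Group Γ] [TopologicalSpace Γ] [IsTopologicalGroup Γ]
    [MulSemiringAction Γ Ω] {I : Subgroup Γ} [S : Setting p Ω I]
  {F : Γ} (hF : FrobData p Ω I F)
  {M : Type} [AddCommGroup M] {ρ : Γ → M → M} {b : M →+ M →+ ZMod p}
  (hρ : IsAct ρ) (hS : SS p Ω I (rI I ρ) b)
  (hb : ∀ γ x y, b (ρ γ x) (ρ γ y) = eps p Ω I γ * b x y)
  {lam : M →+ KR Ω} (hinj : Function.Injective lam)
  (hlam : ∀ (σ : I) x, lam (ρ σ.1 x) = psi p Ω σ * lam x)
  (hgen : ∀ U : Subgroup Γ, IsOpen (U : Set Γ) → I ≤ U → F ∈ U → U = ⊤)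
  (hρc : ∃ U : Subgroup Γ, IsOpen (U : Set Γ) ∧ ∀ γ ∈ U, ∀ x, ρ γ x = x)

/-- The group of symmetric cocycles of high level. -/
def flatLev : AddSubgroup (Γ → M →+ M) where
  carrier := {c | ICoc ρ c ∧ (∀ γ, Symm b (c γ)) ∧ LC c ∧
    hS.LevAll (resK hS.act (cI I c)) (p ^ 2 + 1)}
  zero_mem' := by
    refine ⟨fun σ τ x => ?_, fun γ x y => ?_, ⟨⊤, isOpen_univ, fun γ _ => rfl⟩, ?_⟩
    · change (0 : M) = 0 + ρ σ 0
      rw [hρ.zero, add_zero]
    · change b y 0 = b x 0
      rw [map_zero, map_zero]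
    · exact hS.levAll_zero hinj hlam _
  add_mem' := by
    rintro c c' ⟨h1, h2, h3, h4⟩ ⟨h1', h2', h3', h4'⟩
    refine ⟨h1.add hρ h1', fun γ x y => ?_, h3.add h3', ?_⟩
    · change b y (c γ x + c' γ x) = b x (c γ y + c' γ y)
      rw [map_add, map_add, h2, h2']
    · exact hS.levAll_add hinj hlam h4 h4'
  neg_mem' := by
    rintro c ⟨h1, h2, h3, h4⟩
    refine ⟨fun σ τ x => ?_, fun γ x y => ?_, ?_, ?_⟩
    · change -(c (σ * τ) x) = -(c σ x) + ρ σ (-(c τ (ρ σ⁻¹ x)))
      rw [h1, hρ.neg]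
      abel
    · change b y (-c γ x) = b x (-c γ y)
      rw [map_neg, map_neg, h2]
    · obtain ⟨U, hU, hc⟩ := h3
      refine ⟨U, hU, fun γ hγ => ?_⟩
      change -c γ = 0
      rw [hc γ hγ, neg_zero]
    · exact hS.levAll_neg hinj hlam h4

theorem mem_flatLev {c : Γ → M →+ M} : c ∈ flatLev hρ hS hinj hlam ↔
    ICoc ρ c ∧ (∀ γ, Symm b (c γ)) ∧ LC c ∧ hS.LevAll (resK hS.act (cI I c)) (p ^ 2 + 1) :=
  Iff.rfl

include hF hb hgen hρc in
/-- **The bound**, in the form of a homomorphism to a group of order at most `p`. -/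
theorem flatLev_bound : ∃ Φ : flatLev hρ hS hinj hlam →+ KR Ω,
    (Set.range Φ).Finite ∧ (Set.range Φ).ncard ≤ p ∧
    ∀ c, Φ c = 0 → ∃ X : M →+ M, Symm b X ∧ ∀ γ, c.1 γ = cob hρ X γ := by
  classical
  haveI : Fact p.Prime := ⟨S.prime⟩
  haveI := charP_KR p Ω I
  have C := hS.kumCtx hinj hlam
  obtain ⟨x₀, y₀, h0⟩ := hS.exists_ne
  have hx₀ : x₀ ≠ 0 := by
    rintro rfl
    rw [map_zero, AddMonoidHom.zero_apply] at h0
    exact h0 rfl
  have hl0 : lam x₀ ≠ 0 := fun h => hx₀ (hinj (by rw [h, map_zero]))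
  choose Y hY hYn using fun c : flatLev hρ hS hinj hlam => c.2.2.2.2 x₀ x₀
  have hpi := not_dvd_sq_add_one p Ω I
  have hc0 := cc_ne_zero p Ω I
  have hc1 := norm_cc_lt_one p Ω I
  have hcn := norm_cc p Ω I
  have hlt : q1 p Ω I ^ (p ^ 2 + 1) ≤ 1 := by rw [← hcn]; exact hc1.le
  let Φ : flatLev hρ hS hinj hlam →+ KR Ω := AddMonoidHom.mk' (fun c => gr (cc p Ω I) (Y c))
    fun c c' => by
      rw [← gr_mul hc0 hc1 (by rw [hcn]; exact hYn c) (by rw [hcn]; exact hYn c')]
      have h1 := C.kum_mul (hY c) (hY c')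
      have h2 : coe' b (resK hS.act (cI I (c + c').1)) x₀ x₀ =
          fun g => coe' b (resK hS.act (cI I c.1)) x₀ x₀ g +
            coe' b (resK hS.act (cI I c'.1)) x₀ x₀ g := by
        funext g
        change b x₀ (c.1 g.1.1 x₀ + c'.1 g.1.1 x₀) = b x₀ (c.1 g.1.1 x₀) + b x₀ (c'.1 g.1.1 x₀)
        rw [map_add]
      rw [← h2] at h1
      have h3 := norm_mul_sub_one hlt (hYn c) (hYn c')
      apply gr_congr hc0 (by rw [hcn]; exact hYn (c + c')) (by rw [hcn]; exact h3)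
      rw [hcn]
      exact C.kum_unique (hY (c + c')) h1 (Nat.succ_pos _) hpi (hYn (c + c')) h3
  have hΦ : ∀ c, Φ c = gr (cc p Ω I) (Y c) := fun c => rfl
  -- the equation
  set A : KR Ω := (lam (ρ F x₀) / lam x₀) ^ (2 * p) with hA
  set u : KR Ω := res (F • cc p Ω I / cc p Ω I) with hu
  have hu0 : u ≠ 0 := by
    apply res_ne_zero
    rw [norm_div, hF.norm_smul, div_self (norm_ne_zero_iff.2 hc0)]
  have heq : ∀ c, A * Φ c = u * Φ c ^ p := fun c =>
    hF.delta_eq hρ hS hb hinj hlam c.2.1 c.2.2.2.2 hx₀ (hY c) (hYn c)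
  let P : Polynomial (KR Ω) := Polynomial.C u * Polynomial.X ^ p - Polynomial.C A * Polynomial.X
  have hPdeg : P.natDegree = p := by
    have h1 : (Polynomial.C A * Polynomial.X).natDegree < p :=
      ((Polynomial.natDegree_C_mul_le A Polynomial.X).trans
        Polynomial.natDegree_X_le).trans_lt S.prime.one_lt
    have h2 : (Polynomial.C u * Polynomial.X ^ p).natDegree = p :=
      Polynomial.natDegree_C_mul_X_pow p u hu0
    rw [Polynomial.natDegree_sub_eq_left_of_natDegree_lt (by rw [h2]; exact h1), h2]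
  have hP0 : P ≠ 0 := by
    intro h
    rw [h, Polynomial.natDegree_zero] at hPdeg
    exact S.prime.ne_zero hPdeg.symm
  have hsub : Set.range Φ ⊆ (P.roots.toFinset : Set (KR Ω)) := by
    rintro _ ⟨c, rfl⟩
    rw [Finset.mem_coe, Multiset.mem_toFinset, Polynomial.mem_roots hP0, Polynomial.IsRoot.def]
    simp only [P, Polynomial.eval_sub, Polynomial.eval_mul, Polynomial.eval_C,
      Polynomial.eval_pow, Polynomial.eval_X]
    rw [heq, sub_self]
  refine ⟨Φ, (Finset.finite_toSet _).subset hsub, ?_, ?_⟩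
  · calc (Set.range Φ).ncard ≤ (P.roots.toFinset : Set (KR Ω)).ncard :=
        Set.ncard_le_ncard hsub (Finset.finite_toSet _)
      _ = P.roots.toFinset.card := Set.ncard_coe_finset _
      _ ≤ P.roots.card := Multiset.toFinset_card_le _
      _ ≤ P.natDegree := Polynomial.card_roots' P
      _ = p := hPdeg
  · intro c hc
    have hfam := eqFam_resK hS.act (c.2.1.cI I)
    obtain ⟨δ, hδ⟩ := hS.form_top hinj hlam hfam c.2.2.2.2
    have h1 := hδ _ _ _ (hY c) (hYn c)
    rw [← hΦ, hc] at h1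
    have hδ0 : δ = 0 := by
      rcases mul_eq_zero.1 h1.symm with h | h
      · exact h
      · exact absurd h (mul_ne_zero (pow_ne_zero _ hl0) (pow_ne_zero _ hl0))
    have h2 := hS.eq_zero_of_form hinj hlam hfam c.2.2.2.2 (fun x y Z hZ hZn => by
      rw [hδ x y Z hZ hZn, hδ0, zero_mul])
    exact exists_cob hF hρ hS hb hinj hlam hgen hρc c.2.1 c.2.2.1 c.2.2.2.1 (fun g x => h2 g x)

include hF hb in
/-- flat cocycles are of high level. -/
theorem mem_flatLev_of_flat {c : Γ → M →+ M} (hc : ICoc ρ c) (hs : ∀ γ, Symm b (c γ)) (hl : LC c)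
    (hf : FlatC p Ω (rI I ρ) (cI I c)) : c ∈ flatLev hρ hS hinj hlam :=
  ⟨hc, hs, hl, hS.lev_of_flat hinj hlam (hc.cI I) hf fun σ => hs σ.1⟩

end Bound

end Fermat.Agent.Flat
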