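import Fermat.Agent.Flat.SSMain

/-!
# Counting flat self-extensions (supersingular case)
-/

set_option autoImplicit false
set_option linter.unusedSectionVars false
set_option linter.style.haveILetI false

noncomputable section

namespace Fermat.Agent.Flat

section Form

variable {p : ℕ} {Ω : Type} [NormedField Ω] [hU : IsUltrametricDist Ω] {I : Type} [Group I]
    [MulSemiringAction I Ω] [S : Setting p Ω I]

variable (p Ω I) in
include S in
theorem exists_root_pi2 : ∃ y : Ω, ‖y‖ = q1 p Ω I := by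
  haveI := S.isAlgClosed
  obtain ⟨y, hy⟩ := IsAlgClosed.exists_pow_nat_eq (pi2 p Ω I) S.prime.pos
  refine ⟨y, ?_⟩
  have h1 : ‖y‖ ^ p = q1 p Ω I ^ p := by rw [← norm_pow, hy, q1_pow]
  exact (pow_left_inj₀ (norm_nonneg _) (q1_pos p Ω I).le S.prime.ne_zero).1 h1

variable (p Ω I) in
/-- An element of norm `q₁`. -/
def pi1 : Ω := (exists_root_pi2 p Ω I).choose

variable (p Ω I) in
theorem norm_pi1 : ‖pi1 p Ω I‖ = q1 p Ω I := (exists_root_pi2 p Ω I).choose_spec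

variable (p Ω I) in
/-- An element of norm `q₁ ^ (p ^ 2 + 1)`. -/
def cc : Ω := pi1 p Ω I ^ (p ^ 2 + 1)

variable (p Ω I) in
theorem norm_cc : ‖cc p Ω I‖ = q1 p Ω I ^ (p ^ 2 + 1) := by rw [cc, norm_pow, norm_pi1]

variable (p Ω I) in
theorem cc_ne_zero : cc p Ω I ≠ 0 := by
  rw [← norm_ne_zero_iff, norm_cc]
  exact (pow_pos (q1_pos p Ω I) _).ne'

variable (p Ω I) in
theorem norm_cc_lt_one : ‖cc p Ω I‖ < 1 := by
  rw [norm_cc]
  exact pow_lt_one₀ (q1_pos p Ω I).le (q1_lt_one p Ω I) (Nat.succ_ne_zero _)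

variable (p Ω I) in
include S in
theorem not_dvd_sq_add_one : ¬ p ∣ p ^ 2 + 1 := by
  intro h
  have h1 : p ∣ p ^ 2 := dvd_pow_self p two_ne_zero
  have h2 := (Nat.dvd_add_right h1).1 h
  exact S.prime.one_lt.ne' (Nat.dvd_one.1 h2)

namespace SS

variable {M : Type} [AddCommGroup M] {ρ : I → M → M} {b : M →+ M →+ ZMod p}
  (hS : SS p Ω I ρ b) {lam : M →+ KR Ω} (hinj : Function.Injective lam)
  (hlam : ∀ σ x, lam (ρ σ x) = psi p Ω σ * lam x)
include hS hinj hlam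

/-- The leading coefficients at level `p ^ 2 + 1`. -/
theorem form_top {c : actKer hS.act → M →+ M} (hc : EqFam hS.act c)
    (hlev : hS.LevAll c (p ^ 2 + 1)) : ∃ δ : KR Ω, ∀ x y Y,
      IsKum (zeta p Ω I) (coe' b c x y) Y → ‖Y - 1‖ ≤ q1 p Ω I ^ (p ^ 2 + 1) →
        gr (cc p Ω I) Y = δ * (lam x ^ p * lam y ^ p) := by
  haveI : Fact p.Prime := ⟨S.prime⟩
  haveI := charP_KR p Ω I
  have hp3 : 3 ≤ p := by
    have := S.prime.two_le
    have := S.odd
    omega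
  have h5 : 3 * p ≤ p ^ 2 := by nlinarith
  obtain ⟨α, β, γ, δ, hform, htame⟩ := hS.exists_form hinj hlam hc (Nat.succ_pos _)
    (not_dvd_sq_add_one p Ω I) (norm_cc p Ω I) hlev
  have hθ : ∀ τ : I, tame (cc p Ω I) τ = psi p Ω τ ^ (2 * p) := by
    intro τ
    have h1 := hS.tame_pow_p hinj hlam (norm_cc p Ω I) τ
    apply frobenius_inj (KR Ω) p
    rw [frobenius_def, frobenius_def, h1, ← pow_mul]
    have h2 : 2 * p * p = (p ^ 2 - 1) + (p ^ 2 + 1) := by
      have h2 : 2 * p * p = 2 * p ^ 2 := by ring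
      omega
    rw [h2, pow_add (psi p Ω τ) (p ^ 2 - 1), psi_pow_eq_one, one_mul]
  have key : ∀ {a : KR Ω} {m : ℕ}, m < 2 * p → 2 * p - m < p ^ 2 - 1 →
      (∀ τ : I, a * psi p Ω τ ^ m = tame (cc p Ω I) τ * a) → a = 0 := by
    intro a m hm1 hm2 h
    by_contra ha
    have h1 : ∀ τ : I, psi p Ω τ ^ m = psi p Ω τ ^ (2 * p) := by
      intro τ
      have h2 := h τ
      rw [hθ, mul_comm] at h2
      exact mul_right_cancel₀ ha h2
    have h2 := modEq_of_psi (Ω := Ω) (I := I) h1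
    rw [Nat.modEq_iff_dvd' hm1.le] at h2
    have h3 := Nat.le_of_dvd (by omega) h2
    omega
  have hα : α = 0 := key (m := 2) (by omega) (by omega) fun τ => (htame τ).1
  have hβ : β = 0 := key (m := p + 1) (by omega) (by omega) fun τ => (htame τ).2.1
  have hγ : γ = 0 := key (m := p + 1) (by omega) (by omega) fun τ => (htame τ).2.2.1
  refine ⟨δ, fun x y Y h h' => ?_⟩
  rw [hform x y Y h h', hα, hβ, hγ]
  ring

/-- If the leading coefficient vanishes then everything vanishes. -/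
theorem eq_zero_of_form {c : actKer hS.act → M →+ M} (hc : EqFam hS.act c)
    (hlev : hS.LevAll c (p ^ 2 + 1)) (h0 : ∀ x y Y,
      IsKum (zeta p Ω I) (coe' b c x y) Y → ‖Y - 1‖ ≤ q1 p Ω I ^ (p ^ 2 + 1) →
        gr (cc p Ω I) Y = 0) (g : actKer hS.act) (x : M) : c g x = 0 := by
  haveI : Fact p.Prime := ⟨S.prime⟩
  haveI := charP_KR p Ω I
  have hp3 : 3 ≤ p := by
    have := S.prime.two_le
    have := S.odd
    omega
  have h5 : 3 * p ≤ p ^ 2 := by nlinarith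
  have h6 : p * (p + 1) = p ^ 2 + p := by ring
  by_contra hcon
  obtain ⟨i, c₁, hji, hi, hpi, hc₁, hlevi, ⟨x₁, y₁, hK, -⟩, hcases⟩ :=
    hS.min_level hinj hlam hc (Nat.succ_pos _) hlev ⟨g, x, hcon⟩
  have hi2 : i = p ^ 2 + 1 := by
    rcases hcases with h | h | h
    · exfalso
      apply hS.exp_two_mul hinj hlam hi hpi
      intro σ
      rw [← hS.tame_pow_p hinj hlam hc₁ σ, h, ← pow_mul]
    · exfalso
      have hmod : ∀ σ : I, psi p Ω σ ^ i = psi p Ω σ ^ (p + 1) := by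
        intro σ
        rw [← hS.tame_pow_p hinj hlam hc₁ σ, h, ← pow_mul]
        have h1 : (p + 1) * p = (p ^ 2 - 1) + (p + 1) := by
          have h2 : (p + 1) * p = p ^ 2 + p := by ring
          omega
        rw [h1, pow_add, psi_pow_eq_one, one_mul]
      have h2 := modEq_of_psi (Ω := Ω) (I := I) hmod
      rw [Nat.ModEq.comm, Nat.modEq_iff_dvd' (by omega)] at h2
      have h3 := Nat.le_of_dvd (by omega) h2
      omega
    · apply hS.exp_two hinj hlam (by omega) hi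
      intro σ
      rw [← hS.tame_pow_p hinj hlam hc₁ σ, h, ← pow_mul]
      have h2 : 2 * p * p = 2 * (p ^ 2 - 1) + 2 := by
        have h2 : 2 * p * p = 2 * p ^ 2 := by ring
        omega
      rw [h2, pow_add, pow_mul', psi_pow_eq_one, one_pow, one_mul]
  subst hi2
  have hn : ‖1 + c₁ - 1‖ = ‖cc p Ω I‖ := by rw [add_sub_cancel_left, hc₁, norm_cc]
  have h1 := h0 x₁ y₁ (1 + c₁) hK (by rw [hn, norm_cc])
  exact gr_ne_zero (cc_ne_zero p Ω I) hn h1

end SS

end Form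

section Frob

variable {p : ℕ} {Ω : Type} [NormedField Ω] [hU : IsUltrametricDist Ω] {Γ : Type} [Group Γ]
    [MulSemiringAction Γ Ω] {I : Subgroup Γ} [S : Setting p Ω I]

/-- The local Galois group with its inertia group and a Frobenius element. -/
structure FrobData (p : ℕ) (Ω : Type) [NormedField Ω] {Γ : Type} [Group Γ]
    [MulSemiringAction Γ Ω] (I : Subgroup Γ) (F : Γ) : Prop where
  normal : I.Normal
  norm_smul : ∀ (γ : Γ) (x : Ω), ‖γ • x‖ = ‖x‖
  frob : ∀ x : Ω, ‖x‖ ≤ 1 → ‖F • x - x ^ p‖ < 1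

/-- restriction of an action to a subgroup. -/
abbrev rI {M : Type} (I : Subgroup Γ) (ρ : Γ → M → M) : I → M → M := fun σ => ρ σ.1

/-- restriction of a cochain to a subgroup. -/
abbrev cI {M : Type} [AddCommGroup M] (I : Subgroup Γ) (c : Γ → M →+ M) : I → M →+ M :=
  fun σ => c σ.1

theorem IsAct.rI {M : Type} [AddCommGroup M] {ρ : Γ → M → M} (h : IsAct ρ) (I : Subgroup Γ) :
    IsAct (Flat.rI I ρ) :=
  ⟨h.one, fun σ τ => h.mul σ.1 τ.1, fun σ => h.add σ.1⟩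

theorem ICoc.cI {M : Type} [AddCommGroup M] {ρ : Γ → M → M} {c : Γ → M →+ M} (h : ICoc ρ c)
    (I : Subgroup Γ) : ICoc (Flat.rI I ρ) (Flat.cI I c) := fun σ τ => h σ.1 τ.1

variable (I) in
include S in
theorem exists_eps (γ : Γ) : ∃ a : ZMod p, γ • zeta p Ω I = chi (zeta p Ω I) a := by
  haveI := neZero_p p Ω I
  have h1 : (γ • zeta p Ω I) ^ p = 1 := by
    rw [← smul_pow', (zeta_spec p Ω I).pow_eq_one, smul_one]
  obtain ⟨i, hi, hi'⟩ := (zeta_spec p Ω I).eq_pow_of_pow_eq_one (k := p) h1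
  exact ⟨i, by rw [chi, ZMod.val_natCast, Nat.mod_eq_of_lt hi, hi']⟩

variable (p Ω I) in
/-- The mod `p` cyclotomic character of the big group. -/
def eps (γ : Γ) : ZMod p := (exists_eps (p := p) (Ω := Ω) I γ).choose

theorem smul_zeta_eps (γ : Γ) : γ • zeta p Ω I = chi (zeta p Ω I) (eps p Ω I γ) :=
  (exists_eps (p := p) (Ω := Ω) I γ).choose_spec

variable {F : Γ} (hF : FrobData p Ω I F)
include hF

theorem FrobData.res_frob {x : Ω} (hx : ‖x‖ ≤ 1) : res (F • x) = res x ^ p := by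
  rw [← res_pow hx, res_eq_iff (by rwa [hF.norm_smul])
    (by rw [norm_pow]; exact pow_le_one₀ (norm_nonneg _) hx)]
  exact hF.frob x hx

theorem FrobData.gr_frob {c : Ω} (hc : c ≠ 0) {Y : Ω} (h : ‖Y - 1‖ ≤ ‖c‖) :
    gr c (F • Y) = res (F • c / c) * gr c Y ^ p := by
  have hFc : F • c ≠ 0 := by
    rw [← norm_ne_zero_iff, hF.norm_smul]
    exact norm_ne_zero_iff.2 hc
  have h1 : (F • Y - 1) / c = (F • c / c) * (F • ((Y - 1) / c)) := by
    rw [smul_div₀', smul_sub, smul_one]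
    field_simp
  have h3 := norm_gr_le h
  have h4 : ‖F • c / c‖ ≤ 1 := by
    rw [norm_div, hF.norm_smul, div_self (norm_ne_zero_iff.2 hc)]
  rw [gr, h1, res_mul h4 (by rwa [hF.norm_smul]), hF.res_frob h3]
  rfl

/-- `ψ(F τ F⁻¹) = ψ(τ) ^ p`. -/
theorem FrobData.psi_conj (τ : I) :
    psi p Ω (⟨F * τ.1 * F⁻¹, hF.normal.conj_mem τ.1 τ.2 F⟩ : I) = psi p Ω τ ^ p := by
  have hπ := pi2_ne_zero p Ω I
  set π' := F⁻¹ • pi2 p Ω I with hπ'
  have hπ'n : ‖π'‖ = ‖pi2 p Ω I‖ := by rw [hπ', hF.norm_smul]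
  have hπ'0 : π' ≠ 0 := by rw [← norm_ne_zero_iff, hπ'n]; exact norm_ne_zero_iff.2 hπ
  have h1 : (F * τ.1 * F⁻¹) • pi2 p Ω I / pi2 p Ω I = F • (τ.1 • π' / π') := by
    rw [smul_div₀', hπ', smul_inv_smul, mul_smul, mul_smul]
  have h2 : psi p Ω τ = tame π' τ := tame_eq p hπ hπ'n.symm τ
  rw [h2]
  change res ((F * τ.1 * F⁻¹) • pi2 p Ω I / pi2 p Ω I) = res (τ.1 • π' / π') ^ p
  rw [h1, hF.res_frob]
  exact (norm_smul_div p hπ'0 τ).le

variable {M : Type} [AddCommGroup M] {ρ : Γ → M → M} {b : M →+ M →+ ZMod p}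
  (hρ : IsAct ρ) (hS : SS p Ω I (rI I ρ) b)
  (hb : ∀ γ x y, b (ρ γ x) (ρ γ y) = eps p Ω I γ * b x y)
  {lam : M →+ KR Ω} (hinj : Function.Injective lam)
  (hlam : ∀ (σ : I) x, lam (ρ σ.1 x) = psi p Ω σ * lam x)
include hρ hS hb hinj hlam

/-- Transport of Kummer generators by the Frobenius. -/
theorem FrobData.kum_frob {c : Γ → M →+ M} (hc : ICoc ρ c) {x y : M} {Y : Ω}
    (hY : IsKum (zeta p Ω I) (coe' b (resK hS.act (cI I c)) x y) Y) :
    IsKum (zeta p Ω I) (coe' b (resK hS.act (cI I c)) (ρ F x) (ρ F y)) (F • Y) := by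
  have C := hS.kumCtx hinj hlam
  let cF : actKer hS.act → actKer hS.act := fun g =>
    ⟨⟨F⁻¹ * g.1.1 * F, by
      have := hF.normal.conj_mem g.1.1 g.1.2 F⁻¹
      rwa [inv_inv] at this⟩, fun x => by
        change ρ (F⁻¹ * g.1.1 * F) x = x
        have : ρ g.1.1 (ρ F x) = ρ F x := g.2 _
        rw [hρ.mul, hρ.mul, this, hρ.inv_apply]⟩
  have h1 := C.kum_conj hY (MulSemiringAction.toRingHom Γ Ω F) cF
    (fun g z => by
      change g.1.1 • F • z = F • ((F⁻¹ * g.1.1 * F) • z)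
      rw [← mul_smul, ← mul_smul]
      congr 1
      group) (a := eps p Ω I F) (smul_zeta_eps F)
  have h2 : coe' b (resK hS.act (cI I c)) (ρ F x) (ρ F y) =
      fun g => eps p Ω I F * coe' b (resK hS.act (cI I c)) x y (cF g) := by
    funext g
    have h3 : c g.1.1 (ρ F x) = ρ F (c (F⁻¹ * g.1.1 * F) x) := by
      have h4 := hc F (F⁻¹ * g.1.1 * F) (ρ F x)
      have h5 := hc g.1.1 F (ρ F x)
      have h6 : F * (F⁻¹ * g.1.1 * F) = g.1.1 * F := by group
      have h7 : ρ g.1.1⁻¹ (ρ F x) = ρ F x := (g⁻¹).2 _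
      have h8 : ρ g.1.1 (c F (ρ F x)) = c F (ρ F x) := g.2 _
      rw [h6, h5, h7, h8, hρ.inv_apply, add_comm] at h4
      exact add_left_cancel h4
    change b (ρ F y) (c g.1.1 (ρ F x)) = eps p Ω I F * b y (c (F⁻¹ * g.1.1 * F) x)
    rw [h3, hb]
  rw [h2]
  exact h1

/-- The semilinear equation for the leading coefficient. -/
theorem FrobData.delta_eq {c : Γ → M →+ M} (hc : ICoc ρ c)
    (hlev : hS.LevAll (resK hS.act (cI I c)) (p ^ 2 + 1)) {x₀ : M} (hx₀ : x₀ ≠ 0) {Y : Ω}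
    (hY : IsKum (zeta p Ω I) (coe' b (resK hS.act (cI I c)) x₀ x₀) Y)
    (hYn : ‖Y - 1‖ ≤ q1 p Ω I ^ (p ^ 2 + 1)) :
    (lam (ρ F x₀) / lam x₀) ^ (2 * p) * gr (cc p Ω I) Y =
      res (F • cc p Ω I / cc p Ω I) * gr (cc p Ω I) Y ^ p := by
  have hfam := eqFam_resK hS.act (hc.cI I)
  obtain ⟨δ, hδ⟩ := hS.form_top hinj hlam hfam hlev
  have hl0 : lam x₀ ≠ 0 := fun h => hx₀ (hinj (by rw [h, map_zero]))
  have h1 := hδ _ _ _ (hF.kum_frob hρ hS hb hinj hlam hc hY) (by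
    have : F • Y - 1 = F • (Y - 1) := by rw [smul_sub, smul_one]
    rw [this, hF.norm_smul]
    exact hYn)
  have h2 := hδ _ _ _ hY hYn
  rw [hF.gr_frob (cc_ne_zero p Ω I) (by rw [norm_cc]; exact hYn)] at h1
  rw [h1]
  conv_lhs => rw [h2]
  rw [div_pow, two_mul, pow_add, pow_add]
  field_simp

end Frob

end Fermat.Agent.Flat
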