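import Fermat.Agent.Flat.SSLev

/-!
# Flat self-extensions of an irreducible symplectic module of order `p ^ 2`
-/

set_option autoImplicit false
set_option linter.unusedSectionVars false
set_option linter.style.haveILetI false

noncomputable section

namespace Fermat.Agent.Flat

section Ext

variable {I : Type} [Group I] {M : Type} [AddCommGroup M] {ρ : I → M → M}

/-- The action on the extension of `M` by `M` defined by `c`. -/
def extAct (ρ : I → M → M) (c : I → M →+ M) : I → M × M → M × M :=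
  fun σ z => (ρ σ z.1, ρ σ z.2 + c σ (ρ σ z.1))

/-- Cocycles with values in `End M`. -/
def ICoc (ρ : I → M → M) (c : I → M →+ M) : Prop :=
  ∀ σ τ x, c (σ * τ) x = c σ x + ρ σ (c τ (ρ σ⁻¹ x))

theorem ICoc.one {c : I → M →+ M} (h : IsAct ρ) (hc : ICoc ρ c) : c 1 = 0 := by
  ext x
  have := hc 1 1 x
  rw [mul_one, inv_one, h.one, h.one] at this
  exact left_eq_add.1 this

theorem ICoc.isAct {c : I → M →+ M} (h : IsAct ρ) (hc : ICoc ρ c) : IsAct (extAct ρ c) where
  one z := by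
    rw [extAct, h.one, h.one, hc.one h, AddMonoidHom.zero_apply, add_zero]
  mul σ τ z := by
    simp only [extAct]
    rw [h.mul, h.mul, h.add, hc σ τ, ← h.mul σ τ, ← h.mul σ⁻¹, inv_mul_cancel_left,
      h.mul σ τ]
    refine Prod.ext rfl ?_
    simp only
    abel
  add σ z z' := by
    simp only [extAct, Prod.fst_add, Prod.snd_add]
    rw [h.add, h.add, map_add]
    refine Prod.ext rfl ?_
    simp only [Prod.snd_add]
    abel

theorem ICoc.add {c c' : I → M →+ M} (h : IsAct ρ) (hc : ICoc ρ c) (hc' : ICoc ρ c') :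
    ICoc ρ (fun σ => c σ + c' σ) := by
  intro σ τ x
  simp only [AddMonoidHom.add_apply]
  rw [hc, hc', h.add]
  abel

/-- conjugation of a cocycle by an automorphism. -/
def conjC (T : M ≃+ M) (c : I → M →+ M) : I → M →+ M :=
  fun σ => (T.toAddMonoidHom.comp (c σ)).comp T.symm.toAddMonoidHom

theorem conjC_apply (T : M ≃+ M) (c : I → M →+ M) (σ : I) (x : M) :
    conjC T c σ x = T (c σ (T.symm x)) := rfl

theorem ICoc.conj {c : I → M →+ M} (hc : ICoc ρ c) (T : M ≃+ M)
    (hT : ∀ σ x, T (ρ σ x) = ρ σ (T x)) : ICoc ρ (conjC T c) := by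
  have hT' : ∀ σ x, T.symm (ρ σ x) = ρ σ (T.symm x) := by
    intro σ x
    rw [AddEquiv.symm_apply_eq, hT, AddEquiv.apply_symm_apply]
  intro σ τ x
  rw [conjC_apply, conjC_apply, conjC_apply, hc, map_add, hT, hT']

end Ext

variable {p : ℕ} {Ω : Type} [NormedField Ω] [hU : IsUltrametricDist Ω] {I : Type} [Group I]
    [MulSemiringAction I Ω] [S : Setting p Ω I]

section Flat

variable {M : Type} [AddCommGroup M] [Finite M] {ρ : I → M → M}

variable (p Ω) in
/-- Flat cocycles. -/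
def FlatC (ρ : I → M → M) (c : I → M →+ M) : Prop := Nonempty (Ord p Ω I (extAct ρ c))

theorem FlatC.add (h : IsAct ρ) {c c' : I → M →+ M} (hc : ICoc ρ c) (hc' : ICoc ρ c') (hf : FlatC p Ω ρ c)
    (hf' : FlatC p Ω ρ c') : FlatC p Ω ρ (fun σ => c σ + c' σ) := by
  obtain ⟨E⟩ := hf
  obtain ⟨E'⟩ := hf'
  let ρW : I → M × M × M → M × M × M := fun σ z =>
    (ρ σ z.1, ρ σ z.2.1 + c σ (ρ σ z.1), ρ σ z.2.2 + c' σ (ρ σ z.1))
  have hW : IsAct ρW := by
    constructor
    · intro z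
      simp only [ρW]
      rw [h.one, h.one, h.one, hc.one h, hc'.one h, AddMonoidHom.zero_apply, add_zero, add_zero]
    · intro σ τ z
      have h1 := (hc.isAct h).mul σ τ (z.1, z.2.1)
      have h2 := (hc'.isAct h).mul σ τ (z.1, z.2.2)
      simp only [extAct, Prod.mk.injEq] at h1 h2
      simp only [ρW, Prod.mk.injEq]
      exact ⟨h1.1, h1.2, h2.2⟩
    · intro σ z z'
      have h1 := (hc.isAct h).add σ (z.1, z.2.1) (z'.1, z'.2.1)
      have h2 := (hc'.isAct h).add σ (z.1, z.2.2) (z'.1, z'.2.2)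
      simp only [extAct, Prod.mk_add_mk, Prod.mk.injEq] at h1 h2
      refine Prod.ext h1.1 (Prod.ext h1.2 h2.2)
  let j : M × M × M →+ (M × M) × (M × M) :=
    AddMonoidHom.mk' (fun z => ((z.1, z.2.1), (z.1, z.2.2))) fun z z' => rfl
  have hj : Function.Injective j := by
    intro z z' hz
    have h1 := congrArg Prod.fst hz
    have h2 := congrArg Prod.snd hz
    have h3 : z.1 = z'.1 := (Prod.ext_iff.1 h1).1
    have h4 : z.2.1 = z'.2.1 := (Prod.ext_iff.1 h1).2
    have h5 : z.2.2 = z'.2.2 := (Prod.ext_iff.1 h2).2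
    exact Prod.ext h3 (Prod.ext h4 h5)
  let EW : Ord p Ω I ρW := (E.prod E').restrict j hj fun σ z => rfl
  have hQ := (hc.add h hc').isAct h
  let π : M × M × M →+ M × M := AddMonoidHom.mk' (fun z => (z.1, z.2.1 + z.2.2)) fun z z' => by
    refine Prod.ext rfl ?_
    simp only [Prod.snd_add, Prod.fst_add]
    abel
  obtain ⟨EQ, -⟩ := EW.exists_quot hW hQ π (fun z => ⟨(z.1, z.2, 0), by
    change (z.1, z.2 + 0) = z
    rw [add_zero]⟩) fun σ z => by
      change (ρ σ z.1, (ρ σ z.2.1 + c σ (ρ σ z.1)) + (ρ σ z.2.2 + c' σ (ρ σ z.1))) =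
        (ρ σ z.1, ρ σ (z.2.1 + z.2.2) + (c σ (ρ σ z.1) + c' σ (ρ σ z.1)))
      rw [h.add]
      refine Prod.ext rfl ?_
      simp only
      abel
  exact ⟨EQ⟩

theorem FlatC.conj {c : I → M →+ M} (hf : FlatC p Ω ρ c) (T : M ≃+ M)
    (hT : ∀ σ x, T (ρ σ x) = ρ σ (T x)) : FlatC p Ω ρ (conjC T c) := by
  obtain ⟨E⟩ := hf
  have hT' : ∀ σ x, T.symm (ρ σ x) = ρ σ (T.symm x) := by
    intro σ x
    rw [AddEquiv.symm_apply_eq, hT, AddEquiv.apply_symm_apply]
  let j : M × M →+ M × M := AddMonoidHom.mk' (fun z => (T.symm z.1, T.symm z.2)) fun z z' => by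
    simp only [Prod.fst_add, Prod.snd_add, map_add, Prod.mk_add_mk]
  refine ⟨E.restrict j (fun z z' hz => ?_) fun σ z => ?_⟩
  · have h1 : T.symm z.1 = T.symm z'.1 := congrArg Prod.fst hz
    have h2 : T.symm z.2 = T.symm z'.2 := congrArg Prod.snd hz
    exact Prod.ext (T.symm.injective h1) (T.symm.injective h2)
  · change (T.symm (ρ σ z.1), T.symm (ρ σ z.2 + T (c σ (T.symm (ρ σ z.1))))) =
      (ρ σ (T.symm z.1), ρ σ (T.symm z.2) + c σ (ρ σ (T.symm z.1)))
    rw [map_add, AddEquiv.symm_apply_apply, hT', hT']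

end Flat

/-- restriction of a cocycle to the kernel of the action. -/
def resK {M : Type} [AddCommGroup M] {ρ : I → M → M} (h : IsAct ρ) (c : I → M →+ M) :
    actKer h → M →+ M := fun g => c g.1

theorem eqFam_resK {M : Type} [AddCommGroup M] {ρ : I → M → M} (h : IsAct ρ) {c : I → M →+ M}
    (hc : ICoc ρ c) : EqFam h (resK h c) where
  mul g g' := by
    ext x
    have h1 := hc g.1 g'.1 x
    have h2 : ρ g.1⁻¹ x = x := (g⁻¹).2 x
    rw [h2, g.2] at h1
    exact h1
  equi τ g x := by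
    have h1 := hc τ (cj h τ g).1 (ρ τ x)
    have h2 := hc g.1 τ (ρ τ x)
    have h3 : τ * (cj h τ g).1 = g.1 * τ := by
      change τ * (τ⁻¹ * g.1 * τ) = g.1 * τ
      group
    have h4 : ρ g.1⁻¹ (ρ τ x) = ρ τ x := (g⁻¹).2 _
    rw [h3, h2, h4, g.2, h.inv_apply, add_comm] at h1
    exact add_left_cancel h1

namespace SS

variable {M : Type} [AddCommGroup M] {ρ : I → M → M} {b : M →+ M →+ ZMod p}
  (hS : SS p Ω I ρ b)
include hS

/-- The translated function has constant variation. -/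
theorem exists_const_var {c : I → M →+ M} (hc : ICoc ρ c) (E : Ord p Ω I (extAct ρ c)) (x : M) :
    ∃ h ∈ E.H, ∀ z : M, z ≠ 0 → ‖h (x, z) - h (x, 0)‖ = ‖pi2 p Ω I‖ := by
  have hEA := hc.isAct hS.act
  have hπ0 := pi2_ne_zero p Ω I
  have hπ1 := norm_pi2_lt_one p Ω I
  -- the radius of `(0, z)`
  let j : M →+ M × M := AddMonoidHom.inr M M
  let D : Ord p Ω I ρ := E.restrict j (fun z z' hz => congrArg Prod.snd hz) fun σ z => by
    change ((0 : M), ρ σ z) = (ρ σ 0, ρ σ z + c σ (ρ σ 0))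
    rw [hS.act.zero, map_zero, add_zero]
  have hrad : ∀ z : M, z ≠ 0 → E.rad (0, z) = ‖pi2 p Ω I‖ := by
    intro z hz
    have h1 := E.rad_restrict (j := j) (hj := fun z z' hz => congrArg Prod.snd hz)
      (he := fun σ z => by
        change ((0 : M), ρ σ z) = (ρ σ 0, ρ σ z + c σ (ρ σ 0))
        rw [hS.act.zero, map_zero, add_zero]) z
    have h2 := hS.rad_eq D hz
    exact h1.symm.trans h2
  have hradle : ∀ z : M, E.rad (0, z) ≤ ‖pi2 p Ω I‖ := by
    intro z
    by_cases hz : z = 0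
    · rw [hz]
      change E.rad 0 ≤ _
      rw [E.rad_zero]
      exact norm_nonneg _
    · exact (hrad z hz).le
  obtain ⟨x₀, y₀, h0⟩ := hS.exists_ne
  have hx₀ : x₀ ≠ 0 := by
    rintro rfl
    rw [map_zero, AddMonoidHom.zero_apply] at h0
    exact h0 rfl
  obtain ⟨h, hh, he⟩ := E.exists_norm_add_sub_eq (x, 0) (0, x₀)
  rw [hrad x₀ hx₀] at he
  have hadd : ∀ z : M, ((x, 0) : M × M) + (0, z) = (x, z) := fun z => by
    rw [Prod.mk_add_mk, add_zero, zero_add]
  rw [hadd] at he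
  obtain ⟨ι, _, a, b', ha, hb, hab⟩ := E.comul h hh
  have hform : ∀ z, h (x, z) - h (x, 0) = ∑ i, a i (x, 0) * (b' i (0, z) - b' i 0) := by
    intro z
    have h1 := hab (x, 0) (0, z)
    have h2 := hab (x, 0) 0
    rw [hadd] at h1
    rw [add_zero] at h2
    rw [h1, h2, ← Finset.sum_sub_distrib]
    exact Finset.sum_congr rfl fun i _ => by ring
  have hai : ∀ i, ‖a i (x, 0)‖ ≤ 1 := fun i => E.norm_le_one (ha i) _
  have hbi : ∀ i z, ‖(b' i (0, z) - b' i 0) / pi2 p Ω I‖ ≤ 1 := fun i z =>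
    E.norm_div_le (hb i) (hradle z)
  let B : M →+ KR Ω := AddMonoidHom.mk' (fun z => ∑ i, res (a i (x, 0)) *
    Ord.lead (pi2 p Ω I) (b' i) (0, z)) fun z z' => by
      rw [← Finset.sum_add_distrib]
      refine Finset.sum_congr rfl fun i _ => ?_
      have h1 := E.lead_add (hb i) hπ0 hπ1 (hradle z) (hradle z')
      rw [Prod.mk_add_mk, add_zero] at h1
      rw [h1, mul_add]
  have hB : ∀ z, res ((h (x, z) - h (x, 0)) / pi2 p Ω I) = B z := by
    intro z
    have h1 : (h (x, z) - h (x, 0)) / pi2 p Ω I =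
        ∑ i, a i (x, 0) * ((b' i (0, z) - b' i 0) / pi2 p Ω I) := by
      rw [hform, Finset.sum_div]
      exact Finset.sum_congr rfl fun i _ => by ring
    rw [h1, res_sum _ _ fun i _ => by
      rw [norm_mul]
      exact mul_le_one₀ (hai i) (norm_nonneg _) (hbi i z)]
    exact Finset.sum_congr rfl fun i _ => by rw [res_mul (hai i) (hbi i z)]; rfl
  have hker : ∀ σ, ∀ z ∈ B.ker, ρ σ z ∈ B.ker := by
    intro σ z hz
    rw [AddMonoidHom.mem_ker] at hz ⊢
    have h1 : B (ρ σ z) = tame (pi2 p Ω I) σ * B z := by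
      change ∑ i, res (a i (x, 0)) * Ord.lead (pi2 p Ω I) (b' i) (0, ρ σ z) =
        tame (pi2 p Ω I) σ * ∑ i, res (a i (x, 0)) * Ord.lead (pi2 p Ω I) (b' i) (0, z)
      rw [Finset.mul_sum]
      refine Finset.sum_congr rfl fun i _ => ?_
      have h2 := E.lead_smul hEA (hb i) hπ0 (hradle z) σ
      have h3 : extAct ρ c σ (0, z) = (0, ρ σ z) := by
        simp only [extAct]
        rw [hS.act.zero, map_zero, add_zero]
      rw [h3] at h2
      rw [h2]
      ring
    rw [h1, hz, mul_zero]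
  have hne : B x₀ ≠ 0 := by
    rw [← hB]
    apply res_ne_zero
    rw [norm_div, he, div_self (norm_ne_zero_iff.2 hπ0)]
  have hinj : B.ker = ⊥ := by
    rcases hS.irr B.ker hker with h1 | h1
    · exact h1
    · exfalso
      have : x₀ ∈ B.ker := by rw [h1]; trivial
      exact hne ((AddMonoidHom.mem_ker).1 this)
  refine ⟨h, hh, fun z hz => ?_⟩
  have h1 : B z ≠ 0 := by
    intro h0
    have : z ∈ B.ker := (AddMonoidHom.mem_ker).2 h0
    rw [hinj, AddSubgroup.mem_bot] at this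
    exact hz this
  have h2 : ‖h (x, z) - h (x, 0)‖ ≤ ‖pi2 p Ω I‖ := by
    have := E.norm_add_sub_le hh (x, 0) (0, z)
    rw [hadd] at this
    exact this.trans (hradle z)
  apply le_antisymm h2
  by_contra hlt
  push Not at hlt
  apply h1
  rw [← hB, res_eq_zero_iff]
  · rw [norm_div, div_lt_one (norm_pi2_pos p Ω I)]
    exact hlt
  · rw [norm_div]
    exact div_le_one_of_le₀ h2 (norm_nonneg _)

/-- The values of `c g x` for `g` in the kernel. -/
def valGrp {c : I → M →+ M} (hc : ICoc ρ c) (x : M) : AddSubgroup M where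
  carrier := {z | ∃ g : actKer hS.act, resK hS.act c g x = z}
  add_mem' := by
    rintro _ _ ⟨g, rfl⟩ ⟨g', rfl⟩
    exact ⟨g * g', by rw [(eqFam_resK hS.act hc).mul]; rfl⟩
  zero_mem' := ⟨1, by
    change c 1 x = 0
    rw [hc.one hS.act]
    rfl⟩
  neg_mem' := by
    rintro _ ⟨g, rfl⟩
    refine ⟨g⁻¹, ?_⟩
    have h1 := (eqFam_resK hS.act hc).mul g⁻¹ g
    rw [inv_mul_cancel] at h1
    have h2 : c 1 = 0 := hc.one hS.act
    have h3 := DFunLike.congr_fun h1 x
    change c 1 x = _ at h3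
    rw [h2] at h3
    rw [AddMonoidHom.zero_apply, AddMonoidHom.add_apply] at h3
    exact eq_neg_of_add_eq_zero_left h3.symm

variable {lam : M →+ KR Ω} (hinj : Function.Injective lam)
  (hlam : ∀ σ x, lam (ρ σ x) = psi p Ω σ * lam x)
include hinj hlam

/-- **Break inequality** for flat extensions. -/
theorem break_flat {c : I → M →+ M} (hc : ICoc ρ c) (hf : FlatC p Ω ρ c) {x y : M}
    {g : actKer hS.act} (hg : coe' b (resK hS.act c) x y g ≠ 0) : ∃ (Y : Ω) (i : ℕ),
      IsKum (zeta p Ω I) (coe' b (resK hS.act c) x y) Y ∧ 0 < i ∧ i < p * (p + 1) ∧ ¬ p ∣ i ∧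
        ‖Y - 1‖ = q1 p Ω I ^ i ∧ 1 + p * (p + 1) ≤ i + Nat.card (hS.valGrp hc x) := by
  have C := hS.kumCtx hinj hlam
  haveI := hS.finite
  obtain ⟨E⟩ := hf
  obtain ⟨h, hh, hvar⟩ := hS.exists_const_var hc E x
  have hEA := hc.isAct hS.act
  have hsm : ∀ g : actKer hS.act, g • h (x, 0) = h (x, resK hS.act c g x) := by
    intro g
    have h1 := E.equi h hh g.1 (x, 0)
    have h2 : extAct ρ c g.1 (x, 0) = (x, resK hS.act c g x) := by
      simp only [extAct]
      rw [g.2, g.2, zero_add]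
      rfl
    rw [h2] at h1
    exact h1.symm
  have hfam := eqFam_resK hS.act hc
  let Z : actKer hS.act → hS.valGrp hc x := fun g => ⟨resK hS.act c g x, g, rfl⟩
  have hZ0 : ∀ g, Z g = 0 ↔ resK hS.act c g x = 0 := fun g =>
    ⟨fun h => congrArg Subtype.val h, fun h => Subtype.ext h⟩
  obtain ⟨Y, i, h1, h2, h3, h4, h5, h6⟩ := C.break_level (A := hS.valGrp hc x) (Z := Z)
    (fun g g' => Subtype.ext (by
      change resK hS.act c (g * g') x = resK hS.act c g x + resK hS.act c g' x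
      rw [hfam.mul]; rfl))
    (by
      rintro ⟨_, g, rfl⟩
      exact ⟨g, rfl⟩) (lam := (b y).comp (hS.valGrp hc x).subtype) (a₀ := Z g) hg
    (α := h (x, 0)) (E.norm_le_one hh _)
    (fun g hg => by rw [hsm, (hZ0 g).1 hg])
    (fun g hg => by
      rw [hsm, hvar _ fun h => hg ((hZ0 g).2 h), q1_pow p Ω I])
    (by
      have h1 : Nat.card (hS.valGrp hc x) ≤ Nat.card M := AddSubgroup.card_le_card_addGroup _
      rw [hS.card] at h1
      nlinarith)
  exact ⟨Y, i, h1, h2, h3, h4, h5, h6⟩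

end SS

end Fermat.Agent.Flat
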