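import Fermat.Agent.Flat.SSCount

/-!
# The bound for flat classes in the supersingular case, coefficients `𝔽_p`
-/

set_option autoImplicit false
set_option linter.unusedSectionVars false
set_option linter.style.haveILetI false

noncomputable section

namespace Fermat.Agent.Flat

/-- The coboundary of `X`. -/
def cob {Γ : Type} [Group Γ] {M : Type} [AddCommGroup M] {ρ : Γ → M → M} (h : IsAct ρ)
    (X : M →+ M) (γ : Γ) : M →+ M :=
  X - ((h.hom γ).comp X).comp (h.hom γ⁻¹)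

theorem cob_apply {Γ : Type} [Group Γ] {M : Type} [AddCommGroup M] {ρ : Γ → M → M} (h : IsAct ρ)
    (X : M →+ M) (γ : Γ) (x : M) : cob h X γ x = X x - ρ γ (X (ρ γ⁻¹ x)) := rfl

theorem icoc_cob {Γ : Type} [Group Γ] {M : Type} [AddCommGroup M] {ρ : Γ → M → M} (h : IsAct ρ)
    (X : M →+ M) : ICoc ρ (cob h X) := by
  intro σ τ x
  rw [cob_apply, cob_apply, cob_apply, h.sub, mul_inv_rev, h.mul, h.mul]
  abel

theorem ICoc.sub {Γ : Type} [Group Γ] {M : Type} [AddCommGroup M] {ρ : Γ → M → M} (h : IsAct ρ)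
    {c c' : Γ → M →+ M} (hc : ICoc ρ c) (hc' : ICoc ρ c') : ICoc ρ (fun γ => c γ - c' γ) := by
  intro σ τ x
  simp only [AddMonoidHom.sub_apply]
  rw [hc, hc', h.sub]
  abel

section

variable {p : ℕ} {Ω : Type} [NormedField Ω] [hU : IsUltrametricDist Ω] {Γ : Type} [Group Γ]
    [MulSemiringAction Γ Ω] {I : Subgroup Γ} [S : Setting p Ω I]
  {F : Γ} (hF : FrobData p Ω I F)
  {M : Type} [AddCommGroup M] {ρ : Γ → M → M} {b : M →+ M →+ ZMod p}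
  (hρ : IsAct ρ) (hS : SS p Ω I (rI I ρ) b)
  (hb : ∀ γ x y, b (ρ γ x) (ρ γ y) = eps p Ω I γ * b x y)
  {lam : M →+ KR Ω} (hinj : Function.Injective lam)
  (hlam : ∀ (σ : I) x, lam (ρ σ.1 x) = psi p Ω σ * lam x)
include hF hρ hS hb hinj hlam

/-- The Frobenius anticommutes with `τ`. -/
theorem frob_anticomm {τ : I} (hτ : psi p Ω τ ^ p = -psi p Ω τ) (x : M) :
    ρ F (ρ τ.1 x) = -ρ τ.1 (ρ F x) := by
  have h1 : ρ F (ρ τ.1 x) = ρ (F * τ.1 * F⁻¹) (ρ F x) := by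
    rw [hρ.mul, hρ.mul, hρ.inv_apply]
  apply hinj
  have h2 := hlam ⟨F * τ.1 * F⁻¹, hF.normal.conj_mem τ.1 τ.2 F⟩ (ρ F x)
  rw [hF.psi_conj, hτ] at h2
  rw [h1, h2, map_neg, hlam]
  ring

theorem symm_smul (γ : Γ) {X : M →+ M} (hX : Symm b X) :
    Symm b (fun x => ρ γ (X (ρ γ⁻¹ x))) := by
  intro x y
  have h1 : ∀ x y, b y (ρ γ (X (ρ γ⁻¹ x))) = eps p Ω I γ * b (ρ γ⁻¹ y) (X (ρ γ⁻¹ x)) := by
    intro x y
    rw [← hb, hρ.apply_inv]
  rw [h1, h1, hX]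

theorem symm_cob {X : M →+ M} (hX : Symm b X) (γ : Γ) : Symm b (cob hρ X γ) := by
  intro x y
  rw [cob_apply, cob_apply, map_sub, map_sub, hX x y,
    symm_smul hF hρ hS hb hinj hlam γ hX x y]

/-- `τ` is symmetric. -/
theorem symm_tau {τ : I} (hτ : psi p Ω τ ^ p = -psi p Ω τ) : Symm b (ρ τ.1) := by
  haveI : Fact p.Prime := ⟨S.prime⟩
  haveI := charP_KR p Ω I
  obtain ⟨t, ht0, ht⟩ := hS.det_eq hinj
  intro x y
  have h1 := ht y (ρ τ.1 x)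
  have h2 := ht x (ρ τ.1 y)
  rw [hlam] at h1 h2
  have h3 : t * ((b y (ρ τ.1 x)).val : KR Ω) = t * ((b x (ρ τ.1 y)).val : KR Ω) := by
    rw [← h1, ← h2, mul_pow, mul_pow, hτ]
    ring
  have h4 := mul_left_cancel₀ ht0 h3
  rw [CharP.natCast_eq_natCast (KR Ω) p] at h4
  apply ZMod.val_injective p
  exact Nat.ModEq.eq_of_lt_of_lt h4 (ZMod.val_lt _) (ZMod.val_lt _)

end

/-- The zero set of a cocycle. -/
def cocKer {Γ : Type} [Group Γ] {M : Type} [AddCommGroup M] {ρ : Γ → M → M} (h : IsAct ρ)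
    {c : Γ → M →+ M} (hc : ICoc ρ c) : Subgroup Γ where
  carrier := {γ | c γ = 0}
  one_mem' := hc.one h
  mul_mem' := by
    intro σ τ hσ hτ
    change c (σ * τ) = 0
    ext x
    have h1 : c σ = 0 := hσ
    have h2 : c τ = 0 := hτ
    rw [hc, h1, h2, AddMonoidHom.zero_apply, AddMonoidHom.zero_apply, h.zero, add_zero]
  inv_mem' := by
    intro σ hσ
    change c σ⁻¹ = 0
    ext x
    have h1 : c σ = 0 := hσ
    have h2 := hc σ⁻¹ σ x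
    rw [inv_mul_cancel, hc.one h, h1, AddMonoidHom.zero_apply, AddMonoidHom.zero_apply,
      h.zero, add_zero] at h2
    rw [← h2]
    rfl

theorem nsmul_hom_eq {M : Type} [AddCommGroup M] {p : ℕ} (hk : ∀ x : M, p • x = 0) {a b : ℕ}
    (hab : a ≡ b [MOD p]) (x : M) : a • x = b • x := by
  have key : ∀ n : ℕ, n • x = (n % p) • x := by
    intro n
    conv_lhs => rw [← Nat.mod_add_div n p]
    rw [add_smul, mul_comm p, mul_smul, hk, smul_zero, add_zero]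
  rw [key a, key b, hab]

section

variable {p : ℕ} {Ω : Type} [NormedField Ω] [hU : IsUltrametricDist Ω] {Γ : Type} [Group Γ]
    [TopologicalSpace Γ] [IsTopologicalGroup Γ]
    [MulSemiringAction Γ Ω] {I : Subgroup Γ} [S : Setting p Ω I]
  {F : Γ} (hF : FrobData p Ω I F)
  {M : Type} [AddCommGroup M] {ρ : Γ → M → M} {b : M →+ M →+ ZMod p}
  (hρ : IsAct ρ) (hS : SS p Ω I (rI I ρ) b)
  (hb : ∀ γ x y, b (ρ γ x) (ρ γ y) = eps p Ω I γ * b x y)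
  {lam : M →+ KR Ω} (hinj : Function.Injective lam)
  (hlam : ∀ (σ : I) x, lam (ρ σ.1 x) = psi p Ω σ * lam x)
  (hgen : ∀ U : Subgroup Γ, IsOpen (U : Set Γ) → I ≤ U → F ∈ U → U = ⊤)
  (hρc : ∃ U : Subgroup Γ, IsOpen (U : Set Γ) ∧ ∀ γ ∈ U, ∀ x, ρ γ x = x)

/-- locally constant cochains -/
def LC {A : Type} [AddCommGroup A] (c : Γ → A) : Prop :=
  ∃ U : Subgroup Γ, IsOpen (U : Set Γ) ∧ ∀ γ ∈ U, c γ = 0

theorem LC.sub {A : Type} [AddCommGroup A] {c c' : Γ → A} (h : LC c) (h' : LC c') :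
    LC (fun γ => c γ - c' γ) := by
  obtain ⟨U, hU, hc⟩ := h
  obtain ⟨U', hU', hc'⟩ := h'
  refine ⟨U ⊓ U', hU.inter hU', fun γ hγ => ?_⟩
  change c γ - c' γ = 0
  rw [hc γ hγ.1, hc' γ hγ.2, sub_zero]

theorem LC.add {A : Type} [AddCommGroup A] {c c' : Γ → A} (h : LC c) (h' : LC c') :
    LC (fun γ => c γ + c' γ) := by
  obtain ⟨U, hU, hc⟩ := h
  obtain ⟨U', hU', hc'⟩ := h'
  refine ⟨U ⊓ U', hU.inter hU', fun γ hγ => ?_⟩
  change c γ + c' γ = 0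
  rw [hc γ hγ.1, hc' γ hγ.2, add_zero]

include hρc in
theorem lc_cob (X : M →+ M) : LC (cob hρ X) := by
  obtain ⟨U, hU, hc⟩ := hρc
  refine ⟨U, hU, fun γ hγ => ?_⟩
  ext x
  rw [cob_apply, hc γ hγ, hc γ⁻¹ (U.inv_mem hγ), sub_self]
  rfl

include hF hρ hS hb hinj hlam hgen hρc in
/-- A cocycle which vanishes on the kernel in inertia is a coboundary. -/
theorem exists_cob {c : Γ → M →+ M} (hc : ICoc ρ c) (hsymm : ∀ γ, Symm b (c γ)) (hlc : LC c)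
    (h0 : ∀ (g : actKer hS.act) x, c g.1.1 x = 0) : ∃ X : M →+ M, Symm b X ∧
      ∀ γ, c γ = cob hρ X γ := by
  haveI : Fact p.Prime := ⟨S.prime⟩
  haveI := charP_KR p Ω I
  have hk := hS.kill
  obtain ⟨τ₁, hτ₁⟩ := exists_orderOf_psi p Ω I
  set N := p ^ 2 - 1 with hN
  have hN0 : N ≠ 0 := sq_sub_one_ne p Ω I
  have hNp : ¬ p ∣ N := not_dvd_sq_sub_one p Ω I
  obtain ⟨n, hn⟩ : ∃ n : ℕ, n * N ≡ 1 [MOD p] := by
    have h1 : (N : ZMod p) ≠ 0 := fun h => hNp ((ZMod.natCast_eq_zero_iff _ _).1 h)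
    refine ⟨((N : ZMod p)⁻¹).val, ?_⟩
    rw [← ZMod.natCast_eq_natCast_iff, Nat.cast_mul, ZMod.natCast_zmod_val, inv_mul_cancel₀ h1,
      Nat.cast_one]
  -- first step
  let X₁ : M →+ M := n • ∑ j ∈ Finset.range N, c (τ₁.1 ^ j)
  have hX₁ : ∀ x, X₁ x = n • ∑ j ∈ Finset.range N, c (τ₁.1 ^ j) x := by
    intro x
    simp only [X₁, AddMonoidHom.nsmul_apply, AddMonoidHom.finsetSum_apply]
  have hcob₁ : ∀ x, cob hρ X₁ τ₁.1 x = c τ₁.1 x := by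
    intro x
    rw [cob_apply, hX₁, hX₁, hρ.nsmul]
    have h1 : ρ τ₁.1 (∑ j ∈ Finset.range N, c (τ₁.1 ^ j) (ρ τ₁.1⁻¹ x)) =
        ∑ j ∈ Finset.range N, (c (τ₁.1 ^ (j + 1)) x - c τ₁.1 x) := by
      rw [← hρ.hom_apply, map_sum]
      refine Finset.sum_congr rfl fun j _ => ?_
      rw [pow_succ', hc, add_sub_cancel_left]
      rfl
    have h2 : τ₁ ^ N ∈ actKer hS.act := by
      rw [hS.mem_ker_iff hinj hlam, psi_pow, ← hτ₁]
      exact pow_orderOf_eq_one _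
    have h3 : c (τ₁.1 ^ N) x = 0 := h0 ⟨τ₁ ^ N, h2⟩ x
    have h4 : ∑ j ∈ Finset.range N, c (τ₁.1 ^ (j + 1)) x =
        ∑ j ∈ Finset.range N, c (τ₁.1 ^ j) x := by
      have h5 := Finset.sum_range_succ (fun j => c (τ₁.1 ^ j) x) N
      rw [Finset.sum_range_succ', h3, add_zero, pow_zero, hc.one hρ, AddMonoidHom.zero_apply,
        add_zero] at h5
      exact h5
    rw [h1, Finset.sum_sub_distrib, h4, ← smul_sub, sub_sub_cancel, Finset.sum_const,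
      Finset.card_range, ← mul_smul, nsmul_hom_eq hk hn, one_smul]
  have hX₁s : Symm b X₁ := by
    intro x y
    rw [hX₁, hX₁, map_nsmul, map_nsmul, map_sum, map_sum]
    congr 1
    exact Finset.sum_congr rfl fun j _ => hsymm _ x y
  let c₁ : Γ → M →+ M := fun γ => c γ - cob hρ X₁ γ
  have hc₁ : ICoc ρ c₁ := hc.sub hρ (icoc_cob hρ X₁)
  have hlc₁ : LC c₁ := hlc.sub (lc_cob hρ hρc X₁)
  have hs₁ : ∀ γ, Symm b (c₁ γ) := by
    intro γ x y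
    change b y (c γ x - cob hρ X₁ γ x) = b x (c γ y - cob hρ X₁ γ y)
    rw [map_sub, map_sub, hsymm γ x y, symm_cob hF hρ hS hb hinj hlam hX₁s γ x y]
  have hI₁ : I ≤ cocKer hρ hc₁ := by
    intro σ hσ
    have h1 : psi p Ω (⟨σ, hσ⟩ : I) ^ N = 1 := psi_pow_eq_one _
    have h2 : IsPrimitiveRoot (psi p Ω τ₁) N := by
      rw [← hτ₁]
      exact IsPrimitiveRoot.orderOf _
    haveI : NeZero N := ⟨hN0⟩
    obtain ⟨j, -, hj⟩ := h2.eq_pow_of_pow_eq_one h1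
    have h3 : (τ₁ ^ j)⁻¹ * ⟨σ, hσ⟩ ∈ actKer hS.act := by
      rw [hS.mem_ker_iff hinj hlam]
      have h4 : psi p Ω (τ₁ ^ j * ((τ₁ ^ j)⁻¹ * ⟨σ, hσ⟩)) = psi p Ω (⟨σ, hσ⟩ : I) := by
        rw [mul_inv_cancel_left]
      rw [psi_mul, psi_pow, hj] at h4
      exact mul_left_cancel₀ (psi_ne_zero _) (h4.trans (mul_one _).symm)
    have h5 : (((τ₁ ^ j)⁻¹ * ⟨σ, hσ⟩ : I) : Γ) ∈ cocKer hρ hc₁ := by
      change c₁ _ = 0
      ext x
      change c _ x - cob hρ X₁ _ x = 0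
      rw [h0 ⟨_, h3⟩ x, cob_apply]
      have h6 : ∀ y, ρ (((τ₁ ^ j)⁻¹ * ⟨σ, hσ⟩ : I) : Γ) y = y := h3
      have h7 : ∀ y, ρ ((((τ₁ ^ j)⁻¹ * ⟨σ, hσ⟩ : I) : Γ))⁻¹ y = y :=
        ((actKer hS.act).inv_mem h3 :)
      rw [h6, h7, sub_self, sub_zero]
    have h6 : τ₁.1 ∈ cocKer hρ hc₁ := by
      change c₁ _ = 0
      ext x
      change c _ x - cob hρ X₁ _ x = 0
      rw [hcob₁, sub_self]
    have h7 := (cocKer hρ hc₁).mul_mem ((cocKer hρ hc₁).pow_mem h6 j) h5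
    have h8 : τ₁.1 ^ j * (((τ₁ ^ j)⁻¹ * ⟨σ, hσ⟩ : I) : Γ) = σ := by
      push_cast
      rw [mul_inv_cancel_left]
    rwa [h8] at h7
  -- second step
  obtain ⟨τ, hτ⟩ := exists_tau p Ω I
  have hcomm : ∀ x, c₁ F (ρ τ.1 x) = ρ τ.1 (c₁ F x) := by
    intro x
    have h1 := hc₁ τ.1 F (ρ τ.1 x)
    have h2 := hc₁ F (F⁻¹ * τ.1 * F) (ρ τ.1 x)
    have h3 : F * (F⁻¹ * τ.1 * F) = τ.1 * F := by group
    have h4 : c₁ τ.1 = 0 := hI₁ τ.2
    have h5 : c₁ (F⁻¹ * τ.1 * F) = 0 := hI₁ (by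
      have := hF.normal.conj_mem τ.1 τ.2 F⁻¹
      rwa [inv_inv] at this)
    rw [h3, h1, h4, h5, AddMonoidHom.zero_apply, AddMonoidHom.zero_apply, hρ.zero, zero_add,
      add_zero, hρ.inv_apply] at h2
    exact h2.symm
  obtain ⟨m₀, hm₀⟩ := hS.eq_smul_of_comm hinj hlam hτ hcomm (hs₁ F)
  obtain ⟨m, hm⟩ : ∃ m : ℕ, m + m ≡ m₀ [MOD p] := by
    have h2 : (2 : ZMod p) ≠ 0 := by
      intro h
      have h3 : ((2 : ℕ) : ZMod p) = 0 := by exact_mod_cast h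
      rw [ZMod.natCast_eq_zero_iff] at h3
      have := Nat.le_of_dvd two_pos h3
      have := S.prime.two_le
      exact S.odd (by omega)
    refine ⟨((m₀ : ZMod p) / 2).val, ?_⟩
    rw [← ZMod.natCast_eq_natCast_iff, Nat.cast_add, ZMod.natCast_zmod_val]
    field_simp
    ring
  let X₂ : M →+ M := m • hρ.hom τ.1
  have hX₂ : ∀ x, X₂ x = m • ρ τ.1 x := fun x => rfl
  have hX₂s : Symm b X₂ := by
    intro x y
    rw [hX₂, hX₂, map_nsmul, map_nsmul, symm_tau hF hρ hS hb hinj hlam hτ x y]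
  let c₂ : Γ → M →+ M := fun γ => c₁ γ - cob hρ X₂ γ
  have hc₂ : ICoc ρ c₂ := hc₁.sub hρ (icoc_cob hρ X₂)
  have hlc₂ : LC c₂ := hlc₁.sub (lc_cob hρ hρc X₂)
  have htop : cocKer hρ hc₂ = ⊤ := by
    apply hgen
    · obtain ⟨U, hU, hUc⟩ := hlc₂
      exact Subgroup.isOpen_mono (show U ≤ cocKer hρ hc₂ from fun γ hγ => hUc γ hγ) hU
    · intro σ hσ
      change c₂ σ = 0
      ext x
      change c₁ σ x - cob hρ X₂ σ x = 0
      have h1 : c₁ σ = 0 := hI₁ hσ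
      have h2 : ρ σ (ρ τ.1 (ρ σ⁻¹ x)) = ρ τ.1 x := by
        have h3 : ρ σ (ρ τ.1 (ρ σ⁻¹ x)) = ρ τ.1 (ρ σ (ρ σ⁻¹ x)) :=
          hS.comm hinj hlam ⟨σ, hσ⟩ τ (ρ σ⁻¹ x)
        rw [hρ.apply_inv] at h3
        exact h3
      rw [h1, cob_apply, hX₂, hX₂, hρ.nsmul, h2, sub_self, sub_zero]
      rfl
    · change c₂ F = 0
      ext x
      change c₁ F x - cob hρ X₂ F x = 0
      have h1 : ρ F (ρ τ.1 (ρ F⁻¹ x)) = -ρ τ.1 x := by
        rw [frob_anticomm hF hρ hS hb hinj hlam hτ, hρ.apply_inv]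
      rw [hm₀, cob_apply, hX₂, hX₂, hρ.nsmul, h1, smul_neg, sub_neg_eq_add, ← add_smul,
        nsmul_hom_eq hk hm, sub_self]
  refine ⟨X₁ + X₂, fun x y => ?_, fun γ => ?_⟩
  · rw [AddMonoidHom.add_apply, AddMonoidHom.add_apply, map_add, map_add, hX₁s x y, hX₂s x y]
  · have h1 : γ ∈ cocKer hρ hc₂ := by rw [htop]; trivial
    have h2 : c₂ γ = 0 := h1
    ext x
    have h3 := DFunLike.congr_fun h2 x
    change c γ x - cob hρ X₁ γ x - cob hρ X₂ γ x = 0 at h3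
    rw [cob_apply, cob_apply] at h3
    rw [cob_apply, AddMonoidHom.add_apply, AddMonoidHom.add_apply, hρ.add]
    have h4 := eq_add_of_sub_eq (eq_add_of_sub_eq h3)
    rw [h4]
    abel

end

end Fermat.Agent.Flat
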