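import Fermat.Agent.Flat.MatB

/-!
# The bound in the supersingular case, arbitrary coefficients
-/

set_option autoImplicit false
set_option linter.unusedSectionVars false
set_option linter.style.haveILetI false

noncomputable section

namespace Fermat.Agent.Flat

open Matrix

theorem relIndex_of_hom {A : Type} [AddCommGroup A] (Z B : AddSubgroup A) {W : Type}
    [AddCommGroup W] (Φ : Z →+ W) (hfin : (Set.range Φ).Finite) {n : ℕ}
    (hn : (Set.range Φ).ncard ≤ n) (hker : ∀ c : Z, Φ c = 0 → c.1 ∈ B) :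
    B.relIndex Z ≠ 0 ∧ B.relIndex Z ≤ n := by
  have h1 : Φ.ker.index = (Set.range Φ).ncard := by
    rw [AddSubgroup.index_ker, ← Nat.card_coe_set_eq]
    rfl
  have h2 : Φ.ker.index ≠ 0 := by
    rw [h1]
    exact (Set.ncard_pos hfin).2 (Set.range_nonempty _) |>.ne'
  haveI : Φ.ker.FiniteIndex := ⟨h2⟩
  have h3 : Φ.ker ≤ B.addSubgroupOf Z := fun c hc => hker c hc
  haveI : (B.addSubgroupOf Z).FiniteIndex := AddSubgroup.finiteIndex_of_le h3
  refine ⟨AddSubgroup.FiniteIndex.index_ne_zero, ?_⟩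
  calc B.relIndex Z = (B.addSubgroupOf Z).index := rfl
    _ ≤ Φ.ker.index := AddSubgroup.index_antitone h3
    _ ≤ n := by rw [h1]; exact hn

theorem IsAct.of_injective {I : Type} [Group I] {M N : Type} [AddCommGroup M] [AddCommGroup N]
    {ρ : I → M → M} {ρ' : I → N → N} (h : IsAct ρ) (j : N →+ M) (hj : Function.Injective j)
    (he : ∀ σ x, j (ρ' σ x) = ρ σ (j x)) : IsAct ρ' where
  one x := hj (by rw [he, h.one])
  mul σ τ x := hj (by rw [he, he, he, h.mul])
  add σ x y := hj (by rw [he, map_add, map_add, he, he, h.add])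

section Form

variable (p : ℕ) [Fact p.Prime]

/-- The determinant form. -/
def dform : (Fin 2 → ZMod p) →+ (Fin 2 → ZMod p) →+ ZMod p :=
  AddMonoidHom.mk' (fun x => AddMonoidHom.mk' (fun y => x 0 * y 1 - x 1 * y 0) fun y y' => by
    simp only [Pi.add_apply]; ring) fun x x' => AddMonoidHom.ext fun y => by
    simp only [AddMonoidHom.mk'_apply, AddMonoidHom.add_apply, Pi.add_apply]
    ring

variable {p}

theorem dform_apply (x y : Fin 2 → ZMod p) : dform p x y = x 0 * y 1 - x 1 * y 0 := rfl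

theorem dform_mulVec (A : Matrix (Fin 2) (Fin 2) (ZMod p)) (x y : Fin 2 → ZMod p) :
    dform p (A *ᵥ x) (A *ᵥ y) = A.det * dform p x y := by
  rw [dform_apply, dform_apply, det_fin_two]
  simp only [mulVec, dotProduct, Fin.sum_univ_two]
  ring

/-- additive map of a matrix. -/
def mHom : Matrix (Fin 2) (Fin 2) (ZMod p) →+ ((Fin 2 → ZMod p) →+ (Fin 2 → ZMod p)) :=
  AddMonoidHom.mk' (fun A => AddMonoidHom.mk' (fun v => A *ᵥ v) fun v w => mulVec_add A v w)
    fun A B => AddMonoidHom.ext fun v => add_mulVec A B v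

theorem mHom_apply (A : Matrix (Fin 2) (Fin 2) (ZMod p)) (v : Fin 2 → ZMod p) :
    mHom A v = A *ᵥ v := rfl

theorem mHom_injective : Function.Injective (mHom (p := p)) := by
  intro A B h
  apply Matrix.ext_of_mulVec_single
  intro i
  exact DFunLike.congr_fun h _

theorem mHom_surjective : Function.Surjective (mHom (p := p)) := by
  intro φ
  let f : (Fin 2 → ZMod p) →ₗ[ZMod p] (Fin 2 → ZMod p) := φ.toZModLinearMap p
  refine ⟨LinearMap.toMatrix' f, AddMonoidHom.ext fun v => ?_⟩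
  rw [mHom_apply, LinearMap.toMatrix'_mulVec]
  rfl

theorem symm_mHom_iff (A : Matrix (Fin 2) (Fin 2) (ZMod p)) :
    Symm (dform p) (mHom A) ↔ A.trace = 0 := by
  have key : ∀ x y : Fin 2 → ZMod p, dform p y (A *ᵥ x) - dform p x (A *ᵥ y) =
      A.trace * (y 0 * x 1 - y 1 * x 0) := by
    intro x y
    rw [dform_apply, dform_apply, trace_fin_two]
    simp only [mulVec, dotProduct, Fin.sum_univ_two]
    ring
  constructor
  · intro h
    have h1 := key ![0, 1] ![1, 0]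
    have h2 : dform p ![1, 0] (A *ᵥ ![0, 1]) = dform p ![0, 1] (A *ᵥ ![1, 0]) := h _ _
    rw [h2, sub_self] at h1
    simpa using h1.symm
  · intro h x y
    have h1 := key x y
    rw [h, zero_mul, sub_eq_zero] at h1
    exact h1

end Form

section Coords

variable {p : ℕ} [Fact p.Prime] {k : Type} [Field k] [Algebra (ZMod p) k]

/-- extension of scalars -/
def mAlg (p : ℕ) [Fact p.Prime] (k : Type) [Field k] [Algebra (ZMod p) k] :
    Matrix (Fin 2) (Fin 2) (ZMod p) →+* Matrix (Fin 2) (Fin 2) k :=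
  (algebraMap (ZMod p) k).mapMatrix

theorem mAlg_apply (A : Matrix (Fin 2) (Fin 2) (ZMod p)) (i j : Fin 2) :
    mAlg p k A i j = algebraMap (ZMod p) k (A i j) := rfl

/-- apply a functional to a matrix. -/
def mFun (l : k →ₗ[ZMod p] ZMod p) : Matrix (Fin 2) (Fin 2) k →+ Matrix (Fin 2) (Fin 2) (ZMod p) :=
  AddMonoidHom.mk' (fun X => X.map l) fun X Y => Matrix.map_add l (map_add l) X Y

theorem mFun_apply (l : k →ₗ[ZMod p] ZMod p) (X : Matrix (Fin 2) (Fin 2) k) (i j : Fin 2) :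
    mFun l X i j = l (X i j) := rfl

theorem mFun_mul_left (l : k →ₗ[ZMod p] ZMod p) (A : Matrix (Fin 2) (Fin 2) (ZMod p))
    (X : Matrix (Fin 2) (Fin 2) k) : mFun l (mAlg p k A * X) = A * mFun l X := by
  ext i j
  rw [mFun_apply, mul_apply, mul_apply, map_sum]
  refine Finset.sum_congr rfl fun s _ => ?_
  rw [mAlg_apply, mFun_apply, ← Algebra.smul_def, map_smul, smul_eq_mul]

theorem mFun_mul_right (l : k →ₗ[ZMod p] ZMod p) (A : Matrix (Fin 2) (Fin 2) (ZMod p))
    (X : Matrix (Fin 2) (Fin 2) k) : mFun l (X * mAlg p k A) = mFun l X * A := by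
  ext i j
  rw [mFun_apply, mul_apply, mul_apply, map_sum]
  refine Finset.sum_congr rfl fun s _ => ?_
  rw [mAlg_apply, mFun_apply, mul_comm, ← Algebra.smul_def, map_smul, smul_eq_mul, mul_comm]

theorem trace_mFun (l : k →ₗ[ZMod p] ZMod p) (X : Matrix (Fin 2) (Fin 2) k) :
    (mFun l X).trace = l X.trace := by
  rw [trace_fin_two, trace_fin_two, map_add, mFun_apply, mFun_apply]

/-- extension of scalars of vectors. -/
def vAlg (p : ℕ) [Fact p.Prime] (k : Type) [Field k] [Algebra (ZMod p) k] :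
    (Fin 2 → ZMod p) →+ (Fin 2 → k) :=
  AddMonoidHom.mk' (fun v i => algebraMap (ZMod p) k (v i)) fun v w => by
    funext i
    exact map_add _ _ _

/-- functional applied to vectors. -/
def vFun (l : k →ₗ[ZMod p] ZMod p) : (Fin 2 → k) →+ (Fin 2 → ZMod p) :=
  AddMonoidHom.mk' (fun v i => l (v i)) fun v w => by
    funext i
    exact map_add _ _ _

theorem vAlg_mulVec (A : Matrix (Fin 2) (Fin 2) (ZMod p)) (v : Fin 2 → ZMod p) :
    mAlg p k A *ᵥ vAlg p k v = vAlg p k (A *ᵥ v) := by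
  funext i
  change ∑ j, mAlg p k A i j * algebraMap (ZMod p) k (v j) =
    algebraMap (ZMod p) k (∑ j, A i j * v j)
  rw [map_sum]
  exact Finset.sum_congr rfl fun j _ => (map_mul (algebraMap (ZMod p) k) (A i j) (v j)).symm

theorem vFun_mulVec_left (l : k →ₗ[ZMod p] ZMod p) (A : Matrix (Fin 2) (Fin 2) (ZMod p))
    (v : Fin 2 → k) : vFun l (mAlg p k A *ᵥ v) = A *ᵥ vFun l v := by
  funext i
  change l (∑ j, mAlg p k A i j * v j) = ∑ j, A i j * l (v j)
  rw [map_sum]
  refine Finset.sum_congr rfl fun s _ => ?_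
  rw [mAlg_apply, ← Algebra.smul_def, map_smul, smul_eq_mul]

theorem vFun_mulVec_right (l : k →ₗ[ZMod p] ZMod p) (X : Matrix (Fin 2) (Fin 2) k)
    (v : Fin 2 → ZMod p) : vFun l (X *ᵥ vAlg p k v) = mFun l X *ᵥ v := by
  funext i
  change l (∑ j, X i j * algebraMap (ZMod p) k (v j)) = ∑ j, l (X i j) * v j
  rw [map_sum]
  refine Finset.sum_congr rfl fun s _ => ?_
  rw [mul_comm, ← Algebra.smul_def, map_smul, smul_eq_mul, mul_comm]

variable {ι : Type} [Fintype ι] (e : Module.Basis ι (ZMod p) k)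

theorem mFun_ext {X Y : Matrix (Fin 2) (Fin 2) k} (h : ∀ i, mFun (e.coord i) X = mFun (e.coord i) Y) :
    X = Y := by
  ext a b
  apply e.ext_elem
  intro i
  exact congrFun (congrFun (h i) a) b

theorem sum_mFun (X : Matrix (Fin 2) (Fin 2) k) :
    X = ∑ i, e i • mAlg p k (mFun (e.coord i) X) := by
  ext a b
  rw [Matrix.sum_apply]
  conv_lhs => rw [← e.sum_repr (X a b)]
  refine Finset.sum_congr rfl fun i _ => ?_
  rw [Matrix.smul_apply, mAlg_apply, mFun_apply, smul_eq_mul, mul_comm, Algebra.smul_def]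
  rfl

end Coords

section Main

variable {p : ℕ} [hp : Fact p.Prime] {Ω : Type} [NormedField Ω] [hU : IsUltrametricDist Ω]
  {Γ : Type} [Group Γ] [TopologicalSpace Γ] [IsTopologicalGroup Γ]
  [MulSemiringAction Γ Ω] {I : Subgroup Γ} [S : Setting p Ω I] {k : Type} [Field k]
  [Algebra (ZMod p) k]

/-- extension of scalars of a representation. -/
def extR (k : Type) [Field k] [Algebra (ZMod p) k]
    (r₀ : Γ →* Matrix (Fin 2) (Fin 2) (ZMod p)) : Γ →* Matrix (Fin 2) (Fin 2) k :=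
  (mAlg p k : Matrix (Fin 2) (Fin 2) (ZMod p) →* Matrix (Fin 2) (Fin 2) k).comp r₀

variable {r₀ : Γ →* Matrix (Fin 2) (Fin 2) (ZMod p)}

omit [TopologicalSpace Γ] [IsTopologicalGroup Γ] [MulSemiringAction Γ Ω] S in
theorem extR_apply (γ : Γ) : extR k r₀ γ = mAlg p k (r₀ γ) := rfl

/-- coordinates of a cochain. -/
def cFun (l : k →ₗ[ZMod p] ZMod p) : (Γ → Matrix (Fin 2) (Fin 2) k) →+
    (Γ → (Fin 2 → ZMod p) →+ (Fin 2 → ZMod p)) :=
  AddMonoidHom.mk' (fun c γ => mHom (mFun l (c γ))) fun c c' => by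
    funext γ
    rw [Pi.add_apply, Pi.add_apply, map_add, map_add]

omit [Group Γ] [TopologicalSpace Γ] [IsTopologicalGroup Γ] [MulSemiringAction Γ Ω] in
theorem cFun_apply (l : k →ₗ[ZMod p] ZMod p) (c : Γ → Matrix (Fin 2) (Fin 2) k) (γ : Γ) :
    cFun l c γ = mHom (mFun l (c γ)) := rfl

omit [TopologicalSpace Γ] [IsTopologicalGroup Γ] [MulSemiringAction Γ Ω] S in
theorem icoc_cFun {c : Γ → Matrix (Fin 2) (Fin 2) k} (h : IsCoc (extR k r₀) c)
    (l : k →ₗ[ZMod p] ZMod p) : ICoc (vAct r₀) (cFun l c) := by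
  intro γ δ x
  rw [cFun_apply, cFun_apply, cFun_apply, h, map_add, map_add, AddMonoidHom.add_apply,
    extR_apply, extR_apply, mFun_mul_right, mFun_mul_left, mHom_apply, mHom_apply, mHom_apply,
    vAct, vAct, mulVec_mulVec, mulVec_mulVec, mul_assoc]

omit [TopologicalSpace Γ] [IsTopologicalGroup Γ] [MulSemiringAction Γ Ω] S in
theorem isCoc_of_cFun {ι : Type} [Fintype ι] (e : Module.Basis ι (ZMod p) k)
    {c : Γ → Matrix (Fin 2) (Fin 2) k} (h : ∀ i, ICoc (vAct r₀) (cFun (e.coord i) c)) :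
    IsCoc (extR k r₀) c := by
  intro γ δ
  apply mFun_ext e
  intro i
  apply mHom_injective
  refine AddMonoidHom.ext fun x => ?_
  have h1 := h i γ δ x
  rw [cFun_apply, cFun_apply, cFun_apply] at h1
  rw [h1, map_add, map_add, AddMonoidHom.add_apply,
    extR_apply, extR_apply, mFun_mul_right, mFun_mul_left, mHom_apply, mHom_apply, mHom_apply,
    vAct, vAct, mulVec_mulVec, mulVec_mulVec, mul_assoc]

omit [TopologicalSpace Γ] [IsTopologicalGroup Γ] in
/-- Flatness of the coordinates. -/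
theorem FlatE.cFun [Finite k] {c : Γ → Matrix (Fin 2) (Fin 2) k} (hc : IsCoc (extR k r₀) c)
    (h : FlatE p Ω I (extR k r₀) c) (l : k →ₗ[ZMod p] ZMod p) (hl : Function.Surjective l) :
    FlatC p Ω (rI I (vAct r₀)) (cI I (Flat.cFun l c)) := by
  obtain ⟨D⟩ := h
  let j : (Fin 2 → ZMod p) × (Fin 2 → k) →+ (Fin 2 → k) × (Fin 2 → k) :=
    (vAlg p k).prodMap (AddMonoidHom.id _)
  have hj : Function.Injective j := by
    rintro ⟨x, w⟩ ⟨x', w'⟩ h
    have h1 := congrArg Prod.fst h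
    have h2 : w = w' := congrArg Prod.snd h
    refine Prod.ext ?_ h2
    funext i
    exact (algebraMap (ZMod p) k).injective (congrFun h1 i)
  let ρ₁ : I → (Fin 2 → ZMod p) × (Fin 2 → k) → (Fin 2 → ZMod p) × (Fin 2 → k) :=
    fun σ z => (r₀ σ.1 *ᵥ z.1, extR k r₀ σ.1 *ᵥ z.2 +
      c σ.1 *ᵥ (extR k r₀ σ.1 *ᵥ vAlg p k z.1))
  have he : ∀ σ z, j (ρ₁ σ z) = eAct (extR k r₀) c σ.1 (j z) := by
    intro σ z
    refine Prod.ext ?_ rfl
    change vAlg p k (r₀ σ.1 *ᵥ z.1) = extR k r₀ σ.1 *ᵥ vAlg p k z.1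
    rw [extR_apply, vAlg_mulVec]
  have hact : IsAct (fun (s : I) => eAct (extR k r₀) c s.1) := by
    have := hc.isAct.rI I
    exact this
  have hact₁ : IsAct ρ₁ := hact.of_injective j hj he
  let D₁ : Ord p Ω I ρ₁ := D.restrict j hj he
  let π : (Fin 2 → ZMod p) × (Fin 2 → k) →+ (Fin 2 → ZMod p) × (Fin 2 → ZMod p) :=
    (AddMonoidHom.id _).prodMap (vFun l)
  have hπ : Function.Surjective π := by
    rintro ⟨x, w⟩
    choose g hg using hl
    refine ⟨(x, fun i => g (w i)), Prod.ext rfl ?_⟩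
    funext i
    exact hg _
  have hcI : ICoc (rI I (vAct r₀)) (cI I (Flat.cFun l c)) := (icoc_cFun hc l).cI I
  haveI : Finite ((Fin 2 → ZMod p) × (Fin 2 → k)) := inferInstance
  obtain ⟨DQ, -⟩ := D₁.exists_quot hact₁ (hcI.isAct ((isAct_vAct r₀).rI I)) π hπ (by
    intro σ z
    refine Prod.ext rfl ?_
    change vFun l (extR k r₀ σ.1 *ᵥ z.2 + c σ.1 *ᵥ (extR k r₀ σ.1 *ᵥ vAlg p k z.1)) =
      r₀ σ.1 *ᵥ vFun l z.2 + mFun l (c σ.1) *ᵥ (r₀ σ.1 *ᵥ z.1)
    rw [map_add, extR_apply, vFun_mulVec_left, vAlg_mulVec, vFun_mulVec_right])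
  exact ⟨DQ⟩

omit [TopologicalSpace Γ] [IsTopologicalGroup Γ] in
theorem eps_eq_omega (σ : I) : eps p Ω I σ.1 = omega p Ω I σ := by
  have h1 := smul_zeta_eps (p := p) (Ω := Ω) (I := I) σ.1
  have h2 := smul_zeta p Ω I σ
  apply zp_injective p Ω I
  rw [← h2]
  exact h1.symm

omit [TopologicalSpace Γ] [IsTopologicalGroup Γ] in
theorem ss_of_flat (hdet : ∀ γ, (r₀ γ).det = eps p Ω I γ)
    (hirr : ∀ N : AddSubgroup (Fin 2 → ZMod p), (∀ σ ∈ I, ∀ x ∈ N, r₀ σ *ᵥ x ∈ N) →
      N = ⊥ ∨ N = ⊤) : SS p Ω I (rI I (vAct r₀)) (dform p) where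
  act := (isAct_vAct r₀).rI I
  card := by
    rw [Nat.card_fun, Nat.card_fin, Nat.card_zmod]
  kill x := by
    funext i
    rw [Pi.smul_apply, nsmul_eq_mul, CharP.cast_eq_zero, zero_mul]
    rfl
  irr N hN := hirr N fun σ hσ x hx => hN ⟨σ, hσ⟩ x hx
  alt x := by rw [dform_apply, mul_comm, sub_self]
  ne h := by
    have h1 := DFunLike.congr_fun (DFunLike.congr_fun h ![1, 0]) ![0, 1]
    rw [dform_apply] at h1
    simp at h1
  inv σ x y := by
    change dform p (r₀ σ.1 *ᵥ x) (r₀ σ.1 *ᵥ y) = _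
    rw [dform_mulVec, hdet, eps_eq_omega]

/-- **The bound in the supersingular case.** -/
theorem flatBound_ss {F : Γ} (hF : FrobData p Ω I F)
    (hgen : ∀ U : Subgroup Γ, IsOpen (U : Set Γ) → I ≤ U → F ∈ U → U = ⊤)
    (hr₀ : ∃ U : Subgroup Γ, IsOpen (U : Set Γ) ∧ ∀ γ ∈ U, r₀ γ = 1)
    (hdet : ∀ γ, (r₀ γ).det = eps p Ω I γ)
    (hirr : ∀ N : AddSubgroup (Fin 2 → ZMod p), (∀ σ ∈ I, ∀ x ∈ N, r₀ σ *ᵥ x ∈ N) →
      N = ⊥ ∨ N = ⊤) (hflat : FlatR p Ω I r₀) [Finite k] : FlatBound p Ω I (extR k r₀) := by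
  classical
  obtain ⟨D⟩ := hflat
  have hS := ss_of_flat (Ω := Ω) hdet hirr
  have hρ := isAct_vAct r₀
  have hb : ∀ γ x y, dform p (vAct r₀ γ x) (vAct r₀ γ y) = eps p Ω I γ * dform p x y := by
    intro γ x y
    rw [vAct, vAct, dform_mulVec, hdet]
  obtain ⟨lam, hinj, hlam⟩ := hS.exists_lam D
  have hρc : ∃ U : Subgroup Γ, IsOpen (U : Set Γ) ∧ ∀ γ ∈ U, ∀ x, vAct r₀ γ x = x := by
    obtain ⟨U, hU, h⟩ := hr₀
    exact ⟨U, hU, fun γ hγ x => by rw [vAct, h γ hγ, one_mulVec]⟩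
  obtain ⟨Φ₀, hfin, hcard, hker⟩ := flatLev_bound hF hρ hS hb hinj hlam hgen hρc
  let ι := Module.Free.ChooseBasisIndex (ZMod p) k
  let e : Module.Basis ι (ZMod p) k := Module.Free.chooseBasis (ZMod p) k
  have hek : Nat.card k = p ^ Fintype.card ι := by
    have h1 := Nat.card_congr e.equivFun.toEquiv
    rw [h1, Nat.card_fun, Nat.card_zmod, Nat.card_eq_fintype_card]
  let Z : AddSubgroup (Γ → Matrix (Fin 2) (Fin 2) k) := ⨅ i : ι, (flatLev hρ hS hinj hlam).comap (cFun (e.coord i))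
  have hZ : ∀ {c}, c ∈ Z ↔ ∀ i : ι, cFun (e.coord i) c ∈ flatLev hρ hS hinj hlam := by
    intro c
    rw [AddSubgroup.mem_iInf]
    rfl
  have hsurj : ∀ i, Function.Surjective (e.coord i) := by
    intro i a
    refine ⟨a • e i, ?_⟩
    rw [map_smul, Module.Basis.coord_apply, e.repr_self, Finsupp.single_eq_same, smul_eq_mul,
      mul_one]
  let Φ : Z →+ (ι → KR Ω) := AddMonoidHom.mk' (fun c i => Φ₀ ⟨cFun (e.coord i) c.1, hZ.1 c.2 i⟩)
    fun c c' => by
      funext i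
      rw [Pi.add_apply, ← map_add]
      congr 1
      exact Subtype.ext (map_add (cFun (e.coord i)) c.1 c'.1)
  have hrange : Set.range Φ ⊆ Set.univ.pi fun _ => Set.range Φ₀ := by
    rintro _ ⟨c, rfl⟩ i -
    exact ⟨_, rfl⟩
  have hfin' : (Set.univ.pi fun _ : ι => Set.range Φ₀).Finite := Set.Finite.pi fun _ => hfin
  have hcard' : (Set.univ.pi fun _ : ι => Set.range Φ₀).ncard ≤ p ^ Fintype.card ι := by
    have h1 : (Set.univ.pi fun _ : ι => Set.range Φ₀).ncard = (Set.range Φ₀).ncard ^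
        Fintype.card ι := by
      rw [← Nat.card_coe_set_eq, ← Nat.card_coe_set_eq]
      have h2 := Nat.card_congr (Equiv.Set.univPi (fun _ : ι => Set.range Φ₀))
      rw [h2, Nat.card_fun, Nat.card_eq_fintype_card (α := ι)]
    rw [h1]
    exact Nat.pow_le_pow_left hcard _
  obtain ⟨h3, h4⟩ := relIndex_of_hom Z (cobs (extR k r₀)) Φ (hfin'.subset hrange)
    ((Set.ncard_le_ncard hrange hfin').trans hcard') (by
      intro c hc
      have h5 : ∀ i, ∃ A : Matrix (Fin 2) (Fin 2) (ZMod p), A.trace = 0 ∧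
          ∀ γ, mFun (e.coord i) (c.1 γ) = cobM r₀ A γ := by
        intro i
        obtain ⟨X, hX, hXc⟩ := hker ⟨cFun (e.coord i) c.1, hZ.1 c.2 i⟩ (congrFun hc i)
        obtain ⟨A, rfl⟩ := mHom_surjective X
        refine ⟨A, (symm_mHom_iff A).1 hX, fun γ => mHom_injective ?_⟩
        have h6 := hXc γ
        change mHom (mFun (e.coord i) (c.1 γ)) = _ at h6
        rw [h6]
        refine AddMonoidHom.ext fun x => ?_
        rw [cob_apply, mHom_apply, mHom_apply, mHom_apply, cobM, sub_mulVec, vAct, vAct,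
          mulVec_mulVec, mulVec_mulVec, mul_assoc]
      choose A hA hAc using h5
      refine ⟨∑ i, e i • mAlg p k (A i), ?_, fun γ => ?_⟩
      · rw [trace_sum]
        refine Finset.sum_eq_zero fun i _ => ?_
        rw [trace_smul]
        have h6 : (mAlg p k (A i)).trace = algebraMap (ZMod p) k (A i).trace := by
          rw [trace_fin_two, trace_fin_two, map_add]
          rfl
        rw [h6, hA, map_zero, smul_zero]
      · rw [sum_mFun e (c.1 γ), cobM, Finset.mul_sum, Finset.sum_mul, ← Finset.sum_sub_distrib]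
        refine Finset.sum_congr rfl fun i _ => ?_
        rw [hAc i, cobM, map_sub, map_mul, map_mul, smul_sub, extR_apply, extR_apply,
          mul_smul_comm, smul_mul_assoc])
  refine ⟨Z, fun c hc => ?_, fun c hc hc0 hcl hf => ?_, h3, ?_⟩
  · have h5 := fun i => (mem_flatLev hρ hS hinj hlam).1 (hZ.1 hc i)
    refine ⟨isCoc_of_cFun e fun i => (h5 i).1, fun γ => ?_, ?_⟩
    · apply e.ext_elem
      intro i
      have h6 := (symm_mHom_iff _).1 ((h5 i).2.1 γ)
      rw [trace_mFun] at h6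
      rw [map_zero]
      exact h6
    · choose U hU hUc using fun i => (h5 i).2.2.1
      refine ⟨⨅ i, U i, ?_, fun γ hγ => ?_⟩
      · rw [Subgroup.coe_iInf]
        exact isOpen_iInter_of_finite fun i => hU i
      · apply mFun_ext e
        intro i
        apply mHom_injective
        rw [map_zero, map_zero]
        exact hUc i γ (Subgroup.mem_iInf.1 hγ i)
  · refine ⟨0, trace_zero _ _, ?_⟩
    have h6 : (fun γ => c γ - cobM (extR k r₀) 0 γ) = c := by
      funext γ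
      rw [cobM_zero, sub_zero]
    rw [h6]
    refine hZ.2 fun i => ?_
    refine mem_flatLev_of_flat hF hρ hS hb hinj hlam (icoc_cFun hc _) (fun γ => ?_) ?_
      (hf.cFun hc _ (hsurj i))
    · rw [cFun_apply, symm_mHom_iff, trace_mFun, hc0, map_zero]
    · obtain ⟨U, hU, h⟩ := hcl
      refine ⟨U, hU, fun γ hγ => ?_⟩
      rw [cFun_apply, h γ hγ, map_zero, map_zero]
  · calc _ ≤ p ^ Fintype.card ι := h4
      _ = Nat.card k * 1 := by rw [hek, mul_one]
      _ ≤ _ := by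
        apply Nat.mul_le_mul_left
        haveI := finite_inv0 (r := extR k r₀)
        exact Nat.one_le_iff_ne_zero.2 Nat.card_pos.ne'

end Main

end Fermat.Agent.Flat
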