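import Fermat.Agent.Flat.SSing

/-!
# Levels of equivariant families of characters
-/

set_option autoImplicit false
set_option linter.unusedSectionVars false
set_option linter.style.haveILetI false

noncomputable section

namespace Fermat.Agent.Flat

section Gr

variable {Ω : Type} [NormedField Ω] [hU : IsUltrametricDist Ω]

/-- The leading coefficient of `Y - 1` with respect to `c`. -/
def gr (c Y : Ω) : KR Ω := res ((Y - 1) / c)

theorem gr_one (c : Ω) : gr c 1 = 0 := by rw [gr, sub_self, zero_div, res_zero]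

theorem norm_gr_le {c Y : Ω} (h : ‖Y - 1‖ ≤ ‖c‖) : ‖(Y - 1) / c‖ ≤ 1 := by
  rw [norm_div]
  exact div_le_one_of_le₀ h (norm_nonneg _)

theorem gr_ne_zero {c Y : Ω} (hc : c ≠ 0) (h : ‖Y - 1‖ = ‖c‖) : gr c Y ≠ 0 := by
  apply res_ne_zero
  rw [norm_div, h, div_self (norm_ne_zero_iff.2 hc)]

theorem norm_sub_one_lt_of_gr {c Y : Ω} (hc : c ≠ 0) (h : ‖Y - 1‖ ≤ ‖c‖) (h0 : gr c Y = 0) :
    ‖Y - 1‖ < ‖c‖ := by
  rw [gr, res_eq_zero_iff (norm_gr_le h), norm_div, div_lt_one (norm_pos_iff.2 hc)] at h0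
  exact h0

theorem norm_mul_sub_one {r : ℝ} (hr1 : r ≤ 1) {Y Y' : Ω} (h : ‖Y - 1‖ ≤ r) (h' : ‖Y' - 1‖ ≤ r) :
    ‖Y * Y' - 1‖ ≤ r := by
  have h1 : Y * Y' - 1 = (Y - 1) + ((Y' - 1) + (Y - 1) * (Y' - 1)) := by ring
  rw [h1]
  refine (IsUltrametricDist.norm_add_le_max _ _).trans (max_le h
    ((IsUltrametricDist.norm_add_le_max _ _).trans (max_le h' ?_)))
  rw [norm_mul]
  calc ‖Y - 1‖ * ‖Y' - 1‖ ≤ r * 1 := mul_le_mul h (h'.trans hr1) (norm_nonneg _)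
        ((norm_nonneg _).trans h)
    _ = r := mul_one r

theorem norm_pow_sub_one_le {r : ℝ} (hr0 : 0 ≤ r) (hr1 : r ≤ 1) {Y : Ω} (h : ‖Y - 1‖ ≤ r) (n : ℕ) :
    ‖Y ^ n - 1‖ ≤ r := by
  induction n with
  | zero => simpa using hr0
  | succ n ih => rw [pow_succ]; exact norm_mul_sub_one hr1 ih h

theorem gr_mul {c : Ω} (hc : c ≠ 0) (hc1 : ‖c‖ < 1) {Y Y' : Ω} (h : ‖Y - 1‖ ≤ ‖c‖)
    (h' : ‖Y' - 1‖ ≤ ‖c‖) : gr c (Y * Y') = gr c Y + gr c Y' := by
  have hcp : 0 < ‖c‖ := norm_pos_iff.2 hc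
  have h1 : (Y * Y' - 1) / c = ((Y - 1) / c + (Y' - 1) / c) + (Y - 1) * ((Y' - 1) / c) := by
    field_simp
    ring
  have h2 : ‖(Y - 1) * ((Y' - 1) / c)‖ < 1 := by
    rw [norm_mul]
    calc _ ≤ ‖c‖ * 1 := mul_le_mul h (norm_gr_le h') (norm_nonneg _) hcp.le
      _ < 1 := by rwa [mul_one]
  have h3 := norm_gr_le h
  have h4 := norm_gr_le h'
  rw [gr, gr, gr, h1, res_add _ h2.le, res_add h3 h4, (res_eq_zero_iff h2.le).2 h2, add_zero]
  exact (IsUltrametricDist.norm_add_le_max _ _).trans (max_le h3 h4)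

theorem gr_pow {c : Ω} (hc : c ≠ 0) (hc1 : ‖c‖ < 1) {Y : Ω} (h : ‖Y - 1‖ ≤ ‖c‖) (n : ℕ) :
    gr c (Y ^ n) = n * gr c Y := by
  induction n with
  | zero => rw [pow_zero, gr_one, Nat.cast_zero, zero_mul]
  | succ n ih =>
    rw [pow_succ, gr_mul hc hc1 (norm_pow_sub_one_le (norm_nonneg _) hc1.le h n) h, ih]
    push_cast
    ring

theorem gr_congr {c Y Y' : Ω} (hc : c ≠ 0) (h : ‖Y - 1‖ ≤ ‖c‖) (h' : ‖Y' - 1‖ ≤ ‖c‖)
    (hlt : ‖Y - Y'‖ < ‖c‖) : gr c Y = gr c Y' := by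
  rw [gr, gr, res_eq_iff (norm_gr_le h) (norm_gr_le h')]
  have : (Y - 1) / c - (Y' - 1) / c = (Y - Y') / c := by ring
  rw [this, norm_div, div_lt_one (norm_pos_iff.2 hc)]
  exact hlt

theorem gr_smul {p : ℕ} {I : Type} [Group I] [MulSemiringAction I Ω] [Setting p Ω I] {c : Ω}
    (hc : c ≠ 0) {Y : Ω} (h : ‖Y - 1‖ ≤ ‖c‖) (σ : I) : gr c (σ • Y) = tame c σ * gr c Y := by
  have h1 : (σ • Y - 1) / c = (σ • c / c) * (σ • ((Y - 1) / c)) := by
    rw [smul_div₀', smul_sub, smul_one]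
    have : σ • c ≠ 0 := by
      rw [← norm_ne_zero_iff, Setting.norm_smul p]
      exact norm_ne_zero_iff.2 hc
    field_simp
  have h3 := norm_gr_le h
  rw [gr, h1, res_mul (norm_smul_div p hc σ).le (by rwa [Setting.norm_smul p]), res_smul p σ h3]
  rfl

end Gr

variable {p : ℕ} {Ω : Type} [NormedField Ω] [hU : IsUltrametricDist Ω] {I : Type} [Group I]
    [MulSemiringAction I Ω] [S : Setting p Ω I]

/-- Conjugation on the kernel. -/
def cj {M : Type} [AddCommGroup M] {ρ : I → M → M} (h : IsAct ρ) (τ : I) (g : actKer h) :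
    actKer h :=
  ⟨τ⁻¹ * g.1 * τ, fun x => by
    rw [h.mul, h.mul, g.2, h.inv_apply]⟩

/-- An equivariant homomorphism from the kernel to `End M`. -/
structure EqFam {M : Type} [AddCommGroup M] {ρ : I → M → M} (h : IsAct ρ)
    (c : actKer h → M →+ M) : Prop where
  mul : ∀ g g', c (g * g') = c g + c g'
  equi : ∀ (τ : I) (g : actKer h) (x : M), c g (ρ τ x) = ρ τ (c (cj h τ g) x)

/-- Matrix coefficients. -/
def coe' {M : Type} [AddCommGroup M] {ρ : I → M → M} {h : IsAct ρ} (b : M →+ M →+ ZMod p)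
    (c : actKer h → M →+ M) (x y : M) : actKer h → ZMod p := fun g => b y (c g x)

/-- All matrix coefficients have level at least `j`. -/
def SS.LevAll {M : Type} [AddCommGroup M] {ρ : I → M → M} {b : M →+ M →+ ZMod p}
    (hS : SS p Ω I ρ b) (c : actKer hS.act → M →+ M) (j : ℕ) : Prop :=
  ∀ x y, ∃ Y, IsKum (zeta p Ω I) (coe' b c x y) Y ∧ ‖Y - 1‖ ≤ q1 p Ω I ^ j

namespace SS

variable {M : Type} [AddCommGroup M] {ρ : I → M → M} {b : M →+ M →+ ZMod p}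
  (hS : SS p Ω I ρ b) {lam : M →+ KR Ω} (hinj : Function.Injective lam)
  (hlam : ∀ σ x, lam (ρ σ x) = psi p Ω σ * lam x)
include hS hinj hlam

/-- transport of Kummer generators by `I`. -/
theorem kum_smul {c : actKer hS.act → M →+ M} (hc : EqFam hS.act c) {x y : M} {Y : Ω}
    (hY : IsKum (zeta p Ω I) (coe' b c x y) Y) (τ : I) :
    IsKum (zeta p Ω I) (coe' b c (ρ τ x) (ρ τ y)) (τ • Y) := by
  have C := hS.kumCtx hinj hlam
  have h1 := C.kum_conj hY (MulSemiringAction.toRingHom I Ω τ) (cj hS.act τ)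
    (fun g z => by
      change g.1 • τ • z = τ • ((τ⁻¹ * g.1 * τ) • z)
      rw [← mul_smul, ← mul_smul]
      congr 1
      group) (a := omega p Ω I τ) (smul_zeta p Ω I τ)
  have h2 : coe' b c (ρ τ x) (ρ τ y) = fun g => omega p Ω I τ * coe' b c x y (cj hS.act τ g) := by
    funext g
    rw [coe', coe', hc.equi, hS.inv]
  rw [h2]
  exact h1

/-- The leading coefficients in terms of `λ`. -/
theorem exists_form {c : actKer hS.act → M →+ M} (hc : EqFam hS.act c) {i : ℕ} (hi0 : 0 < i)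
    (hpi : ¬ p ∣ i) {c₁ : Ω} (hc₁ : ‖c₁‖ = q1 p Ω I ^ i) (hlev : hS.LevAll c i) :
    ∃ α β γ δ : KR Ω, (∀ x y Y, IsKum (zeta p Ω I) (coe' b c x y) Y → ‖Y - 1‖ ≤ q1 p Ω I ^ i →
      gr c₁ Y = α * (lam x * lam y) + β * (lam x ^ p * lam y) + γ * (lam x * lam y ^ p) +
        δ * (lam x ^ p * lam y ^ p)) ∧
      ∀ τ : I, α * psi p Ω τ ^ 2 = tame c₁ τ * α ∧ β * psi p Ω τ ^ (p + 1) = tame c₁ τ * β ∧
        γ * psi p Ω τ ^ (p + 1) = tame c₁ τ * γ ∧ δ * psi p Ω τ ^ (2 * p) = tame c₁ τ * δ := by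
  haveI : Fact p.Prime := ⟨S.prime⟩
  haveI := charP_KR p Ω I
  have C := hS.kumCtx hinj hlam
  choose Y hY hYn using hlev
  have hpos : 0 < q1 p Ω I ^ i := pow_pos (q1_pos p Ω I) i
  have hlt : q1 p Ω I ^ i < 1 := pow_lt_one₀ (q1_pos p Ω I).le (q1_lt_one p Ω I) hi0.ne'
  have hc0 : c₁ ≠ 0 := by rw [← norm_ne_zero_iff, hc₁]; exact hpos.ne'
  have hc1 : ‖c₁‖ < 1 := by rwa [hc₁]
  have huniq : ∀ x y Y', IsKum (zeta p Ω I) (coe' b c x y) Y' → ‖Y' - 1‖ ≤ q1 p Ω I ^ i →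
      gr c₁ Y' = gr c₁ (Y x y) := by
    intro x y Y' h h'
    apply gr_congr hc0 (by rwa [hc₁]) (by rw [hc₁]; exact hYn x y)
    rw [hc₁]
    exact C.kum_unique h (hY x y) hi0 hpi h' (hYn x y)
  let g : M →+ M →+ KR Ω := AddMonoidHom.mk' (fun x => AddMonoidHom.mk' (fun y => gr c₁ (Y x y))
    fun y y' => by
      rw [← gr_mul hc0 hc1 (by rw [hc₁]; exact hYn x y) (by rw [hc₁]; exact hYn x y')]
      symm
      apply huniq
      · have h1 := C.kum_mul (hY x y) (hY x y')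
        have h2 : coe' b c x (y + y') = fun g => coe' b c x y g + coe' b c x y' g := by
          funext g
          rw [coe', coe', coe', map_add, AddMonoidHom.add_apply]
        rw [h2]
        exact h1
      · exact norm_mul_sub_one hlt.le (hYn x y) (hYn x y')) fun x x' => by
    ext y
    simp only [AddMonoidHom.mk'_apply, AddMonoidHom.add_apply]
    rw [← gr_mul hc0 hc1 (by rw [hc₁]; exact hYn x y) (by rw [hc₁]; exact hYn x' y)]
    symm
    apply huniq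
    · have h1 := C.kum_mul (hY x y) (hY x' y)
      have h2 : coe' b c (x + x') y = fun g => coe' b c x y g + coe' b c x' y g := by
        funext g
        rw [coe', coe', coe', map_add, map_add]
      rw [h2]
      exact h1
    · exact norm_mul_sub_one hlt.le (hYn x y) (hYn x' y)
  have hg : ∀ x y, g x y = gr c₁ (Y x y) := fun x y => rfl
  obtain ⟨α, β, γ, δ, hform⟩ := Coord.exists_coord₂ (p := p) hS.card hS.kill hinj g
  refine ⟨α, β, γ, δ, fun x y Y' h h' => ?_, fun τ => ?_⟩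
  · rw [huniq x y Y' h h', ← hg, hform]
  · have hequi : ∀ x y, g (ρ τ x) (ρ τ y) = tame c₁ τ * g x y := by
      intro x y
      rw [hg, hg, ← gr_smul (p := p) hc0 (by rw [hc₁]; exact hYn x y) τ]
      symm
      apply huniq
      · exact hS.kum_smul hinj hlam hc (hY x y) τ
      · have h1 : τ • Y x y - 1 = τ • (Y x y - 1) := by rw [smul_sub, smul_one]
        rw [h1, S.norm_smul]
        exact hYn x y
    have h1 := Coord.coord₂_unique (p := p) hS.card hS.kill hinj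
      (a := α * psi p Ω τ ^ 2) (b := β * psi p Ω τ ^ (p + 1)) (c := γ * psi p Ω τ ^ (p + 1))
      (d := δ * psi p Ω τ ^ (2 * p)) (a' := tame c₁ τ * α) (b' := tame c₁ τ * β)
      (c' := tame c₁ τ * γ) (d' := tame c₁ τ * δ) (by
        intro x y
        have h2 := hequi x y
        rw [hform, hform, hlam, hlam] at h2
        linear_combination h2)
    exact h1

/-- The minimal level. -/
theorem min_level {c : actKer hS.act → M →+ M} (hc : EqFam hS.act c) {j : ℕ} (hj : 0 < j)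
    (hlev : hS.LevAll c j) (hne : ∃ g x, c g x ≠ 0) : ∃ (i : ℕ) (c₁ : Ω), j ≤ i ∧
      i < p * (p + 1) ∧ ¬ p ∣ i ∧ ‖c₁‖ = q1 p Ω I ^ i ∧ hS.LevAll c i ∧
      (∃ x y, IsKum (zeta p Ω I) (coe' b c x y) (1 + c₁) ∧ ∃ g, coe' b c x y g ≠ 0) ∧
      ((∀ τ : I, tame c₁ τ = psi p Ω τ ^ 2) ∨ (∀ τ : I, tame c₁ τ = psi p Ω τ ^ (p + 1)) ∨
        ∀ τ : I, tame c₁ τ = psi p Ω τ ^ (2 * p)) := by
  classical
  haveI : Fact p.Prime := ⟨S.prime⟩
  haveI := charP_KR p Ω I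
  have C := hS.kumCtx hinj hlam
  let P : ℕ → Prop := fun i => ∃ x y Y, IsKum (zeta p Ω I) (coe' b c x y) Y ∧ j ≤ i ∧
    i < p * (p + 1) ∧ ¬ p ∣ i ∧ ‖Y - 1‖ = q1 p Ω I ^ i ∧ ∃ g, coe' b c x y g ≠ 0
  have hP : ∀ x y g, coe' b c x y g ≠ 0 → ∃ Y i, IsKum (zeta p Ω I) (coe' b c x y) Y ∧ j ≤ i ∧
      i < p * (p + 1) ∧ ¬ p ∣ i ∧ ‖Y - 1‖ = q1 p Ω I ^ i := by
    intro x y g hg
    obtain ⟨Y, hY, hYn⟩ := hlev x y
    exact C.normal' hg hY hj hYn
  obtain ⟨g₀, x₀, hgx⟩ := hne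
  obtain ⟨y₀, hy₀⟩ : ∃ y, b y (c g₀ x₀) ≠ 0 := by
    by_contra hcon
    push Not at hcon
    exact hgx (hS.eq_zero_of_right hcon)
  have hex : ∃ i, P i := by
    obtain ⟨Y, i, h1, h2, h3, h4, h5⟩ := hP x₀ y₀ g₀ hy₀
    exact ⟨i, x₀, y₀, Y, h1, h2, h3, h4, h5, g₀, hy₀⟩
  obtain ⟨x₁, y₁, Y₁, hK, hji, hi, hpi, hYi, hg1⟩ := Nat.find_spec hex
  set i := Nat.find hex with hidef
  have hc1 : ‖Y₁ - 1‖ = q1 p Ω I ^ i := hYi
  have hlevi : hS.LevAll c i := by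
    intro x y
    by_cases h0 : ∃ g, coe' b c x y g ≠ 0
    · obtain ⟨g, hg⟩ := h0
      obtain ⟨Y, i', h1, h2, h3, h4, h5⟩ := hP x y g hg
      refine ⟨Y, h1, ?_⟩
      rw [h5]
      apply pow_le_pow_of_le_one (q1_pos p Ω I).le (q1_lt_one p Ω I).le
      exact Nat.find_min' hex ⟨x, y, Y, h1, h2, h3, h4, h5, g, hg⟩
    · push Not at h0
      refine ⟨1, ?_, ?_⟩
      · have h1 := C.kum_one
        have h2 : coe' b c x y = fun _ => 0 := funext h0
        rw [h2]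
        exact h1
      · rw [sub_self, norm_zero]
        exact pow_nonneg (q1_pos p Ω I).le _
  obtain ⟨α, β, γ, δ, hform, htame⟩ := hS.exists_form hinj hlam hc (by omega) hpi hc1 hlevi
  have hY1 : 1 + (Y₁ - 1) = Y₁ := by ring
  refine ⟨i, Y₁ - 1, hji, hi, hpi, hc1, hlevi, ⟨x₁, y₁, by rwa [hY1], hg1⟩, ?_⟩
  have hne1 : gr (Y₁ - 1) Y₁ ≠ 0 := by
    apply gr_ne_zero _ rfl
    rw [← norm_ne_zero_iff, hc1]
    exact (pow_pos (q1_pos p Ω I) i).ne'
  rw [hform x₁ y₁ Y₁ hK hc1.le] at hne1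
  have key : ∀ {a u v : KR Ω}, a ≠ 0 → a * u = v * a → v = u := by
    intro a u v ha h
    exact mul_right_cancel₀ ha (h.symm.trans (mul_comm a u))
  by_cases hα : α = 0
  · by_cases hβ : β = 0
    · by_cases hγ : γ = 0
      · by_cases hδ : δ = 0
        · exfalso
          apply hne1
          rw [hα, hβ, hγ, hδ]
          ring
        · exact Or.inr (Or.inr fun τ => key hδ (htame τ).2.2.2)
      · exact Or.inr (Or.inl fun τ => key hγ (htame τ).2.2.1)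
    · exact Or.inr (Or.inl fun τ => key hβ (htame τ).2.1)
  · exact Or.inl fun τ => key hα (htame τ).1

/-- the tame character of an element of norm `q₁ ^ i`. -/
theorem tame_pow_p {i : ℕ} {c₁ : Ω} (hc₁ : ‖c₁‖ = q1 p Ω I ^ i) (τ : I) :
    tame c₁ τ ^ p = psi p Ω τ ^ i := by
  have hc0 : c₁ ≠ 0 := by
    rw [← norm_ne_zero_iff, hc₁]; exact (pow_pos (q1_pos p Ω I) i).ne'
  rw [← tame_pow p hc0, psi, ← tame_pow p (pi2_ne_zero p Ω I)]
  apply tame_eq p (pow_ne_zero _ hc0)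
  rw [norm_pow, norm_pow, hc₁, ← q1_pow p Ω I, ← pow_mul, ← pow_mul, mul_comm]

end SS

end Fermat.Agent.Flat
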