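import Fermat.Agent.Flat.SSExt

/-!
# The level of a flat self-extension
-/

set_option autoImplicit false
set_option linter.unusedSectionVars false
set_option linter.style.haveILetI false

noncomputable section

namespace Fermat.Agent.Flat

variable {p : ℕ} {Ω : Type} [NormedField Ω] [hU : IsUltrametricDist Ω] {I : Type} [Group I]
    [MulSemiringAction I Ω] [S : Setting p Ω I]

variable (p Ω I) in
theorem exists_tau : ∃ τ : I, psi p Ω τ ^ p = -psi p Ω τ := by
  haveI : Fact p.Prime := ⟨S.prime⟩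
  haveI := charP_KR p Ω I
  obtain ⟨σ, hσ⟩ := exists_orderOf_psi p Ω I
  have hp2 : 2 ≤ p := S.prime.two_le
  obtain ⟨k, hk⟩ : ∃ k, p + 1 = 2 * k := by
    rcases S.prime.eq_two_or_odd' with h | h
    · exact absurd h S.odd
    · obtain ⟨m, hm⟩ := h
      exact ⟨m + 1, by omega⟩
  refine ⟨σ ^ k, ?_⟩
  set u := psi p Ω σ with hu
  have hN : (p - 1) * (p + 1) = p ^ 2 - 1 := (sq_sub_one_eq p Ω I).symm
  have h1 : (u ^ ((p - 1) * k)) ^ 2 = 1 := by
    rw [← pow_mul, mul_assoc, mul_comm k 2, ← hk, hN, ← hσ]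
    exact pow_orderOf_eq_one u
  have h2 : u ^ ((p - 1) * k) ≠ 1 := by
    intro h
    have h3 := orderOf_dvd_of_pow_eq_one h
    rw [hσ, ← hN, hk] at h3
    have hk0 : 0 < k := by omega
    have h4 : 0 < (p - 1) * k := Nat.mul_pos (by omega) hk0
    have h5 := Nat.le_of_dvd h4 h3
    have h6 : (p - 1) * (2 * k) = 2 * ((p - 1) * k) := by ring
    omega
  have h3 : u ^ ((p - 1) * k) = -1 := by
    rw [sq] at h1
    rcases mul_self_eq_one_iff.1 h1 with h | h
    · exact absurd h h2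
    · exact h
  rw [psi_pow, ← hu]
  have h4 : (u ^ k) ^ p = (u ^ k) ^ (p - 1) * u ^ k := by
    rw [← pow_succ]
    congr 1
    omega
  rw [h4, ← pow_mul, mul_comm k, h3]
  ring

/-- `b`-symmetric maps (trace zero). -/
def Symm {M : Type} [AddCommGroup M] (b : M →+ M →+ ZMod p) (φ : M → M) : Prop :=
  ∀ x y, b y (φ x) = b x (φ y)

namespace SS

variable {M : Type} [AddCommGroup M] {ρ : I → M → M} {b : M →+ M →+ ZMod p}
  (hS : SS p Ω I ρ b) {lam : M →+ KR Ω} (hinj : Function.Injective lam)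
  (hlam : ∀ σ x, lam (ρ σ x) = psi p Ω σ * lam x)
include hS hinj hlam

theorem levAll_mono {c : actKer hS.act → M →+ M} {i j : ℕ} (hij : i ≤ j) (h : hS.LevAll c j) :
    hS.LevAll c i := by
  intro x y
  obtain ⟨Y, hY, hYn⟩ := h x y
  exact ⟨Y, hY, hYn.trans (pow_le_pow_of_le_one (q1_pos p Ω I).le (q1_lt_one p Ω I).le hij)⟩

/-- maps commuting with `τ` and symmetric are multiples of `τ`. -/
theorem eq_smul_of_comm {τ : I} (hτ : psi p Ω τ ^ p = -psi p Ω τ) {φ : M →+ M}
    (hcomm : ∀ x, φ (ρ τ x) = ρ τ (φ x)) (hsymm : Symm b φ) :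
    ∃ n : ℕ, ∀ x, φ x = n • ρ τ x := by
  haveI : Fact p.Prime := ⟨S.prime⟩
  haveI := charP_KR p Ω I
  have h2 : (2 : KR Ω) ≠ 0 := by
    intro h
    have h3 : ((2 : ℕ) : KR Ω) = 0 := by exact_mod_cast h
    rw [CharP.cast_eq_zero_iff (KR Ω) p] at h3
    have := Nat.le_of_dvd two_pos h3
    have := S.prime.two_le
    exact S.odd (by omega)
  set s := psi p Ω τ with hs
  have hs0 : s ≠ 0 := psi_ne_zero τ
  obtain ⟨u, v, huv⟩ := Coord.exists_coord (p := p) hS.card hS.kill hinj (lam.comp φ)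
  have hv : v = 0 := by
    have h3 := Coord.coord_unique (p := p) hS.card hS.kill hinj (u := u * s) (v := v * s ^ p)
      (u' := s * u) (v' := s * v) (by
        intro z
        have h4 := huv (ρ τ z)
        rw [AddMonoidHom.comp_apply, hcomm, hlam, hlam] at h4
        have h5 := huv z
        rw [AddMonoidHom.comp_apply] at h5
        rw [h5] at h4
        linear_combination -h4)
    have h4 := h3.2
    rw [hτ] at h4
    have h5 : 2 * s * v = 0 := by linear_combination -h4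
    exact (mul_eq_zero.1 h5).resolve_left (mul_ne_zero h2 hs0)
  have huv' : ∀ z, lam (φ z) = u * lam z := by
    intro z
    have h5 := huv z
    rw [AddMonoidHom.comp_apply, hv, zero_mul, add_zero] at h5
    exact h5
  obtain ⟨t, ht0, ht⟩ := hS.det_eq hinj
  obtain ⟨x, y, h0⟩ := hS.exists_ne
  have hb0 : ((b x y).val : KR Ω) ≠ 0 := by
    intro h
    rw [CharP.cast_eq_zero_iff (KR Ω) p] at h
    have h2 := Nat.eq_zero_of_dvd_of_lt h (ZMod.val_lt _)
    exact h0 ((ZMod.val_eq_zero _).1 h2)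
  have hup : u ^ p = -u := by
    have h3 := ht y (φ x)
    have h4 := ht x (φ y)
    rw [hsymm x y] at h3
    rw [huv'] at h3 h4
    have h5 := ht x y
    have h6 : (u + u ^ p) * (t * ((b x y).val : KR Ω)) = 0 := by
      rw [← h5]
      linear_combination h4 - h3
    have h7 := (mul_eq_zero.1 h6).resolve_right (mul_ne_zero ht0 hb0)
    linear_combination h7
  obtain ⟨n, hn⟩ := Coord.exists_natCast (p := p) (u := u / s) (by
    rw [div_pow, hup, hτ, neg_div_neg_eq])
  refine ⟨n, fun x => hinj ?_⟩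
  rw [huv', map_nsmul, hlam, nsmul_eq_mul, hn, ← hs]
  field_simp

/-- The unramified part of a flat extension vanishes. -/
theorem anticomm_of_flat {c : I → M →+ M} (hc : ICoc ρ c) (hf : FlatC p Ω ρ c)
    (hsymm : ∀ σ, Symm b (c σ)) {τ : I} (hτ : psi p Ω τ ^ p = -psi p Ω τ)
    (g : actKer hS.act) (x : M) : c g.1 (ρ τ x) = -ρ τ (c g.1 x) := by
  haveI : Fact p.Prime := ⟨S.prime⟩
  haveI := charP_KR p Ω I
  haveI := hS.finite
  have C := hS.kumCtx hinj hlam
  set s := psi p Ω τ with hs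
  have hs0 : s ≠ 0 := psi_ne_zero τ
  -- `τ` as an automorphism
  let T : M ≃+ M :=
    { toFun := ρ τ
      invFun := ρ τ⁻¹
      left_inv := hS.act.inv_apply τ
      right_inv := hS.act.apply_inv τ
      map_add' := hS.act.add τ }
  have hTρ : ∀ σ x, T (ρ σ x) = ρ σ (T x) := fun σ x => hS.comm hinj hlam τ σ x
  let c' : I → M →+ M := fun σ => c σ + conjC T c σ
  have hc' : ICoc ρ c' := hc.add hS.act (hc.conj T hTρ)
  have hf' : FlatC p Ω ρ c' := hf.add hS.act hc (hc.conj T hTρ) (hf.conj T hTρ)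
  -- `τ ^ 2` is scalar
  obtain ⟨m, hm⟩ := Coord.exists_natCast (p := p) (u := s ^ 2) (by
    rw [← pow_mul, mul_comm, pow_mul, hτ]; ring)
  have hsq : ∀ x, ρ τ (ρ τ x) = m • x := by
    intro x
    apply hinj
    rw [hlam, hlam, map_nsmul, nsmul_eq_mul, hm]
    ring
  -- `c' g` commutes with `τ`
  have hcomm : ∀ (g : actKer hS.act) x, c' g.1 (ρ τ x) = ρ τ (c' g.1 x) := by
    intro g x
    change c g.1 (ρ τ x) + ρ τ (c g.1 (ρ τ⁻¹ (ρ τ x))) =
      ρ τ (c g.1 x + ρ τ (c g.1 (ρ τ⁻¹ x)))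
    rw [hS.act.inv_apply, hS.act.add, hsq]
    have h1 : c g.1 (ρ τ x) = m • c g.1 (ρ τ⁻¹ x) := by
      have h2 : ρ τ x = m • ρ τ⁻¹ x := by
        rw [← hsq, hS.act.apply_inv]
      rw [h2, map_nsmul]
    rw [h1, add_comm]
  have hsymm' : ∀ σ, Symm b (c' σ) := by
    intro σ x y
    have h1 : ∀ x y, b y (ρ τ (c σ (ρ τ⁻¹ x))) = omega p Ω I τ * b (ρ τ⁻¹ y) (c σ (ρ τ⁻¹ x)) := by
      intro x y
      rw [← hS.inv, hS.act.apply_inv]
    change b y (c σ x + ρ τ (c σ (ρ τ⁻¹ x))) = b x (c σ y + ρ τ (c σ (ρ τ⁻¹ y)))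
    rw [map_add, map_add, h1, h1, hsymm σ x y, hsymm σ (ρ τ⁻¹ x)]
  have hmul : ∀ g : actKer hS.act, ∃ n : ℕ, ∀ x, c' g.1 x = n • ρ τ x := fun g =>
    hS.eq_smul_of_comm hinj hlam hτ (hcomm g) (hsymm' g.1)
  -- the level of `c'`
  have hcard : ∀ x, Nat.card (hS.valGrp hc' x) ≤ p := by
    intro x
    have h1 : hS.valGrp hc' x ≤ AddSubgroup.zmultiples (ρ τ x) := by
      rintro _ ⟨g, rfl⟩
      obtain ⟨n, hn⟩ := hmul g
      change c' g.1 x ∈ _
      rw [hn]
      exact AddSubgroup.nsmul_mem_zmultiples _ _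
    have h2 : Nat.card (AddSubgroup.zmultiples (ρ τ x)) ≤ p := by
      rw [Nat.card_zmultiples]
      exact Nat.le_of_dvd S.prime.pos (addOrderOf_dvd_of_nsmul_eq_zero (hS.kill _))
    exact (Nat.card_le_card_of_injective _ (AddSubgroup.inclusion_injective h1)).trans h2
  have hfam := eqFam_resK hS.act hc'
  have hlev : hS.LevAll (resK hS.act c') (p ^ 2 + 1) := by
    intro x y
    by_cases h0 : ∃ g, coe' b (resK hS.act c') x y g ≠ 0
    · obtain ⟨g, hg⟩ := h0
      obtain ⟨Y, i, h1, h2, h3, h4, h5, h6⟩ := hS.break_flat hinj hlam hc' hf' hg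
      refine ⟨Y, h1, ?_⟩
      rw [h5]
      apply pow_le_pow_of_le_one (q1_pos p Ω I).le (q1_lt_one p Ω I).le
      have h7 := hcard x
      nlinarith
    · push Not at h0
      refine ⟨1, ?_, ?_⟩
      · have h1 := C.kum_one
        have h2 : coe' b (resK hS.act c') x y = fun _ => 0 := funext h0
        rw [h2]
        exact h1
      · rw [sub_self, norm_zero]
        exact pow_nonneg (q1_pos p Ω I).le _
  -- hence `c'` vanishes on the kernel
  have hzero : ∀ (g : actKer hS.act) x, c' g.1 x = 0 := by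
    by_contra hcon
    push Not at hcon
    obtain ⟨i, c₁, hji, hi, hpi, hc₁, hlevi, ⟨x₁, y₁, hK, -⟩, -⟩ :=
      hS.min_level hinj hlam hfam (by positivity) hlev hcon
    have hpos : 0 < q1 p Ω I ^ i := pow_pos (q1_pos p Ω I) i
    have hi0 : 0 < i := by omega
    have hlt : q1 p Ω I ^ i < 1 := pow_lt_one₀ (q1_pos p Ω I).le (q1_lt_one p Ω I) hi0.ne'
    have hc0 : c₁ ≠ 0 := by rw [← norm_ne_zero_iff, hc₁]; exact hpos.ne'
    have hc1 : ‖c₁‖ < 1 := by rwa [hc₁]
    have hYn : ‖1 + c₁ - 1‖ ≤ ‖c₁‖ := by rw [add_sub_cancel_left]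
    have hgr : gr c₁ (1 + c₁) = 1 := by rw [gr, add_sub_cancel_left, div_self hc0, res_one]
    -- equivariance
    have htame : ∀ σ : I, tame c₁ σ = psi p Ω σ ^ (p + 1) := by
      intro σ
      have h1 := hS.kum_smul hinj hlam hfam hK σ
      have h2 := C.kum_pow hK (omega p Ω I σ).val
      have h3 : coe' b (resK hS.act c') (ρ σ x₁) (ρ σ y₁) =
          fun g => (((omega p Ω I σ).val : ℕ) : ZMod p) * coe' b (resK hS.act c') x₁ y₁ g := by
        funext g
        obtain ⟨n, hn⟩ := hmul g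
        rw [ZMod.natCast_zmod_val]
        change b (ρ σ y₁) (c' g.1 (ρ σ x₁)) = omega p Ω I σ * b y₁ (c' g.1 x₁)
        rw [hn, hn, hS.comm hinj hlam τ σ, ← hS.act.nsmul, hS.inv]
      rw [h3] at h1
      have h4 : ‖σ • (1 + c₁) - 1‖ ≤ ‖c₁‖ := by
        have : σ • (1 + c₁) - 1 = σ • (1 + c₁ - 1) := by rw [smul_sub, smul_one]
        rw [this, S.norm_smul]
        exact hYn
      have h5 := norm_pow_sub_one_le (norm_nonneg c₁) hc1.le hYn (omega p Ω I σ).val
      have h6 : ‖σ • (1 + c₁) - (1 + c₁) ^ (omega p Ω I σ).val‖ < ‖c₁‖ := by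
        rw [hc₁] at h4 h5 ⊢
        exact C.kum_unique h1 h2 hi0 hpi h4 h5
      have h7 := gr_congr hc0 h4 h5 h6
      rw [gr_smul (p := p) hc0 hYn σ, gr_pow hc0 hc1 hYn, hgr, mul_one, mul_one] at h7
      rw [h7, hS.omega_eq hinj hlam]
    have hmod : i ≡ p + 1 [MOD p ^ 2 - 1] := by
      apply modEq_of_psi (Ω := Ω) (I := I)
      intro σ
      rw [← hS.tame_pow_p hinj hlam hc₁ σ, htame, ← pow_mul]
      have h1 : (p + 1) * p = (p ^ 2 - 1) + (p + 1) := by
        have : 1 ≤ p ^ 2 := Nat.one_le_pow _ _ S.prime.pos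
        have h2 : (p + 1) * p = p ^ 2 + p := by ring
        omega
      rw [h1, pow_add, psi_pow_eq_one, one_mul]
    have hle : p + 1 ≤ i := by nlinarith [S.prime.two_le]
    rw [Nat.ModEq.comm, Nat.modEq_iff_dvd' hle] at hmod
    have h1 : 0 < i - (p + 1) := by
      have : p + 1 < p ^ 2 + 1 := by nlinarith [S.prime.two_le]
      omega
    have h2 := Nat.le_of_dvd h1 hmod
    have h3 : p * (p + 1) = p ^ 2 + p := by ring
    omega
  have h1 := hzero g (ρ τ x)
  change c g.1 (ρ τ x) + ρ τ (c g.1 (ρ τ⁻¹ (ρ τ x))) = 0 at h1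
  rw [hS.act.inv_apply] at h1
  exact eq_neg_of_add_eq_zero_left h1

/-- bounds on the exponent -/
theorem exp_two {i : ℕ} (h1 : p + 1 ≤ i) (h2 : i < p * (p + 1))
    (hmod : ∀ σ : I, psi p Ω σ ^ i = psi p Ω σ ^ 2) : i = p ^ 2 + 1 := by
  have h3 := modEq_of_psi (Ω := Ω) (I := I) hmod
  have hp3 : 3 ≤ p := by
    have := S.prime.two_le
    have := S.odd
    omega
  rw [Nat.ModEq.comm, Nat.modEq_iff_dvd' (by omega)] at h3
  obtain ⟨k, hk⟩ := h3
  have h4 : p * (p + 1) = p ^ 2 + p := by ring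
  have h5 : p + 1 ≤ p ^ 2 - 1 := by
    have : 3 * p ≤ p ^ 2 := by nlinarith
    omega
  have hk1 : k = 1 := by
    rcases Nat.lt_trichotomy k 1 with h | h | h
    · have : k = 0 := by omega
      subst this
      omega
    · exact h
    · have h6 : (p ^ 2 - 1) * 2 ≤ (p ^ 2 - 1) * k := Nat.mul_le_mul_left _ h
      omega
  rw [hk1, mul_one] at hk
  omega

theorem exp_two_mul {i : ℕ} (h2 : i < p * (p + 1)) (hpi : ¬ p ∣ i)
    (hmod : ∀ σ : I, psi p Ω σ ^ i = psi p Ω σ ^ (2 * p)) : False := by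
  have h3 := modEq_of_psi (Ω := Ω) (I := I) hmod
  have hp3 : 3 ≤ p := by
    have := S.prime.two_le
    have := S.odd
    omega
  have h4 : p * (p + 1) = p ^ 2 + p := by ring
  have h5 : 3 * p ≤ p ^ 2 := by nlinarith
  rcases le_total i (2 * p) with h | h
  · rw [Nat.modEq_iff_dvd' h] at h3
    rcases Nat.eq_zero_or_pos (2 * p - i) with h6 | h6
    · apply hpi
      have : i = 2 * p := by omega
      rw [this]
      exact dvd_mul_left _ _
    · have h7 := Nat.le_of_dvd h6 h3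
      omega
  · rw [Nat.ModEq.comm, Nat.modEq_iff_dvd' h] at h3
    rcases Nat.eq_zero_or_pos (i - 2 * p) with h6 | h6
    · apply hpi
      have : i = 2 * p := by omega
      rw [this]
      exact dvd_mul_left _ _
    · have h7 := Nat.le_of_dvd h6 h3
      omega

/-- **The level of a flat extension.** -/
theorem lev_of_flat {c : I → M →+ M} (hc : ICoc ρ c) (hf : FlatC p Ω ρ c)
    (hsymm : ∀ σ, Symm b (c σ)) : hS.LevAll (resK hS.act c) (p ^ 2 + 1) := by
  haveI : Fact p.Prime := ⟨S.prime⟩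
  haveI := charP_KR p Ω I
  haveI := hS.finite
  have C := hS.kumCtx hinj hlam
  have hp2 : 2 ≤ p := S.prime.two_le
  have h2κ : (2 : KR Ω) ≠ 0 := by
    intro h
    have h3 : ((2 : ℕ) : KR Ω) = 0 := by exact_mod_cast h
    rw [CharP.cast_eq_zero_iff (KR Ω) p] at h3
    have := Nat.le_of_dvd two_pos h3
    exact S.odd (by omega)
  have hfam := eqFam_resK hS.act hc
  have htriv : ∀ x y, (∀ g, coe' b (resK hS.act c) x y g = 0) →
      IsKum (zeta p Ω I) (coe' b (resK hS.act c) x y) 1 := by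
    intro x y h0
    have h1 := C.kum_one
    have h2 : coe' b (resK hS.act c) x y = fun _ => 0 := funext h0
    rw [h2]
    exact h1
  have hlev : hS.LevAll (resK hS.act c) (p + 1) := by
    intro x y
    by_cases h0 : ∃ g, coe' b (resK hS.act c) x y g ≠ 0
    · obtain ⟨g, hg⟩ := h0
      obtain ⟨Y, i, h1, h2, h3, h4, h5, h6⟩ := hS.break_flat hinj hlam hc hf hg
      refine ⟨Y, h1, ?_⟩
      rw [h5]
      apply pow_le_pow_of_le_one (q1_pos p Ω I).le (q1_lt_one p Ω I).le
      have h7 : Nat.card (hS.valGrp hc x) ≤ Nat.card M := AddSubgroup.card_le_card_addGroup _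
      rw [hS.card] at h7
      nlinarith
    · push Not at h0
      refine ⟨1, htriv x y h0, ?_⟩
      rw [sub_self, norm_zero]
      exact pow_nonneg (q1_pos p Ω I).le _
  by_cases hcon : ∃ (g : actKer hS.act) (x : M), resK hS.act c g x ≠ 0
  · obtain ⟨i, c₁, hji, hi, hpi, hc₁, hlevi, ⟨x₁, y₁, hK, -⟩, hcases⟩ :=
      hS.min_level hinj hlam hfam (by omega) hlev hcon
    have hpos : 0 < q1 p Ω I ^ i := pow_pos (q1_pos p Ω I) i
    have hi0 : 0 < i := by omega
    have hlt : q1 p Ω I ^ i < 1 := pow_lt_one₀ (q1_pos p Ω I).le (q1_lt_one p Ω I) hi0.ne'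
    have hc0 : c₁ ≠ 0 := by rw [← norm_ne_zero_iff, hc₁]; exact hpos.ne'
    have hc1 : ‖c₁‖ < 1 := by rwa [hc₁]
    have hYn : ‖1 + c₁ - 1‖ ≤ ‖c₁‖ := by rw [add_sub_cancel_left]
    have hgr : gr c₁ (1 + c₁) = 1 := by rw [gr, add_sub_cancel_left, div_self hc0, res_one]
    obtain ⟨τ, hτ⟩ := exists_tau p Ω I
    -- the value of the tame character at `τ`
    have hθ : tame c₁ τ = psi p Ω τ ^ 2 := by
      have h1 := hS.kum_smul hinj hlam hfam hK τ
      have h2 := C.kum_pow hK (-omega p Ω I τ).val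
      have h3 : coe' b (resK hS.act c) (ρ τ x₁) (ρ τ y₁) =
          fun g => (((-omega p Ω I τ).val : ℕ) : ZMod p) * coe' b (resK hS.act c) x₁ y₁ g := by
        funext g
        rw [ZMod.natCast_zmod_val]
        change b (ρ τ y₁) (c g.1 (ρ τ x₁)) = -omega p Ω I τ * b y₁ (c g.1 x₁)
        rw [hS.anticomm_of_flat hinj hlam hc hf hsymm hτ, map_neg, hS.inv, neg_mul]
      rw [h3] at h1
      have h4 : ‖τ • (1 + c₁) - 1‖ ≤ ‖c₁‖ := by
        have : τ • (1 + c₁) - 1 = τ • (1 + c₁ - 1) := by rw [smul_sub, smul_one]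
        rw [this, S.norm_smul]
        exact hYn
      have h5 := norm_pow_sub_one_le (norm_nonneg c₁) hc1.le hYn (-omega p Ω I τ).val
      have h6 : ‖τ • (1 + c₁) - (1 + c₁) ^ (-omega p Ω I τ).val‖ < ‖c₁‖ := by
        rw [hc₁] at h4 h5 ⊢
        exact C.kum_unique h1 h2 hi0 hpi h4 h5
      have h7 := gr_congr hc0 h4 h5 h6
      rw [gr_smul (p := p) hc0 hYn τ, gr_pow hc0 hc1 hYn, hgr, mul_one, mul_one] at h7
      have h8 : (((-omega p Ω I τ).val : ℕ) : KR Ω) + ((omega p Ω I τ).val : KR Ω) = 0 := by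
        rw [← Nat.cast_add, CharP.cast_eq_zero_iff (KR Ω) p]
        have h9 : (((-omega p Ω I τ).val + (omega p Ω I τ).val : ℕ) : ZMod p) = 0 := by
          rw [Nat.cast_add, ZMod.natCast_zmod_val, ZMod.natCast_zmod_val, neg_add_cancel]
        exact (ZMod.natCast_eq_zero_iff _ _).1 h9
      rw [hS.omega_eq hinj hlam, pow_succ, hτ] at h8
      rw [h7]
      linear_combination h8
    rcases hcases with h | h | h
    · exfalso
      apply hS.exp_two_mul hinj hlam hi hpi
      intro σ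
      rw [← hS.tame_pow_p hinj hlam hc₁ σ, h, ← pow_mul]
    · exfalso
      have h1 := h τ
      rw [hθ, pow_succ (psi p Ω τ) p, hτ] at h1
      have h2 : 2 * psi p Ω τ ^ 2 = 0 := by linear_combination h1
      exact mul_ne_zero h2κ (pow_ne_zero 2 (psi_ne_zero τ)) h2
    · have h1 : i = p ^ 2 + 1 := by
        apply hS.exp_two hinj hlam hji hi
        intro σ
        rw [← hS.tame_pow_p hinj hlam hc₁ σ, h, ← pow_mul]
        have h2 : 2 * p * p = 2 * (p ^ 2 - 1) + 2 := by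
          have : 1 ≤ p ^ 2 := Nat.one_le_pow _ _ S.prime.pos
          have h2 : 2 * p * p = 2 * p ^ 2 := by ring
          omega
        rw [h2, pow_add, pow_mul', psi_pow_eq_one, one_pow, one_mul]
      rw [← h1]
      exact hlevi
  · push Not at hcon
    intro x y
    refine ⟨1, htriv x y fun g => ?_, ?_⟩
    · rw [coe', hcon, map_zero]
    · rw [sub_self, norm_zero]
      exact pow_nonneg (q1_pos p Ω I).le _

end SS

end Fermat.Agent.Flat
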