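import Fermat.Agent.Flat.TheoremA
import Fermat.Agent.Flat.KumBreak

/-!
# The tame field of an irreducible symplectic module of order `p ^ 2`
-/

set_option autoImplicit false
set_option linter.unusedSectionVars false
set_option linter.style.haveILetI false

noncomputable section

namespace Fermat.Agent.Flat

variable {p : ℕ} {Ω : Type} [NormedField Ω] [hU : IsUltrametricDist Ω] {I : Type} [Group I]
    [MulSemiringAction I Ω] [S : Setting p Ω I]

section Value

/-- The value group of a fixed field, by counting. -/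
theorem norm_pow_card_of_stab {X : Type} [Finite X] [MulAction I X] {x : Ω} (hx : x ≠ 0)
    (h : ∀ (m : X) (σ : I), σ • m = m → σ • x = x) :
    ∃ k : ℤ, ‖x‖ ^ Nat.card X = (p : ℝ) ^ k := by
  classical
  haveI := Fintype.ofFinite X
  have hrep : ∀ m : X, ∃ σ : I, σ • (Quotient.mk (MulAction.orbitRel I X) m).out = m := by
    intro m
    have h1 : (MulAction.orbitRel I X).r m (Quotient.mk (MulAction.orbitRel I X) m).out :=
      (MulAction.orbitRel I X).symm (Quotient.mk_out (s := MulAction.orbitRel I X) m)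
    obtain ⟨σ, hσ⟩ := MulAction.orbitRel_apply.1 h1
    exact ⟨σ, hσ⟩
  choose s hs using hrep
  have hrepσ : ∀ (τ : I) (m : X), (Quotient.mk (MulAction.orbitRel I X) (τ • m)).out =
      (Quotient.mk (MulAction.orbitRel I X) m).out := by
    intro τ m
    congr 1
    apply Quotient.sound
    exact MulAction.orbitRel_apply.2 ⟨τ, rfl⟩
  have hmove : ∀ (τ : I) (m : X), τ • s m • x = s (τ • m) • x := by
    intro τ m
    have h1 : ((s (τ • m))⁻¹ * (τ * s m)) • (Quotient.mk (MulAction.orbitRel I X) m).out =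
        (Quotient.mk (MulAction.orbitRel I X) m).out := by
      have h2 := hs (τ • m)
      rw [hrepσ] at h2
      rw [mul_smul, inv_smul_eq_iff, mul_smul, hs m]
      exact h2.symm
    have h2 := h _ _ h1
    rw [mul_smul, inv_smul_eq_iff, mul_smul] at h2
    exact h2
  set P : Ω := ∏ m : X, s m • x with hP
  have hPn : ‖P‖ = ‖x‖ ^ Nat.card X := by
    rw [hP, norm_prod, Finset.prod_congr rfl fun m _ => S.norm_smul (s m) x, Finset.prod_const,
      Finset.card_univ, Nat.card_eq_fintype_card]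
  have hP0 : P ≠ 0 := by
    rw [← norm_ne_zero_iff, hPn]
    exact pow_ne_zero _ (norm_ne_zero_iff.2 hx)
  have hPfix : ∀ τ : I, τ • P = P := by
    intro τ
    rw [hP, Finset.smul_prod']
    exact Fintype.prod_equiv (MulAction.toPerm τ) _ _ fun m => hmove τ m
  rw [← hPn]
  exact S.norm_fixed P hP0 hPfix

end Value

section Pi

variable (p Ω I) in
include S in
theorem exists_pi2 : ∃ π : Ω, π ^ (p ^ 2 - 1) = p := by
  haveI := S.isAlgClosed
  refine IsAlgClosed.exists_pow_nat_eq _ ?_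
  have : 1 < p ^ 2 := Nat.one_lt_pow two_ne_zero S.prime.one_lt
  omega

variable (p Ω I) in
/-- The uniformizer of the tame extension of degree `p ^ 2 - 1`. -/
def pi2 : Ω := (exists_pi2 p Ω I).choose

variable (p Ω I) in
theorem pi2_pow : pi2 p Ω I ^ (p ^ 2 - 1) = p := (exists_pi2 p Ω I).choose_spec

variable (p Ω I) in
include S in
theorem sq_sub_one_ne : p ^ 2 - 1 ≠ 0 := by
  have : 1 < p ^ 2 := Nat.one_lt_pow two_ne_zero S.prime.one_lt
  omega

variable (p Ω I) in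
include S in
theorem not_dvd_sq_sub_one : ¬ p ∣ p ^ 2 - 1 := by
  intro hdvd
  have h1 : p ∣ p ^ 2 := dvd_pow_self p two_ne_zero
  have h2 : 1 ≤ p ^ 2 := Nat.one_le_pow _ _ S.prime.pos
  have h3 := Nat.dvd_sub h1 hdvd
  rw [Nat.sub_sub_self h2] at h3
  exact S.prime.one_lt.ne' (Nat.dvd_one.1 h3)

variable (p Ω I) in
include S in
theorem sq_sub_one_eq : p ^ 2 - 1 = (p - 1) * (p + 1) := by
  have := S.prime.two_le
  obtain ⟨k, rfl⟩ : ∃ k, p = k + 1 := ⟨p - 1, by omega⟩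
  have : (k + 1) ^ 2 = k * (k + 2) + 1 := by ring
  rw [this, Nat.add_sub_cancel, Nat.add_sub_cancel]

variable (p Ω I) in
theorem pi2_ne_zero : pi2 p Ω I ≠ 0 := by
  haveI := S.charZero
  intro h
  have := pi2_pow p Ω I
  rw [h, zero_pow (sq_sub_one_ne p Ω I)] at this
  exact S.prime.ne_zero (by exact_mod_cast this.symm)

variable (p Ω I) in
theorem norm_pi2_pow : ‖pi2 p Ω I‖ ^ (p ^ 2 - 1) = (p : ℝ)⁻¹ := by
  rw [← norm_pow, pi2_pow, S.norm_p]

variable (p Ω I) in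
theorem norm_pi2_pos : 0 < ‖pi2 p Ω I‖ := norm_pos_iff.2 (pi2_ne_zero p Ω I)

variable (p Ω I) in
theorem norm_pi2_lt_one : ‖pi2 p Ω I‖ < 1 := by
  by_contra h
  push Not at h
  have h1 := one_le_pow₀ h (n := p ^ 2 - 1)
  rw [norm_pi2_pow] at h1
  exact absurd h1 (not_le.2 (inv_lt_one_of_one_lt₀ (one_lt_p p Ω I)))

/-- The fundamental character of level 2. -/
def psi (p : ℕ) (Ω : Type) [NormedField Ω] [IsUltrametricDist Ω] {I : Type} [Group I]
    [MulSemiringAction I Ω] [Setting p Ω I] (σ : I) : KR Ω := tame (pi2 p Ω I) σ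

theorem psi_mul (σ τ : I) : psi p Ω (σ * τ) = psi p Ω σ * psi p Ω τ :=
  tame_map_mul p (pi2_ne_zero p Ω I) σ τ

theorem psi_one : psi p Ω (1 : I) = 1 := tame_one_smul p (pi2_ne_zero p Ω I)

theorem psi_ne_zero (σ : I) : psi p Ω σ ≠ 0 := tame_ne_zero p (pi2_ne_zero p Ω I) σ

theorem psi_pow (σ : I) (n : ℕ) : psi p Ω (σ ^ n) = psi p Ω σ ^ n := by
  induction n with
  | zero => rw [pow_zero, psi_one, pow_zero]
  | succ n ih => rw [pow_succ, psi_mul, ih, pow_succ]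

theorem psi_pow_eq_one (σ : I) : psi p Ω σ ^ (p ^ 2 - 1) = 1 := by
  rw [psi, ← tame_pow p (pi2_ne_zero p Ω I), pi2_pow]
  haveI := S.charZero
  exact tame_of_fixed p (by exact_mod_cast S.prime.ne_zero)
    (map_natCast (MulSemiringAction.toRingHom I Ω σ) p)

/-- an element of `I` with trivial character fixes `π`. -/
theorem smul_pi2_of_psi {σ : I} (h : psi p Ω σ = 1) : σ • pi2 p Ω I = pi2 p Ω I := by
  haveI := S.charZero
  have h1 : (σ • pi2 p Ω I / pi2 p Ω I) ^ (p ^ 2 - 1) = 1 := by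
    have h2 : σ • (p : Ω) = p := map_natCast (MulSemiringAction.toRingHom I Ω σ) p
    rw [div_pow, ← smul_pow', pi2_pow, h2, div_self]
    exact_mod_cast S.prime.ne_zero
  have h2 := eq_one_of_pow p I (not_dvd_sq_sub_one p Ω I) h1 h
  rwa [div_eq_one_iff_eq (pi2_ne_zero p Ω I)] at h2

/-- The character `ψ` has exact order `p ^ 2 - 1`. -/
theorem dvd_of_psi_zpow {n : ℕ} (h : ∀ σ : I, psi p Ω σ ^ n = 1) : p ^ 2 - 1 ∣ n := by
  have hpp := one_lt_p p Ω I
  have hp0 := p_pos p Ω I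
  have h1 : ∀ σ : I, tame (pi2 p Ω I ^ n) σ = 1 := fun σ => by
    rw [tame_pow p (pi2_ne_zero p Ω I)]
    exact h σ
  have h2 : ‖pi2 p Ω I ^ n‖ ^ (p ^ 2 - 1) = (p : ℝ) ^ (-(n : ℤ)) := by
    rw [norm_pow, ← pow_mul, mul_comm, pow_mul, norm_pi2_pow, inv_pow, zpow_neg, zpow_natCast]
  obtain ⟨k, hk⟩ := norm_eq_zpow_of_tame p (not_dvd_sq_sub_one p Ω I) h2 h1
  rw [hk, ← zpow_natCast, ← zpow_mul] at h2
  have h3 := zpow_right_injective₀ hp0 hpp.ne' h2
  rw [← Int.natCast_dvd_natCast]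
  exact ⟨-k, by linear_combination h3⟩

/-- comparing powers of `ψ` -/
theorem modEq_of_psi {a b : ℕ} (h : ∀ σ : I, psi p Ω σ ^ a = psi p Ω σ ^ b) :
    a ≡ b [MOD p ^ 2 - 1] := by
  rcases le_total a b with hab | hab
  · rw [Nat.modEq_iff_dvd' hab]
    apply dvd_of_psi_zpow (Ω := Ω) (I := I)
    intro σ
    have h1 := h σ
    rw [← Nat.sub_add_cancel hab, pow_add] at h1
    exact mul_right_cancel₀ (pow_ne_zero a (psi_ne_zero σ)) (h1.symm.trans (one_mul _).symm)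
  · apply Nat.ModEq.symm
    rw [Nat.modEq_iff_dvd' hab]
    apply dvd_of_psi_zpow (Ω := Ω) (I := I)
    intro σ
    have h1 := h σ
    rw [← Nat.sub_add_cancel hab, pow_add] at h1
    exact mul_right_cancel₀ (pow_ne_zero b (psi_ne_zero σ)) (h1.trans (one_mul _).symm)

variable (p Ω I) in
/-- an element of `I` on which `ψ` takes a value of order `p ^ 2 - 1`. -/
theorem exists_orderOf_psi : ∃ σ : I, orderOf (psi p Ω σ) = p ^ 2 - 1 := by
  let Ψ : I →* (KR Ω)ˣ :=
    { toFun := fun σ => Units.mk0 (psi p Ω σ) (psi_ne_zero σ)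
      map_one' := Units.ext psi_one
      map_mul' := fun σ τ => Units.ext (psi_mul σ τ) }
  have hpow : ∀ u : Ψ.range, u ^ (p ^ 2 - 1) = 1 := by
    rintro ⟨_, σ, rfl⟩
    apply Subtype.ext
    apply Units.ext
    exact psi_pow_eq_one σ
  have hex : Monoid.ExponentExists Ψ.range :=
    ⟨p ^ 2 - 1, Nat.pos_of_ne_zero (sq_sub_one_ne p Ω I), hpow⟩
  obtain ⟨⟨_, σ, rfl⟩, hσ⟩ := Monoid.exists_orderOf_eq_exponent hex
  refine ⟨σ, ?_⟩
  have h1 : Monoid.exponent Ψ.range ∣ p ^ 2 - 1 := Monoid.exponent_dvd_of_forall_pow_eq_one hpow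
  have h2 : p ^ 2 - 1 ∣ Monoid.exponent Ψ.range := by
    apply dvd_of_psi_zpow (Ω := Ω) (I := I)
    intro τ
    have h3 := Monoid.pow_exponent_eq_one (⟨Ψ τ, τ, rfl⟩ : Ψ.range)
    have h4 := congrArg (fun u : Ψ.range => ((u : (KR Ω)ˣ) : KR Ω)) h3
    simp only [SubmonoidClass.coe_pow, Units.val_pow_eq_pow_val, OneMemClass.coe_one,
      Units.val_one] at h4
    exact h4
  have h3 := Nat.dvd_antisymm h1 h2
  have h5 : orderOf (Ψ σ) = orderOf (⟨Ψ σ, σ, rfl⟩ : Ψ.range) :=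
    Subgroup.orderOf_coe (⟨Ψ σ, σ, rfl⟩ : Ψ.range)
  have h6 : orderOf (psi p Ω σ) = orderOf (Ψ σ) := orderOf_units (y := Ψ σ)
  exact (h6.trans h5).trans (hσ.trans h3)

end Pi

/-- The kernel of an action. -/
def actKer {M : Type} [AddCommGroup M] {ρ : I → M → M} (h : IsAct ρ) : Subgroup I where
  carrier := {σ | ∀ x, ρ σ x = x}
  mul_mem' {a b} ha hb x := by rw [h.mul, hb, ha]
  one_mem' x := h.one x
  inv_mem' {a} ha x := by
    have := h.inv_apply a x
    rwa [ha x] at this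

theorem mem_actKer {M : Type} [AddCommGroup M] {ρ : I → M → M} {h : IsAct ρ} {σ : I} :
    σ ∈ actKer h ↔ ∀ x, ρ σ x = x := Iff.rfl

variable (p Ω I) in
/-- `p`-th root of the norm of `π`. -/
def q1 : ℝ := ‖pi2 p Ω I‖ ^ ((1 : ℝ) / p)

variable (p Ω I) in
theorem q1_pow : q1 p Ω I ^ p = ‖pi2 p Ω I‖ := by
  have hp0 := p_pos p Ω I
  rw [q1, ← Real.rpow_natCast, ← Real.rpow_mul (norm_nonneg _), one_div,
    inv_mul_cancel₀ hp0.ne', Real.rpow_one]

variable (p Ω I) in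
theorem q1_pos : 0 < q1 p Ω I := Real.rpow_pos_of_pos (norm_pi2_pos p Ω I) _

variable (p Ω I) in
theorem q1_lt_one : q1 p Ω I < 1 := by
  apply Real.rpow_lt_one (norm_nonneg _) (norm_pi2_lt_one p Ω I)
  exact div_pos one_pos (p_pos p Ω I)

namespace SS

variable {M : Type} [AddCommGroup M] {ρ : I → M → M} {b : M →+ M →+ ZMod p}
  (hS : SS p Ω I ρ b)
include hS

/-- the radius is the norm of `π`. -/
theorem rad_eq (D : Ord p Ω I ρ) {x : M} (hx : x ≠ 0) : D.rad x = ‖pi2 p Ω I‖ := by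
  have h1 := hS.rad_pow D hx
  rw [← norm_pi2_pow p Ω I] at h1
  exact (pow_left_inj₀ (D.rad_nonneg x) (norm_nonneg _) (sq_sub_one_ne p Ω I)).1 h1

theorem exists_lam (D : Ord p Ω I ρ) : ∃ lam : M →+ KR Ω, Function.Injective lam ∧
    ∀ σ x, lam (ρ σ x) = psi p Ω σ * lam x := by
  obtain ⟨h, hh, c, hc, hc1, hr, hr', hinj⟩ := hS.exists_fun D
  refine ⟨D.leadHom hh hc hc1 hr, hinj, fun σ x => ?_⟩
  have h1 : ‖c‖ = ‖pi2 p Ω I‖ := by
    obtain ⟨x₀, y₀, h0⟩ := hS.exists_ne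
    have hx₀ : x₀ ≠ 0 := by
      rintro rfl
      rw [map_zero, AddMonoidHom.zero_apply] at h0
      exact h0 rfl
    rw [← hr' x₀ hx₀, hS.rad_eq D hx₀]
  rw [psi, ← tame_eq p hc h1]
  exact D.lead_smul hS.act hh hc (hr x) σ

section Lam

variable {lam : M →+ KR Ω} (hinj : Function.Injective lam)
  (hlam : ∀ σ x, lam (ρ σ x) = psi p Ω σ * lam x)
include hinj hlam

theorem mem_ker_iff {σ : I} : σ ∈ actKer hS.act ↔ psi p Ω σ = 1 := by
  constructor
  · intro h
    obtain ⟨x₀, y₀, h0⟩ := hS.exists_ne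
    have hx₀ : x₀ ≠ 0 := by
      rintro rfl
      rw [map_zero, AddMonoidHom.zero_apply] at h0
      exact h0 rfl
    have h1 := hlam σ x₀
    rw [h x₀] at h1
    have h2 : lam x₀ ≠ 0 := fun h => hx₀ (hinj (by rw [h, map_zero]))
    exact mul_right_cancel₀ h2 (h1.symm.trans (one_mul _).symm)
  · intro h x
    apply hinj
    rw [hlam, h, one_mul]

theorem ker_of_stab {σ : I} {x : M} (hx : x ≠ 0) (h : ρ σ x = x) : σ ∈ actKer hS.act := by
  rw [hS.mem_ker_iff hinj hlam]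
  have h1 := hlam σ x
  rw [h] at h1
  have h2 : lam x ≠ 0 := fun h => hx (hinj (by rw [h, map_zero]))
  exact mul_right_cancel₀ h2 (h1.symm.trans (one_mul _).symm)

theorem comm (σ τ : I) (x : M) : ρ σ (ρ τ x) = ρ τ (ρ σ x) := by
  apply hinj
  rw [hlam, hlam, hlam, hlam]
  ring

theorem omega_eq (σ : I) : ((omega p Ω I σ).val : KR Ω) = psi p Ω σ ^ (p + 1) := by
  haveI := neZero_p p Ω I
  haveI : Fact p.Prime := ⟨S.prime⟩
  haveI := charP_KR p Ω I
  obtain ⟨t, ht0, ht⟩ := hS.det_eq hinj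
  have hval : ∀ a d : ZMod p, ((a * d).val : KR Ω) = (a.val : KR Ω) * (d.val : KR Ω) := by
    intro a d
    rw [← Nat.cast_mul, ZMod.val_mul]
    exact ((CharP.natCast_eq_natCast (KR Ω) p).2 (Nat.mod_modEq _ _))
  obtain ⟨x₀, y₀, h0⟩ := hS.exists_ne
  have h1 := ht (ρ σ x₀) (ρ σ y₀)
  rw [hlam, hlam, hS.inv, hval] at h1
  have h2 := ht x₀ y₀
  have hb0 : ((b x₀ y₀).val : KR Ω) ≠ 0 := by
    intro h
    rw [CharP.cast_eq_zero_iff (KR Ω) p] at h
    have h2 := Nat.eq_zero_of_dvd_of_lt h (ZMod.val_lt _)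
    exact h0 ((ZMod.val_eq_zero _).1 h2)
  have h3 : ((omega p Ω I σ).val : KR Ω) * (t * ((b x₀ y₀).val : KR Ω)) =
      psi p Ω σ ^ (p + 1) * (t * ((b x₀ y₀).val : KR Ω)) := by
    rw [← h2]
    linear_combination ((omega p Ω I σ).val : KR Ω) * h2 - h1
  exact mul_right_cancel₀ (mul_ne_zero ht0 hb0) h3

theorem kumCtx : KumCtx p Ω (actKer hS.act) (q1 p Ω I) (p + 1) (zeta p Ω I) where
  prime := S.prime
  ultra := S.ultra
  charZero := S.charZero
  norm_smul g x := S.norm_smul g.1 x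
  triv g x hx := S.norm_smul_sub_lt g.1 x hx
  pos := q1_pos p Ω I
  lt_one := q1_lt_one p Ω I
  e_pos := Nat.succ_pos _
  prim := zeta_spec p Ω I
  fix g := by
    haveI := neZero_p p Ω I
    haveI : Fact p.Prime := ⟨S.prime⟩
    obtain ⟨x₀, y₀, h0⟩ := hS.exists_ne
    have h1 := hS.inv g.1 x₀ y₀
    rw [g.2 x₀, g.2 y₀] at h1
    have h2 : omega p Ω I g.1 = 1 :=
      mul_right_cancel₀ h0 (h1.symm.trans (one_mul _).symm)
    change g.1 • zeta p Ω I = _
    rw [smul_zeta, h2]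
    have := zp_natCast p Ω I 1
    rwa [Nat.cast_one, pow_one] at this
  norm_zeta := by
    rw [norm_zeta_sub_one p Ω I, pow_mul, q1_pow p Ω I]
    have h1 : rho p ^ (p - 1) = (‖pi2 p Ω I‖ ^ (p + 1)) ^ (p - 1) := by
      rw [rho_pow p Ω I, ← pow_mul, mul_comm, ← sq_sub_one_eq p Ω I, norm_pi2_pow]
    have hp1 : p - 1 ≠ 0 := by
      have := S.prime.two_le
      omega
    exact (pow_left_inj₀ (rho_pos p Ω I).le (pow_nonneg (norm_nonneg _) _) hp1).1 h1
  val x hx hfix := by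
    haveI := hS.finite
    letI : MulAction I {m : M // m ≠ 0} :=
      { smul := fun σ m => ⟨ρ σ m.1, fun h => m.2 (hS.act.injective σ (by
          rw [h, hS.act.zero]))⟩
        one_smul := fun m => Subtype.ext (hS.act.one m.1)
        mul_smul := fun σ τ m => Subtype.ext (hS.act.mul σ τ m.1) }
    obtain ⟨k, hk⟩ := norm_pow_card_of_stab (p := p) (I := I) (X := {m : M // m ≠ 0}) hx
      (fun m σ hσ => hfix ⟨σ, hS.ker_of_stab hinj hlam m.2 (congrArg Subtype.val hσ)⟩)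
    have hcard : Nat.card {m : M // m ≠ 0} = p ^ 2 - 1 := by
      classical
      haveI := Fintype.ofFinite M
      rw [Nat.card_eq_fintype_card, Fintype.card_subtype_compl, Fintype.card_subtype_eq,
        ← Nat.card_eq_fintype_card, hS.card]
    rw [hcard] at hk
    refine ⟨-k, ?_⟩
    rw [q1_pow p Ω I]
    have h1 : ‖x‖ ^ (p ^ 2 - 1) = (‖pi2 p Ω I‖ ^ (-k)) ^ (p ^ 2 - 1) := by
      rw [hk, ← zpow_natCast (‖pi2 p Ω I‖ ^ (-k)), ← zpow_mul, mul_comm, zpow_mul, zpow_natCast,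
        norm_pi2_pow, inv_zpow, zpow_neg, inv_inv]
    exact (pow_left_inj₀ (norm_nonneg _) (zpow_nonneg (norm_nonneg _) _)
      (sq_sub_one_ne p Ω I)).1 h1
  exists_pi := by
    refine ⟨pi2 p Ω I, fun g => ?_, (q1_pow p Ω I).symm⟩
    have h1 : g.1 • pi2 p Ω I = pi2 p Ω I :=
      smul_pi2_of_psi ((hS.mem_ker_iff hinj hlam).1 g.2)
    exact h1
  near x hx := by
    obtain ⟨s, hs, hxs⟩ := S.exists_fixed_near x hx
    exact ⟨s, fun g => hs g.1, hxs⟩

end Lam

end SS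

end Fermat.Agent.Flat
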