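import Fermat.Agent.Flat.OrdC

/-!
# Simple flat modules
-/

set_option autoImplicit false
set_option linter.unusedSectionVars false
set_option linter.style.haveILetI false

noncomputable section

namespace Fermat.Agent.Flat

variable {p : ℕ} {Ω : Type} [NormedField Ω] [hU : IsUltrametricDist Ω] {I : Type} [Group I]
    [MulSemiringAction I Ω] [S : Setting p Ω I]

section Simple

variable {M : Type} [AddCommGroup M] {ρ : I → M → M}

/-- **The leading coefficient of a simple connected module.** -/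
theorem exists_lead (h : IsAct ρ) (D : Ord p Ω I ρ) (hcon : ∀ x, D.rad x < 1)
    (hne : ∃ x : M, x ≠ 0)
    (hirr : ∀ N : AddSubgroup M, (∀ σ, ∀ x ∈ N, ρ σ x ∈ N) → N = ⊥ ∨ N = ⊤) :
    ∃ (lam : M →+ KR Ω) (c : Ω), c ≠ 0 ∧ Function.Injective lam ∧ (∀ x ≠ 0, ‖c‖ = D.rad x) ∧
      ∀ σ x, lam (ρ σ x) = tame c σ * lam x := by
  obtain ⟨x₀, hx₀⟩ := hne
  have hle : ∀ x y : M, x ≠ 0 → D.rad y ≤ D.rad x := by
    intro x y hx
    rcases hirr (D.disc (D.rad x) (D.rad_nonneg x)) (fun σ y hy => by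
      rw [Ord.mem_disc, D.rad_smul σ (h.zero σ)]
      exact hy) with h1 | h1
    · exfalso
      apply hx
      have h2 : x ∈ D.disc (D.rad x) (D.rad_nonneg x) := le_refl (D.rad x)
      rw [h1] at h2
      exact h2
    · have h2 : y ∈ D.disc (D.rad x) (D.rad_nonneg x) := by rw [h1]; trivial
      exact h2
  obtain ⟨f, hf, hfx⟩ := D.exists_eq_rad x₀
  have hc0 : f x₀ - f 0 ≠ 0 := by
    rw [← norm_ne_zero_iff, hfx]
    exact (D.rad_pos hx₀).ne'
  have hc1 : ‖f x₀ - f 0‖ < 1 := by rw [hfx]; exact hcon x₀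
  have hr : ∀ x, D.rad x ≤ ‖f x₀ - f 0‖ := fun x => by rw [hfx]; exact hle x₀ x hx₀
  set lam := D.leadHom hf hc0 hc1 hr with hlam
  have hsmul : ∀ σ x, lam (ρ σ x) = tame (f x₀ - f 0) σ * lam x :=
    fun σ x => D.lead_smul h hf hc0 (hr x) σ
  refine ⟨lam, f x₀ - f 0, hc0, ?_, fun x hx => ?_, hsmul⟩
  · rcases hirr lam.ker (fun σ x hx => by
      rw [AddMonoidHom.mem_ker] at hx ⊢
      rw [hsmul, hx, mul_zero]) with h1 | h1
    · exact (AddMonoidHom.ker_eq_bot_iff lam).1 h1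
    · exfalso
      have h2 : x₀ ∈ lam.ker := by rw [h1]; trivial
      rw [AddMonoidHom.mem_ker] at h2
      change res ((f x₀ - f 0) / (f x₀ - f 0)) = 0 at h2
      rw [div_self hc0, res_one] at h2
      exact one_ne_zero h2
  · rw [hfx]
    exact le_antisymm (hle x x₀ hx) (hle x₀ x hx₀)

/-- Existence of simple submodules. -/
theorem exists_simple [Finite M] (hne : ∃ x : M, x ≠ 0) :
    ∃ N : AddSubgroup M, (∀ σ, ∀ x ∈ N, ρ σ x ∈ N) ∧ (∃ x ∈ N, x ≠ 0) ∧
      ∀ N' : AddSubgroup M, N' ≤ N → (∀ σ, ∀ x ∈ N', ρ σ x ∈ N') → N' = ⊥ ∨ N' = N := by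
  obtain ⟨x₀, hx₀⟩ := hne
  let s : Set (AddSubgroup M) := {N | (∀ σ, ∀ x ∈ N, ρ σ x ∈ N) ∧ ∃ x ∈ N, x ≠ 0}
  have hs : s.Nonempty := ⟨⊤, fun _ _ _ => trivial, x₀, trivial, hx₀⟩
  obtain ⟨N, hN⟩ := (Set.toFinite s).exists_minimal hs
  refine ⟨N, hN.prop.1, hN.prop.2, fun N' hle hst => ?_⟩
  by_cases h0 : ∃ x ∈ N', x ≠ 0
  · right
    exact le_antisymm hle (hN.le_of_le ⟨hst, h0⟩ hle)
  · left
    push Not at h0
    rw [eq_bot_iff]
    exact fun x hx => h0 x hx

/-- leading coefficient on a simple submodule -/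
theorem exists_lead_sub [Finite M] (h : IsAct ρ) (D : Ord p Ω I ρ) (hcon : ∀ x, D.rad x < 1)
    (hne : ∃ x : M, x ≠ 0) : ∃ (N : AddSubgroup M) (lam : N →+ KR Ω) (c : Ω), c ≠ 0 ∧
      (∃ x ∈ N, x ≠ 0) ∧ Function.Injective lam ∧ (∀ σ, ∀ x ∈ N, ρ σ x ∈ N) ∧
      (∀ N' : AddSubgroup M, N' ≤ N → (∀ σ, ∀ x ∈ N', ρ σ x ∈ N') → N' = ⊥ ∨ N' = N) ∧
      ∀ (σ : I) (x y : N), y.1 = ρ σ x.1 → lam y = tame c σ * lam x := by
  obtain ⟨N, hN, hN0, hmin⟩ := exists_simple (ρ := ρ) hne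
  let ρN : I → N → N := fun σ x => ⟨ρ σ x.1, hN σ x.1 x.2⟩
  let DN : Ord p Ω I ρN := D.restrict N.subtype N.subtype_injective fun σ x => rfl
  have hact : IsAct ρN := h.of_injective N.subtype N.subtype_injective fun σ x => rfl
  obtain ⟨lam, c, hc, hinj, -, hlam⟩ := exists_lead hact DN (fun x => by
      have h1 : DN.rad x = D.rad x.1 := D.rad_restrict x
      rw [h1]
      exact hcon x.1) (by
        obtain ⟨x, hx, hx0⟩ := hN0
        exact ⟨⟨x, hx⟩, fun h => hx0 (congrArg Subtype.val h)⟩) (by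
        intro N' hN'
        rcases hmin (N'.map N.subtype) (by
            rintro _ ⟨x, -, rfl⟩
            exact x.2) (by
            rintro σ _ ⟨x, hx, rfl⟩
            exact ⟨ρN σ x, hN' σ x hx, rfl⟩) with h1 | h1
        · left
          rw [eq_bot_iff]
          intro x hx
          have h2 : x.1 ∈ N'.map N.subtype := ⟨x, hx, rfl⟩
          rw [h1] at h2
          exact Subtype.ext h2
        · right
          rw [eq_top_iff]
          intro x _
          have h2 : x.1 ∈ N'.map N.subtype := by rw [h1]; exact x.2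
          obtain ⟨y, hy, hyx⟩ := h2
          have : y = x := Subtype.ext hyx
          rwa [← this])
  refine ⟨N, lam, c, hc, hN0, hinj, hN, hmin, fun σ x y hy => ?_⟩
  rw [← hlam]
  congr 1
  exact Subtype.ext hy

/-- The character of a flat module of order `p`. -/
theorem rank_one_char (h : IsAct ρ) (hc : Nat.card M = p) (D : Ord p Ω I ρ) :
    (∀ σ x, ρ σ x = x) ∨ ∀ σ x, ρ σ x = (omega p Ω I σ).val • x := by
  haveI : Fact p.Prime := ⟨S.prime⟩
  haveI := charP_KR p Ω I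
  rcases rank_one h hc D with h1 | h1
  · exact Or.inl h1
  · right
    have hfin : Finite M := Nat.finite_of_card_ne_zero (by
      rw [hc]; exact S.prime.ne_zero)
    have hnt : ∃ x : M, x ≠ 0 := by
      by_contra hcon
      push Not at hcon
      haveI : Subsingleton M := ⟨fun a b => by rw [hcon a, hcon b]⟩
      have := Nat.card_of_subsingleton (0 : M)
      rw [hc] at this
      exact S.prime.one_lt.ne' this
    have hr1 := rho_lt_one p Ω I
    obtain ⟨lam, c, hc0, hinj, hcn, hlam⟩ := exists_lead h D (fun x => by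
      by_cases hx : x = 0
      · rw [hx, D.rad_zero]
        exact one_pos
      · rw [h1 x hx]
        exact hr1) hnt (fun N hN => by
        by_cases h0 : ∃ x ∈ N, x ≠ 0
        · right
          obtain ⟨x, hx, hx0⟩ := h0
          rw [eq_top_iff]
          intro y _
          obtain ⟨n, rfl⟩ := exists_nsmul_of_card hc S.prime hx0 y
          exact N.nsmul_mem hx n
        · left
          push Not at h0
          rw [eq_bot_iff]
          exact fun x hx => h0 x hx)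
    intro σ x
    apply hinj
    rw [hlam, map_nsmul, nsmul_eq_mul]
    congr 1
    obtain ⟨x₀, hx₀⟩ := hnt
    rw [← tame_zeta_sub_one]
    apply tame_eq p hc0
    rw [hcn x₀ hx₀, h1 x₀ hx₀, norm_zeta_sub_one p Ω I]

end Simple

section Wild

variable {Γ : Type} [Group Γ] [MulSemiringAction Γ Ω] {J : Subgroup Γ} [S' : Setting p Ω J]

/-- Wild elements. -/
def Wild (p : ℕ) (Ω : Type) [NormedField Ω] [IsUltrametricDist Ω] {Γ : Type} [Group Γ]
    [MulSemiringAction Γ Ω] {J : Subgroup Γ} [Setting p Ω J] (σ : J) : Prop :=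
  ∀ c : Ω, c ≠ 0 → tame c σ = 1

theorem wild_conj (hn : J.Normal) (hnorm : ∀ (γ : Γ) (x : Ω), ‖γ • x‖ = ‖x‖) {σ : J}
    (h : Wild p Ω σ) (γ : Γ) : Wild p Ω (⟨γ * σ.1 * γ⁻¹, hn.conj_mem σ.1 σ.2 γ⟩ : J) := by
  intro c hc
  set c' := γ⁻¹ • c with hc'
  have hc'n : ‖c'‖ = ‖c‖ := by rw [hc', hnorm]
  have hc'0 : c' ≠ 0 := by rw [← norm_ne_zero_iff, hc'n]; exact norm_ne_zero_iff.2 hc
  have h1 : (γ * σ.1 * γ⁻¹) • c / c = γ • (σ.1 • c' / c') := by
    rw [smul_div₀', hc', smul_inv_smul, mul_smul, mul_smul]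
  change res ((γ * σ.1 * γ⁻¹) • c / c) = 1
  rw [h1, ← res_one, res_eq_iff _ (by rw [norm_one])]
  · have h2 := h c' hc'0
    change res (σ.1 • c' / c') = 1 at h2
    have h3 : ‖σ.1 • c' / c'‖ ≤ 1 := (norm_smul_div p hc'0 σ).le
    rw [← res_one, res_eq_iff h3 (by rw [norm_one])] at h2
    have h4 : γ • (σ.1 • c' / c') - 1 = γ • (σ.1 • c' / c' - 1) := by
      rw [smul_sub, smul_one]
    rw [h4, hnorm]
    exact h2
  · rw [hnorm]
    exact (norm_smul_div p hc'0 σ).le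

theorem wild_comm (σ τ : J) : Wild p Ω (σ * τ * σ⁻¹ * τ⁻¹) := by
  intro c hc
  have hinv : ∀ σ : J, tame c σ * tame c σ⁻¹ = 1 := fun σ => by
    rw [← tame_map_mul p hc, mul_inv_cancel, tame_one_smul p hc]
  rw [tame_map_mul p hc, tame_map_mul p hc, tame_map_mul p hc]
  calc tame c σ * tame c τ * tame c σ⁻¹ * tame c τ⁻¹ =
      (tame c σ * tame c σ⁻¹) * (tame c τ * tame c τ⁻¹) := by ring
    _ = 1 := by rw [hinv, hinv, one_mul]

variable (p) in
include S' in
theorem tame_pow_right {c : Ω} (hc : c ≠ 0) (σ : J) (n : ℕ) : tame c (σ ^ n) = tame c σ ^ n := by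
  induction n with
  | zero => rw [pow_zero, pow_zero, tame_one_smul p hc]
  | succ n ih => rw [pow_succ, tame_map_mul p hc, ih, pow_succ]

theorem FrobData.tame_conj {F : Γ} (hF : FrobData p Ω J F) {c : Ω} (hc : c ≠ 0) (τ : J) :
    tame c (⟨F * τ.1 * F⁻¹, hF.normal.conj_mem τ.1 τ.2 F⟩ : J) = tame c τ ^ p := by
  set c' := F⁻¹ • c with hc'
  have hc'n : ‖c'‖ = ‖c‖ := by rw [hc', hF.norm_smul]
  have hc'0 : c' ≠ 0 := by rw [← norm_ne_zero_iff, hc'n]; exact norm_ne_zero_iff.2 hc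
  have h1 : (F * τ.1 * F⁻¹) • c / c = F • (τ.1 • c' / c') := by
    rw [smul_div₀', hc', smul_inv_smul, mul_smul, mul_smul]
  have h2 : tame c τ = tame c' τ := tame_eq p hc hc'n.symm τ
  rw [h2]
  change res ((F * τ.1 * F⁻¹) • c / c) = res (τ.1 • c' / c') ^ p
  rw [h1, hF.res_frob]
  exact (norm_smul_div p hc'0 τ).le

theorem FrobData.wild_frob {F : Γ} (hF : FrobData p Ω J F) (τ : J) :
    Wild p Ω ((⟨F * τ.1 * F⁻¹, hF.normal.conj_mem τ.1 τ.2 F⟩ : J) * (τ ^ p)⁻¹) := by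
  intro c hc
  have hinv : ∀ σ : J, tame c σ * tame c σ⁻¹ = 1 := fun σ => by
    rw [← tame_map_mul p hc, mul_inv_cancel, tame_one_smul p hc]
  rw [tame_map_mul p hc, hF.tame_conj hc, ← tame_pow_right p hc, hinv]

end Wild

end Fermat.Agent.Flat
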