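import Fermat.Agent.Flat.Conn
import Fermat.Agent.Flat.Coord

/-!
# Raynaud's theorem for irreducible symplectic modules of order `p ^ 2`
-/

set_option autoImplicit false
set_option linter.unusedSectionVars false
set_option linter.style.haveILetI false

noncomputable section

namespace Fermat.Agent.Flat

variable {p : ℕ} {Ω : Type} [NormedField Ω] [hU : IsUltrametricDist Ω] {I : Type} [Group I]
    [MulSemiringAction I Ω] [S : Setting p Ω I]

namespace Ord

section Lead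

variable {M : Type} [AddCommGroup M] {ρ : I → M → M} (D : Ord p Ω I ρ)

/-- The leading coefficient of `h z - h 0` with respect to `c`. -/
def lead (c : Ω) (h : M → Ω) (z : M) : KR Ω := res ((h z - h 0) / c)

theorem norm_div_le {h : M → Ω} (hh : h ∈ D.H) {c : Ω} {x : M}
    (hx : D.rad x ≤ ‖c‖) : ‖(h x - h 0) / c‖ ≤ 1 := by
  rw [norm_div]
  exact div_le_one_of_le₀ ((D.le_rad hh x).trans hx) (norm_nonneg _)

theorem norm_cross_le {h : M → Ω} (hh : h ∈ D.H) (x y : M) :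
    ‖h (x + y) - h x - h y + h 0‖ ≤ D.rad x * D.rad y := by
  obtain ⟨ι, _, a, b, ha, hb, hab⟩ := D.comul h hh
  have h1 : h (x + y) - h x - h y + h 0 = ∑ i, (a i x - a i 0) * (b i y - b i 0) := by
    have h2 := hab x 0
    have h3 := hab 0 y
    have h4 := hab 0 0
    rw [add_zero] at h2 h4
    rw [zero_add] at h3
    rw [hab, h2, h3, h4, ← Finset.sum_sub_distrib, ← Finset.sum_sub_distrib,
      ← Finset.sum_add_distrib]
    exact Finset.sum_congr rfl fun i _ => by ring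
  rw [h1]
  apply norm_sum_le_of_le p Ω I _ _ (mul_nonneg (D.rad_nonneg x) (D.rad_nonneg y))
  intro i _
  rw [norm_mul]
  exact mul_le_mul (D.le_rad (ha i) x) (D.le_rad (hb i) y) (norm_nonneg _) (D.rad_nonneg x)

theorem lead_add {h : M → Ω} (hh : h ∈ D.H) {c : Ω} (hc : c ≠ 0) (hc1 : ‖c‖ < 1) {x y : M}
    (hx : D.rad x ≤ ‖c‖) (hy : D.rad y ≤ ‖c‖) :
    lead c h (x + y) = lead c h x + lead c h y := by
  have hcp : 0 < ‖c‖ := norm_pos_iff.2 hc
  have h1 : ‖(h (x + y) - h x - h y + h 0) / c‖ < 1 := by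
    rw [norm_div, div_lt_one hcp]
    calc _ ≤ D.rad x * D.rad y := D.norm_cross_le hh x y
      _ ≤ ‖c‖ * ‖c‖ := mul_le_mul hx hy (D.rad_nonneg y) hcp.le
      _ < 1 * ‖c‖ := mul_lt_mul_of_pos_right hc1 hcp
      _ = ‖c‖ := one_mul _
  have h2 : (h (x + y) - h 0) / c = ((h x - h 0) / c + (h y - h 0) / c) +
      (h (x + y) - h x - h y + h 0) / c := by
    field_simp
    ring
  have h3 := D.norm_div_le hh hx
  have h4 := D.norm_div_le hh hy
  rw [lead, lead, lead, h2, res_add _ h1.le, res_add h3 h4, (res_eq_zero_iff h1.le).2 h1, add_zero]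
  exact (norm_add_le_max p Ω I _ _).trans (max_le h3 h4)

theorem lead_smul (hρ : IsAct ρ) {h : M → Ω} (hh : h ∈ D.H) {c : Ω} (hc : c ≠ 0) {x : M}
    (hx : D.rad x ≤ ‖c‖) (σ : I) : lead c h (ρ σ x) = tame c σ * lead c h x := by
  have h0 : h 0 = σ • h 0 := by
    rw [← D.equi h hh, hρ.zero]
  have h1 : (h (ρ σ x) - h 0) / c = (σ • c / c) * (σ • ((h x - h 0) / c)) := by
    have h2 : h (ρ σ x) - h 0 = σ • (h x - h 0) := by
      rw [smul_sub, ← h0, D.equi h hh]
    rw [h2, smul_div₀']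
    have : σ • c ≠ 0 := by
      rw [← norm_ne_zero_iff, S.norm_smul]
      exact norm_ne_zero_iff.2 hc
    field_simp
  have h3 := D.norm_div_le hh hx
  rw [lead, h1, res_mul (norm_smul_div p hc σ).le (by rwa [S.norm_smul]), res_smul p σ h3]
  rfl

theorem lead_zero (c : Ω) (h : M → Ω) : lead c h 0 = 0 := by
  rw [lead, sub_self, zero_div, res_zero]

/-- The leading coefficient map. -/
def leadHom {h : M → Ω} (hh : h ∈ D.H) {c : Ω} (hc : c ≠ 0) (hc1 : ‖c‖ < 1)
    (hr : ∀ x, D.rad x ≤ ‖c‖) : M →+ KR Ω :=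
  AddMonoidHom.mk' (lead c h) fun x y => D.lead_add hh hc hc1 (hr x) (hr y)

end Lead

end Ord

/-- A symplectic irreducible module of order `p ^ 2`. -/
structure SS (p : ℕ) (Ω : Type) [NormedField Ω] (I : Type) [Group I] [MulSemiringAction I Ω]
    [Setting p Ω I] {M : Type} [AddCommGroup M] (ρ : I → M → M) (b : M →+ M →+ ZMod p) :
    Prop where
  act : IsAct ρ
  card : Nat.card M = p ^ 2
  kill : ∀ x : M, p • x = 0
  irr : ∀ N : AddSubgroup M, (∀ σ, ∀ x ∈ N, ρ σ x ∈ N) → N = ⊥ ∨ N = ⊤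
  alt : ∀ x, b x x = 0
  ne : b ≠ 0
  inv : ∀ (σ : I) x y, b (ρ σ x) (ρ σ y) = omega p Ω I σ * b x y

namespace SS

variable {M : Type} [AddCommGroup M] {ρ : I → M → M} {b : M →+ M →+ ZMod p}
  (hS : SS p Ω I ρ b)
include hS

theorem finite : Finite M := Nat.finite_of_card_ne_zero (by
  rw [hS.card]; exact pow_ne_zero _ S.prime.ne_zero)

theorem anti (x y : M) : b x y = -b y x := by
  have h := hS.alt (x + y)
  simp only [map_add, AddMonoidHom.add_apply, hS.alt, zero_add, add_zero] at h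
  exact eq_neg_of_add_eq_zero_right h

theorem eq_zero_of_right {y : M} (h : ∀ x, b x y = 0) : y = 0 := by
  have key : (b.flip.ker : AddSubgroup M) = ⊥ ∨ b.flip.ker = ⊤ := by
    apply hS.irr
    intro σ x hx
    rw [AddMonoidHom.mem_ker] at hx ⊢
    ext z
    have h1 := DFunLike.congr_fun hx (ρ σ⁻¹ z)
    have h2 := hS.inv σ (ρ σ⁻¹ z) x
    rw [hS.act.apply_inv] at h2
    rw [AddMonoidHom.flip_apply] at h1 ⊢
    rw [h2, h1, AddMonoidHom.zero_apply, mul_zero]
    rfl
  rcases key with h1 | h1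
  · have : y ∈ b.flip.ker := by
      rw [AddMonoidHom.mem_ker]
      ext z
      exact h z
    rwa [h1, AddSubgroup.mem_bot] at this
  · exfalso
    apply hS.ne
    ext x z
    have : z ∈ b.flip.ker := by rw [h1]; trivial
    rw [AddMonoidHom.mem_ker] at this
    exact DFunLike.congr_fun this x

theorem exists_ne : ∃ x y, b x y ≠ 0 := by
  by_contra hcon
  push Not at hcon
  apply hS.ne
  ext x y
  exact hcon x y

theorem isPairing : Ord.IsPairing (I := I) ρ ρ (fun x y => zp p Ω I (b x y)) where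
  add_left x x' y := by rw [map_add, AddMonoidHom.add_apply, zp_add]
  add_right x y y' := by rw [map_add, zp_add]
  zero_left y := by rw [map_zero, AddMonoidHom.zero_apply, zp_zero]
  zero_right x := by rw [map_zero, zp_zero]
  smul σ x y := by rw [hS.inv, smul_zp]

/-- all non-zero points have the same radius -/
theorem rad_const (D : Ord p Ω I ρ) {x y : M} (hx : x ≠ 0) (hy : y ≠ 0) : D.rad x = D.rad y := by
  have key : ∀ x y : M, x ≠ 0 → D.rad y ≤ D.rad x := by
    intro x y hx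
    rcases hS.irr (D.disc (D.rad x) (D.rad_nonneg x)) (fun σ z hz => by
      rw [Ord.mem_disc] at hz ⊢
      rwa [D.rad_smul σ (hS.act.zero σ)]) with h | h
    · exfalso
      have : x ∈ D.disc (D.rad x) (D.rad_nonneg x) := le_refl (D.rad x)
      rw [h, AddSubgroup.mem_bot] at this
      exact hx this
    · have : y ∈ D.disc (D.rad x) (D.rad_nonneg x) := by rw [h]; trivial
      exact this
  exact le_antisymm (key y x hy) (key x y hx)

theorem rad_lt_one (D : Ord p Ω I ρ) (x : M) : D.rad x < 1 := by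
  haveI : Fact p.Prime := ⟨S.prime⟩
  rcases hS.irr D.conn (fun σ z hz => D.smul_mem_conn hS.act σ hz) with h | h
  · exfalso
    have htriv : ∀ σ z, ρ σ z = z := by
      intro σ z
      have h1 := D.smul_sub_mem_conn σ z
      rw [h, AddSubgroup.mem_bot] at h1
      exact sub_eq_zero.1 h1
    obtain ⟨x, y, hx, hy⟩ := Coord.exists_indep (p := p) hS.card hS.kill
    rcases hS.irr (AddSubgroup.zmultiples x) (fun σ z hz => by rwa [htriv]) with h1 | h1
    · exact hx (AddSubgroup.zmultiples_eq_bot.1 h1)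
    · have h2 : y ∈ AddSubgroup.zmultiples x := by rw [h1]; trivial
      obtain ⟨k, hk⟩ := AddSubgroup.mem_zmultiples_iff.1 h2
      apply hy (k : ZMod p).val
      haveI : Module (ZMod p) M := AddCommGroup.zmodModule hS.kill
      rw [← hk, ← Nat.cast_smul_eq_nsmul (ZMod p), ZMod.natCast_zmod_val, Int.cast_smul_eq_zsmul]
  · have : x ∈ D.conn := by rw [h]; trivial
    exact this

/-- `b` in terms of an injective additive map to a field. -/
theorem det_eq {κ : Type} [Field κ] [CharP κ p] {lam : M →+ κ} (hlam : Function.Injective lam) :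
    ∃ t : κ, t ≠ 0 ∧ ∀ x y, lam x ^ p * lam y - lam x * lam y ^ p = t * ((b x y).val : κ) := by
  haveI : Fact p.Prime := ⟨S.prime⟩
  haveI := hS.finite
  have hcast : ∀ a c : ZMod p, ((a + c).val : κ) = (a.val : κ) + (c.val : κ) := by
    intro a c
    rw [← Nat.cast_add]
    rw [ZMod.val_add]
    exact ((CharP.natCast_eq_natCast κ p).2 (Nat.mod_modEq _ _))
  obtain ⟨x₀, y₀, h0⟩ := hS.exists_ne
  have hx₀ : x₀ ≠ 0 := by
    rintro rfl
    rw [map_zero, AddMonoidHom.zero_apply] at h0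
    exact h0 rfl
  have hy₀ : ∀ n : ℕ, y₀ ≠ n • x₀ := by
    rintro n rfl
    rw [map_nsmul, hS.alt, smul_zero] at h0
    exact h0 rfl
  have hspan := Coord.exists_span (p := p) hS.card hS.kill hx₀ hy₀
  have hb0 : ((b x₀ y₀).val : κ) ≠ 0 := by
    intro h
    rw [CharP.cast_eq_zero_iff κ p] at h
    have h2 := Nat.eq_zero_of_dvd_of_lt h (ZMod.val_lt _)
    exact h0 ((ZMod.val_eq_zero _).1 h2)
  set t : κ := (lam x₀ ^ p * lam y₀ - lam x₀ * lam y₀ ^ p) / ((b x₀ y₀).val : κ) with ht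
  have hT0 : lam x₀ ^ p * lam y₀ - lam x₀ * lam y₀ ^ p ≠ 0 := by
    intro h
    obtain ⟨n, hn⟩ := Coord.exists_smul_of_det (p := p) (y := y₀) hlam hx₀ (sub_eq_zero.1 h)
    exact hy₀ n hn
  -- both sides as biadditive maps
  have hpow : ∀ x y : κ, (x + y) ^ p = x ^ p + y ^ p := fun x y => add_pow_char x y p
  let T : M →+ M →+ κ := AddMonoidHom.mk' (fun x => AddMonoidHom.mk'
    (fun y => lam x ^ p * lam y - lam x * lam y ^ p) fun y y' => by
      rw [map_add, hpow]; ring) fun x x' => by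
        ext y
        simp only [AddMonoidHom.mk'_apply, AddMonoidHom.add_apply]
        rw [map_add, hpow]; ring
  let B : M →+ M →+ κ := AddMonoidHom.mk' (fun x => AddMonoidHom.mk'
    (fun y => t * ((b x y).val : κ)) fun y y' => by
      rw [map_add, hcast]; ring) fun x x' => by
        ext y
        simp only [AddMonoidHom.mk'_apply, AddMonoidHom.add_apply]
        rw [map_add, AddMonoidHom.add_apply, hcast]; ring
  have hTB : T = B := by
    ext x y
    have hTx : T x₀ x₀ = B x₀ x₀ := by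
      change lam x₀ ^ p * lam x₀ - lam x₀ * lam x₀ ^ p = t * ((b x₀ x₀).val : κ)
      rw [hS.alt, ZMod.val_zero, Nat.cast_zero]; ring
    have hTy : T y₀ y₀ = B y₀ y₀ := by
      change lam y₀ ^ p * lam y₀ - lam y₀ * lam y₀ ^ p = t * ((b y₀ y₀).val : κ)
      rw [hS.alt, ZMod.val_zero, Nat.cast_zero]; ring
    have hTxy : T x₀ y₀ = B x₀ y₀ := by
      change lam x₀ ^ p * lam y₀ - lam x₀ * lam y₀ ^ p = t * ((b x₀ y₀).val : κ)
      rw [ht, div_mul_cancel₀ _ hb0]
    have hTyx : T y₀ x₀ = B y₀ x₀ := by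
      change lam y₀ ^ p * lam x₀ - lam y₀ * lam x₀ ^ p = t * ((b y₀ x₀).val : κ)
      have h1 : ((b y₀ x₀).val : κ) = -((b x₀ y₀).val : κ) := by
        have h2 := hcast (b y₀ x₀) (b x₀ y₀)
        rw [hS.anti y₀ x₀, neg_add_cancel, ZMod.val_zero, Nat.cast_zero] at h2
        rw [hS.anti y₀ x₀]
        exact eq_neg_of_add_eq_zero_left h2.symm
      rw [h1, ht, mul_neg, div_mul_cancel₀ _ hb0]; ring
    have h1 : ∀ y, T x₀ y = B x₀ y := fun y =>
      DFunLike.congr_fun (Coord.hom_ext_of_span (g := T x₀) (g' := B x₀) hspan hTx hTxy) y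
    have h2 : ∀ y, T y₀ y = B y₀ y := fun y =>
      DFunLike.congr_fun (Coord.hom_ext_of_span (g := T y₀) (g' := B y₀) hspan hTyx hTy) y
    exact DFunLike.congr_fun (Coord.hom_ext_of_span (g := T.flip y) (g' := B.flip y) hspan
      (h1 y) (h2 y)) x
  refine ⟨t, div_ne_zero hT0 hb0, fun x y => ?_⟩
  exact DFunLike.congr_fun (DFunLike.congr_fun hTB x) y

/-- The key structure: an integral function with injective leading coefficient. -/
theorem exists_fun (D : Ord p Ω I ρ) : ∃ (h : M → Ω) (hh : h ∈ D.H) (c : Ω) (hc : c ≠ 0)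
    (hc1 : ‖c‖ < 1) (hr : ∀ x, D.rad x ≤ ‖c‖), (∀ x ≠ 0, D.rad x = ‖c‖) ∧
    Function.Injective (D.leadHom hh hc hc1 hr) := by
  obtain ⟨x₀, y₀, h0⟩ := hS.exists_ne
  have hx₀ : x₀ ≠ 0 := by
    rintro rfl
    rw [map_zero, AddMonoidHom.zero_apply] at h0
    exact h0 rfl
  obtain ⟨h, hh, he⟩ := D.exists_eq_rad x₀
  have hpos := D.rad_pos hx₀
  have hc : h x₀ - h 0 ≠ 0 := by
    rw [← norm_pos_iff, he]
    exact hpos
  have hc1 : ‖h x₀ - h 0‖ < 1 := by
    rw [he]
    exact hS.rad_lt_one D x₀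
  have hr' : ∀ x ≠ 0, D.rad x = ‖h x₀ - h 0‖ := fun x hx => by
    rw [he]
    exact hS.rad_const D hx hx₀
  have hr : ∀ x, D.rad x ≤ ‖h x₀ - h 0‖ := by
    intro x
    by_cases hx : x = 0
    · rw [hx, D.rad_zero]
      exact norm_nonneg _
    · exact (hr' x hx).le
  refine ⟨h, hh, _, hc, hc1, hr, hr', ?_⟩
  rcases hS.irr (D.leadHom hh hc hc1 hr).ker (fun σ x hx => by
    rw [AddMonoidHom.mem_ker] at hx ⊢
    change Ord.lead _ h (ρ σ x) = 0
    rw [D.lead_smul hS.act hh hc (hr x)]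
    change tame _ σ * (D.leadHom hh hc hc1 hr) x = 0
    rw [hx, mul_zero]) with h1 | h1
  · exact (AddMonoidHom.ker_eq_bot_iff _).1 h1
  · exfalso
    have h2 : x₀ ∈ (D.leadHom hh hc hc1 hr).ker := by rw [h1]; trivial
    rw [AddMonoidHom.mem_ker] at h2
    change res ((h x₀ - h 0) / (h x₀ - h 0)) = 0 at h2
    rw [div_self hc, res_one] at h2
    exact one_ne_zero h2

theorem exists_pow (D : Ord p Ω I ρ) {x : M} (hx : x ≠ 0) :
    ∃ m : ℕ, 0 < m ∧ D.rad x ^ (p ^ 2 - 1) = ((p : ℝ)⁻¹) ^ m := by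
  classical
  haveI := hS.finite
  haveI := Fintype.ofFinite M
  obtain ⟨h, hh, c, hc, hc1, hr, hr', hinj⟩ := hS.exists_fun D
  have hnorm : ∀ z ≠ 0, ‖h z - h 0‖ = ‖c‖ := by
    intro z hz
    have h1 : (D.leadHom hh hc hc1 hr) z ≠ 0 := fun h1 => hz (hinj (by rw [h1, map_zero]))
    have h2 : ‖(h z - h 0) / c‖ = 1 := by
      apply le_antisymm (D.norm_div_le hh (hr z))
      by_contra hlt
      push Not at hlt
      exact h1 ((res_eq_zero_iff hlt.le).2 hlt)
    rw [norm_div, div_eq_one_iff_eq (norm_ne_zero_iff.2 hc)] at h2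
    exact h2
  have h0 : ∀ σ : I, σ • h 0 = h 0 := fun σ => by rw [← D.equi h hh, hS.act.zero]
  set P : Ω := ∏ z ∈ Finset.univ.erase (0 : M), (h z - h 0) with hP
  have hPn : ‖P‖ = ‖c‖ ^ (p ^ 2 - 1) := by
    rw [hP, norm_prod, Finset.prod_congr rfl fun z hz => hnorm z (Finset.ne_of_mem_erase hz),
      Finset.prod_const, Finset.card_erase_of_mem (Finset.mem_univ _), Finset.card_univ,
      ← Nat.card_eq_fintype_card, hS.card]
  have hP0 : P ≠ 0 := by
    rw [← norm_ne_zero_iff, hPn]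
    exact pow_ne_zero _ (norm_ne_zero_iff.2 hc)
  have hPfix : ∀ σ : I, σ • P = P := by
    intro σ
    rw [hP, Finset.smul_prod']
    refine Finset.prod_bij (fun z _ => ρ σ z) ?_ ?_ ?_ ?_
    · intro z hz
      rw [Finset.mem_erase] at hz ⊢
      refine ⟨fun h => hz.1 ?_, Finset.mem_univ _⟩
      exact hS.act.injective σ (by rw [h, hS.act.zero])
    · intro z _ z' _ h
      exact hS.act.injective σ h
    · intro z hz
      refine ⟨ρ σ⁻¹ z, ?_, hS.act.apply_inv σ z⟩
      rw [Finset.mem_erase] at hz ⊢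
      refine ⟨fun h => hz.1 ?_, Finset.mem_univ _⟩
      rw [← hS.act.apply_inv σ z, h, hS.act.zero]
    · intro z _
      rw [smul_sub, h0, D.equi h hh]
  obtain ⟨k, hk⟩ := S.norm_fixed P hP0 hPfix
  have hpp := one_lt_p p Ω I
  have hn : p ^ 2 - 1 ≠ 0 := by
    have : 1 < p ^ 2 := Nat.one_lt_pow two_ne_zero S.prime.one_lt
    omega
  have hk0 : k < 0 := by
    by_contra hge
    push Not at hge
    have h1 : (1 : ℝ) ≤ (p : ℝ) ^ k := one_le_zpow₀ hpp.le hge
    rw [← hk, hPn] at h1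
    exact absurd h1 (not_le.2 (pow_lt_one₀ (norm_nonneg _) hc1 hn))
  refine ⟨(-k).toNat, by omega, ?_⟩
  rw [hr' x hx, ← hPn, hk, inv_pow, ← zpow_natCast, Int.toNat_of_nonneg (by omega), zpow_neg,
    inv_inv]

end SS

section Zeta

variable (p Ω I) in
include S in
theorem res_zeta_pow (j : ℕ) : res (zeta p Ω I ^ j) = 1 := by
  haveI := neZero_p p Ω I
  haveI : Fact (1 < p) := ⟨S.prime.one_lt⟩
  have h1 : ‖zeta p Ω I‖ = 1 := by
    have h2 : ‖zeta p Ω I‖ ^ p = 1 := by
      rw [← norm_pow, (zeta_spec p Ω I).pow_eq_one, norm_one]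
    exact (pow_eq_one_iff_of_nonneg (norm_nonneg _) S.prime.ne_zero).1 h2
  have h2 : res (zeta p Ω I) = 1 := by
    rw [← res_one, res_eq_iff h1.le (by simp)]
    have h3 := norm_zp_sub_one p Ω I (a := 1) one_ne_zero
    have h4 : zp p Ω I 1 = zeta p Ω I := by
      have := zp_natCast p Ω I 1
      rwa [Nat.cast_one, pow_one] at this
    rw [h4] at h3
    rw [h3]
    exact rho_lt_one p Ω I
  rw [res_pow h1.le, h2, one_pow]

variable (p Ω I) in
include S in
theorem norm_zeta : ‖zeta p Ω I‖ = 1 := by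
  have h2 : ‖zeta p Ω I‖ ^ p = 1 := by
    rw [← norm_pow, (zeta_spec p Ω I).pow_eq_one, norm_one]
  exact (pow_eq_one_iff_of_nonneg (norm_nonneg _) S.prime.ne_zero).1 h2

variable (p Ω I) in
include S in
theorem norm_zeta_sub_one : ‖zeta p Ω I - 1‖ = rho p := by
  haveI := neZero_p p Ω I
  haveI : Fact (1 < p) := ⟨S.prime.one_lt⟩
  have h3 := norm_zp_sub_one p Ω I (a := 1) one_ne_zero
  have h4 : zp p Ω I 1 = zeta p Ω I := by
    have := zp_natCast p Ω I 1
    rwa [Nat.cast_one, pow_one] at this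
  rwa [h4] at h3

/-- The tame character of `ζ - 1` is the cyclotomic character. -/
theorem tame_zeta_sub_one (σ : I) :
    tame (zeta p Ω I - 1) σ = ((omega p Ω I σ).val : KR Ω) := by
  have hne : zeta p Ω I - 1 ≠ 0 := by
    rw [← norm_ne_zero_iff, norm_zeta_sub_one]
    exact (rho_pos p Ω I).ne'
  have h1 : σ • (zeta p Ω I - 1) / (zeta p Ω I - 1) =
      ∑ j ∈ Finset.range (omega p Ω I σ).val, zeta p Ω I ^ j := by
    rw [smul_sub, smul_one, smul_zeta, zp, ← geom_sum_mul, mul_div_cancel_right₀ _ hne]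
  rw [tame, h1, res_sum _ _ fun j _ => by rw [norm_pow, norm_zeta, one_pow]]
  simp only [res_zeta_pow, Finset.sum_const, Finset.card_range, nsmul_eq_mul, mul_one]

end Zeta

namespace SS

variable {M : Type} [AddCommGroup M] {ρ : I → M → M} {b : M →+ M →+ ZMod p}
  (hS : SS p Ω I ρ b)
include hS

/-- Duality: the product of the radii is bigger than `ρ₀`. -/
theorem rho_lt_mul (D : Ord p Ω I ρ) : ∃ D' : Ord p Ω I ρ, ∀ x ≠ 0, ∀ y ≠ 0,
    rho p < D.rad x * D'.rad y := by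
  haveI := hS.finite
  haveI := neZero_p p Ω I
  obtain ⟨D', ⟨n, hf, φ, hhf, hφ, he⟩, -⟩ := D.exists_dual hS.act.zero
    (fun x y => zp p Ω I (b x y)) hS.isPairing (fun y y' h => by
      rw [← sub_eq_zero]
      apply hS.eq_zero_of_right
      intro x
      rw [map_sub, sub_eq_zero]
      exact zp_injective p Ω I (h x))
  -- the basic formula
  have hform : ∀ x y, zp p Ω I (b x y) - 1 =
      ∑ i, (φ i y - φ i 0) * (hf i x - hf i 0) := by
    intro x y
    have h1 := he x y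
    have h2 := he 0 y
    have h3 := he x 0
    have h4 := he 0 0
    simp only at h1 h2 h3 h4
    simp only [map_zero, AddMonoidHom.zero_apply, zp_zero] at h2 h3 h4
    have h5 : ∑ i, (φ i y - φ i 0) * (hf i x - hf i 0) =
        (∑ i, φ i y * hf i x) - (∑ i, φ i y * hf i 0) - (∑ i, φ i 0 * hf i x) +
          ∑ i, φ i 0 * hf i 0 := by
      rw [← Finset.sum_sub_distrib, ← Finset.sum_sub_distrib, ← Finset.sum_add_distrib]
      exact Finset.sum_congr rfl fun i _ => by ring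
    rw [h5, ← h1, ← h2, ← h3, ← h4]
    ring
  refine ⟨D', fun x hx y hy => ?_⟩
  obtain ⟨x₀, hx₀y⟩ : ∃ x₀, b x₀ y ≠ 0 := by
    by_contra hcon
    push Not at hcon
    exact hy (hS.eq_zero_of_right hcon)
  have hx₀ : x₀ ≠ 0 := by
    rintro rfl
    rw [map_zero, AddMonoidHom.zero_apply] at hx₀y
    exact hx₀y rfl
  rw [hS.rad_const D hx hx₀]
  have hnorm := norm_zp_sub_one p Ω I hx₀y
  apply lt_of_le_of_ne
  · rw [← hnorm, hform]
    apply norm_sum_le_of_le p Ω I _ _ (mul_nonneg (D.rad_nonneg _) (D'.rad_nonneg _))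
    intro i _
    rw [norm_mul, mul_comm]
    exact mul_le_mul (D.le_rad (hhf i) _) (D'.le_rad (hφ i) _) (norm_nonneg _) (D.rad_nonneg _)
  · intro heq
    obtain ⟨-, -, c, hc, hc1, hr, hr', -⟩ := hS.exists_fun D
    obtain ⟨-, -, c', hc', hc1', hrr, hrr', -⟩ := hS.exists_fun D'
    rw [hr' x₀ hx₀, hrr' y hy] at heq
    -- the bilinear form
    let B : M →+ KR Ω := ∑ i, (AddMonoidHom.mulLeft (Ord.lead c' (φ i) y)).comp
      (D.leadHom (hhf i) hc hc1 hr)
    have hB : ∀ z, B z = ∑ i, Ord.lead c' (φ i) y * Ord.lead c (hf i) z := by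
      intro z
      rw [AddMonoidHom.finsetSum_apply]
      rfl
    have hB' : ∀ z, res ((zp p Ω I (b z y) - 1) / (c * c')) = B z := by
      intro z
      have h1 : (zp p Ω I (b z y) - 1) / (c * c') =
          ∑ i, ((φ i y - φ i 0) / c') * ((hf i z - hf i 0) / c) := by
        rw [hform, Finset.sum_div]
        exact Finset.sum_congr rfl fun i _ => by field_simp
      have h2 : ∀ i, ‖(φ i y - φ i 0) / c'‖ ≤ 1 := fun i => D'.norm_div_le (hφ i) (hrr y)
      have h3 : ∀ i, ‖(hf i z - hf i 0) / c‖ ≤ 1 := fun i => D.norm_div_le (hhf i) (hr z)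
      rw [h1, hB, res_sum _ _ fun i _ => by
        rw [norm_mul]
        exact mul_le_one₀ (h2 i) (norm_nonneg _) (h3 i)]
      exact Finset.sum_congr rfl fun i _ => by rw [res_mul (h2 i) (h3 i)]; rfl
    have hker : ∀ σ, ∀ z ∈ B.ker, ρ σ z ∈ B.ker := by
      intro σ z hz
      rw [AddMonoidHom.mem_ker] at hz ⊢
      rw [hB] at hz ⊢
      have h1 : ∀ i, Ord.lead c (hf i) (ρ σ z) = tame c σ * Ord.lead c (hf i) z := fun i =>
        D.lead_smul hS.act (hhf i) hc (hr z) σ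
      simp only [h1]
      have h2 : ∑ i, Ord.lead c' (φ i) y * (tame c σ * Ord.lead c (hf i) z) =
          tame c σ * ∑ i, Ord.lead c' (φ i) y * Ord.lead c (hf i) z := by
        rw [Finset.mul_sum]
        exact Finset.sum_congr rfl fun i _ => by ring
      rw [h2, hz, mul_zero]
    rcases hS.irr B.ker hker with h1 | h1
    · have h2 : y ∈ B.ker := by
        rw [AddMonoidHom.mem_ker, ← hB', hS.alt, zp_zero, sub_self, zero_div, res_zero]
      rw [h1, AddSubgroup.mem_bot] at h2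
      exact hy h2
    · have h2 : x₀ ∈ B.ker := by rw [h1]; trivial
      rw [AddMonoidHom.mem_ker, ← hB'] at h2
      refine res_ne_zero ?_ h2
      rw [norm_div, hnorm, norm_mul, heq, div_self]
      exact mul_ne_zero (norm_ne_zero_iff.2 hc) (norm_ne_zero_iff.2 hc')

/-- **Theorem A**. -/
theorem rad_pow (D : Ord p Ω I ρ) {x : M} (hx : x ≠ 0) :
    D.rad x ^ (p ^ 2 - 1) = (p : ℝ)⁻¹ := by
  haveI := neZero_p p Ω I
  haveI : Fact p.Prime := ⟨S.prime⟩
  haveI := charP_KR p Ω I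
  have hp2 : 2 ≤ p := S.prime.two_le
  have hpp := one_lt_p p Ω I
  have hp0 := p_pos p Ω I
  have hn : p ^ 2 - 1 ≠ 0 := by
    have : 1 < p ^ 2 := Nat.one_lt_pow two_ne_zero S.prime.one_lt
    omega
  have hpn : p ^ 2 - 1 = (p - 1) * (p + 1) := by
    obtain ⟨k, rfl⟩ : ∃ k, p = k + 1 := ⟨p - 1, by omega⟩
    have : (k + 1) ^ 2 = k * (k + 2) + 1 := by ring
    rw [this, Nat.add_sub_cancel, Nat.add_sub_cancel]
  have hrhon : rho p ^ (p ^ 2 - 1) = ((p : ℝ)⁻¹) ^ (p + 1) := by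
    rw [hpn, pow_mul, rho_pow p Ω I]
  obtain ⟨m, hm0, hm⟩ := hS.exists_pow D hx
  -- the upper bound for the exponent
  obtain ⟨D', hD'⟩ := hS.rho_lt_mul D
  obtain ⟨m', hm0', hm'⟩ := hS.exists_pow D' hx
  have hlt : m + m' < p + 1 := by
    have h1 := pow_lt_pow_left₀ (hD' x hx x hx) (rho_pos p Ω I).le hn
    rw [mul_pow, hm, hm', hrhon, ← pow_add] at h1
    exact (pow_lt_pow_iff_right_of_lt_one₀ (inv_pos.2 hp0) (inv_lt_one_of_one_lt₀ hpp)).1 h1
  -- the congruence
  obtain ⟨h, hh, c, hc, hc1, hr, hr', hinj⟩ := hS.exists_fun D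
  obtain ⟨t, ht0, ht⟩ := hS.det_eq hinj
  have hlam : ∀ σ x, (D.leadHom hh hc hc1 hr) (ρ σ x) =
      tame c σ * (D.leadHom hh hc hc1 hr) x := fun σ x => D.lead_smul hS.act hh hc (hr x) σ
  have hval : ∀ a d : ZMod p, ((a * d).val : KR Ω) = (a.val : KR Ω) * (d.val : KR Ω) := by
    intro a d
    rw [← Nat.cast_mul, ZMod.val_mul]
    exact ((CharP.natCast_eq_natCast (KR Ω) p).2 (Nat.mod_modEq _ _))
  have htame : ∀ σ, tame c σ ^ (p + 1) = ((omega p Ω I σ).val : KR Ω) := by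
    intro σ
    obtain ⟨x₀, y₀, h0⟩ := hS.exists_ne
    have h1 := ht (ρ σ x₀) (ρ σ y₀)
    rw [hlam, hlam, hS.inv, hval] at h1
    have h2 := ht x₀ y₀
    have hb0 : ((b x₀ y₀).val : KR Ω) ≠ 0 := by
      intro h
      rw [CharP.cast_eq_zero_iff (KR Ω) p] at h
      have h2 := Nat.eq_zero_of_dvd_of_lt h (ZMod.val_lt _)
      exact h0 ((ZMod.val_eq_zero _).1 h2)
    have h3 : tame c σ ^ (p + 1) * (t * ((b x₀ y₀).val : KR Ω)) =
        ((omega p Ω I σ).val : KR Ω) * (t * ((b x₀ y₀).val : KR Ω)) := by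
      rw [← h2]
      linear_combination h1 - ((omega p Ω I σ).val : KR Ω) * h2
    exact mul_right_cancel₀ (mul_ne_zero ht0 hb0) h3
  have hz : zeta p Ω I - 1 ≠ 0 := by
    rw [← norm_ne_zero_iff, norm_zeta_sub_one]
    exact (rho_pos p Ω I).ne'
  set d : Ω := c ^ (p + 1) / (zeta p Ω I - 1) with hd
  have hd0 : d ≠ 0 := div_ne_zero (pow_ne_zero _ hc) hz
  have hdt : ∀ σ : I, tame d σ = 1 := by
    intro σ
    have h1 : tame (d * (zeta p Ω I - 1)) σ = tame (c ^ (p + 1)) σ := by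
      rw [hd, div_mul_cancel₀ _ hz]
    rw [tame_mul p hd0 hz, tame_pow p hc, htame, tame_zeta_sub_one] at h1
    have h2 : ((omega p Ω I σ).val : KR Ω) ≠ 0 := by
      rw [← tame_zeta_sub_one]
      exact tame_ne_zero p hz σ
    exact mul_right_cancel₀ h2 (h1.trans (one_mul _).symm)
  have hcn : ‖c‖ ^ (p ^ 2 - 1) = ((p : ℝ)⁻¹) ^ m := by rw [← hr' x hx, hm]
  have hdn : ‖d‖ ^ (p ^ 2 - 1) = (p : ℝ) ^ (-(((m : ℤ) - 1) * (p + 1))) := by
    rw [hd, norm_div, norm_pow, norm_zeta_sub_one, div_pow, ← pow_mul, mul_comm (p + 1), pow_mul,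
      hcn, hrhon, ← pow_mul, ← zpow_natCast, ← zpow_natCast, inv_zpow', inv_zpow',
      ← zpow_sub₀ hp0.ne']
    congr 1
    push_cast
    ring
  have hndvd : ¬ p ∣ p ^ 2 - 1 := by
    intro hdvd
    have h1 : p ∣ p ^ 2 := dvd_pow_self p two_ne_zero
    have h2 : 1 ≤ p ^ 2 := Nat.one_le_pow _ _ S.prime.pos
    have h3 := Nat.dvd_sub h1 hdvd
    rw [Nat.sub_sub_self h2] at h3
    exact S.prime.one_lt.ne' (Nat.dvd_one.1 h3)
  obtain ⟨k, hk⟩ := norm_eq_zpow_of_tame p hndvd hdn hdt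
  rw [hk, ← zpow_natCast, ← zpow_mul] at hdn
  have h5 := zpow_right_injective₀ hp0 hpp.ne' hdn
  have h6 : k * ((p : ℤ) - 1) = -((m : ℤ) - 1) := by
    have h7 : ((p ^ 2 - 1 : ℕ) : ℤ) = ((p : ℤ) - 1) * ((p : ℤ) + 1) := by
      rw [hpn]
      push_cast [Nat.cast_sub (by omega : 1 ≤ p)]
      ring
    simp only [h7] at h5
    have h8 : ((p : ℤ) + 1) ≠ 0 := by positivity
    apply mul_right_cancel₀ h8
    linear_combination h5
  have h9 : m = 1 := by
    have hm1 : (m : ℤ) - 1 < (p : ℤ) - 1 := by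
      omega
    have hm2 : 0 ≤ (m : ℤ) - 1 := by omega
    have hk1 : k ≤ 0 := by
      by_contra hk
      push Not at hk
      have : 0 < k * ((p : ℤ) - 1) := mul_pos hk (by omega)
      omega
    have hk2 : -1 < k := by
      by_contra hk
      push Not at hk
      have : k * ((p : ℤ) - 1) ≤ -1 * ((p : ℤ) - 1) :=
        mul_le_mul_of_nonneg_right hk (by omega)
      omega
    have hk3 : k = 0 := by omega
    rw [hk3, zero_mul] at h6
    omega
  rw [hm, h9, pow_one]

end SS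

end Fermat.Agent.Flat
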